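import Mathlib

/-!
# Best approximation in valued function fields (the `approx` field of `Red.RedSetup`)

* `AttainsMax A x` : the coefficient family `x : ι → K` attains the maximum of the valuations of
  its coefficients at a nonzero coefficient ("`x` has a content").
* `exists_pivot_basis` : a finite-dimensional space of coefficient families, all of whose nonzero
  members attain their maximum, has an integral basis with exact pivots (full-pivoting Gaussian
  elimination; a reduced basis).
* `approx_of_coeff` : the best-approximation property for a field `E` that is the fraction field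
  of a `K`-subalgebra `R` carrying a coefficient map with contents.
-/

set_option autoImplicit false

namespace Fermat.Agent.Val

variable {K : Type*} [Field K] (A : ValuationSubring K)

/-- The coefficient family `x` attains the maximum of its valuations at a nonzero coefficient. -/
def AttainsMax {ι : Type*} (x : ι → K) : Prop :=
  ∃ i₀, x i₀ ≠ 0 ∧ ∀ i, A.valuation (x i) ≤ A.valuation (x i₀)

variable {A}

theorem AttainsMax.ne_zero {ι : Type*} {x : ι → K} (h : AttainsMax A x) : x ≠ 0 := by
  obtain ⟨i₀, hi₀, -⟩ := h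
  intro h0
  exact hi₀ (by rw [h0]; rfl)

/-- Normalising at the place of the maximum gives an integral family. -/
theorem inv_mul_mem_of_valuation_le {a b : K} (hb : b ≠ 0) (h : A.valuation a ≤ A.valuation b) :
    b⁻¹ * a ∈ A := by
  rw [← A.valuation_le_one_iff, map_mul, map_inv₀]
  have hvb : A.valuation b ≠ 0 := (Valuation.ne_zero_iff _).2 hb
  calc (A.valuation b)⁻¹ * A.valuation a ≤ (A.valuation b)⁻¹ * A.valuation b := by
        gcongr
    _ = 1 := inv_mul_cancel₀ hvb

variable (A)

/-- **Pivot basis.** A finite-dimensional space `V` of coefficient families all of whose nonzero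
members attain their maximum has a basis `z` consisting of integral families with exact pivots
`m`: `z j (m j) = 1`, `z j (m j') = 0` for `j ≠ j'`, and the coordinates of `x ∈ V` in this basis
are the pivot coefficients `x (m j)`. -/
theorem exists_pivot_basis {ι : Type*} (d : ℕ) :
    ∀ (V : Submodule K (ι → K)) [FiniteDimensional K V], Module.finrank K V ≤ d →
      (∀ x ∈ V, x ≠ 0 → AttainsMax A x) →
      ∃ (τ : Type) (_ : Fintype τ) (z : τ → ι → K) (m : τ → ι),
        (∀ j, z j ∈ V) ∧ (∀ j i, z j i ∈ A) ∧ (∀ j, z j (m j) = 1) ∧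
        (∀ j j', j ≠ j' → z j (m j') = 0) ∧ (∀ x ∈ V, x = ∑ j, x (m j) • z j) := by
  induction d with
  | zero =>
    intro V _ hd _
    have hV : V = ⊥ := Submodule.finrank_eq_zero.1 (Nat.le_zero.1 hd)
    refine ⟨Empty, inferInstance, fun j => j.elim, fun j => j.elim, fun j => j.elim,
      fun j => j.elim, fun j => j.elim, fun j => j.elim, fun x hx => ?_⟩
    rw [hV, Submodule.mem_bot] at hx
    simp [hx]
  | succ d ih =>
    intro V _ hd hmax
    by_cases hV : V = ⊥
    · refine ⟨Empty, inferInstance, fun j => j.elim, fun j => j.elim, fun j => j.elim,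
        fun j => j.elim, fun j => j.elim, fun j => j.elim, fun x hx => ?_⟩
      rw [hV, Submodule.mem_bot] at hx
      simp [hx]
    obtain ⟨x₀, hx₀V, hx₀⟩ := Submodule.exists_mem_ne_zero_of_ne_bot hV
    obtain ⟨i₀, hi₀, hle⟩ := hmax x₀ hx₀V hx₀
    -- the normalised first vector
    set z₀ : ι → K := (x₀ i₀)⁻¹ • x₀ with hz₀
    have hz₀V : z₀ ∈ V := V.smul_mem _ hx₀V
    have hz₀i₀ : z₀ i₀ = 1 := by simp [hz₀, inv_mul_cancel₀ hi₀]
    have hz₀A : ∀ i, z₀ i ∈ A := fun i => by
      simpa [hz₀] using inv_mul_mem_of_valuation_le hi₀ (hle i)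
    -- the hyperplane `x i₀ = 0` in `V`
    set V' : Submodule K (ι → K) := V ⊓ LinearMap.ker (LinearMap.proj i₀ : (ι → K) →ₗ[K] K)
      with hV'
    have hV'le : V' ≤ V := inf_le_left
    have hmemV' : ∀ x, x ∈ V' ↔ x ∈ V ∧ x i₀ = 0 := fun x => by
      simp [hV', Submodule.mem_inf, LinearMap.mem_ker]
    have : FiniteDimensional K V' := Submodule.finiteDimensional_of_le hV'le
    have hlt : V' < V := by
      refine lt_of_le_of_ne hV'le (fun h => ?_)
      have : z₀ ∈ V' := h ▸ hz₀V
      rw [hmemV', hz₀i₀] at this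
      exact one_ne_zero this.2
    have hd' : Module.finrank K V' ≤ d := by
      have := Submodule.finrank_lt_finrank_of_lt hlt
      omega
    obtain ⟨τ, _, z, m, hzV, hzA, hz1, hz0, hexp⟩ :=
      ih V' hd' (fun x hx => hmax x (hV'le hx))
    have hzi₀ : ∀ j, z j i₀ = 0 := fun j => ((hmemV' _).1 (hzV j)).2
    -- the corrected first vector
    set z₀' : ι → K := z₀ - ∑ j, z₀ (m j) • z j with hz₀'
    have hz₀'V : z₀' ∈ V :=
      V.sub_mem hz₀V (V.sum_mem fun j _ => V.smul_mem _ (hV'le (hzV j)))
    have hz₀'A : ∀ i, z₀' i ∈ A := fun i => by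
      have : z₀' i = z₀ i - ∑ j, z₀ (m j) * z j i := by
        simp [hz₀', Finset.sum_apply]
      rw [this]
      exact sub_mem (hz₀A i) (sum_mem fun j _ => mul_mem (hz₀A _) (hzA j i))
    have hz₀'i₀ : z₀' i₀ = 1 := by
      have : z₀' i₀ = z₀ i₀ - ∑ j, z₀ (m j) * z j i₀ := by
        simp [hz₀', Finset.sum_apply]
      rw [this, hz₀i₀]
      simp [hzi₀]
    have hz₀'m : ∀ j', z₀' (m j') = 0 := fun j' => by
      classical
      have : z₀' (m j') = z₀ (m j') - ∑ j, z₀ (m j) * z j (m j') := by
        simp [hz₀', Finset.sum_apply]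
      rw [this, Finset.sum_eq_single j']
      · rw [hz1 j', mul_one, sub_self]
      · intro j _ hj
        rw [hz0 j j' hj, mul_zero]
      · intro h
        exact absurd (Finset.mem_univ j') h
    refine ⟨Option τ, inferInstance, fun o => o.elim z₀' z, fun o => o.elim i₀ m, ?_, ?_, ?_, ?_, ?_⟩
    · rintro (_ | j)
      · exact hz₀'V
      · exact hV'le (hzV j)
    · rintro (_ | j) i
      · exact hz₀'A i
      · exact hzA j i
    · rintro (_ | j)
      · exact hz₀'i₀
      · exact hz1 j
    · rintro (_ | j) (_ | j') hjj'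
      · exact absurd rfl hjj'
      · exact hz₀'m j'
      · exact hzi₀ j
      · exact hz0 j j' (fun h => hjj' (by rw [h]))
    · intro x hx
      have hx' : x - x i₀ • z₀' ∈ V' := by
        rw [hmemV']
        refine ⟨V.sub_mem hx (V.smul_mem _ hz₀'V), ?_⟩
        simp [hz₀'i₀]
      have h1 := hexp _ hx'
      have h2 : ∀ j, (x - x i₀ • z₀') (m j) = x (m j) := fun j => by
        simp [hz₀'m j]
      simp only [h2] at h1
      rw [Fintype.sum_option]
      simp only [Option.elim]
      rw [← h1]
      abel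

/-- A finite-dimensional space of integral pivot combinations: if all pivot coefficients of
`x = ∑ t j • z j` lie in the maximal ideal and the `z j` are integral, all coefficients of `x`
lie in the maximal ideal. -/
theorem valuation_sum_smul_lt_one {ι τ : Type*} [Fintype τ] (z : τ → ι → K)
    (hzA : ∀ j i, z j i ∈ A) (t : τ → K) (ht : ∀ j, A.valuation (t j) < 1) (i : ι) :
    A.valuation ((∑ j, t j • z j) i) < 1 := by
  have : (∑ j, t j • z j) i = ∑ j, t j * z j i := by
    simp [Finset.sum_apply]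
  rw [this]
  refine Valuation.map_sum_lt _ one_ne_zero fun j _ => ?_
  rw [map_mul]
  calc A.valuation (t j) * A.valuation (z j i) ≤ A.valuation (t j) * 1 := by
        gcongr
        exact (A.valuation_le_one_iff _).2 (hzA j i)
    _ < 1 := by rw [mul_one]; exact ht j

section Denominators

variable {E : Type*} [Field E] [Algebra K E]

/-- Clearing denominators: a finitely generated `K`-subspace of `E = Frac R` can be multiplied
into `R` by a single nonzero element of `R`. -/
theorem exists_common_denominator_of_frac (R : Subalgebra K E)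
    (hfrac : ∀ y : E, ∃ a b : R, b ≠ 0 ∧ y * b = a) (V : Submodule K E) (hV : V.FG) :
    ∃ b : R, b ≠ 0 ∧ ∀ x ∈ V, x * (b : E) ∈ R := by
  classical
  obtain ⟨S, rfl⟩ := hV
  choose a b hb hab using hfrac
  refine ⟨∏ s ∈ S, b s, Finset.prod_ne_zero_iff.2 fun s _ => hb s, fun x hx => ?_⟩
  have hB : ((∏ s ∈ S, b s : R) : E) = ∏ s ∈ S, (b s : E) := by
    simp
  rw [hB]
  induction hx using Submodule.span_induction with
  | mem s hs =>
    have hs' : s ∈ S := by simpa using hs
    rw [← Finset.mul_prod_erase S (fun s => (b s : E)) hs', ← mul_assoc, hab s]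
    exact R.mul_mem (a s).2 (R.prod_mem fun t _ => (b t).2)
  | zero => rw [zero_mul]; exact R.zero_mem
  | add x y _ _ hx hy => rw [add_mul]; exact R.add_mem hx hy
  | smul c x _ hx => rw [smul_mul_assoc]; exact R.smul_mem hx c

end Denominators

/-- **Best approximation.** Let `E` be a field over `K`, `O` a valuation subring of `E` with
residue map `res`, and `R` a `K`-subalgebra of `E` with fraction field `E` carrying a
`K`-linear coefficient map `co` such that every nonzero element of `R` attains the maximum of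
its coefficient valuations, integral coefficient families lie in `O`, and the kernel of `res` on
`R ∩ O` consists of the families with all coefficients in the maximal ideal. Then every
finite-dimensional `K`-subspace `V` of `E` has best approximations: this is verbatim the field
`approx` of `Fermat.Agent.Red.RedSetup`. -/
theorem approx_of_coeff {E Ft ι : Type*} [Field E] [Algebra K E] [CommRing Ft]
    (O : ValuationSubring E) (res : O →+* Ft) (hres : ∀ x : O, res x ≠ 0 → IsUnit x)
    (R : Subalgebra K E) (co : R →ₗ[K] (ι → K))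
    (hmax : ∀ x : R, x ≠ 0 → AttainsMax A (co x))
    (hO : ∀ x : R, (∀ i, co x i ∈ A) → (x : E) ∈ O)
    (hres0 : ∀ (x : R) (hx : (x : E) ∈ O),
      res ⟨x, hx⟩ = 0 ↔ ∀ i, A.valuation (co x i) < 1)
    (hfrac : ∀ y : E, ∃ a b : R, b ≠ 0 ∧ y * b = a)
    (V : Submodule K E) (hV : Module.Finite K V) (y : E) (hy : y ∉ V) :
    ∃ w ∈ V, ∃ c : K, c ≠ 0 ∧ ∃ h : c • (y - w) ∈ O,
      ∀ z : O, (z : E) ∈ V → res z ≠ res ⟨c • (y - w), h⟩ := by
  classical
  -- a common denominator for `V` and `y`
  have hW₁ : (V ⊔ Submodule.span K {y}).FG :=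
    Submodule.FG.sup (Module.Finite.iff_fg.1 hV) (Submodule.fg_span_singleton y)
  obtain ⟨b, hb0, hbW⟩ := exists_common_denominator_of_frac R hfrac _ hW₁
  have hbE : (b : E) ≠ 0 := fun h => hb0 (Subtype.ext h)
  have hbV : ∀ x ∈ V, x * (b : E) ∈ R := fun x hx => hbW x (Submodule.mem_sup_left hx)
  have hby : y * (b : E) ∈ R :=
    hbW y (Submodule.mem_sup_right (Submodule.mem_span_singleton_self y))
  -- multiplication by `b`, as a linear map `V → R`, and its coefficient families
  let ψ : V →ₗ[K] R :=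
    { toFun := fun x => ⟨x.1 * (b : E), hbV x.1 x.2⟩
      map_add' := fun x x' => Subtype.ext (by simp [add_mul])
      map_smul' := fun c x => Subtype.ext (by simp) }
  let φ : V →ₗ[K] (ι → K) := co ∘ₗ ψ
  have hφ : ∀ x : V, φ x = co ⟨x.1 * (b : E), hbV x.1 x.2⟩ := fun x => rfl
  set V'' : Submodule K (ι → K) := LinearMap.range φ with hV''
  have : FiniteDimensional K V := hV
  have hV''max : ∀ x ∈ V'', x ≠ 0 → AttainsMax A x := by
    rintro _ ⟨x, rfl⟩ hx
    refine hmax (ψ x) (fun h => hx ?_)
    show co (ψ x) = 0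
    rw [h, map_zero]
  obtain ⟨τ, _, z, m, hzV, hzA, hz1, hz0, hexp⟩ :=
    exists_pivot_basis A (Module.finrank K V'') V'' le_rfl hV''max
  choose xz hxz using hzV
  -- the approximation
  set Y : ι → K := co ⟨y * (b : E), hby⟩ with hY
  set w : E := ∑ j, Y (m j) • (xz j : E) with hw
  have hwV : w ∈ V := V.sum_mem fun j _ => V.smul_mem _ (xz j).2
  have hyw : y - w ≠ 0 := fun h => hy (by rw [sub_eq_zero.1 h]; exact hwV)
  have hywb : (y - w) * (b : E) ∈ R := by
    rw [sub_mul]; exact R.sub_mem hby (hbV w hwV)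
  set U : ι → K := co ⟨(y - w) * (b : E), hywb⟩ with hU
  have hUeq : U = Y - ∑ j, Y (m j) • z j := by
    have h1 : (⟨(y - w) * (b : E), hywb⟩ : R) =
        ⟨y * (b : E), hby⟩ - ∑ j, Y (m j) • ψ (xz j) := by
      apply Subtype.ext
      simp only [hw, sub_mul, Finset.sum_mul, smul_mul_assoc]
      rw [AddSubgroupClass.coe_sub]
      congr 1
      rw [AddSubmonoidClass.coe_finsetSum]
      rfl
    rw [hU, h1, map_sub, map_sum]
    simp only [map_smul]
    congr 2
    funext j
    rw [← hxz j]
    rfl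
  have hUm : ∀ j, U (m j) = 0 := fun j' => by
    rw [hUeq]
    have : (Y - ∑ j, Y (m j) • z j) (m j') = Y (m j') - ∑ j, Y (m j) * z j (m j') := by
      simp [Finset.sum_apply]
    rw [this, Finset.sum_eq_single j']
    · rw [hz1 j', mul_one, sub_self]
    · intro j _ hj
      rw [hz0 j j' hj, mul_zero]
    · intro h
      exact absurd (Finset.mem_univ j') h
  have hru0 : (⟨(y - w) * (b : E), hywb⟩ : R) ≠ 0 := fun h =>
    (mul_ne_zero hyw hbE) (congrArg Subtype.val h)
  obtain ⟨i₀, hc', hUle⟩ := hmax _ hru0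
  obtain ⟨ib, hcb, hble⟩ := hmax b hb0
  rw [← hU] at hc' hUle
  set c' : K := U i₀ with hc'def
  set cb : K := co b ib with hcbdef
  -- the normalised numerator `u` and denominator `b₁`
  set u : R := c'⁻¹ • ⟨(y - w) * (b : E), hywb⟩ with hu
  set b₁ : R := cb⁻¹ • b with hb₁
  have hcou : co u = c'⁻¹ • U := by rw [hu, map_smul]
  have hcob₁ : co b₁ = cb⁻¹ • co b := by rw [hb₁, map_smul]
  have huA : ∀ i, co u i ∈ A := fun i => by
    rw [hcou]; exact inv_mul_mem_of_valuation_le hc' (hUle i)
  have hb₁A : ∀ i, co b₁ i ∈ A := fun i => by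
    rw [hcob₁]; exact inv_mul_mem_of_valuation_le hcb (hble i)
  have hui₀ : co u i₀ = 1 := by
    rw [hcou]; simp [← hc'def, inv_mul_cancel₀ hc']
  have hb₁ib : co b₁ ib = 1 := by
    rw [hcob₁]; simp [← hcbdef, inv_mul_cancel₀ hcb]
  have hum : ∀ j, co u (m j) = 0 := fun j => by
    rw [hcou]; simp [hUm j]
  have huO : (u : E) ∈ O := hO u huA
  have hb₁O : (b₁ : E) ∈ O := hO b₁ hb₁A
  have hresb₁ : res ⟨b₁, hb₁O⟩ ≠ 0 := fun h => by
    have := (hres0 b₁ hb₁O).1 h ib
    rw [hb₁ib, map_one] at this
    exact lt_irrefl _ this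
  obtain ⟨β, hβ⟩ := (hres _ hresb₁).exists_right_inv
  have hβE : (b₁ : E) * (β : E) = 1 := congrArg Subtype.val hβ
  -- the constant
  refine ⟨w, hwV, cb * c'⁻¹, mul_ne_zero hcb (inv_ne_zero hc'), ?_⟩
  have hkey : (cb * c'⁻¹) • (y - w) * (b₁ : E) = (u : E) := by
    rw [hu, hb₁]
    simp only [Subalgebra.coe_smul, smul_mul_smul_comm]
    congr 1
    field_simp
  have hmemO : (cb * c'⁻¹) • (y - w) ∈ O := by
    have : (cb * c'⁻¹) • (y - w) = (u : E) * (β : E) := by
      rw [← hkey, mul_assoc, hβE, mul_one]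
    rw [this]
    exact O.mul_mem _ _ huO β.2
  refine ⟨hmemO, fun zz hzzV hreszz => ?_⟩
  -- `g = zz * b₁ ∈ R ∩ O`
  have hgR : (zz : E) * (b₁ : E) ∈ R := by
    have : (zz : E) * (b₁ : E) = cb⁻¹ • ((zz : E) * (b : E)) := by
      rw [hb₁, Subalgebra.coe_smul, mul_smul_comm]
    rw [this]
    exact R.smul_mem (hbV _ hzzV) _
  set g : R := ⟨(zz : E) * (b₁ : E), hgR⟩ with hg
  have hgO : (g : E) ∈ O := O.mul_mem _ _ zz.2 hb₁O
  have hcog : co g = cb⁻¹ • φ ⟨zz, hzzV⟩ := by
    have : g = cb⁻¹ • ψ ⟨zz, hzzV⟩ := by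
      apply Subtype.ext
      show (zz : E) * (b₁ : E) = cb⁻¹ • ((zz : E) * (b : E))
      rw [hb₁, Subalgebra.coe_smul, mul_smul_comm]
    rw [this, map_smul]
    rfl
  have hcogV : co g ∈ V'' := by
    rw [hcog]; exact V''.smul_mem _ ⟨_, rfl⟩
  -- `res (u - g) = 0`
  have hugO : ((u - g : R) : E) ∈ O := by
    rw [AddSubgroupClass.coe_sub]; exact sub_mem huO hgO
  have hres_ug : res ⟨((u - g : R) : E), hugO⟩ = 0 := by
    have h1 : (⟨((u - g : R) : E), hugO⟩ : O) = ⟨u, huO⟩ - ⟨g, hgO⟩ := Subtype.ext (by simp)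
    have h2 : (⟨g, hgO⟩ : O) = zz * ⟨b₁, hb₁O⟩ := Subtype.ext rfl
    have h3 : (⟨u, huO⟩ : O) = ⟨(cb * c'⁻¹) • (y - w), hmemO⟩ * ⟨b₁, hb₁O⟩ :=
      Subtype.ext hkey.symm
    rw [h1, map_sub, h2, h3, map_mul, map_mul, hreszz, sub_self]
  have hlt := (hres0 _ hugO).1 hres_ug
  have hlt' : ∀ i, A.valuation (co u i - co g i) < 1 := fun i => by
    have := hlt i
    rwa [map_sub] at this
  -- pivot coefficients of `co g` lie in the maximal ideal, hence all of them
  have hgm : ∀ j, A.valuation (co g (m j)) < 1 := fun j => by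
    have := hlt' (m j)
    rwa [hum j, zero_sub, Valuation.map_neg] at this
  have hgall : ∀ i, A.valuation (co g i) < 1 := fun i => by
    have := valuation_sum_smul_lt_one A z hzA (fun j => co g (m j)) hgm i
    rwa [← hexp _ hcogV] at this
  have h1lt : A.valuation (co u i₀) < 1 := by
    have : co u i₀ = (co u i₀ - co g i₀) + co g i₀ := by ring
    rw [this]
    exact Valuation.map_add_lt _ (hlt' i₀) (hgall i₀)
  rw [hui₀, map_one] at h1lt
  exact lt_irrefl _ h1lt

end Fermat.Agent.Val
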