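import Mathlib
import Fermat.Prelude.Def_ModularCurve_LaurentCoeff

/-!
# L-VAL V0: the Gauss ring of `L((q))` over an arbitrary valuation subring `A` of `L`

`Λ = A((q))`, `aIota : Λ → L((q))`, `aRed : Λ → k((q))` (coefficientwise `π : A →+* k`).
`gaussRingA A π = {x ∈ L((q)) | ∃ a b ∈ Λ, aRed b ≠ 0, x · aIota b = aIota a}` with the residue map
`gaussResA : gaussRingA → k((q))`, `x ↦ aRed a / aRed b`.

`HasContent A π x c` : `x = c · u` with `u` a unit of the Gauss ring with nonzero residue (`c ∈ Lˣ`).
If `π` kills the maximal ideal of `A`, the content is unique up to units of `A`, and on a subfield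
`E` of `L((q))` all of whose nonzero elements have content, `gaussRingA ∩ E` is a valuation subring
(`gaussValSubring`) with a residue map into `k((q))` (`gaussResSub`) whose kernel is the maximal
ideal.  Existence of content: quotients of series with coefficients in (the image of) a discrete
valuation ring `O → A` (`exists_hasContent_of_mem_fracFieldOver`).
-/

set_option autoImplicit false
open ModularCurve

noncomputable section
namespace Fermat.Agent.Val

variable {L : Type*} [Field L] (A : ValuationSubring L) {k : Type*} [Field k] (π : A →+* k)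

/-- `A((q)) → L((q))`. -/
def aIota : LaurentSeries A →+* LaurentSeries L :=
  coeffMap A.subtype

variable {A} in
/-- `A((q)) → k((q))`, coefficientwise `π`. -/
def aRed : LaurentSeries A →+* LaurentSeries k :=
  coeffMap π

@[simp] theorem aIota_coeff (a : LaurentSeries A) (n : ℤ) :
    (aIota A a).coeff n = ((a.coeff n : A) : L) := rfl

variable {A} in
@[simp] theorem aRed_coeff (a : LaurentSeries A) (n : ℤ) :
    (aRed π a).coeff n = π (a.coeff n) := rfl

theorem aIota_injective : Function.Injective (aIota A) := by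
  intro a b h
  apply HahnSeries.ext
  funext n
  have := congrArg (fun x => x.coeff n) h
  exact Subtype.ext this

theorem aIota_C (a : A) : aIota A (HahnSeries.C a) = HahnSeries.C ((a : A) : L) := by
  rw [aIota, HahnSeries.C_apply, coeffMap_single, HahnSeries.C_apply]
  rfl

variable {A} in
theorem aRed_C (a : A) : aRed π (HahnSeries.C a) = HahnSeries.C (π a) := by
  rw [aRed, HahnSeries.C_apply, coeffMap_single, HahnSeries.C_apply]

/-- A coefficientwise construction with controlled support. -/
def hahnOfFunA {R S : Type*} [Zero R] [Zero S] (a : HahnSeries ℤ R) (g : ℤ → S)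
    (hg : ∀ n, a.coeff n = 0 → g n = 0) : HahnSeries ℤ S where
  coeff := g
  isPWO_support' := a.isPWO_support.mono fun n hn => by
    simp only [Function.mem_support, ne_eq] at hn ⊢
    exact fun h => hn (hg n h)

@[simp] theorem hahnOfFunA_coeff {R S : Type*} [Zero R] [Zero S] (a : HahnSeries ℤ R) (g : ℤ → S)
    (hg : ∀ n, a.coeff n = 0 → g n = 0) (n : ℤ) : (hahnOfFunA a g hg).coeff n = g n := rfl

/-- A series all of whose coefficients lie in `A` comes from `A((q))`. -/
theorem exists_aIota_eq_of_coeff_mem {s : LaurentSeries L} (hs : ∀ n, s.coeff n ∈ A) :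
    ∃ a : LaurentSeries A, aIota A a = s := by
  refine ⟨hahnOfFunA s (fun n => ⟨s.coeff n, hs n⟩) fun n hn => Subtype.ext hn, ?_⟩
  apply HahnSeries.ext
  funext n
  rfl

/-! ### The Gauss ring and its residue map -/

/-- `x ∈ L((q))` is *Gauss integral* if `x = ι a / ι b` with `b` nonzero mod `π`. -/
def IsGaussIntegralA (x : LaurentSeries L) : Prop :=
  ∃ a b : LaurentSeries A, aRed π b ≠ 0 ∧ x * aIota A b = aIota A a

theorem aIota_ne_zero_of_aRed_ne_zero {b : LaurentSeries A} (hb : aRed π b ≠ 0) :
    aIota A b ≠ 0 := by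
  intro h
  apply hb
  have : b = 0 := aIota_injective A (by rw [h, map_zero])
  rw [this, map_zero]

/-- The Gauss ring inside `L((q))`. -/
def gaussRingA : Subring (LaurentSeries L) where
  carrier := {x | IsGaussIntegralA A π x}
  mul_mem' := by
    rintro x y ⟨a, b, hb, hab⟩ ⟨a', b', hb', hab'⟩
    refine ⟨a * a', b * b', ?_, ?_⟩
    · rw [map_mul]; exact mul_ne_zero hb hb'
    · rw [map_mul, map_mul, ← hab, ← hab']; ring
  one_mem' := ⟨1, 1, by rw [map_one]; exact one_ne_zero, by simp⟩
  add_mem' := by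
    rintro x y ⟨a, b, hb, hab⟩ ⟨a', b', hb', hab'⟩
    refine ⟨a * b' + a' * b, b * b', ?_, ?_⟩
    · rw [map_mul]; exact mul_ne_zero hb hb'
    · rw [map_add, map_mul, map_mul, map_mul, ← hab, ← hab']; ring
  zero_mem' := ⟨0, 1, by rw [map_one]; exact one_ne_zero, by simp⟩
  neg_mem' := by
    rintro x ⟨a, b, hb, hab⟩
    exact ⟨-a, b, hb, by rw [map_neg, ← hab]; ring⟩

theorem mem_gaussRingA_iff {x : LaurentSeries L} :
    x ∈ gaussRingA A π ↔ ∃ a b : LaurentSeries A,
      aRed π b ≠ 0 ∧ x * aIota A b = aIota A a := Iff.rfl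

theorem aIota_mem_gaussRingA (a : LaurentSeries A) : aIota A a ∈ gaussRingA A π :=
  ⟨a, 1, by rw [map_one]; exact one_ne_zero, by simp⟩

/-- the residue of a Gauss-integral element (auxiliary function) -/
def gaussResAFun (x : gaussRingA A π) : LaurentSeries k :=
  aRed π (Classical.choose x.2) / aRed π (Classical.choose (Classical.choose_spec x.2))

theorem gaussResAFun_eq (x : gaussRingA A π) {a b : LaurentSeries A} (hb : aRed π b ≠ 0)
    (hab : (x : LaurentSeries L) * aIota A b = aIota A a) :
    gaussResAFun A π x = aRed π a / aRed π b := by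
  obtain ⟨hb₀, hab₀⟩ := Classical.choose_spec (Classical.choose_spec x.2)
  set a₀ := Classical.choose x.2
  set b₀ := Classical.choose (Classical.choose_spec x.2)
  show aRed π a₀ / aRed π b₀ = _
  rw [div_eq_div_iff hb₀ hb]
  have h : a₀ * b = a * b₀ := by
    apply aIota_injective A
    rw [map_mul, map_mul, ← hab₀, ← hab]; ring
  rw [← map_mul, ← map_mul, h]

/-- **The residue map** of the Gauss ring. -/
def gaussResA : gaussRingA A π →+* LaurentSeries k where
  toFun := gaussResAFun A π
  map_one' := by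
    rw [gaussResAFun_eq A π 1 (a := 1) (b := 1) (by rw [map_one]; exact one_ne_zero) (by simp)]
    simp
  map_zero' := by
    rw [gaussResAFun_eq A π 0 (a := 0) (b := 1) (by rw [map_one]; exact one_ne_zero) (by simp)]
    simp
  map_mul' := by
    intro x y
    obtain ⟨a, b, hb, hab⟩ := (mem_gaussRingA_iff A π).mp x.2
    obtain ⟨a', b', hb', hab'⟩ := (mem_gaussRingA_iff A π).mp y.2
    rw [gaussResAFun_eq A π x hb hab, gaussResAFun_eq A π y hb' hab',
      gaussResAFun_eq A π (x * y) (a := a * a') (b := b * b')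
        (by rw [map_mul]; exact mul_ne_zero hb hb')
        (by rw [Subring.coe_mul, map_mul, map_mul, ← hab, ← hab']; ring),
      map_mul, map_mul, div_mul_div_comm]
  map_add' := by
    intro x y
    obtain ⟨a, b, hb, hab⟩ := (mem_gaussRingA_iff A π).mp x.2
    obtain ⟨a', b', hb', hab'⟩ := (mem_gaussRingA_iff A π).mp y.2
    rw [gaussResAFun_eq A π x hb hab, gaussResAFun_eq A π y hb' hab',
      gaussResAFun_eq A π (x + y) (a := a * b' + a' * b) (b := b * b')
        (by rw [map_mul]; exact mul_ne_zero hb hb')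
        (by rw [Subring.coe_add, map_add, map_mul, map_mul, map_mul, ← hab, ← hab']; ring),
      map_add, map_mul, map_mul, map_mul, div_add_div _ _ hb hb',
      mul_comm (aRed π a') (aRed π b)]

theorem gaussResA_eq (x : gaussRingA A π) {a b : LaurentSeries A} (hb : aRed π b ≠ 0)
    (hab : (x : LaurentSeries L) * aIota A b = aIota A a) :
    gaussResA A π x = aRed π a / aRed π b :=
  gaussResAFun_eq A π x hb hab

theorem gaussResA_aIota (a : LaurentSeries A) :
    gaussResA A π ⟨aIota A a, aIota_mem_gaussRingA A π a⟩ = aRed π a := by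
  rw [gaussResA_eq A π _ (a := a) (b := 1) (by rw [map_one]; exact one_ne_zero) (by simp)]
  simp

/-- The kernel of the residue map: numerators which vanish mod `π`. -/
theorem gaussResA_eq_zero_iff (x : gaussRingA A π) :
    gaussResA A π x = 0 ↔ ∃ a b : LaurentSeries A, aRed π b ≠ 0 ∧ aRed π a = 0 ∧
      (x : LaurentSeries L) * aIota A b = aIota A a := by
  constructor
  · intro h
    obtain ⟨a, b, hb, hab⟩ := (mem_gaussRingA_iff A π).mp x.2
    rw [gaussResA_eq A π x hb hab, div_eq_zero_iff] at h
    exact ⟨a, b, hb, h.resolve_right hb, hab⟩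
  · rintro ⟨a, b, hb, ha, hab⟩
    rw [gaussResA_eq A π x hb hab, ha, zero_div]

/-- Elements with nonzero residue are units of the Gauss ring. -/
theorem inv_mem_gaussRingA_of_gaussResA_ne_zero (x : gaussRingA A π)
    (hx : gaussResA A π x ≠ 0) : (x : LaurentSeries L)⁻¹ ∈ gaussRingA A π := by
  obtain ⟨a, b, hb, hab⟩ := (mem_gaussRingA_iff A π).mp x.2
  rw [gaussResA_eq A π x hb hab] at hx
  have ha : aRed π a ≠ 0 := fun h => hx (by rw [h, zero_div])
  have hb0 := aIota_ne_zero_of_aRed_ne_zero A π hb
  have ha0 := aIota_ne_zero_of_aRed_ne_zero A π ha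
  have hx0 : (x : LaurentSeries L) ≠ 0 := by
    intro h
    rw [h, zero_mul] at hab
    exact ha0 hab.symm
  refine ⟨b, a, ha, ?_⟩
  rw [← hab]
  field_simp

theorem gaussResA_inv (x : gaussRingA A π) (hx : gaussResA A π x ≠ 0) :
    gaussResA A π ⟨(x : LaurentSeries L)⁻¹, inv_mem_gaussRingA_of_gaussResA_ne_zero A π x hx⟩ =
      (gaussResA A π x)⁻¹ := by
  have hx0 : (x : LaurentSeries L) ≠ 0 := by
    intro h
    apply hx
    have : x = 0 := Subtype.ext h
    rw [this, map_zero]
  have h1 : x * ⟨(x : LaurentSeries L)⁻¹,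
      inv_mem_gaussRingA_of_gaussResA_ne_zero A π x hx⟩ = 1 :=
    Subtype.ext (by rw [Subring.coe_mul, Subring.coe_one]; exact mul_inv_cancel₀ hx0)
  have h2 := congrArg (gaussResA A π) h1
  rw [map_mul, map_one] at h2
  exact eq_inv_of_mul_eq_one_right h2

/-- Constants from `A` are Gauss integral and reduce to their residue. -/
theorem gaussResA_C (r : A) :
    ∃ h : HahnSeries.C ((r : A) : L) ∈ gaussRingA A π,
      gaussResA A π ⟨HahnSeries.C ((r : A) : L), h⟩ = HahnSeries.C (π r) := by
  have h1 : (HahnSeries.C ((r : A) : L) : LaurentSeries L) = aIota A (HahnSeries.C r) :=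
    (aIota_C A r).symm
  refine ⟨h1 ▸ aIota_mem_gaussRingA A π _, ?_⟩
  have h2 : (⟨HahnSeries.C ((r : A) : L), h1 ▸ aIota_mem_gaussRingA A π _⟩ : gaussRingA A π) =
      ⟨aIota A (HahnSeries.C r), aIota_mem_gaussRingA A π _⟩ := Subtype.ext h1
  rw [h2, gaussResA_aIota, aRed_C]

/-! ### Content -/

/-- `x = c · u` with `c ∈ Lˣ` and `u` a quotient of two series over `A` with nonzero reductions
(a unit of the Gauss ring with nonzero residue). -/
def HasContent (x : LaurentSeries L) (c : L) : Prop :=
  c ≠ 0 ∧ ∃ a b : LaurentSeries A, aRed π a ≠ 0 ∧ aRed π b ≠ 0 ∧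
    x * aIota A b = HahnSeries.C c * aIota A a

theorem C_ne_zero_of_ne_zero {c : L} (hc : c ≠ 0) : (HahnSeries.C c : LaurentSeries L) ≠ 0 := by
  intro h
  rw [HahnSeries.C_apply, HahnSeries.single_eq_zero_iff] at h
  exact hc h

variable {A π} in
theorem HasContent.ne_zero {x : LaurentSeries L} {c : L} (h : HasContent A π x c) : x ≠ 0 := by
  obtain ⟨hc, a, b, ha, hb, hab⟩ := h
  rintro rfl
  rw [zero_mul] at hab
  exact mul_ne_zero (C_ne_zero_of_ne_zero hc) (aIota_ne_zero_of_aRed_ne_zero A π ha) hab.symm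

variable {A π} in
theorem HasContent.content_ne_zero {x : LaurentSeries L} {c : L} (h : HasContent A π x c) :
    c ≠ 0 := h.1

theorem hasContent_C {c : L} (hc : c ≠ 0) : HasContent A π (HahnSeries.C c) c :=
  ⟨hc, 1, 1, by rw [map_one]; exact one_ne_zero, by rw [map_one]; exact one_ne_zero, by simp⟩

theorem hasContent_aIota {a : LaurentSeries A} (ha : aRed π a ≠ 0) :
    HasContent A π (aIota A a) 1 :=
  ⟨one_ne_zero, a, 1, ha, by rw [map_one]; exact one_ne_zero, by simp⟩

variable {A π} in
theorem HasContent.mul {x y : LaurentSeries L} {c d : L} (h : HasContent A π x c)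
    (h' : HasContent A π y d) : HasContent A π (x * y) (c * d) := by
  obtain ⟨hc, a, b, ha, hb, hab⟩ := h
  obtain ⟨hd, a', b', ha', hb', hab'⟩ := h'
  refine ⟨mul_ne_zero hc hd, a * a', b * b', ?_, ?_, ?_⟩
  · rw [map_mul]; exact mul_ne_zero ha ha'
  · rw [map_mul]; exact mul_ne_zero hb hb'
  · rw [map_mul, map_mul, map_mul]
    calc x * y * (aIota A b * aIota A b') = (x * aIota A b) * (y * aIota A b') := by ring
      _ = (HahnSeries.C c * aIota A a) * (HahnSeries.C d * aIota A a') := by rw [hab, hab']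
      _ = _ := by ring

variable {A π} in
theorem HasContent.inv {x : LaurentSeries L} {c : L} (h : HasContent A π x c) :
    HasContent A π x⁻¹ c⁻¹ := by
  have hx0 := h.ne_zero
  obtain ⟨hc, a, b, ha, hb, hab⟩ := h
  refine ⟨inv_ne_zero hc, b, a, hb, ha, ?_⟩
  have hC : (HahnSeries.C c : LaurentSeries L) ≠ 0 := C_ne_zero_of_ne_zero hc
  rw [map_inv₀]
  field_simp
  rw [mul_comm, ← hab, mul_comm]

variable {A π} in
theorem HasContent.C_mul {x : LaurentSeries L} {c : L} (h : HasContent A π x c) {d : L}
    (hd : d ≠ 0) : HasContent A π (HahnSeries.C d * x) (d * c) :=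
  (hasContent_C A π hd).mul h

/-- **Key lemma**: if `π` kills the maximal ideal, a constant multiplying a series of nonzero
reduction into `A((q))` lies in `A`. -/
theorem mem_of_C_mul_aIota_eq (hπ : ∀ a : A, a ∈ IsLocalRing.maximalIdeal A → π a = 0)
    {d : L} {a b : LaurentSeries A} (ha : aRed π a ≠ 0)
    (h : HahnSeries.C d * aIota A a = aIota A b) : d ∈ A := by
  by_contra hd
  have hv : 1 < A.valuation d := by
    rw [← not_le, A.valuation_le_one_iff]
    exact hd
  have hd0 : d ≠ 0 := by
    rintro rfl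
    exact hd A.zero_mem
  have hinv : A.valuation d⁻¹ < 1 := by
    rw [map_inv₀]
    exact inv_lt_one_of_one_lt₀ hv
  have hmem : d⁻¹ ∈ A := (A.valuation_le_one_iff _).mp hinv.le
  have hmax : (⟨d⁻¹, hmem⟩ : A) ∈ IsLocalRing.maximalIdeal A := by
    rw [A.valuation_lt_one_iff]
    exact hinv
  apply ha
  have h1 : a = HahnSeries.C (⟨d⁻¹, hmem⟩ : A) * b := by
    apply aIota_injective A
    rw [map_mul, aIota_C, ← h, ← mul_assoc, ← map_mul, inv_mul_cancel₀ hd0, map_one, one_mul]
  rw [h1, map_mul, aRed_C, hπ _ hmax, map_zero, zero_mul]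

variable {A π} in
/-- If `c ∈ A`, an element of content `c` is Gauss integral. -/
theorem HasContent.mem_gaussRingA_of_mem {x : LaurentSeries L} {c : L} (h : HasContent A π x c)
    (hc : c ∈ A) : x ∈ gaussRingA A π := by
  obtain ⟨-, a, b, -, hb, hab⟩ := h
  refine ⟨HahnSeries.C (⟨c, hc⟩ : A) * a, b, hb, ?_⟩
  rw [map_mul, aIota_C, hab]

variable {A π} in
theorem HasContent.mem_gaussRingA_iff (hπ : ∀ a : A, a ∈ IsLocalRing.maximalIdeal A → π a = 0)
    {x : LaurentSeries L} {c : L} (h : HasContent A π x c) : x ∈ gaussRingA A π ↔ c ∈ A := by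
  refine ⟨fun hx => ?_, h.mem_gaussRingA_of_mem⟩
  obtain ⟨-, a, b, ha, hb, hab⟩ := h
  obtain ⟨a', b', hb', hab'⟩ := hx
  refine mem_of_C_mul_aIota_eq A π hπ (a := a * b') (b := a' * b) ?_ ?_
  · rw [map_mul]; exact mul_ne_zero ha hb'
  · rw [map_mul, map_mul, ← hab', ← mul_assoc, ← hab]; ring

variable {A π} in
/-- The residue of an element of content `c ∈ A`. -/
theorem HasContent.gaussResA_eq {x : LaurentSeries L} {c : L} {a b : LaurentSeries A}
    (hb : aRed π b ≠ 0) (hab : x * aIota A b = HahnSeries.C c * aIota A a) (hc : c ∈ A)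
    (hx : x ∈ gaussRingA A π) :
    gaussResA A π ⟨x, hx⟩ = HahnSeries.C (π ⟨c, hc⟩) * (aRed π a / aRed π b) := by
  rw [Val.gaussResA_eq A π ⟨x, hx⟩ (a := HahnSeries.C (⟨c, hc⟩ : A) * a) hb
    (by rw [map_mul, aIota_C, hab]), map_mul, aRed_C, mul_div_assoc]

variable {A π} in
theorem HasContent.gaussResA_ne_zero_iff
    (hπ : ∀ a : A, a ∈ IsLocalRing.maximalIdeal A → π a = 0)
    {x : LaurentSeries L} {c : L} (h : HasContent A π x c) (hx : x ∈ gaussRingA A π) :
    gaussResA A π ⟨x, hx⟩ ≠ 0 ↔ A.valuation c = 1 := by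
  have hc : c ∈ A := (h.mem_gaussRingA_iff hπ).mp hx
  obtain ⟨-, a, b, ha, hb, hab⟩ := h
  rw [HasContent.gaussResA_eq hb hab hc hx]
  have hdiv : aRed π a / aRed π b ≠ 0 := div_ne_zero ha hb
  constructor
  · intro hne
    have hπc : π ⟨c, hc⟩ ≠ 0 := by
      intro h0
      apply hne
      rw [h0, map_zero, zero_mul]
    by_contra hv
    have hlt : A.valuation c < 1 := lt_of_le_of_ne ((A.valuation_le_one_iff _).mpr hc) hv
    exact hπc (hπ _ ((A.valuation_lt_one_iff _).mpr hlt))
  · intro hv
    have hunit : IsUnit (⟨c, hc⟩ : A) := (A.valuation_eq_one_iff _).mpr hv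
    have hπc : π ⟨c, hc⟩ ≠ 0 := (hunit.map π).ne_zero
    exact mul_ne_zero (C_ne_zero_of_ne_zero hπc) hdiv

variable {A π} in
/-- Comparison of contents: `x / y` is Gauss integral iff `v(c) ≤ v(d)`. -/
theorem HasContent.div_mem_gaussRingA_iff
    (hπ : ∀ a : A, a ∈ IsLocalRing.maximalIdeal A → π a = 0)
    {x y : LaurentSeries L} {c d : L} (h : HasContent A π x c) (h' : HasContent A π y d) :
    x * y⁻¹ ∈ gaussRingA A π ↔ A.valuation c ≤ A.valuation d := by
  rw [(h.mul h'.inv).mem_gaussRingA_iff hπ, ← A.valuation_le_one_iff, map_mul, map_inv₀]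
  have hd : A.valuation d ≠ 0 := (Valuation.ne_zero_iff _).mpr h'.1
  rw [mul_inv_le_iff₀ (zero_lt_iff.mpr hd), one_mul]

variable {A π} in
/-- The content is unique up to units of `A`. -/
theorem HasContent.valuation_eq (hπ : ∀ a : A, a ∈ IsLocalRing.maximalIdeal A → π a = 0)
    {x : LaurentSeries L} {c d : L} (h : HasContent A π x c) (h' : HasContent A π x d) :
    A.valuation c = A.valuation d := by
  have hx0 := h.ne_zero
  have h1 : x * x⁻¹ ∈ gaussRingA A π := by
    rw [mul_inv_cancel₀ hx0]; exact (gaussRingA A π).one_mem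
  exact le_antisymm ((h.div_mem_gaussRingA_iff hπ h').mp h1)
    ((h'.div_mem_gaussRingA_iff hπ h).mp h1)

variable {A π} in
/-- Ultrametric inequality for contents. -/
theorem HasContent.valuation_add_le (hπ : ∀ a : A, a ∈ IsLocalRing.maximalIdeal A → π a = 0)
    {x y : LaurentSeries L} {c d e : L} (h : HasContent A π x c) (h' : HasContent A π y d)
    (h'' : HasContent A π (x + y) e) :
    A.valuation e ≤ max (A.valuation c) (A.valuation d) := by
  wlog hcd : A.valuation d ≤ A.valuation c generalizing x y c d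
  · rw [max_comm]
    exact this h' h (by rwa [add_comm]) (le_of_not_ge hcd)
  rw [max_eq_left hcd]
  rw [← h''.div_mem_gaussRingA_iff hπ h]
  have hx0 := h.ne_zero
  have h1 : (x + y) * x⁻¹ = 1 + y * x⁻¹ := by
    rw [add_mul, mul_inv_cancel₀ hx0]
  rw [h1]
  exact (gaussRingA A π).add_mem (gaussRingA A π).one_mem ((h'.div_mem_gaussRingA_iff hπ h).mpr hcd)

/-! ### The Gauss valuation subring of a subfield with contents -/

section Sub

variable {S : Type*} [SetLike S (LaurentSeries L)] [SubfieldClass S (LaurentSeries L)] (E : S)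
  (hE : ∀ x ∈ E, x ≠ 0 → ∃ c, HasContent A π x c)

/-- On a subfield `E` of `L((q))` all of whose nonzero elements have content, the Gauss integral
elements form a valuation subring. -/
def gaussValSubring : ValuationSubring E :=
  { (gaussRingA A π).comap (SubringClass.subtype E) with
    mem_or_inv_mem' := fun x => by
      by_cases hx0 : (x : LaurentSeries L) = 0
      · left
        show (x : LaurentSeries L) ∈ gaussRingA A π
        rw [hx0]; exact (gaussRingA A π).zero_mem
      obtain ⟨c, hc⟩ := hE x x.2 hx0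
      rcases A.mem_or_inv_mem c with h | h
      · left
        exact hc.mem_gaussRingA_of_mem h
      · right
        show ((x⁻¹ : E) : LaurentSeries L) ∈ gaussRingA A π
        exact hc.inv.mem_gaussRingA_of_mem h }

variable {E} in
theorem mem_gaussValSubring_iff {x : E} :
    x ∈ gaussValSubring A π E hE ↔ (x : LaurentSeries L) ∈ gaussRingA A π := Iff.rfl

/-- The residue map of the Gauss valuation subring of `E`, with values in `k((q))`. -/
def gaussResSub : gaussValSubring A π E hE →+* LaurentSeries k :=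
  (gaussResA A π).comp
    { toFun := fun x => ⟨((x : E) : LaurentSeries L), x.2⟩
      map_one' := rfl
      map_mul' := fun _ _ => rfl
      map_zero' := rfl
      map_add' := fun _ _ => rfl }

theorem gaussResSub_apply (x : gaussValSubring A π E hE) :
    gaussResSub A π E hE x = gaussResA A π ⟨((x : E) : LaurentSeries L), x.2⟩ := rfl

/-- Units of the Gauss valuation subring are the elements of nonzero residue. -/
theorem isUnit_iff_gaussResSub_ne_zero (x : gaussValSubring A π E hE) :
    IsUnit x ↔ gaussResSub A π E hE x ≠ 0 := by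
  constructor
  · intro hx
    exact (hx.map (gaussResSub A π E hE)).ne_zero
  · intro hx
    have hx0 : ((x : E) : LaurentSeries L) ≠ 0 := by
      intro h
      apply hx
      have : x = 0 := Subtype.ext (Subtype.ext h)
      rw [this, map_zero]
    have hinv : (((x : E)⁻¹ : E) : LaurentSeries L) ∈ gaussRingA A π :=
      inv_mem_gaussRingA_of_gaussResA_ne_zero A π ⟨((x : E) : LaurentSeries L), x.2⟩ hx
    have hxE : (x : E) ≠ 0 := fun h => hx0 (by rw [h]; rfl)
    refine ⟨⟨x, ⟨(x : E)⁻¹, hinv⟩, ?_, ?_⟩, rfl⟩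
    · exact Subtype.ext (mul_inv_cancel₀ hxE)
    · exact Subtype.ext (inv_mul_cancel₀ hxE)

/-- The kernel of the residue map is the maximal ideal. -/
theorem gaussResSub_eq_zero_iff (x : gaussValSubring A π E hE) :
    gaussResSub A π E hE x = 0 ↔ x ∈ IsLocalRing.maximalIdeal (gaussValSubring A π E hE) := by
  rw [IsLocalRing.mem_maximalIdeal, mem_nonunits_iff, isUnit_iff_gaussResSub_ne_zero, not_not]

theorem ker_gaussResSub :
    RingHom.ker (gaussResSub A π E hE) = IsLocalRing.maximalIdeal (gaussValSubring A π E hE) := by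
  ext x
  rw [RingHom.mem_ker, gaussResSub_eq_zero_iff]

/-- Membership in the Gauss valuation subring in terms of the content. -/
theorem mem_gaussValSubring_iff_content
    (hπ : ∀ a : A, a ∈ IsLocalRing.maximalIdeal A → π a = 0) {x : E} {c : L}
    (hc : HasContent A π (x : LaurentSeries L) c) :
    x ∈ gaussValSubring A π E hE ↔ A.valuation c ≤ 1 := by
  rw [mem_gaussValSubring_iff, hc.mem_gaussRingA_iff hπ, A.valuation_le_one_iff]

end Sub

/-! ### Series with coefficients in the image of a ring `O → A` -/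

section Over

variable {O : Type*} [CommRing O] (φ : O →+* A)

/-- `O((q)) → L((q))`, coefficientwise `O → A ⊆ L`. -/
def oIota : LaurentSeries O →+* LaurentSeries L :=
  (aIota A).comp (coeffMap φ)

theorem oIota_apply (t : LaurentSeries O) : oIota A φ t = aIota A (coeffMap φ t) := rfl

@[simp] theorem oIota_coeff (t : LaurentSeries O) (n : ℤ) :
    (oIota A φ t).coeff n = ((φ (t.coeff n) : A) : L) := rfl

theorem oIota_injective (hφ : Function.Injective φ) : Function.Injective (oIota A φ) := by
  intro s t h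
  apply HahnSeries.ext
  funext n
  have := congrArg (fun x => x.coeff n) h
  exact hφ (Subtype.ext this)

/-- The subfield of `L((q))` of quotients of series with coefficients in the image of `O`. -/
def fracFieldOver : Subfield (LaurentSeries L) :=
  Subfield.closure (Set.range (oIota A φ))

theorem oIota_mem_fracFieldOver (t : LaurentSeries O) : oIota A φ t ∈ fracFieldOver A φ :=
  Subfield.subset_closure ⟨t, rfl⟩

theorem mem_fracFieldOver_iff {x : LaurentSeries L} :
    x ∈ fracFieldOver A φ ↔ ∃ s t : LaurentSeries O, oIota A φ s / oIota A φ t = x := by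
  rw [fracFieldOver, Subfield.mem_closure_iff]
  have hcl : Subring.closure (Set.range (oIota A φ)) = (oIota A φ).range := by
    rw [← RingHom.coe_range]
    exact Subring.closure_eq _
  rw [hcl]
  constructor
  · rintro ⟨y, ⟨s, rfl⟩, z, ⟨t, rfl⟩, h⟩
    exact ⟨s, t, h⟩
  · rintro ⟨s, t, h⟩
    exact ⟨_, ⟨s, rfl⟩, _, ⟨t, rfl⟩, h⟩

end Over

/-! ### Existence of content: coefficients in a discrete valuation ring -/

section DVR

variable {O : Type*} [CommRing O] [IsDomain O] [IsDiscreteValuationRing O]

/-- A nonzero Laurent series over a discrete valuation ring is a power of a uniformizer times a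
series having a unit coefficient. -/
theorem exists_eq_C_pow_mul_of_ne_zero {t : LaurentSeries O} (ht : t ≠ 0) :
    ∃ (ϖ : O) (m : ℕ) (t' : LaurentSeries O), ϖ ≠ 0 ∧ t = HahnSeries.C (ϖ ^ m) * t' ∧
      ∃ n, IsUnit (t'.coeff n) := by
  classical
  obtain ⟨ϖ, hϖ⟩ := IsDiscreteValuationRing.exists_irreducible O
  obtain ⟨n₀, hn₀⟩ : ∃ n, t.coeff n ≠ 0 := by
    by_contra h
    simp only [not_exists, not_not] at h
    exact ht (HahnSeries.ext (funext h))
  have hex : ∃ m : ℕ, ∃ n, ¬ ϖ ^ (m + 1) ∣ t.coeff n := by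
    obtain ⟨N, u, hu⟩ := IsDiscreteValuationRing.eq_unit_mul_pow_irreducible hn₀ hϖ
    refine ⟨N, n₀, fun hdvd => ?_⟩
    have h1 : ϖ ^ N * ϖ ∣ ϖ ^ N * (u : O) := by
      rwa [← pow_succ, mul_comm _ (u : O), ← hu]
    have h2 : ϖ ∣ (u : O) := (mul_dvd_mul_iff_left (pow_ne_zero N hϖ.ne_zero)).mp h1
    exact hϖ.not_isUnit (isUnit_of_dvd_unit h2 u.isUnit)
  set m := Nat.find hex with hm
  have hall : ∀ n, ϖ ^ m ∣ t.coeff n := by
    intro n
    rcases Nat.eq_zero_or_pos m with h0 | hpos
    · rw [h0, pow_zero]; exact one_dvd _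
    · have h3 := Nat.find_min hex (m := m - 1) (by omega)
      simp only [not_exists, not_not] at h3
      have h4 := h3 n
      rwa [Nat.sub_add_cancel hpos] at h4
  choose r hr using hall
  refine ⟨ϖ, m, hahnOfFunA t r fun n hn => ?_, hϖ.ne_zero, ?_, ?_⟩
  · have h5 := hr n
    rw [hn] at h5
    exact (mul_eq_zero.mp h5.symm).resolve_left (pow_ne_zero m hϖ.ne_zero)
  · apply HahnSeries.ext
    funext n
    rw [HahnSeries.C_mul_eq_smul, HahnSeries.coeff_smul, smul_eq_mul]
    exact hr n
  · obtain ⟨n₁, hn₁⟩ := Nat.find_spec hex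
    refine ⟨n₁, ?_⟩
    by_contra hnu
    have hmem : r n₁ ∈ IsLocalRing.maximalIdeal O := (IsLocalRing.mem_maximalIdeal _).mpr hnu
    rw [(IsDiscreteValuationRing.irreducible_iff_uniformizer ϖ).mp hϖ,
      Ideal.mem_span_singleton] at hmem
    apply hn₁
    rw [hr n₁, pow_succ]
    exact mul_dvd_mul_left _ hmem

variable (φ : O →+* A)

/-- A nonzero series with coefficients in the image of a discrete valuation ring has content. -/
theorem exists_hasContent_oIota (hφ : Function.Injective φ) {t : LaurentSeries O} (ht : t ≠ 0) :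
    ∃ c, HasContent A π (oIota A φ t) c := by
  obtain ⟨ϖ, m, t', hϖ, rfl, n, hn⟩ := exists_eq_C_pow_mul_of_ne_zero ht
  have hred : aRed π (coeffMap φ t') ≠ 0 := by
    intro h
    have h1 := congrArg (fun x => x.coeff n) h
    simp only [aRed_coeff, coeffMap_coeff, HahnSeries.coeff_zero] at h1
    exact ((hn.map φ).map π).ne_zero h1
  have hc : ((φ (ϖ ^ m) : A) : L) ≠ 0 := by
    intro h
    have h2 : φ (ϖ ^ m) = 0 := Subtype.ext h
    rw [← map_zero φ] at h2
    exact pow_ne_zero m hϖ (hφ h2)
  refine ⟨((φ (ϖ ^ m) : A) : L) * 1, ?_⟩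
  have h3 : oIota A φ (HahnSeries.C (ϖ ^ m) * t') =
      HahnSeries.C ((φ (ϖ ^ m) : A) : L) * aIota A (coeffMap φ t') := by
    rw [oIota_apply, map_mul, map_mul, HahnSeries.C_apply, coeffMap_single, ← HahnSeries.C_apply,
      aIota_C]
  rw [h3]
  exact (hasContent_aIota A π hred).C_mul hc

/-- **Existence of content** for quotients of series over (the image of) a discrete valuation
ring. -/
theorem exists_hasContent_of_mem_fracFieldOver (hφ : Function.Injective φ) {x : LaurentSeries L}
    (hx : x ∈ fracFieldOver A φ) (hx0 : x ≠ 0) : ∃ c, HasContent A π x c := by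
  obtain ⟨s, t, rfl⟩ := (mem_fracFieldOver_iff A φ).mp hx
  have hs : s ≠ 0 := by
    rintro rfl
    rw [map_zero, zero_div] at hx0
    exact hx0 rfl
  have ht : t ≠ 0 := by
    rintro rfl
    rw [map_zero, div_zero] at hx0
    exact hx0 rfl
  obtain ⟨c, hc⟩ := exists_hasContent_oIota A π φ hφ hs
  obtain ⟨d, hd⟩ := exists_hasContent_oIota A π φ hφ ht
  exact ⟨c * d⁻¹, by rw [div_eq_mul_inv]; exact hc.mul hd.inv⟩

end DVR

end Fermat.Agent.Val
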