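import Mathlib
import Fermat.Prelude.Def_ModularCurve_X0ModL
import Fermat.Prelude.Def_FLTPrelim_Ramification
import Fermat.Prelude.Def_ModularCurve_ArithmeticGalois
import Fermat.Agent.Val.GaussA

/-!
# L-VAL V1: the Gauss valuation on `F̄_N = L · F_N` over a valuation subring `A` of `L`

`L` algebraic over `ℚ`, `A` a valuation subring of `L` lying over a rational prime `ℓ ≠ 0`.
* every nonzero element of `laurentBaseChange L (modularFunctionFieldFull N)` has content
  (`hasContent_of_mem_bar`): descent to a number field `K ⊆ L`, where the local ring of the ring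
  of integers of `K` at the centre of `A` is a discrete valuation ring mapping into `A`;
* `gaussValBar`: the Gauss valuation subring of `F̄_N`, `gaussResBar`: its residue map to `k((q))`;
* `aIota y ∈ F̄_N` reduces to `aRed π y`; the reduction of `j(q^d)` is `jqNModC k d`;
* if `π` is surjective the image of the residue map contains `modularFunctionFieldFullC k N`.
-/

set_option autoImplicit false
set_option linter.unusedSectionVars false
open ModularCurve

noncomputable section
namespace Fermat.Agent.Val

variable {L : Type*} [Field L] [Algebra ℚ L] (A : ValuationSubring L)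

/-! ### Number fields inside `L`: a discrete valuation ring mapping into `A` -/

section NumberField

variable (K : IntermediateField ℚ L) [hfd : FiniteDimensional ℚ K]

theorem finiteDimensional_rat_canon :
    @FiniteDimensional ℚ K _ _ (@Algebra.toModule ℚ K _ _ DivisionRing.toRatAlgebra) := by
  have h : (DivisionRing.toRatAlgebra : Algebra ℚ K) = K.algebra' := Subsingleton.elim _ _
  rw [h]
  exact hfd

theorem isDedekindDomain_intClosure : IsDedekindDomain (integralClosure ℤ K) :=
  have := finiteDimensional_rat_canon K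
  IsIntegralClosure.isDedekindDomain ℤ ℚ K (integralClosure ℤ K)

theorem isFractionRing_intClosure : IsFractionRing (integralClosure ℤ K) K :=
  have := finiteDimensional_rat_canon K
  IsIntegralClosure.isFractionRing_of_finite_extension ℤ ℚ K (integralClosure ℤ K)

attribute [local instance] isDedekindDomain_intClosure isFractionRing_intClosure

omit [Algebra ℚ L] in
/-- integral elements lie in every valuation subring -/
theorem mem_valSubring_of_isIntegral_int {x : L} (hx : IsIntegral ℤ x) : x ∈ A := by
  have h1 : IsIntegral A x := hx.tower_top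
  obtain ⟨y, hy⟩ := IsIntegrallyClosed.isIntegral_iff.mp h1
  rw [← hy]
  exact y.2

/-- the ring of integers of `K` maps into `A` -/
def intClosureToA : integralClosure ℤ K →+* A where
  toFun x := ⟨((x : K) : L), mem_valSubring_of_isIntegral_int A (by
    have hx : IsIntegral ℤ (x : K) := x.2
    exact hx.map (IsScalarTower.toAlgHom ℤ K L))⟩
  map_one' := rfl
  map_mul' _ _ := rfl
  map_zero' := rfl
  map_add' _ _ := rfl

theorem intClosureToA_injective : Function.Injective (intClosureToA A K) := by
  intro x y h
  have h1 : ((x : K) : L) = ((y : K) : L) := congrArg (fun z : A => (z : L)) h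
  exact Subtype.ext (Subtype.ext h1)

/-- the centre of `A` on the ring of integers of `K` -/
def centreK : Ideal (integralClosure ℤ K) :=
  (IsLocalRing.maximalIdeal A).comap (intClosureToA A K)

instance centreK_isPrime : (centreK A K).IsPrime := by
  unfold centreK; infer_instance

theorem centreK_ne_bot {ℓ : ℕ} (hℓ : ℓ ≠ 0) (hA : A.LiesOverPrime ℓ) : centreK A K ≠ ⊥ := by
  intro h
  have h1 : ((ℓ : ℕ) : integralClosure ℤ K) ∈ centreK A K := by
    show intClosureToA A K (ℓ : integralClosure ℤ K) ∈ IsLocalRing.maximalIdeal A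
    rw [map_natCast, A.valuation_lt_one_iff]
    exact A.mem_nonunits_iff.mp hA
  rw [h, Ideal.mem_bot] at h1
  have h2 : ((ℓ : ℕ) : L) = 0 := by
    have := congrArg (fun x : integralClosure ℤ K => ((x : K) : L)) h1
    simpa using this
  have : CharZero L := algebraRat.charZero L
  exact hℓ (Nat.cast_eq_zero.mp h2)

/-- the local ring of `K` at the centre of `A` -/
abbrev locK : Type _ := Localization.AtPrime (centreK A K)

theorem locK_isDVR {ℓ : ℕ} (hℓ : ℓ ≠ 0) (hA : A.LiesOverPrime ℓ) :
    IsDiscreteValuationRing (locK A K) :=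
  IsLocalization.AtPrime.isDiscreteValuationRing_of_dedekind_domain (integralClosure ℤ K)
    (centreK_ne_bot A K hℓ hA) (locK A K)

theorem isUnit_intClosureToA (y : (centreK A K).primeCompl) : IsUnit (intClosureToA A K y) := by
  have hy : (y : integralClosure ℤ K) ∉ centreK A K := y.2
  by_contra hu
  exact hy ((IsLocalRing.mem_maximalIdeal _).mpr hu)

/-- `locK → A` -/
def locKToA : locK A K →+* A :=
  IsLocalization.lift (M := (centreK A K).primeCompl) (isUnit_intClosureToA A K)

theorem algebraMap_locK_injective :
    Function.Injective (algebraMap (integralClosure ℤ K) (locK A K)) :=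
  IsLocalization.injective _ (Ideal.primeCompl_le_nonZeroDivisors (centreK A K))

theorem locKToA_injective : Function.Injective (locKToA A K) := by
  rw [locKToA, IsLocalization.lift_injective_iff]
  intro x y
  rw [(algebraMap_locK_injective A K).eq_iff, (intClosureToA_injective A K).eq_iff]

theorem locKToA_algebraMap (x : integralClosure ℤ K) :
    locKToA A K (algebraMap _ (locK A K) x) = intClosureToA A K x :=
  IsLocalization.lift_eq _ x

/-- every element of `K` is a quotient of elements of `locK` -/
theorem exists_locKToA_div (c : K) : ∃ a b : locK A K, b ≠ 0 ∧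
    ((c : K) : L) * ((locKToA A K b : A) : L) = ((locKToA A K a : A) : L) := by
  obtain ⟨x, y, hy, rfl⟩ := IsFractionRing.div_surjective (integralClosure ℤ K) c
  have hy0 : y ≠ 0 := nonZeroDivisors.ne_zero hy
  refine ⟨algebraMap _ _ x, algebraMap _ _ y, ?_, ?_⟩
  · intro h
    apply hy0
    exact algebraMap_locK_injective A K (by rw [h, map_zero])
  · rw [locKToA_algebraMap, locKToA_algebraMap]
    show ((algebraMap (integralClosure ℤ K) K x / algebraMap (integralClosure ℤ K) K y : K) : L) *
      (((y : K)) : L) = ((x : K) : L)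
    have hyK : ((y : K) : L) ≠ 0 := by
      intro h
      apply hy0
      exact Subtype.ext (Subtype.ext h)
    have h3 : algebraMap (integralClosure ℤ K) K y = (y : K) := rfl
    have h4 : algebraMap (integralClosure ℤ K) K x = (x : K) := rfl
    rw [h3, h4]
    push_cast
    field_simp

/-- constants from `K` are quotients of series over `locK` -/
theorem C_mem_fracFieldOver_locK (c : K) :
    (HahnSeries.C ((c : K) : L) : LaurentSeries L) ∈ fracFieldOver A (locKToA A K) := by
  obtain ⟨a, b, hb, hab⟩ := exists_locKToA_div A K c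
  rw [mem_fracFieldOver_iff]
  refine ⟨HahnSeries.C a, HahnSeries.C b, ?_⟩
  have hC : ∀ z : locK A K, oIota A (locKToA A K) (HahnSeries.C z) =
      HahnSeries.C ((locKToA A K z : A) : L) := by
    intro z
    rw [oIota_apply, HahnSeries.C_apply, coeffMap_single, ← HahnSeries.C_apply, aIota_C]
  rw [hC, hC, ← hab, map_mul]
  have hb0 : ((locKToA A K b : A) : L) ≠ 0 := by
    intro h
    apply hb
    apply locKToA_injective A K
    rw [map_zero]
    exact Subtype.ext h
  have hCb : (HahnSeries.C ((locKToA A K b : A) : L) : LaurentSeries L) ≠ 0 :=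
    C_ne_zero_of_ne_zero hb0
  field_simp

end NumberField

/-! ### The modular function field consists of quotients of integral series -/

section Full

variable {O : Type*} [CommRing O] (φ : O →+* A)

theorem oIota_jqNModC (d : ℕ) [NeZero d] : oIota A φ (jqNModC O d) = jqNModC L d := by
  rw [oIota_apply, coeffMap_jqNModC, aIota, coeffMap_jqNModC]

theorem coeffEmb_jqN (d : ℕ) [NeZero d] : coeffEmb L (qExpand ℚ d jq) = jqNModC L d := by
  have h : qExpand ℚ d jq = jqNModC ℚ d := rfl
  rw [h, coeffEmb, coeffMap_jqNModC]

/-- The base change of the full modular function field consists of quotients of series with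
coefficients in the image of `O`, for any ring `O → A`. -/
theorem coeffEmb_mem_fracFieldOver (N : ℕ) [NeZero N] {x : LaurentSeries ℚ}
    (hx : x ∈ modularFunctionFieldFull N) : coeffEmb L x ∈ fracFieldOver A φ := by
  let T : IntermediateField ℚ (LaurentSeries ℚ) :=
    ((fracFieldOver A φ).comap (coeffEmb L)).toIntermediateField fun r => by
      rw [eq_ratCast]; exact SubfieldClass.ratCast_mem _ r
  have hle : modularFunctionFieldFull N ≤ T := by
    rw [modularFunctionFieldFull, IntermediateField.adjoin_le_iff]
    rintro y ⟨d, hd, -, rfl⟩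
    have := hd
    show coeffEmb L (qExpand ℚ d jq) ∈ fracFieldOver A φ
    rw [coeffEmb_jqN, ← oIota_jqNModC A φ]
    exact oIota_mem_fracFieldOver A φ _
  exact hle hx

end Full

/-! ### Descent of finitely many constants to a number field -/

section Descent

variable [Algebra.IsAlgebraic ℚ L] (F₀ : IntermediateField ℚ (LaurentSeries ℚ))

/-- the subfield of `L((q))` generated by the constants from `K` and by `F₀` -/
def barOver (K : IntermediateField ℚ L) : Subfield (LaurentSeries L) :=
  Subfield.closure ((fun c : L => (HahnSeries.C c : LaurentSeries L)) '' (K : Set L) ∪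
    (⇑(coeffEmb L) '' (F₀ : Set (LaurentSeries ℚ))))

omit [Algebra.IsAlgebraic ℚ L] in
theorem barOver_mono {K K' : IntermediateField ℚ L} (h : K ≤ K') :
    barOver F₀ K ≤ barOver F₀ K' :=
  Subfield.closure_mono (Set.union_subset_union_left _ (Set.image_mono h))

/-- Every element of `L · F₀` lies in `K · F₀` for a number field `K ⊆ L`. -/
theorem exists_finiteDimensional_mem_barOver {x : LaurentSeries L}
    (hx : x ∈ laurentBaseChange L F₀) :
    ∃ K : IntermediateField ℚ L, FiniteDimensional ℚ K ∧ x ∈ barOver F₀ K := by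
  rw [mem_laurentBaseChange_iff] at hx
  induction hx using Subfield.closure_induction with
  | mem y hy =>
      rcases hy with ⟨c, rfl⟩ | ⟨z, hz, rfl⟩
      · refine ⟨IntermediateField.adjoin ℚ {c},
          IntermediateField.adjoin.finiteDimensional (Algebra.IsIntegral.isIntegral c), ?_⟩
        apply Subfield.subset_closure
        left
        refine ⟨c, IntermediateField.mem_adjoin_simple_self ℚ c, ?_⟩
        rw [algebraMap_laurentSeries_eq_single]
        rfl
      · exact ⟨⊥, inferInstance, Subfield.subset_closure (Or.inr ⟨z, hz, rfl⟩)⟩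
  | one => exact ⟨⊥, inferInstance, (barOver F₀ ⊥).one_mem⟩
  | add x y _ _ hx hy =>
      obtain ⟨K, hK, hxK⟩ := hx
      obtain ⟨K', hK', hyK⟩ := hy
      exact ⟨K ⊔ K', inferInstance, (barOver F₀ (K ⊔ K')).add_mem
        (barOver_mono F₀ le_sup_left hxK) (barOver_mono F₀ le_sup_right hyK)⟩
  | neg x _ hx =>
      obtain ⟨K, hK, hxK⟩ := hx
      exact ⟨K, hK, (barOver F₀ K).neg_mem hxK⟩
  | inv x _ hx =>
      obtain ⟨K, hK, hxK⟩ := hx
      exact ⟨K, hK, (barOver F₀ K).inv_mem hxK⟩
  | mul x y _ _ hx hy =>
      obtain ⟨K, hK, hxK⟩ := hx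
      obtain ⟨K', hK', hyK⟩ := hy
      exact ⟨K ⊔ K', inferInstance, (barOver F₀ (K ⊔ K')).mul_mem
        (barOver_mono F₀ le_sup_left hxK) (barOver_mono F₀ le_sup_right hyK)⟩

end Descent

/-! ### V1.a: existence of content on `F̄_N` -/

section Content

variable [Algebra.IsAlgebraic ℚ L] {k : Type*} [Field k] (π : A →+* k)

/-- **V1.a** Every nonzero element of `F̄_N = L · F_N` has content, for `A` lying over a rational
prime. -/
theorem hasContent_of_mem_bar (N : ℕ) [NeZero N] {ℓ : ℕ} (hℓ : ℓ ≠ 0) (hA : A.LiesOverPrime ℓ)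
    {x : LaurentSeries L} (hx : x ∈ laurentBaseChange L (modularFunctionFieldFull N))
    (hx0 : x ≠ 0) : ∃ c, HasContent A π x c := by
  obtain ⟨K, hK, hxK⟩ := exists_finiteDimensional_mem_barOver (modularFunctionFieldFull N) hx
  have := hK
  have := locK_isDVR A K hℓ hA
  have hle : barOver (modularFunctionFieldFull N) K ≤ fracFieldOver A (locKToA A K) := by
    rw [barOver, Subfield.closure_le]
    rintro y (⟨c, hc, rfl⟩ | ⟨z, hz, rfl⟩)
    · exact C_mem_fracFieldOver_locK A K ⟨c, hc⟩
    · exact coeffEmb_mem_fracFieldOver A (locKToA A K) N hz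
  exact exists_hasContent_of_mem_fracFieldOver A π (locKToA A K) (locKToA_injective A K)
    (hle hxK) hx0

end Content

/-! ### V1.b–d: the Gauss valuation subring of `F̄_N` and its residue map -/

section Bar

variable [Algebra.IsAlgebraic ℚ L] {k : Type*} [Field k] (π : A →+* k)
variable (N : ℕ) [NeZero N] {ℓ : ℕ} (hℓ : ℓ ≠ 0) (hA : A.LiesOverPrime ℓ)

/-- **V1.b** The Gauss valuation subring of `F̄_N = laurentBaseChange L (modularFunctionFieldFull N)`. -/
def gaussValBar : ValuationSubring (laurentBaseChange L (modularFunctionFieldFull N)) :=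
  gaussValSubring A π (laurentBaseChange L (modularFunctionFieldFull N))
    fun _ hx hx0 => hasContent_of_mem_bar A π N hℓ hA hx hx0

variable {N} in
theorem mem_gaussValBar_iff {x : laurentBaseChange L (modularFunctionFieldFull N)} :
    x ∈ gaussValBar A π N hℓ hA ↔ (x : LaurentSeries L) ∈ gaussRingA A π := Iff.rfl

/-- The residue map of the Gauss valuation subring of `F̄_N`, with values in `k((q))`. -/
def gaussResBar : gaussValBar A π N hℓ hA →+* LaurentSeries k :=
  gaussResSub A π (laurentBaseChange L (modularFunctionFieldFull N))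
    fun _ hx hx0 => hasContent_of_mem_bar A π N hℓ hA hx hx0

theorem gaussResBar_apply (x : gaussValBar A π N hℓ hA) :
    gaussResBar A π N hℓ hA x =
      gaussResA A π ⟨((x : laurentBaseChange L (modularFunctionFieldFull N)) : LaurentSeries L),
        x.2⟩ := rfl

theorem isUnit_iff_gaussResBar_ne_zero (x : gaussValBar A π N hℓ hA) :
    IsUnit x ↔ gaussResBar A π N hℓ hA x ≠ 0 :=
  isUnit_iff_gaussResSub_ne_zero A π _ _ x

/-- The kernel of the residue map is the maximal ideal: the residue field embeds in `k((q))`. -/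
theorem gaussResBar_eq_zero_iff (x : gaussValBar A π N hℓ hA) :
    gaussResBar A π N hℓ hA x = 0 ↔
      x ∈ IsLocalRing.maximalIdeal (gaussValBar A π N hℓ hA) :=
  gaussResSub_eq_zero_iff A π _ _ x

theorem ker_gaussResBar :
    RingHom.ker (gaussResBar A π N hℓ hA) =
      IsLocalRing.maximalIdeal (gaussValBar A π N hℓ hA) :=
  ker_gaussResSub A π _ _

/-- membership via the content -/
theorem mem_gaussValBar_iff_content
    (hπ : ∀ a : A, a ∈ IsLocalRing.maximalIdeal A → π a = 0)
    {x : laurentBaseChange L (modularFunctionFieldFull N)} {c : L}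
    (hc : HasContent A π (x : LaurentSeries L) c) :
    x ∈ gaussValBar A π N hℓ hA ↔ A.valuation c ≤ 1 :=
  mem_gaussValSubring_iff_content A π _ _ hπ hc

/-- **V1.c** The bridge to the Prelude's `IsPlaceReductionAlong`: a series `y` over `A` whose
image lies in `F̄_N` is Gauss integral and reduces to `coeffMap π y`. -/
theorem gaussResBar_coeffMap (y : LaurentSeries A)
    (hy : coeffMap A.subtype y ∈ laurentBaseChange L (modularFunctionFieldFull N)) :
    ∃ h : (⟨coeffMap A.subtype y, hy⟩ : laurentBaseChange L (modularFunctionFieldFull N)) ∈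
        gaussValBar A π N hℓ hA,
      gaussResBar A π N hℓ hA ⟨⟨coeffMap A.subtype y, hy⟩, h⟩ = coeffMap π y :=
  ⟨aIota_mem_gaussRingA A π y, gaussResA_aIota A π y⟩

/-- constants from `A` -/
theorem gaussResBar_algebraMap (a : A) :
    ∃ h : algebraMap L (laurentBaseChange L (modularFunctionFieldFull N)) (a : L) ∈
        gaussValBar A π N hℓ hA,
      gaussResBar A π N hℓ hA ⟨_, h⟩ = HahnSeries.C (π a) := by
  have h1 : ((algebraMap L (laurentBaseChange L (modularFunctionFieldFull N)) (a : L) :
      laurentBaseChange L (modularFunctionFieldFull N)) : LaurentSeries L) =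
      coeffMap A.subtype (HahnSeries.C a) := by
    show algebraMap L (LaurentSeries L) (a : L) = _
    rw [algebraMap_laurentSeries_eq_single, HahnSeries.C_apply, coeffMap_single]
    rfl
  have hmem : coeffMap A.subtype (HahnSeries.C a) ∈
      laurentBaseChange L (modularFunctionFieldFull N) := by
    rw [← h1]; exact SetLike.coe_mem _
  obtain ⟨h2, h3⟩ := gaussResBar_coeffMap A π N hℓ hA (HahnSeries.C a) hmem
  have h4 : (algebraMap L (laurentBaseChange L (modularFunctionFieldFull N)) (a : L)) =
      ⟨coeffMap A.subtype (HahnSeries.C a), hmem⟩ := Subtype.ext h1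
  refine ⟨h4 ▸ h2, ?_⟩
  have h5 : (⟨algebraMap L (laurentBaseChange L (modularFunctionFieldFull N)) (a : L), h4 ▸ h2⟩ :
      gaussValBar A π N hℓ hA) = ⟨⟨coeffMap A.subtype (HahnSeries.C a), hmem⟩, h2⟩ :=
    Subtype.ext h4
  rw [h5, h3]
  exact aRed_C π a

/-- **V1.d** The reduction of (the base change of) `j(q^d)` is `jqNModC k d`. -/
theorem gaussResBar_jqN {d : ℕ} [NeZero d] (hd : d ∣ N) :
    ∃ (hmem : jqNModC L d ∈ laurentBaseChange L (modularFunctionFieldFull N))
      (h : (⟨jqNModC L d, hmem⟩ : laurentBaseChange L (modularFunctionFieldFull N)) ∈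
        gaussValBar A π N hℓ hA),
      gaussResBar A π N hℓ hA ⟨⟨jqNModC L d, hmem⟩, h⟩ = jqNModC k d := by
  have h1 : coeffMap A.subtype (jqNModC A d) = jqNModC L d := coeffMap_jqNModC _ d
  have hmem : jqNModC L d ∈ laurentBaseChange L (modularFunctionFieldFull N) := by
    rw [← coeffEmb_jqN]
    exact coeffEmb_mem_laurentBaseChange L (jqd_mem_full N hd)
  have hmem' : coeffMap A.subtype (jqNModC A d) ∈
      laurentBaseChange L (modularFunctionFieldFull N) := by rw [h1]; exact hmem
  obtain ⟨h2, h3⟩ := gaussResBar_coeffMap A π N hℓ hA (jqNModC A d) hmem'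
  have h4 : (⟨jqNModC L d, hmem⟩ : laurentBaseChange L (modularFunctionFieldFull N)) =
      ⟨coeffMap A.subtype (jqNModC A d), hmem'⟩ := Subtype.ext h1.symm
  refine ⟨hmem, h4 ▸ h2, ?_⟩
  have h5 : (⟨⟨jqNModC L d, hmem⟩, h4 ▸ h2⟩ : gaussValBar A π N hℓ hA) =
      ⟨⟨coeffMap A.subtype (jqNModC A d), hmem'⟩, h2⟩ := Subtype.ext h4
  rw [h5, h3, coeffMap_jqNModC]

/-- The image of the residue map, as a subfield of `k((q))`. -/
def gaussResBarRange : Subfield (LaurentSeries k) :=
  { (gaussResBar A π N hℓ hA).range with
    inv_mem' := by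
      rintro z ⟨x, rfl⟩
      by_cases hz : gaussResBar A π N hℓ hA x = 0
      · rw [hz, inv_zero]; exact Subring.zero_mem _
      · obtain ⟨u, rfl⟩ := (isUnit_iff_gaussResBar_ne_zero A π N hℓ hA x).mpr hz
        refine ⟨((u⁻¹ : (gaussValBar A π N hℓ hA)ˣ) : gaussValBar A π N hℓ hA), ?_⟩
        have h1 : gaussResBar A π N hℓ hA (u : gaussValBar A π N hℓ hA) *
            gaussResBar A π N hℓ hA ((u⁻¹ : (gaussValBar A π N hℓ hA)ˣ) :
              gaussValBar A π N hℓ hA) = 1 := by
          rw [← map_mul, Units.mul_inv, map_one]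
        exact eq_inv_of_mul_eq_one_right h1 }

theorem mem_gaussResBarRange_iff {z : LaurentSeries k} :
    z ∈ gaussResBarRange A π N hℓ hA ↔ ∃ x, gaussResBar A π N hℓ hA x = z := Iff.rfl

/-- **V1.d** If `π` is surjective, the image of the residue map contains `F̃ =
modularFunctionFieldFullC k N`. -/
theorem modularFunctionFieldFullC_le_range (hπs : Function.Surjective π) {z : LaurentSeries k}
    (hz : z ∈ modularFunctionFieldFullC k N) : ∃ x, gaussResBar A π N hℓ hA x = z := by
  let T : IntermediateField k (LaurentSeries k) :=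
    (gaussResBarRange A π N hℓ hA).toIntermediateField fun c => by
      obtain ⟨a, rfl⟩ := hπs c
      obtain ⟨h, hres⟩ := gaussResBar_algebraMap A π N hℓ hA a
      rw [algebraMap_laurentSeries_eq_single, ← HahnSeries.C_apply]
      exact ⟨_, hres⟩
  have hle : modularFunctionFieldFullC k N ≤ T := by
    rw [modularFunctionFieldFullC, IntermediateField.adjoin_le_iff]
    rintro y ⟨d, hd, hdN, rfl⟩
    have := hd
    obtain ⟨hmem, h, hres⟩ := gaussResBar_jqN A π N hℓ hA hdN
    exact ⟨_, hres⟩
  exact hle hz

end Bar

/-! ### The setting of S18 / S37: `L = ℚ̄`, `π` the residue map of `A` -/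

section Qbar

/-- `AlgebraicClosure ℚ` is algebraic over `ℚ` for any `ℚ`-algebra structure. -/
theorem algebraIsAlgebraic_rat_algebraicClosure [inst : Algebra ℚ (AlgebraicClosure ℚ)] :
    Algebra.IsAlgebraic ℚ (AlgebraicClosure ℚ) := by
  have h : inst = AlgebraicClosure.instAlgebra ℚ := Subsingleton.elim _ _
  subst h
  infer_instance

omit [Algebra ℚ L] in
/-- the residue map of `A` kills the maximal ideal -/
theorem residue_eq_zero_of_mem_maximalIdeal (a : A) (ha : a ∈ IsLocalRing.maximalIdeal A) :
    IsLocalRing.residue A a = 0 :=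
  (IsLocalRing.residue_eq_zero_iff a).mpr ha

variable (B : ValuationSubring (AlgebraicClosure ℚ)) (N : ℕ) [NeZero N] {ℓ : ℕ} (hℓ : ℓ ≠ 0)
  (hB : B.LiesOverPrime ℓ)

/-- The Gauss valuation subring of `F̄_N = modularFunctionFieldBar N` (setting of S18). -/
def gaussValQbar : ValuationSubring (modularFunctionFieldBar N) :=
  haveI := algebraIsAlgebraic_rat_algebraicClosure
  gaussValBar B (IsLocalRing.residue B) N hℓ hB

/-- Its residue map, with values in `k((q))`, `k` the residue field of `B`. -/
def gaussResQbar :
    gaussValQbar B N hℓ hB →+* LaurentSeries (IsLocalRing.ResidueField B) :=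
  haveI := algebraIsAlgebraic_rat_algebraicClosure
  gaussResBar B (IsLocalRing.residue B) N hℓ hB

end Qbar

end Fermat.Agent.Val
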