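import Mathlib
import Fermat.Agent.Red.Setup
import Fermat.Prelude.Def_FLTPrelim_Ramification

/-!
# Program L, track L-VAL, interface (I4): valuation rings of `ℚ̄` over a prime have rank one

For a field `L` of characteristic zero, algebraic over `ℚ` (in the form: every element is
algebraic over `ℤ`), and a valuation subring `A` of `L` in which a prime number `ℓ` is a non-unit,
the value group of `A` is archimedean, in the divisibility form `Red.IsRankOne A` of
`Red/Setup.lean`: for a non-unit `a` of `A` and `b ≠ 0` in `A` some power of `a` is divisible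
by `b`.

The proof is elementary (no descent to number fields):
* integers prime to `ℓ` are units of `A` (`valuation_intCast_eq_one`);
* a non-zero integer has the valuation of a power of `ℓ` (`exists_pow_le_valuation_intCast`);
* if `0 < v a < 1` then `v a ^ n ≤ v ℓ` for some `n`: otherwise, in a primitive integer relation
  `∑ dᵢ aⁱ = 0`, the term of the first coefficient prime to `ℓ` strictly dominates all the others
  (`exists_pow_valuation_le`);
* if `b ≠ 0` then `v ℓ ^ N ≤ v b` for some `N`: the constant coefficient `c₀ ≠ 0` of an integer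
  relation of `b` is divisible by `b` in `A` (`exists_pow_le_valuation`).
-/

set_option autoImplicit false

open Polynomial

namespace Fermat.Agent.Val

variable {L : Type*} [Field L] (A : ValuationSubring L) {ℓ : ℕ}

/-- Integers lie in every valuation subring. -/
theorem valuation_intCast_le_one (c : ℤ) : A.valuation (c : L) ≤ 1 :=
  (A.valuation_le_one_iff _).2 (intCast_mem A c)

/-- An integer prime to `ℓ` is a unit of a valuation subring in which `ℓ` is a non-unit. -/
theorem valuation_intCast_eq_one (hℓ : ℓ.Prime) (hA : A.valuation (ℓ : L) < 1) {u : ℤ}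
    (hu : ¬ (ℓ : ℤ) ∣ u) : A.valuation (u : L) = 1 := by
  refine le_antisymm (valuation_intCast_le_one A u) ?_
  have hcop : IsCoprime u (ℓ : ℤ) := by
    rw [isCoprime_comm]
    exact (Int.isCoprime_iff_gcd_eq_one.2
      ((Nat.Prime.coprime_iff_not_dvd hℓ).2 (fun h => hu (Int.natCast_dvd.2 h))))
  obtain ⟨s, t, hst⟩ := hcop
  have h1 : (s : L) * (u : L) + (t : L) * (ℓ : L) = 1 := by exact_mod_cast congrArg (Int.cast (R := L)) hst
  by_contra hlt
  rw [not_le] at hlt
  have hsu : A.valuation ((s : L) * (u : L)) < 1 := by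
    rw [map_mul]
    calc A.valuation (s : L) * A.valuation (u : L) ≤ 1 * A.valuation (u : L) :=
          mul_le_mul' (valuation_intCast_le_one A s) le_rfl
      _ = A.valuation (u : L) := one_mul _
      _ < 1 := hlt
  have htl : A.valuation ((t : L) * (ℓ : L)) < 1 := by
    rw [map_mul]
    calc A.valuation (t : L) * A.valuation (ℓ : L) ≤ 1 * A.valuation (ℓ : L) :=
          mul_le_mul' (valuation_intCast_le_one A t) le_rfl
      _ = A.valuation (ℓ : L) := one_mul _
      _ < 1 := hA
  have := A.valuation.map_add_lt hsu htl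
  rw [h1, map_one] at this
  exact lt_irrefl _ this

/-- A non-zero integer has the valuation of a power of `ℓ`. -/
theorem exists_pow_eq_valuation_intCast (hℓ : ℓ.Prime) (hA : A.valuation (ℓ : L) < 1) {c : ℤ}
    (hc : c ≠ 0) : ∃ N : ℕ, A.valuation (c : L) = A.valuation (ℓ : L) ^ N := by
  have hfin : FiniteMultiplicity (ℓ : ℤ) c :=
    Int.finiteMultiplicity_iff.2 ⟨by simpa using hℓ.ne_one, hc⟩
  obtain ⟨u, hcu, hu⟩ := hfin.exists_eq_pow_mul_and_not_dvd
  refine ⟨multiplicity (ℓ : ℤ) c, ?_⟩
  have : (c : L) = (ℓ : L) ^ multiplicity (ℓ : ℤ) c * (u : L) := by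
    conv_lhs => rw [hcu]
    push_cast
    rfl
  rw [this, map_mul, map_pow, valuation_intCast_eq_one A hℓ hA hu, mul_one]

variable [CharZero L]

/-- **Key step.** If `a` is algebraic over `ℤ` with `0 < v a < 1`, then `v a ^ n ≤ v ℓ` for some
`n`. -/
theorem exists_pow_valuation_le (hℓ : ℓ.Prime) (hA : A.valuation (ℓ : L) < 1) {a : L}
    (halg : IsAlgebraic ℤ a) (ha0 : a ≠ 0) (ha1 : A.valuation a < 1) :
    ∃ n : ℕ, A.valuation a ^ n ≤ A.valuation (ℓ : L) := by
  by_contra hcon
  push Not at hcon
  obtain ⟨p₀, hp₀, hp₀a⟩ := halg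
  -- a primitive relation
  set p := p₀.primPart with hp
  have hprim : p.IsPrimitive := isPrimitive_primPart p₀
  have hpa : aeval a p = 0 := by
    have h := eq_C_content_mul_primPart p₀
    have h2 : aeval a p₀ = (p₀.content : L) * aeval a p := by
      conv_lhs => rw [h]
      rw [map_mul, aeval_C]
      simp [hp]
    rw [hp₀a] at h2
    have hc : (p₀.content : L) ≠ 0 := by
      exact_mod_cast (content_eq_zero_iff.not.2 hp₀)
    exact (mul_eq_zero.1 h2.symm).resolve_left hc
  -- the first coefficient prime to `ℓ`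
  have hex : ∃ i, ¬ (ℓ : ℤ) ∣ p.coeff i := by
    by_contra hall
    push Not at hall
    have hdvd : C (ℓ : ℤ) ∣ p := (C_dvd_iff_dvd_coeff _ _).2 hall
    have hunit := hprim _ hdvd
    have : (ℓ : ℤ).natAbs = 1 := Int.isUnit_iff_natAbs_eq.1 hunit
    simp at this
    exact hℓ.ne_one this
  classical
  set i₀ := Nat.find hex with hi₀
  have hi₀spec : ¬ (ℓ : ℤ) ∣ p.coeff i₀ := Nat.find_spec hex
  have hi₀min : ∀ i < i₀, (ℓ : ℤ) ∣ p.coeff i := fun i hi => by
    by_contra h
    exact Nat.find_min hex hi h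
  have hva0 : A.valuation a ≠ 0 := (A.valuation.ne_zero_iff).2 ha0
  have hva_pos : 0 < A.valuation a := zero_lt_iff.2 hva0
  have hg : A.valuation a ^ i₀ ≠ 0 := pow_ne_zero _ hva0
  -- the sum of the other terms is strictly smaller
  have hi₀supp : i₀ ∈ p.support := by
    rw [mem_support_iff]
    intro h0
    exact hi₀spec (h0 ▸ dvd_zero _)
  have hsum : aeval a p = (p.coeff i₀ : L) * a ^ i₀ +
      ∑ i ∈ p.support.erase i₀, (p.coeff i : L) * a ^ i := by
    rw [Finset.add_sum_erase _ (fun i => (p.coeff i : L) * a ^ i) hi₀supp, aeval_def,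
      eval₂_eq_sum, sum_def]
    simp [eq_intCast]
  have hlt : A.valuation (∑ i ∈ p.support.erase i₀, (p.coeff i : L) * a ^ i) <
      A.valuation a ^ i₀ := by
    refine A.valuation.map_sum_lt hg (fun i hi => ?_)
    have hne : i ≠ i₀ := (Finset.mem_erase.1 hi).1
    rw [map_mul, map_pow]
    rcases lt_or_gt_of_ne hne with hlt | hgt
    · obtain ⟨c', hc'⟩ := hi₀min i hlt
      have h1 : A.valuation ((p.coeff i : ℤ) : L) ≤ A.valuation (ℓ : L) := by
        rw [hc']
        push_cast
        rw [map_mul]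
        calc A.valuation (ℓ : L) * A.valuation (c' : L) ≤ A.valuation (ℓ : L) * 1 :=
              mul_le_mul' le_rfl (valuation_intCast_le_one A c')
          _ = A.valuation (ℓ : L) := mul_one _
      have h2 : A.valuation a ^ i ≤ 1 := pow_le_one₀ zero_le ha1.le
      calc A.valuation ((p.coeff i : ℤ) : L) * A.valuation a ^ i
          ≤ A.valuation (ℓ : L) * 1 := mul_le_mul' h1 h2
        _ = A.valuation (ℓ : L) := mul_one _
        _ < A.valuation a ^ i₀ := hcon i₀
    · calc A.valuation ((p.coeff i : ℤ) : L) * A.valuation a ^ i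
          ≤ 1 * A.valuation a ^ i := mul_le_mul' (valuation_intCast_le_one A _) le_rfl
        _ = A.valuation a ^ i := one_mul _
        _ < A.valuation a ^ i₀ := pow_lt_pow_right_of_lt_one₀ hva_pos ha1 hgt
  have hterm : A.valuation ((p.coeff i₀ : L) * a ^ i₀) = A.valuation a ^ i₀ := by
    rw [map_mul, map_pow, valuation_intCast_eq_one A hℓ hA hi₀spec, one_mul]
  have hval : A.valuation (aeval a p) = A.valuation a ^ i₀ := by
    rw [hsum, A.valuation.map_add_eq_of_lt_left (by rw [hterm]; exact hlt), hterm]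
  rw [hpa, map_zero] at hval
  exact hg hval.symm

omit [CharZero L] in
/-- If `b ≠ 0` in `A` is algebraic over `ℤ`, then `v ℓ ^ N ≤ v b` for some `N`. -/
theorem exists_pow_le_valuation (hℓ : ℓ.Prime) (hA : A.valuation (ℓ : L) < 1) {b : L}
    (halg : IsAlgebraic ℤ b) (hb0 : b ≠ 0) (hbA : b ∈ A) :
    ∃ N : ℕ, A.valuation (ℓ : L) ^ N ≤ A.valuation b := by
  obtain ⟨p, hp, hpb⟩ := halg
  -- remove the powers of `X`
  obtain ⟨q, hpq, hq⟩ := exists_eq_pow_rootMultiplicity_mul_and_not_dvd p hp 0
  rw [C_0, sub_zero] at hpq hq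
  have hqb : aeval b q = 0 := by
    rw [hpq, map_mul, map_pow, aeval_X] at hpb
    exact (mul_eq_zero.1 hpb).resolve_left (pow_ne_zero _ hb0)
  have hq0 : q.coeff 0 ≠ 0 := fun h => hq (X_dvd_iff.2 h)
  -- the constant coefficient is divisible by `b` in `A`
  have hsplit : aeval b q = aeval b q.divX * b + (q.coeff 0 : L) := by
    conv_lhs => rw [← divX_mul_X_add q]
    rw [map_add, map_mul, aeval_X, aeval_C, eq_intCast]
  have hmem : aeval b q.divX ∈ A := by
    have h := aeval_algebraMap_apply L (⟨b, hbA⟩ : A) q.divX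
    have h' : aeval b q.divX = ((aeval (⟨b, hbA⟩ : A) q.divX : A) : L) := h
    rw [h']
    exact Subtype.mem _
  have hc0 : (q.coeff 0 : L) = -(aeval b q.divX * b) := by
    rw [hqb] at hsplit
    exact eq_neg_of_add_eq_zero_right hsplit.symm
  obtain ⟨N, hN⟩ := exists_pow_eq_valuation_intCast A hℓ hA hq0
  refine ⟨N, ?_⟩
  rw [← hN, hc0, Valuation.map_neg, map_mul]
  calc A.valuation (aeval b q.divX) * A.valuation b ≤ 1 * A.valuation b :=
        mul_le_mul' ((A.valuation_le_one_iff _).2 hmem) le_rfl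
    _ = A.valuation b := one_mul _

/-- **Rank one.** A valuation subring of a field of characteristic zero, algebraic over `ℤ`, in
which a prime number is a non-unit, has rank one. -/
theorem isRankOne_of_valuation_natCast_lt_one (halg : ∀ x : L, IsAlgebraic ℤ x) (hℓ : ℓ.Prime)
    (hA : A.valuation (ℓ : L) < 1) : Red.IsRankOne A := by
  intro a ha b hb
  by_cases ha0 : a = 0
  · exact ⟨1, by rw [ha0, pow_one]; exact dvd_zero b⟩
  have ha0' : (a : L) ≠ 0 := fun h => ha0 (Subtype.ext h)
  have hb0' : (b : L) ≠ 0 := fun h => hb (Subtype.ext h)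
  have ha1 : A.valuation (a : L) < 1 := by
    rcases lt_or_eq_of_le ((A.valuation_le_one_iff _).2 a.2) with h | h
    · exact h
    · exact absurd ((A.valuation_eq_one_iff a).2 h) ha
  obtain ⟨n, hn⟩ := exists_pow_valuation_le A hℓ hA (halg a) ha0' ha1
  obtain ⟨N, hN⟩ := exists_pow_le_valuation A hℓ hA (halg b) hb0' b.2
  refine ⟨n * N, ?_⟩
  have hle : A.valuation ((a : L) ^ (n * N)) ≤ A.valuation (b : L) := by
    rw [map_pow, pow_mul]
    exact (pow_le_pow_left₀ zero_le hn N).trans hN
  have hmem : (a : L) ^ (n * N) / (b : L) ∈ A := by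
    rw [← A.valuation_le_one_iff, map_div₀]
    exact div_le_one_of_le₀ hle zero_le
  refine ⟨⟨_, hmem⟩, Subtype.ext ?_⟩
  simp only [SubmonoidClass.coe_pow, MulMemClass.coe_mul]
  field_simp

/-- Prelude form: `A.LiesOverPrime ℓ`. -/
theorem isRankOne_of_liesOverPrime (halg : ∀ x : L, IsAlgebraic ℤ x) (hℓ : ℓ.Prime)
    (hA : A.LiesOverPrime ℓ) : Red.IsRankOne A :=
  isRankOne_of_valuation_natCast_lt_one A halg hℓ ((A.mem_nonunits_iff).1 hA)

/-- **Interface (I4).** A valuation subring of `ℚ̄` lying over a prime `ℓ` has rank one. -/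
theorem isRankOne (A : ValuationSubring (AlgebraicClosure ℚ)) {ℓ : ℕ} [hℓ : Fact ℓ.Prime]
    (hA : A.LiesOverPrime ℓ) : Red.IsRankOne A :=
  isRankOne_of_liesOverPrime A
    (fun x => (IsFractionRing.isAlgebraic_iff ℤ ℚ (AlgebraicClosure ℚ)).2
      ((AlgebraicClosure.instIsAlgClosure ℚ).isAlgebraic.isAlgebraic x)) hℓ.out hA

end Fermat.Agent.Val
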