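import Mathlib
import Fermat.Agent.Val.RankOne

/-!
# Program L, track L-VAL, node V7: the residue field of a valuation ring of `ℚ̄` over a prime

For a valuation subring `A` of a field `L`, `k := IsLocalRing.ResidueField A`:

* `charP_residueField` : if the prime number `ℓ` is a non-unit of `A`, then `k` has
  characteristic `ℓ`;
* `residueField_isAlgClosed` : if `L` is algebraically closed, so is `k`;
* `isAlgebraic_residueField` : if `L` has characteristic zero and is algebraic over `ℤ`, and `ℓ`
  is a non-unit of `A`, then `k` is algebraic over `ZMod ℓ` (for *any* `ZMod ℓ`-algebra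
  structure on `k`, in particular for `ZMod.algebra k ℓ`);
* the instances for `A : ValuationSubring (AlgebraicClosure ℚ)` with `A.LiesOverPrime ℓ`;
* `residue_surjective'`, `residue_eq_zero_iff'` : the two properties of the residue map used by the
  abstract setting of the L-VAL blueprint.
-/

set_option autoImplicit false

open Polynomial IsLocalRing

namespace Fermat.Agent.Val

variable {L : Type*} [Field L] (A : ValuationSubring L) {ℓ : ℕ}

/-- The residue map of a valuation subring is surjective. -/
theorem residue_surjective' : Function.Surjective (residue A) :=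
  IsLocalRing.residue_surjective

/-- The kernel of the residue map is the maximal ideal. -/
theorem residue_eq_zero_iff' (a : A) : residue A a = 0 ↔ a ∈ maximalIdeal A :=
  IsLocalRing.residue_eq_zero_iff a

/-- The kernel of the residue map, in terms of the valuation. -/
theorem residue_eq_zero_iff_valuation_lt_one (a : A) :
    residue A a = 0 ↔ A.valuation (a : L) < 1 := by
  rw [residue_eq_zero_iff', A.valuation_lt_one_iff]

/-- If the prime number `ℓ` is a non-unit of `A`, the residue field has characteristic `ℓ`. -/
theorem charP_residueField (hℓ : ℓ.Prime) (hA : A.valuation (ℓ : L) < 1) :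
    CharP (ResidueField A) ℓ := by
  have hmem : (ℓ : L) ∈ A := natCast_mem A ℓ
  have h0 : ((ℓ : ℕ) : ResidueField A) = 0 := by
    have h1 : residue A (⟨(ℓ : L), hmem⟩ : A) = 0 :=
      (residue_eq_zero_iff_valuation_lt_one A _).2 hA
    have h2 : (⟨(ℓ : L), hmem⟩ : A) = ((ℓ : ℕ) : A) := Subtype.ext (by simp)
    rw [h2, map_natCast] at h1
    exact h1
  exact ringChar.of_eq (CharP.ringChar_of_prime_eq_zero hℓ h0)

/-- The residue field of a valuation subring of an algebraically closed field is algebraically
closed. -/
theorem residueField_isAlgClosed [IsAlgClosed L] : IsAlgClosed (ResidueField A) := by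
  refine IsAlgClosed.of_exists_root _ (fun p hp hirr => ?_)
  -- lift `p` to a monic polynomial over `A`
  have hlift : p ∈ lifts (residue A) :=
    (mem_lifts p).2 (map_surjective _ IsLocalRing.residue_surjective p)
  obtain ⟨P, hPp, hPdeg, hPmonic⟩ := lifts_and_degree_eq_and_monic hlift hp
  -- a root in `L`
  have hdeg : (P.map (algebraMap A L)).degree ≠ 0 := by
    rw [degree_map_eq_of_injective (FaithfulSMul.algebraMap_injective A L), hPdeg]
    exact (degree_pos_of_irreducible hirr).ne'
  obtain ⟨x, hx⟩ := IsAlgClosed.exists_root (P.map (algebraMap A L)) hdeg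
  -- the root is integral over `A`, hence in `A`
  have hint : IsIntegral A x := ⟨P, hPmonic, by rwa [IsRoot, eval_map_algebraMap] at hx⟩
  obtain ⟨y, hy⟩ := IsIntegrallyClosed.isIntegral_iff.1 hint
  refine ⟨residue A y, ?_⟩
  have hPy : eval y P = 0 := by
    have h1 : aeval x P = 0 := by rwa [IsRoot, eval_map_algebraMap] at hx
    rw [← hy, aeval_algebraMap_apply] at h1
    have h2 : algebraMap A L (aeval y P) = algebraMap A L 0 := by rw [h1, map_zero]
    have h3 := FaithfulSMul.algebraMap_injective A L h2
    rwa [coe_aeval_eq_eval] at h3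
  rw [← hPp, eval_map, eval₂_hom, hPy, map_zero]

/-- Every element of the residue field is a root of a non-zero polynomial over `ZMod ℓ`, for any
`ZMod ℓ`-algebra structure on the residue field. -/
theorem isAlgebraic_residueField [CharZero L] (halg : ∀ x : L, IsAlgebraic ℤ x) (hℓ : ℓ.Prime)
    [Algebra (ZMod ℓ) (ResidueField A)] :
    Algebra.IsAlgebraic (ZMod ℓ) (ResidueField A) := by
  have : Fact ℓ.Prime := ⟨hℓ⟩
  refine ⟨fun x => ?_⟩
  obtain ⟨a, rfl⟩ := IsLocalRing.residue_surjective x
  obtain ⟨p₀, hp₀, hp₀a⟩ := halg (a : L)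
  -- a primitive relation
  set p := p₀.primPart with hp
  have hprim : p.IsPrimitive := isPrimitive_primPart p₀
  have hpa : aeval (a : L) p = 0 := by
    have h := eq_C_content_mul_primPart p₀
    have h2 : aeval (a : L) p₀ = (p₀.content : L) * aeval (a : L) p := by
      conv_lhs => rw [h]
      rw [map_mul, aeval_C]
      simp [hp]
    rw [hp₀a] at h2
    have hc : (p₀.content : L) ≠ 0 := by
      exact_mod_cast (content_eq_zero_iff.not.2 hp₀)
    exact (mul_eq_zero.1 h2.symm).resolve_left hc
  have hpaA : aeval a p = 0 := by
    have h1 : aeval (algebraMap A L a) p = 0 := hpa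
    rw [aeval_algebraMap_apply] at h1
    exact FaithfulSMul.algebraMap_injective A L (by rw [h1, map_zero])
  -- its reduction modulo `ℓ` is non-zero
  have hne : p.map (Int.castRingHom (ZMod ℓ)) ≠ 0 := by
    intro h0
    have hall : ∀ i, (ℓ : ℤ) ∣ p.coeff i := fun i => by
      have := congrArg (fun q => q.coeff i) h0
      simp only [coeff_map, coeff_zero, eq_intCast] at this
      exact (ZMod.intCast_zmod_eq_zero_iff_dvd _ _).1 this
    have hunit := hprim _ ((C_dvd_iff_dvd_coeff _ _).2 hall)
    have : (ℓ : ℤ).natAbs = 1 := Int.isUnit_iff_natAbs_eq.1 hunit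
    simp at this
    exact hℓ.ne_one this
  refine ⟨p.map (Int.castRingHom (ZMod ℓ)), hne, ?_⟩
  have h1 : (algebraMap (ZMod ℓ) (ResidueField A)).comp (Int.castRingHom (ZMod ℓ)) =
      (residue A).comp (Int.castRingHom A) := RingHom.ext_int _ _
  have h2 : eval₂ (Int.castRingHom A) a p = 0 := by
    rw [← hpaA, aeval_def, algebraMap_int_eq]
  rw [aeval_def, eval₂_map, h1, ← hom_eval₂, h2, map_zero]

section Qbar

variable (B : ValuationSubring (AlgebraicClosure ℚ)) [hℓ : Fact ℓ.Prime]

/-- Every element of `ℚ̄` is algebraic over `ℤ`. -/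
theorem isAlgebraic_int_algebraicClosure_rat (x : AlgebraicClosure ℚ) : IsAlgebraic ℤ x :=
  (IsFractionRing.isAlgebraic_iff ℤ ℚ (AlgebraicClosure ℚ)).2
    ((AlgebraicClosure.instIsAlgClosure ℚ).isAlgebraic.isAlgebraic x)

/-- The residue field of a valuation subring of `ℚ̄` lying over `ℓ` has characteristic `ℓ`. -/
theorem charP_residueField_of_liesOverPrime (hB : B.LiesOverPrime ℓ) :
    CharP (ResidueField B) ℓ :=
  charP_residueField B hℓ.out ((B.mem_nonunits_iff).1 hB)

/-- The residue field of a valuation subring of `ℚ̄` is algebraically closed. -/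
theorem residueField_isAlgClosed_algebraicClosure_rat : IsAlgClosed (ResidueField B) :=
  residueField_isAlgClosed B

/-- The residue field of a valuation subring of `ℚ̄` is algebraic over `ZMod ℓ`, for any
`ZMod ℓ`-algebra structure on it. -/
theorem isAlgebraic_residueField_algebraicClosure_rat [Algebra (ZMod ℓ) (ResidueField B)] :
    Algebra.IsAlgebraic (ZMod ℓ) (ResidueField B) :=
  isAlgebraic_residueField B isAlgebraic_int_algebraicClosure_rat hℓ.out

/-- The same for the `ZMod.algebra` structure coming from the characteristic. -/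
theorem isAlgebraic_residueField_zmodAlgebra (hB : B.LiesOverPrime ℓ) :
    letI := charP_residueField_of_liesOverPrime B hB
    letI := ZMod.algebra (ResidueField B) ℓ
    Algebra.IsAlgebraic (ZMod ℓ) (ResidueField B) :=
  @isAlgebraic_residueField_algebraicClosure_rat ℓ B hℓ
    (@ZMod.algebra (ResidueField B) _ ℓ (charP_residueField_of_liesOverPrime B hB))

end Qbar

end Fermat.Agent.Val
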