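import Mathlib
import Fermat.Agent.Val.GaussBar
import Fermat.Agent.Val.ResidueFieldA
import Fermat.Prelude.Def_EllipticCurve_FrobeniusTrace

/-!
# L-VAL / S37 (M3): Galois action on the Gauss valuation

* Part 1 (abstract): a ring endomorphism `σ` of `L` mapping the valuation subring `A` into itself
  and inducing `τ` on `k` through `π : A →+* k` (`GaussCompat A π σ τ`) acts coefficientwise on
  `L((q))`, preserves the Gauss ring `gaussRingA A π`, and
  `gaussResA (coeffMap σ x) = coeffMap τ (gaussResA x)`; contents are transported.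
* Part 2: consequences for the Gauss valuation subring `gaussValBar` of `F̄_N` and the
  Prelude's `arithmeticRingAut` / `arithmeticGalois`.
* Part 3: the decomposition group of `A` : the induced automorphism `decompResAut` of the residue
  field; it is trivial on the inertia group and the `q`-power map for a Frobenius element.
* Part 4: the case `L = ℚ̄` (`gaussValQbar`, `gaussResQbar`).
-/

set_option autoImplicit false
set_option linter.unusedSectionVars false
open ModularCurve AlgebraicCurve
open scoped Pointwise

noncomputable section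
namespace Fermat.Agent.Val

/-! ### Part 1: coefficientwise endomorphisms and the Gauss ring -/

section Abstract

variable {L : Type*} [Field L] (A : ValuationSubring L) {k : Type*} [Field k] (π : A →+* k)

/-- `σ : L →+* L` maps `A` into itself and induces `τ : k →+* k` through `π : A →+* k`. -/
structure GaussCompat (σ : L →+* L) (τ : k →+* k) : Prop where
  map_mem : ∀ a : L, a ∈ A → σ a ∈ A
  map_res : ∀ (a : L) (ha : a ∈ A) (h : σ a ∈ A), π ⟨σ a, h⟩ = τ (π ⟨a, ha⟩)

variable {A π}
variable {σ : L →+* L} {τ : k →+* k}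

/-- the restriction of `σ` to `A` -/
def GaussCompat.restrict (h : GaussCompat A π σ τ) : A →+* A where
  toFun a := ⟨σ a, h.map_mem a a.2⟩
  map_one' := Subtype.ext (map_one σ)
  map_mul' a b := Subtype.ext (map_mul σ (a : L) (b : L))
  map_zero' := Subtype.ext (map_zero σ)
  map_add' a b := Subtype.ext (map_add σ (a : L) (b : L))

@[simp] theorem GaussCompat.coe_restrict (h : GaussCompat A π σ τ) (a : A) :
    ((h.restrict a : A) : L) = σ a := rfl

theorem GaussCompat.pi_restrict (h : GaussCompat A π σ τ) (a : A) :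
    π (h.restrict a) = τ (π a) :=
  h.map_res a a.2 _

theorem GaussCompat.coeffMap_aIota (h : GaussCompat A π σ τ) (a : LaurentSeries A) :
    coeffMap σ (aIota A a) = aIota A (coeffMap h.restrict a) := by
  ext n
  rfl

theorem GaussCompat.aRed_coeffMap (h : GaussCompat A π σ τ) (a : LaurentSeries A) :
    aRed π (coeffMap h.restrict a) = coeffMap τ (aRed π a) := by
  ext n
  show π (h.restrict (a.coeff n)) = τ (π (a.coeff n))
  exact h.pi_restrict _

omit [Field L] in
/-- coefficientwise maps along an injective ring hom are injective -/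
theorem coeffMap_inj_of_injective {R S : Type*} [CommRing R] [CommRing S] (f : R →+* S)
    (hf : Function.Injective f) : Function.Injective (coeffMap f) := by
  intro x y hxy
  ext n
  apply hf
  have := congrArg (fun z => z.coeff n) hxy
  simpa [coeffMap_coeff] using this

theorem coeffMap_ne_zero_of_field {k' : Type*} [Field k'] (τ : k →+* k') {x : LaurentSeries k}
    (hx : x ≠ 0) : coeffMap τ x ≠ 0 := by
  intro h
  apply hx
  apply coeffMap_inj_of_injective τ τ.injective
  rw [h, map_zero]

/-- **(a)** `coeffMap σ` preserves the Gauss ring. -/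
theorem GaussCompat.coeffMap_mem_gaussRingA (h : GaussCompat A π σ τ) {x : LaurentSeries L}
    (hx : x ∈ gaussRingA A π) : coeffMap σ x ∈ gaussRingA A π := by
  obtain ⟨a, b, hb, hab⟩ := (mem_gaussRingA_iff A π).mp hx
  refine (mem_gaussRingA_iff A π).mpr ⟨coeffMap h.restrict a, coeffMap h.restrict b, ?_, ?_⟩
  · rw [h.aRed_coeffMap]
    exact coeffMap_ne_zero_of_field τ hb
  · rw [← h.coeffMap_aIota, ← h.coeffMap_aIota, ← map_mul, hab]

/-- **(b)** the residue map intertwines `coeffMap σ` and `coeffMap τ`. -/
theorem GaussCompat.gaussResA_coeffMap (h : GaussCompat A π σ τ) (x : gaussRingA A π) :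
    gaussResA A π ⟨coeffMap σ (x : LaurentSeries L), h.coeffMap_mem_gaussRingA x.2⟩ =
      coeffMap τ (gaussResA A π x) := by
  obtain ⟨a, b, hb, hab⟩ := (mem_gaussRingA_iff A π).mp x.2
  have hb' : aRed π (coeffMap h.restrict b) ≠ 0 := by
    rw [h.aRed_coeffMap]
    exact coeffMap_ne_zero_of_field τ hb
  have hab' : coeffMap σ (x : LaurentSeries L) * aIota A (coeffMap h.restrict b) =
      aIota A (coeffMap h.restrict a) := by
    rw [← h.coeffMap_aIota, ← h.coeffMap_aIota, ← map_mul, hab]
  have h1 := gaussResA_eq A π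
    ⟨coeffMap σ (x : LaurentSeries L), h.coeffMap_mem_gaussRingA x.2⟩ hb' hab'
  have h2 := gaussResA_eq A π x hb hab
  rw [h1, h2, h.aRed_coeffMap, h.aRed_coeffMap]
  exact (map_div₀ (coeffMap τ) _ _).symm

/-- contents are transported -/
theorem GaussCompat.hasContent (h : GaussCompat A π σ τ) {x : LaurentSeries L} {c : L}
    (hc : HasContent A π x c) : HasContent A π (coeffMap σ x) (σ c) := by
  obtain ⟨hc0, a, b, ha, hb, hab⟩ := hc
  refine ⟨(map_ne_zero σ).mpr hc0, coeffMap h.restrict a, coeffMap h.restrict b, ?_, ?_, ?_⟩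
  · rw [h.aRed_coeffMap]
    exact coeffMap_ne_zero_of_field τ ha
  · rw [h.aRed_coeffMap]
    exact coeffMap_ne_zero_of_field τ hb
  · rw [← h.coeffMap_aIota, ← h.coeffMap_aIota, ← map_mul, hab, map_mul]
    congr 1
    rw [HahnSeries.C_apply, coeffMap_single, HahnSeries.C_apply]

end Abstract

/-! ### Part 2: the Gauss valuation subring of `F̄_N` -/

section Bar

variable {L : Type*} [Field L] [Algebra ℚ L] [Algebra.IsAlgebraic ℚ L] {A : ValuationSubring L}
  {k : Type*} [Field k] {π : A →+* k} (N : ℕ) [NeZero N] {ℓ : ℕ} (hℓ : ℓ ≠ 0)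
  (hA : A.LiesOverPrime ℓ)
variable {σ : L ≃ₐ[ℚ] L} {τ : k →+* k}

/-- `σ` preserves the Gauss valuation subring of `F̄_N`. -/
theorem GaussCompat.arithmeticRingAut_mem_gaussValBar (h : GaussCompat A π (σ : L →+* L) τ)
    {x : laurentBaseChange L (modularFunctionFieldFull N)} (hx : x ∈ gaussValBar A π N hℓ hA) :
    arithmeticRingAut (modularFunctionFieldFull N) σ x ∈ gaussValBar A π N hℓ hA :=
  h.coeffMap_mem_gaussRingA hx

/-- the residue map of `F̄_N` intertwines `σ` and `coeffMap τ`. -/
theorem GaussCompat.gaussResBar_arithmeticRingAut (h : GaussCompat A π (σ : L →+* L) τ)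
    (x : gaussValBar A π N hℓ hA) :
    gaussResBar A π N hℓ hA ⟨arithmeticRingAut (modularFunctionFieldFull N) σ x,
        h.arithmeticRingAut_mem_gaussValBar N hℓ hA x.2⟩ =
      coeffMap τ (gaussResBar A π N hℓ hA x) :=
  h.gaussResA_coeffMap ⟨_, x.2⟩

/-- If `σ` and `σ⁻¹` are both compatible, membership is an equivalence. -/
theorem GaussCompat.arithmeticRingAut_mem_gaussValBar_iff {τ' : k →+* k}
    (h : GaussCompat A π (σ : L →+* L) τ) (h' : GaussCompat A π (σ.symm : L →+* L) τ')
    {x : laurentBaseChange L (modularFunctionFieldFull N)} :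
    arithmeticRingAut (modularFunctionFieldFull N) σ x ∈ gaussValBar A π N hℓ hA ↔
      x ∈ gaussValBar A π N hℓ hA := by
  refine ⟨fun hx => ?_, h.arithmeticRingAut_mem_gaussValBar N hℓ hA⟩
  have h1 := h'.arithmeticRingAut_mem_gaussValBar N hℓ hA hx
  have h2 : arithmeticRingAut (modularFunctionFieldFull N) σ.symm
      (arithmeticRingAut (modularFunctionFieldFull N) σ x) = x :=
    (arithmeticRingAut (modularFunctionFieldFull N) σ).symm_apply_apply x
  rwa [h2] at h1

/-- The Gauss valuation subring of `F̄_N` is stable under the Prelude's arithmetic Galois action. -/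
theorem GaussCompat.smul_gaussValBar {τ' : k →+* k}
    (h : GaussCompat A π (σ : L →+* L) τ) (h' : GaussCompat A π (σ.symm : L →+* L) τ') :
    arithmeticGalois (modularFunctionFieldFull N) σ • gaussValBar A π N hℓ hA =
      gaussValBar A π N hℓ hA := by
  ext x
  rw [ValuationSubring.mem_pointwise_smul_iff_inv_smul_mem, ← map_inv]
  constructor
  · intro hx
    have h1 := h.arithmeticRingAut_mem_gaussValBar N hℓ hA hx
    have h2 : arithmeticRingAut (modularFunctionFieldFull N) σ
        (arithmeticGalois (modularFunctionFieldFull N) σ⁻¹ • x) = x :=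
      (arithmeticRingAut (modularFunctionFieldFull N) σ).apply_symm_apply x
    rwa [h2] at h1
  · intro hx
    exact h'.arithmeticRingAut_mem_gaussValBar N hℓ hA hx

end Bar

/-! ### Part 3: the decomposition group and the residue field -/

section Decomp

variable {K L : Type*} [Field K] [Field L] [Algebra K L] (A : ValuationSubring L)

/-- The automorphism of the residue field of `A` induced by an element of the decomposition
group of `A`. -/
def decompResAut (g : A.decompositionSubgroup K) :
    IsLocalRing.ResidueField A ≃+* IsLocalRing.ResidueField A :=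
  MulSemiringAction.toRingAut (A.decompositionSubgroup K) (IsLocalRing.ResidueField A) g

variable {A}

theorem decompResAut_apply (g : A.decompositionSubgroup K) (x : IsLocalRing.ResidueField A) :
    decompResAut A g x = g • x := rfl

theorem coe_decomp_smul (g : A.decompositionSubgroup K) (a : A) :
    ((g • a : A) : L) = (g : L ≃ₐ[K] L) (a : L) := rfl

theorem decompResAut_residue (g : A.decompositionSubgroup K) (a : A) :
    decompResAut A g (IsLocalRing.residue A a) = IsLocalRing.residue A (g • a) :=
  (IsLocalRing.ResidueField.residue_smul (A.decompositionSubgroup K) g a).symm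

theorem decompResAut_one : decompResAut A (1 : A.decompositionSubgroup K) = RingEquiv.refl _ :=
  map_one (MulSemiringAction.toRingAut (A.decompositionSubgroup K) (IsLocalRing.ResidueField A))

theorem decompResAut_mul (g h : A.decompositionSubgroup K) (x : IsLocalRing.ResidueField A) :
    decompResAut A (g * h) x = decompResAut A g (decompResAut A h x) :=
  mul_smul g h x

theorem mem_of_mem_decompositionSubgroup {σ : L ≃ₐ[K] L} (hσ : σ ∈ A.decompositionSubgroup K)
    {a : L} (ha : a ∈ A) : σ a ∈ A :=
  ((⟨σ, hσ⟩ : A.decompositionSubgroup K) • (⟨a, ha⟩ : A)).2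

/-- **An element of the decomposition group is compatible with the residue map.** -/
theorem gaussCompat_of_mem_decompositionSubgroup {σ : L ≃ₐ[K] L}
    (hσ : σ ∈ A.decompositionSubgroup K) :
    GaussCompat A (IsLocalRing.residue A) (σ : L →+* L)
      ((decompResAut A ⟨σ, hσ⟩ : IsLocalRing.ResidueField A ≃+* IsLocalRing.ResidueField A) :
        IsLocalRing.ResidueField A →+* IsLocalRing.ResidueField A) where
  map_mem _ ha := mem_of_mem_decompositionSubgroup hσ ha
  map_res a ha _ := (decompResAut_residue ⟨σ, hσ⟩ ⟨a, ha⟩).symm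

theorem symm_mem_decompositionSubgroup {σ : L ≃ₐ[K] L} (hσ : σ ∈ A.decompositionSubgroup K) :
    σ.symm ∈ A.decompositionSubgroup K :=
  inv_mem hσ

/-- **(c)** elements of the inertia group act trivially on the residue field. -/
theorem decompResAut_of_mem_inertiaSubgroupIn {σ : L ≃ₐ[K] L} (hσ : σ ∈ A.inertiaSubgroupIn K)
    (hσ' : σ ∈ A.decompositionSubgroup K) : decompResAut A ⟨σ, hσ'⟩ = RingEquiv.refl _ := by
  obtain ⟨s, hs, rfl⟩ := hσ
  exact hs

theorem mem_decomposition_of_mem_inertiaIn {σ : L ≃ₐ[K] L}
    (hσ : σ ∈ A.inertiaSubgroupIn K) : σ ∈ A.decompositionSubgroup K := by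
  obtain ⟨s, _, rfl⟩ := hσ
  exact s.2

/-- **(d)** a Frobenius element acts as the `q`-power map on the residue field. -/
theorem decompResAut_of_isFrobeniusAt {σ : L ≃ₐ[K] L} {q : ℕ} (hσ : A.IsFrobeniusAt σ q)
    (hσ' : σ ∈ A.decompositionSubgroup K) (x : IsLocalRing.ResidueField A) :
    decompResAut A ⟨σ, hσ'⟩ x = x ^ q :=
  hσ.smul_residue_eq x

end Decomp

/-! ### Part 4: `L = ℚ̄` -/

section Qbar

variable {B : ValuationSubring (AlgebraicClosure ℚ)} (N : ℕ) [NeZero N] {ℓ : ℕ} (hℓ : ℓ ≠ 0)
  (hB : B.LiesOverPrime ℓ)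
variable {σ : AlgebraicClosure ℚ ≃ₐ[ℚ] AlgebraicClosure ℚ}

/-- The decomposition group of `B` preserves the Gauss valuation subring of `F̄_N`. -/
theorem smul_mem_gaussValQbar (hσ : σ ∈ B.decompositionSubgroup ℚ)
    {x : modularFunctionFieldBar N} (hx : x ∈ gaussValQbar B N hℓ hB) :
    arithmeticGalois (modularFunctionFieldFull N) σ • x ∈ gaussValQbar B N hℓ hB :=
  haveI := algebraIsAlgebraic_rat_algebraicClosure
  (gaussCompat_of_mem_decompositionSubgroup hσ).arithmeticRingAut_mem_gaussValBar N hℓ hB hx

theorem smul_mem_gaussValQbar_iff (hσ : σ ∈ B.decompositionSubgroup ℚ)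
    {x : modularFunctionFieldBar N} :
    arithmeticGalois (modularFunctionFieldFull N) σ • x ∈ gaussValQbar B N hℓ hB ↔
      x ∈ gaussValQbar B N hℓ hB :=
  haveI := algebraIsAlgebraic_rat_algebraicClosure
  (gaussCompat_of_mem_decompositionSubgroup hσ).arithmeticRingAut_mem_gaussValBar_iff N hℓ hB
    (gaussCompat_of_mem_decompositionSubgroup (symm_mem_decompositionSubgroup hσ))

/-- **(a)** `σ • O = O` for `σ` in the decomposition group, `O` the Gauss valuation subring. -/
theorem smul_gaussValQbar (hσ : σ ∈ B.decompositionSubgroup ℚ) :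
    arithmeticGalois (modularFunctionFieldFull N) σ • gaussValQbar B N hℓ hB =
      gaussValQbar B N hℓ hB :=
  haveI := algebraIsAlgebraic_rat_algebraicClosure
  (gaussCompat_of_mem_decompositionSubgroup hσ).smul_gaussValBar N hℓ hB
    (gaussCompat_of_mem_decompositionSubgroup (symm_mem_decompositionSubgroup hσ))

/-- **(b)** the residue map intertwines `σ` and the coefficientwise action of the induced
automorphism of the residue field. -/
theorem gaussResQbar_smul (hσ : σ ∈ B.decompositionSubgroup ℚ) (x : gaussValQbar B N hℓ hB) :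
    gaussResQbar B N hℓ hB
        ⟨arithmeticGalois (modularFunctionFieldFull N) σ • (x : modularFunctionFieldBar N),
          smul_mem_gaussValQbar N hℓ hB hσ x.2⟩ =
      coeffMap ((decompResAut B ⟨σ, hσ⟩ :
          IsLocalRing.ResidueField B ≃+* IsLocalRing.ResidueField B) :
        IsLocalRing.ResidueField B →+* IsLocalRing.ResidueField B)
        (gaussResQbar B N hℓ hB x) :=
  haveI := algebraIsAlgebraic_rat_algebraicClosure
  (gaussCompat_of_mem_decompositionSubgroup hσ).gaussResBar_arithmeticRingAut N hℓ hB x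

/-- **(c)** the inertia group acts trivially on residues. -/
theorem gaussResQbar_smul_of_mem_inertiaSubgroupIn (hσ : σ ∈ B.inertiaSubgroupIn ℚ)
    (x : gaussValQbar B N hℓ hB) :
    gaussResQbar B N hℓ hB
        ⟨arithmeticGalois (modularFunctionFieldFull N) σ • (x : modularFunctionFieldBar N),
          smul_mem_gaussValQbar N hℓ hB (mem_decomposition_of_mem_inertiaIn hσ)
            x.2⟩ =
      gaussResQbar B N hℓ hB x := by
  rw [gaussResQbar_smul N hℓ hB (mem_decomposition_of_mem_inertiaIn hσ) x,
    decompResAut_of_mem_inertiaSubgroupIn hσ]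
  exact coeffMap_id _

/-- **(d)** a Frobenius element acts on residues as the coefficientwise `ℓ`-power map. -/
theorem coeff_gaussResQbar_smul_of_isFrobeniusAt {q : ℕ} (hσ : B.IsFrobeniusAt σ q)
    (x : gaussValQbar B N hℓ hB) (n : ℤ) :
    (gaussResQbar B N hℓ hB
        ⟨arithmeticGalois (modularFunctionFieldFull N) σ • (x : modularFunctionFieldBar N),
          smul_mem_gaussValQbar N hℓ hB hσ.mem_decompositionSubgroup x.2⟩).coeff n =
      ((gaussResQbar B N hℓ hB x).coeff n) ^ q := by
  rw [gaussResQbar_smul N hℓ hB hσ.mem_decompositionSubgroup x, coeffMap_coeff]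
  exact decompResAut_of_isFrobeniusAt hσ _ _

end Qbar

end Fermat.Agent.Val
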