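import Fermat.Agent.Val.Deliverable
import Fermat.Agent.Val.GaussGalois

/-!
# L-VAL / S37 (M3): the decomposition group and the constant reduction `constRedBar`

For `A ⊂ ℚ̄` over `ℓ ∤ N`, `S := constRedBar N hℓN A hA` (`Val/Deliverable.lean`) and `σ` in the
decomposition group of `A`, the Prelude automorphism `g := arithmeticGalois _ σ` of `F̄_N` maps
`S.O` into itself, and `S.res (g • x)` is the coefficientwise image of `S.res x` under the induced
automorphism `decompResAut A ⟨σ, hσ⟩` of the residue field: these are the hypotheses `hO`, `hres`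
of `ConstRed.conserves_smul` (`Val/DeuringEquivariant.lean`).
-/

set_option autoImplicit false
set_option linter.unusedSectionVars false
open ModularCurve AlgebraicCurve IsLocalRing

noncomputable section
namespace Fermat.Agent.Val

set_option synthInstance.maxHeartbeats 400000

variable (N : ℕ) [NeZero N] {ℓ : ℕ} [hℓ : Fact ℓ.Prime] (hℓN : ¬ ℓ ∣ N)
variable (A : ValuationSubring (AlgebraicClosure ℚ)) (hA : A.LiesOverPrime ℓ)
variable {σ : AlgebraicClosure ℚ ≃ₐ[ℚ] AlgebraicClosure ℚ}

/-- the residue map of `constRedBar`, as a series -/
theorem coe_constRedBar_res (x : (constRedBar N hℓN A hA).O) :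
    (((constRedBar N hℓN A hA).res x :
        modularFunctionFieldFullC (IsLocalRing.ResidueField A) N) :
      LaurentSeries (IsLocalRing.ResidueField A)) =
      gaussResQbar A N hℓ.out.ne_zero hA ⟨(x : modularFunctionFieldBar N), x.2⟩ := rfl

/-- **`hO`**: the decomposition group of `A` preserves the valuation ring of `constRedBar`. -/
theorem constRedBar_smul_mem (hσ : σ ∈ A.decompositionSubgroup ℚ)
    (x : modularFunctionFieldBar N) (hx : x ∈ (constRedBar N hℓN A hA).O) :
    arithmeticGalois (modularFunctionFieldFull N) σ • x ∈ (constRedBar N hℓN A hA).O :=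
  smul_mem_gaussValQbar N hℓ.out.ne_zero hA hσ hx

/-- **`hres`** (series form): the residue map of `constRedBar` intertwines `σ` with the
coefficientwise action of the induced automorphism of the residue field. -/
theorem coe_constRedBar_res_smul (hσ : σ ∈ A.decompositionSubgroup ℚ)
    (x : (constRedBar N hℓN A hA).O) :
    (((constRedBar N hℓN A hA).res
        ⟨arithmeticGalois (modularFunctionFieldFull N) σ • (x : modularFunctionFieldBar N),
          constRedBar_smul_mem N hℓN A hA hσ x x.2⟩ :
        modularFunctionFieldFullC (IsLocalRing.ResidueField A) N) :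
      LaurentSeries (IsLocalRing.ResidueField A)) =
      coeffMap ((decompResAut A ⟨σ, hσ⟩ :
          IsLocalRing.ResidueField A ≃+* IsLocalRing.ResidueField A) :
        IsLocalRing.ResidueField A →+* IsLocalRing.ResidueField A)
        (((constRedBar N hℓN A hA).res x :
          modularFunctionFieldFullC (IsLocalRing.ResidueField A) N) :
        LaurentSeries (IsLocalRing.ResidueField A)) :=
  gaussResQbar_smul N hℓ.out.ne_zero hA hσ ⟨(x : modularFunctionFieldBar N), x.2⟩

/-- inertia acts trivially on the residues of `constRedBar` -/
theorem constRedBar_res_smul_of_mem_inertiaSubgroupIn (hσ : σ ∈ A.inertiaSubgroupIn ℚ)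
    (x : (constRedBar N hℓN A hA).O) :
    (constRedBar N hℓN A hA).res
        ⟨arithmeticGalois (modularFunctionFieldFull N) σ • (x : modularFunctionFieldBar N),
          constRedBar_smul_mem N hℓN A hA (mem_decomposition_of_mem_inertiaIn hσ) x x.2⟩ =
      (constRedBar N hℓN A hA).res x :=
  Subtype.ext (gaussResQbar_smul_of_mem_inertiaSubgroupIn N hℓ.out.ne_zero hA hσ
    ⟨(x : modularFunctionFieldBar N), x.2⟩)

/-- a Frobenius element acts on the residues of `constRedBar` as the coefficientwise `q`-power
map -/
theorem coeff_constRedBar_res_smul_of_isFrobeniusAt {q : ℕ} (hσ : A.IsFrobeniusAt σ q)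
    (x : (constRedBar N hℓN A hA).O) (n : ℤ) :
    (((constRedBar N hℓN A hA).res
        ⟨arithmeticGalois (modularFunctionFieldFull N) σ • (x : modularFunctionFieldBar N),
          constRedBar_smul_mem N hℓN A hA hσ.mem_decompositionSubgroup x x.2⟩ :
        modularFunctionFieldFullC (IsLocalRing.ResidueField A) N) :
      LaurentSeries (IsLocalRing.ResidueField A)).coeff n =
      ((((constRedBar N hℓN A hA).res x :
          modularFunctionFieldFullC (IsLocalRing.ResidueField A) N) :
        LaurentSeries (IsLocalRing.ResidueField A)).coeff n) ^ q :=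
  coeff_gaussResQbar_smul_of_isFrobeniusAt N hℓ.out.ne_zero hA hσ
    ⟨(x : modularFunctionFieldBar N), x.2⟩ n

end Fermat.Agent.Val
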