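import Mathlib
import Fermat.Agent.FF.RiemannPkg
import Fermat.Agent.X0.ModDeg

/-!
# Program L, interface (I5), characteristic zero half

`riemannPkg_bar N : Red.RiemannPkg ℚ̄ (modularFunctionFieldBar N)` from `X0.jBar_isSepVar` and the
characteristic-free Riemann package `FF.riemannPkg`.
-/

set_option autoImplicit false

namespace Fermat.Agent.Val

open ModularCurve IntermediateField Fermat.Agent.X0 Fermat.Agent.FF

/-- `j` is a separating variable (in the characteristic-free sense) of `F̄_N / ℚ̄`. -/
theorem jBar_isSepVarS (N : ℕ) [NeZero N] : IsSepVarS Kb (jBar N) (dedekindPsi N) := by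
  have h := jBar_isSepVar N
  haveI := h.finite
  exact ⟨h, inferInstance⟩

/-- **(I5), bar half.** The Riemann package of the function field of `X₀(N)` over `ℚ̄`. -/
theorem riemannPkg_bar (N : ℕ) [NeZero N] :
    Red.RiemannPkg (AlgebraicClosure ℚ) (modularFunctionFieldBar N) :=
  riemannPkg (jBar_isSepVarS N)

end Fermat.Agent.Val
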