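import Mathlib
import Fermat.Agent.Red.Setup

/-!
# L-VAL (Program L): constant reductions without a place map

`ConstRed A π` is `Red.RedSetup A π` minus the place reduction `r` (and its two axioms): a valued
function field `F/K` (valuation subring `O` over `A`) with residue function field `Ft/k`, residue
map `res` and the best-approximation property `approx`.  It is the input of the Deuring
construction of `r` (`Val/Deuring*.lean`).  The basic API below is a verbatim transcription of
`Red/Basic.lean` (which is stated for `RedSetup` but never uses `r`).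
-/

set_option autoImplicit false

namespace Fermat.Agent.Val

open AlgebraicCurve

/-- A valued function field with residue function field and best approximations
(`Red.RedSetup` without the place map). -/
structure ConstRed {K F k Ft : Type*} [Field K] [Field F] [Algebra K F] [Field k] [Field Ft]
    [Algebra k Ft] (A : ValuationSubring K) (π : A →+* k) where
  /-- the valuation ring of the constant-reduction valuation `v` on `F` -/
  O : ValuationSubring F
  /-- the residue map -/
  res : O →+* Ft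
  res_surjective : Function.Surjective res
  res_eq_zero_iff : ∀ x : O, res x = 0 ↔ ¬ IsUnit x
  algebraMap_mem_iff : ∀ a : K, algebraMap K F a ∈ O ↔ a ∈ A
  res_algebraMap : ∀ (a : K) (ha : a ∈ A) (ha' : algebraMap K F a ∈ O),
    res ⟨algebraMap K F a, ha'⟩ = algebraMap k Ft (π ⟨a, ha⟩)
  approx : ∀ V : Submodule K F, Module.Finite K V → ∀ y : F, y ∉ V →
    ∃ w ∈ V, ∃ c : K, c ≠ 0 ∧ ∃ h : c • (y - w) ∈ O,
      ∀ z : O, (z : F) ∈ V → res z ≠ res ⟨c • (y - w), h⟩

variable {K F k Ft : Type*} [Field K] [Field F] [Algebra K F] [Field k] [Field Ft]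
  [Algebra k Ft] {A : ValuationSubring K} {π : A →+* k}

/-- Forget the place map of a `RedSetup`. -/
def _root_.Fermat.Agent.Red.RedSetup.toConstRed (S : Red.RedSetup (F := F) (Ft := Ft) A π) :
    ConstRed (F := F) (Ft := Ft) A π where
  O := S.O
  res := S.res
  res_surjective := S.res_surjective
  res_eq_zero_iff := S.res_eq_zero_iff
  algebraMap_mem_iff := S.algebraMap_mem_iff
  res_algebraMap := S.res_algebraMap
  approx := S.approx

/-- Add a place map with conservation to a `ConstRed`. -/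
def ConstRed.toRedSetup (S : ConstRed (F := F) (Ft := Ft) A π) (r : Place K F → Place k Ft)
    (deg_r : ∀ P, (r P).deg = P.deg)
    (conservation : ∀ y : S.O, S.res y ≠ 0 → ∀ D : Divisor K F, (∀ P, D P = P.ord (y : F)) →
      ∀ Q, Finsupp.mapDomain r D Q = Q.ord (S.res y)) :
    Red.RedSetup (F := F) (Ft := Ft) A π where
  O := S.O
  res := S.res
  res_surjective := S.res_surjective
  res_eq_zero_iff := S.res_eq_zero_iff
  algebraMap_mem_iff := S.algebraMap_mem_iff
  res_algebraMap := S.res_algebraMap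
  r := r
  deg_r := deg_r
  conservation := conservation
  approx := S.approx

namespace ConstRed

variable (S : ConstRed (F := F) (Ft := Ft) A π)

/-- The residue map, extended by zero outside the valuation ring. -/
noncomputable def resF (x : F) : Ft :=
  letI := Classical.propDecidable (x ∈ S.O)
  if h : x ∈ S.O then S.res ⟨x, h⟩ else 0

theorem resF_of_mem {x : F} (h : x ∈ S.O) : S.resF x = S.res ⟨x, h⟩ := by
  unfold resF
  rw [dif_pos h]

theorem resF_of_not_mem {x : F} (h : x ∉ S.O) : S.resF x = 0 := by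
  unfold resF
  rw [dif_neg h]

@[simp] theorem resF_zero : S.resF 0 = 0 := by
  rw [S.resF_of_mem S.O.zero_mem]
  exact map_zero S.res

@[simp] theorem resF_one : S.resF 1 = 1 := by
  rw [S.resF_of_mem S.O.one_mem]
  exact map_one S.res

theorem resF_add {x y : F} (hx : x ∈ S.O) (hy : y ∈ S.O) :
    S.resF (x + y) = S.resF x + S.resF y := by
  rw [S.resF_of_mem hx, S.resF_of_mem hy, S.resF_of_mem (S.O.add_mem _ _ hx hy), ← map_add]
  rfl

theorem resF_mul {x y : F} (hx : x ∈ S.O) (hy : y ∈ S.O) :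
    S.resF (x * y) = S.resF x * S.resF y := by
  rw [S.resF_of_mem hx, S.resF_of_mem hy, S.resF_of_mem (S.O.mul_mem _ _ hx hy), ← map_mul]
  rfl

theorem resF_neg {x : F} (hx : x ∈ S.O) : S.resF (-x) = -S.resF x := by
  rw [S.resF_of_mem hx, S.resF_of_mem (S.O.neg_mem _ hx), ← map_neg]
  rfl

theorem resF_sub {x y : F} (hx : x ∈ S.O) (hy : y ∈ S.O) :
    S.resF (x - y) = S.resF x - S.resF y := by
  rw [sub_eq_add_neg, S.resF_add hx (S.O.neg_mem _ hy), S.resF_neg hy, sub_eq_add_neg]

theorem resF_pow {x : F} (hx : x ∈ S.O) (n : ℕ) : S.resF (x ^ n) = S.resF x ^ n := by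
  rw [S.resF_of_mem hx, S.resF_of_mem (pow_mem hx n), ← map_pow]
  rfl

theorem resF_sum {ι : Type*} (s : Finset ι) (x : ι → F) (hx : ∀ i ∈ s, x i ∈ S.O) :
    S.resF (∑ i ∈ s, x i) = ∑ i ∈ s, S.resF (x i) := by
  classical
  induction s using Finset.induction_on with
  | empty => simp
  | insert i s hi ih =>
    rw [Finset.sum_insert hi, Finset.sum_insert hi,
      S.resF_add (hx i (Finset.mem_insert_self i s))
        (S.O.sum_mem fun j hj => hx j (Finset.mem_insert_of_mem hj)),
      ih fun j hj => hx j (Finset.mem_insert_of_mem hj)]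

theorem sum_mem {ι : Type*} (s : Finset ι) (x : ι → F) (hx : ∀ i ∈ s, x i ∈ S.O) :
    ∑ i ∈ s, x i ∈ S.O :=
  S.O.sum_mem hx

/-- Non-units of `O` are exactly the elements with zero residue. -/
theorem resF_eq_zero_iff {x : F} (hx : x ∈ S.O) : S.resF x = 0 ↔ x ∈ S.O.nonunits := by
  rw [S.resF_of_mem hx, S.res_eq_zero_iff]
  have h1 : (x ∈ S.O.nonunits) ↔ (⟨x, hx⟩ : S.O) ∈ IsLocalRing.maximalIdeal S.O :=
    ValuationSubring.coe_mem_nonunits_iff (A := S.O) (a := ⟨x, hx⟩)
  rw [h1, IsLocalRing.mem_maximalIdeal, mem_nonunits_iff]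

theorem resF_ne_zero_iff {x : F} (hx : x ∈ S.O) : S.resF x ≠ 0 ↔ x ≠ 0 ∧ x⁻¹ ∈ S.O := by
  rw [Ne, S.resF_eq_zero_iff hx, ValuationSubring.mem_nonunits_iff_or]
  push Not
  rfl

theorem inv_mem_of_resF_ne_zero {x : F} (h : S.resF x ≠ 0) : x⁻¹ ∈ S.O := by
  by_cases hx : x ∈ S.O
  · exact ((S.resF_ne_zero_iff hx).mp h).2
  · exact absurd (S.resF_of_not_mem hx) h

theorem mem_of_resF_ne_zero {x : F} (h : S.resF x ≠ 0) : x ∈ S.O := by
  by_contra hx
  exact h (S.resF_of_not_mem hx)

theorem ne_zero_of_resF_ne_zero {x : F} (h : S.resF x ≠ 0) : x ≠ 0 := by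
  rintro rfl
  exact h S.resF_zero

theorem resF_inv {x : F} (h : S.resF x ≠ 0) : S.resF x⁻¹ = (S.resF x)⁻¹ := by
  have hx := S.mem_of_resF_ne_zero h
  have hxi := S.inv_mem_of_resF_ne_zero h
  have h0 := S.ne_zero_of_resF_ne_zero h
  have := S.resF_mul hx hxi
  rw [mul_inv_cancel₀ h0, S.resF_one] at this
  exact eq_inv_of_mul_eq_one_right this.symm

/-- Constants: `a ∈ A` maps into `O`. -/
theorem algebraMap_mem {a : K} (ha : a ∈ A) : algebraMap K F a ∈ S.O :=
  (S.algebraMap_mem_iff a).mpr ha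

theorem resF_algebraMap {a : K} (ha : a ∈ A) :
    S.resF (algebraMap K F a) = algebraMap k Ft (π ⟨a, ha⟩) := by
  rw [S.resF_of_mem (S.algebraMap_mem ha)]
  exact S.res_algebraMap a ha _

theorem smul_mem {a : K} (ha : a ∈ A) {x : F} (hx : x ∈ S.O) : a • x ∈ S.O := by
  rw [Algebra.smul_def]
  exact S.O.mul_mem _ _ (S.algebraMap_mem ha) hx

theorem resF_smul {a : K} (ha : a ∈ A) {x : F} (hx : x ∈ S.O) :
    S.resF (a • x) = π ⟨a, ha⟩ • S.resF x := by
  rw [Algebra.smul_def, S.resF_mul (S.algebraMap_mem ha) hx, S.resF_algebraMap ha,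
    Algebra.smul_def]

include S in
/-- `π a = 0` iff `a` is a non-unit of `A`. -/
theorem pi_eq_zero_iff (a : A) : π a = 0 ↔ (a : K) ∈ A.nonunits := by
  have h1 : S.resF (algebraMap K F (a : K)) = algebraMap k Ft (π a) := S.resF_algebraMap a.2
  have h2 : π a = 0 ↔ S.resF (algebraMap K F (a : K)) = 0 := by
    rw [h1]
    constructor
    · intro h; rw [h, map_zero]
    · intro h
      exact (map_eq_zero_iff _ (algebraMap k Ft).injective).mp h
  rw [h2, S.resF_eq_zero_iff (S.algebraMap_mem a.2), ValuationSubring.mem_nonunits_iff_or,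
    ValuationSubring.mem_nonunits_iff_or]
  constructor
  · rintro (h | h)
    · left
      exact (map_eq_zero_iff _ (algebraMap K F).injective).mp h
    · right
      intro hinv
      apply h
      rw [← map_inv₀]
      exact S.algebraMap_mem hinv
  · rintro (h | h)
    · left
      rw [h, map_zero]
    · right
      intro hinv
      apply h
      rw [← map_inv₀] at hinv
      exact (S.algebraMap_mem_iff _).mp hinv

include S in
theorem pi_ne_zero_of_unit {a : K} (ha : a ∈ A) (hai : a⁻¹ ∈ A) (h0 : a ≠ 0) : π ⟨a, ha⟩ ≠ 0 := by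
  rw [Ne, S.pi_eq_zero_iff, ValuationSubring.mem_nonunits_iff_or]
  push Not
  exact ⟨h0, hai⟩

/-- If `a ∉ A` then `a⁻¹` is a non-unit of `A`, so scaling by it kills residues. -/
theorem resF_smul_eq_zero_of_not_mem {a : K} (ha : a ∉ A) {x : F} (hx : x ∈ S.O) :
    a⁻¹ • x ∈ S.O ∧ S.resF (a⁻¹ • x) = 0 := by
  have hai : a⁻¹ ∈ A := (A.mem_or_inv_mem a).resolve_left ha
  refine ⟨S.smul_mem hai hx, ?_⟩
  rw [S.resF_smul hai hx]
  have : π ⟨a⁻¹, hai⟩ = 0 := by
    rw [S.pi_eq_zero_iff, ValuationSubring.mem_nonunits_iff_or]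
    right
    simpa using ha
  rw [this, zero_smul]

end ConstRed

end Fermat.Agent.Val
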