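import Mathlib
import Fermat.Agent.Igusa.CoeffRingModEq

/-!
# Modular equation data over every algebraically closed field of characteristic `ℓ ∤ N`

`Igusa/CoeffRingModEq.lean` produces modular equation data over *some* algebraically closed field
of characteristic `ℓ`.  Here: over *every* algebraically closed field `k` of characteristic `ℓ`
(the residue fields of `C' = modEqCoeffRing N` at maximal ideals above `ℓ` are algebraic over
`𝔽_ℓ`, hence embed into `k`).

* `exists_ringHom_modEqCoeffRing` : a ring hom `C' →+* k`;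
* `exists_modEqData_of_isAlgClosed` : for every prime `p ∣ N`, data `ModEqData k p ζ pinv` with `ζ`
  a primitive `p`-th root of unity.
-/

set_option autoImplicit false

namespace Fermat.Agent.Val

open Fermat.Agent.Igusa Polynomial

section RingHom

variable {N ℓ : ℕ}

/-- The image of `C'` in a field of characteristic `ℓ ∤ N` is algebraic over `𝔽_ℓ`. -/
theorem isAlgebraic_ringHom_modEqCoeffRing (hℓ : ℓ.Prime) (hℓN : ¬ ℓ ∣ N)
    {K₁ : Type*} [Field K₁] [Algebra (ZMod ℓ) K₁] (q : modEqCoeffRing N →+* K₁)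
    (z : modEqCoeffRing N) : IsAlgebraic (ZMod ℓ) (q z) := by
  haveI : Fact ℓ.Prime := ⟨hℓ⟩
  obtain ⟨k, hk⟩ := z.2
  obtain ⟨g, hgm, hg⟩ := hk
  -- the element `w = N^k z` of `C'`
  set w : modEqCoeffRing N := ((N : ℕ) : modEqCoeffRing N) ^ k * z with hw
  have hwC : ((w : modEqCoeffRing N) : ℂ) = (N : ℂ) ^ k * (z : ℂ) := by
    rw [hw]; push_cast; rfl
  -- `g(w) = 0` in `C'`
  have hgw : Polynomial.eval₂ (Int.castRingHom (modEqCoeffRing N)) w g = 0 := by
    apply Subtype.val_injective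
    have h1 : ((Polynomial.eval₂ (Int.castRingHom (modEqCoeffRing N)) w g : modEqCoeffRing N) : ℂ) =
        Polynomial.eval₂ (Int.castRingHom ℂ) ((w : modEqCoeffRing N) : ℂ) g := by
      have := Polynomial.hom_eval₂ g (Int.castRingHom (modEqCoeffRing N))
        (modEqCoeffRing N).subtype w
      rw [show ((modEqCoeffRing N).subtype.comp (Int.castRingHom (modEqCoeffRing N))) =
        Int.castRingHom ℂ from RingHom.ext_int _ _] at this
      exact this
    rw [h1, hwC]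
    have h2 : Polynomial.eval₂ (algebraMap ℤ ℂ) ((N : ℂ) ^ k * (z : ℂ)) g = 0 := hg
    rw [show (algebraMap ℤ ℂ) = Int.castRingHom ℂ from RingHom.ext_int _ _] at h2
    rw [h2]
    rfl
  -- apply `q`
  have hgq : Polynomial.eval₂ (Int.castRingHom K₁) (q w) g = 0 := by
    have := congrArg q hgw
    rw [Polynomial.hom_eval₂, map_zero] at this
    rw [show (q.comp (Int.castRingHom (modEqCoeffRing N))) =
      Int.castRingHom K₁ from RingHom.ext_int _ _] at this
    exact this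
  -- `q w` is algebraic over `ZMod ℓ`
  have hqw : IsAlgebraic (ZMod ℓ) (q w) := by
    refine ⟨g.map (Int.castRingHom (ZMod ℓ)), ?_, ?_⟩
    · exact (hgm.map _).ne_zero
    · rw [Polynomial.aeval_def, Polynomial.eval₂_map]
      rw [show ((algebraMap (ZMod ℓ) K₁).comp (Int.castRingHom (ZMod ℓ))) =
        Int.castRingHom K₁ from RingHom.ext_int _ _]
      exact hgq
  -- `q (N^k)` is a nonzero element of the prime field
  have hNk : q (((N : ℕ) : modEqCoeffRing N) ^ k) =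
      algebraMap (ZMod ℓ) K₁ (((N : ℕ) : ZMod ℓ) ^ k) := by
    rw [map_pow, map_pow, map_natCast, map_natCast]
  have hN0 : ((N : ℕ) : ZMod ℓ) ^ k ≠ 0 := by
    apply pow_ne_zero
    rw [Ne, ZMod.natCast_eq_zero_iff]
    exact hℓN
  have hne : algebraMap (ZMod ℓ) K₁ (((N : ℕ) : ZMod ℓ) ^ k) ≠ 0 := (_root_.map_ne_zero _).mpr hN0
  have hqz : q z = (algebraMap (ZMod ℓ) K₁ (((N : ℕ) : ZMod ℓ) ^ k))⁻¹ * q w := by
    rw [hw, map_mul, hNk, ← mul_assoc, inv_mul_cancel₀ hne, one_mul]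
  rw [hqz]
  exact (isAlgebraic_algebraMap _).inv.mul hqw

/-- **A ring hom `C' →+* k`** for every algebraically closed field `k` of characteristic
`ℓ ∤ N`. -/
theorem exists_ringHom_modEqCoeffRing (hℓ : ℓ.Prime) (hℓN : ¬ ℓ ∣ N)
    (k : Type*) [Field k] [IsAlgClosed k] [CharP k ℓ] :
    Nonempty (modEqCoeffRing N →+* k) := by
  classical
  haveI : Fact ℓ.Prime := ⟨hℓ⟩
  have hI : Ideal.span {((ℓ : ℕ) : modEqCoeffRing N)} ≠ ⊤ := by
    rw [Ne, Ideal.span_singleton_eq_top]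
    exact not_isUnit_natCast_modEqCoeffRing hℓ hℓN
  obtain ⟨m, hm, hIm⟩ := Ideal.exists_le_maximal _ hI
  have hℓm : ((ℓ : ℕ) : modEqCoeffRing N) ∈ m := hIm (Ideal.subset_span rfl)
  letI : Field (modEqCoeffRing N ⧸ m) := Ideal.Quotient.field m
  haveI : CharP (modEqCoeffRing N ⧸ m) ℓ := by
    have h0 : ((ℓ : ℕ) : modEqCoeffRing N ⧸ m) = 0 := by
      have := Ideal.Quotient.eq_zero_iff_mem.2 hℓm
      rwa [map_natCast] at this
    have h1 : ringChar (modEqCoeffRing N ⧸ m) ∣ ℓ := ringChar.dvd h0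
    rcases (Nat.dvd_prime hℓ).1 h1 with h | h
    · exact absurd h (CharP.ringChar_ne_one)
    · exact ringChar.eq_iff.1 h
  letI : Algebra (ZMod ℓ) (modEqCoeffRing N ⧸ m) := ZMod.algebra _ ℓ
  letI : Algebra (ZMod ℓ) k := ZMod.algebra k ℓ
  haveI : Algebra.IsAlgebraic (ZMod ℓ) (modEqCoeffRing N ⧸ m) := ⟨fun x => by
    obtain ⟨z, rfl⟩ := Ideal.Quotient.mk_surjective x
    exact isAlgebraic_ringHom_modEqCoeffRing hℓ hℓN (Ideal.Quotient.mk m) z⟩
  let φ : (modEqCoeffRing N ⧸ m) →ₐ[ZMod ℓ] k := IsAlgClosed.lift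
  exact ⟨φ.toRingHom.comp (Ideal.Quotient.mk m)⟩

end RingHom

section Data

/-- **Modular equation data over every algebraically closed field of characteristic `ℓ ∤ N`**,
for every prime `p ∣ N`, with `ζ` a primitive `p`-th root of unity. -/
theorem exists_modEqData_of_isAlgClosed {N ℓ : ℕ} (hℓ : ℓ.Prime) (hℓN : ¬ ℓ ∣ N)
    (k : Type*) [Field k] [IsAlgClosed k] [CharP k ℓ] :
    ∀ (p : ℕ) (hp : p.Prime), p ∣ N → ∃ (ζ : kˣ) (pinv : k),
      IsPrimitiveRoot ζ p ∧ Nonempty (@ModEqData k _ p ⟨hp.ne_zero⟩ ζ pinv) := by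
  obtain ⟨ρ⟩ := exists_ringHom_modEqCoeffRing (N := N) hℓ hℓN k
  intro p hp hpN
  have : Fact p.Prime := ⟨hp⟩
  obtain ⟨d⟩ := nonempty_modEqData_modEqCoeffRing N p hpN
  have hne : p ≠ ℓ := fun h => hℓN (h ▸ hpN)
  exact ⟨_, _, isPrimitiveRoot_unitsMap_of_prime ρ hp (natCast_ne_zero_of_charP hp hℓ hne)
    (isPrimitiveRoot_zetaA p _), ⟨d.map ρ⟩⟩

end Data

end Fermat.Agent.Val
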