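/-
L-VAL (Program L, S18), node V2(a): transfer of the S28 tower bound to an arbitrary field `k`
of characteristic `ℓ ∤ N` which is algebraic over `𝔽_ℓ` (e.g. the residue field of a valuation
subring of `ℚ̄` lying over `ℓ`): there are `ψ(N)` monomials in the `j̃(q^d)`, `d ∣ N`, inside
`k((q))` which are linearly independent over `k(j̃)`.
-/
import Mathlib
import Fermat.Agent.Igusa.TowerFinal
import Fermat.Agent.Igusa.TowerBoundProof

set_option autoImplicit false

namespace Fermat.Agent.Val

open ModularCurve IntermediateField Fermat.Agent.Igusa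

section Transfer

variable (N : ℕ) [NeZero N] (k : Type*) [Field k] (F : Type*) [Field F] [Algebra k F]

/-- The comparison map `k((q)) → F((t))`, `q ↦ t^N`, for a field extension `F/k`. -/
noncomputable def towerPhiK : LaurentSeries k →+* LaurentSeries F :=
  (qExpand F N).comp (coeffMap (algebraMap k F))

theorem towerPhiK_jqNModC (d : ℕ) [NeZero d] :
    towerPhiK N k F (jqNModC k d) = J (1 : Fˣ) (d * N) := by
  rw [towerPhiK, RingHom.comp_apply, coeffMap_jqNModC, ← J_one_unit_eq_jqNModC, qExpand_J]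
  exact J_congr _ (mul_comm N d)

theorem towerPhiK_jqModC : towerPhiK N k F (jqModC k) = J (1 : Fˣ) N := by
  rw [towerPhiK, RingHom.comp_apply, coeffMap_jqModC, J_one_unit]

theorem towerPhiK_algebraMap (c : k) :
    towerPhiK N k F (algebraMap k (LaurentSeries k) c) =
      algebraMap F (LaurentSeries F) (algebraMap k F c) := by
  rw [algebraMap_laurentSeries_eq_single, algebraMap_laurentSeries_eq_single, towerPhiK,
    RingHom.comp_apply, coeffMap_single, qExpand_single, mul_zero]

/-- `towerPhiK` maps `k(j(q))` into `F(j(t^N))`. -/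
theorem towerPhiK_mem (c : ↥(IntermediateField.adjoin k ({jqModC k} : Set (LaurentSeries k)))) :
    towerPhiK N k F (c : LaurentSeries k) ∈
      IntermediateField.adjoin F ({J (1 : Fˣ) N} : Set (LaurentSeries F)) := by
  let T : IntermediateField k (LaurentSeries k) :=
    { (IntermediateField.adjoin F ({J (1 : Fˣ) N} : Set (LaurentSeries F))).toSubfield.comap
        (towerPhiK N k F) with
      algebraMap_mem' := fun r => by
        change towerPhiK N k F _ ∈ IntermediateField.adjoin F _
        rw [towerPhiK_algebraMap]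
        exact IntermediateField.algebraMap_mem _ _ }
  have hle : IntermediateField.adjoin k ({jqModC k} : Set (LaurentSeries k)) ≤ T := by
    rw [IntermediateField.adjoin_le_iff, Set.singleton_subset_iff]
    change towerPhiK N k F _ ∈ IntermediateField.adjoin F _
    rw [towerPhiK_jqModC]
    exact IntermediateField.subset_adjoin F _ (Set.mem_singleton _)
  exact hle c.2

/-- **Transfer of the tower degree bound to `k`.** If, over some field `F ⊇ k`, the field
generated over `F(j(t^N))` by the `j(t^{dN})`, `d ∣ N`, is finite of degree at least `ψ(N)`, then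
there are `ψ(N)` monomials in the `j(q^d)`, `d ∣ N`, in `k((q))` which are linearly independent
over `k(j(q))`. -/
theorem exists_monomials_of_tower_field
    [hfin : FiniteDimensional
      ↥(IntermediateField.adjoin F ({J (1 : Fˣ) N} : Set (LaurentSeries F)))
      ↥(IntermediateField.adjoin
        ↥(IntermediateField.adjoin F ({J (1 : Fˣ) N} : Set (LaurentSeries F)))
        {x : LaurentSeries F | ∃ d : ℕ, ∃ _ : NeZero d, d ∣ N ∧ x = J (1 : Fˣ) (d * N)})]
    (hα : dedekindPsi N ≤ Module.finrank
      ↥(IntermediateField.adjoin F ({J (1 : Fˣ) N} : Set (LaurentSeries F)))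
      ↥(IntermediateField.adjoin
        ↥(IntermediateField.adjoin F ({J (1 : Fˣ) N} : Set (LaurentSeries F)))
        {x : LaurentSeries F | ∃ d : ℕ, ∃ _ : NeZero d, d ∣ N ∧ x = J (1 : Fˣ) (d * N)})) :
    ∃ m : Fin (dedekindPsi N) → LaurentSeries k,
      (∀ i, m i ∈ Submonoid.closure
        {x : LaurentSeries k | ∃ d : ℕ, ∃ _ : NeZero d, d ∣ N ∧ x = jqNModC k d}) ∧
      LinearIndependent
        ↥(IntermediateField.adjoin k ({jqModC k} : Set (LaurentSeries k))) m := by
  obtain ⟨m', hm', hli⟩ := exists_linearIndependent_monomials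
    (K := ↥(IntermediateField.adjoin F ({J (1 : Fˣ) N} : Set (LaurentSeries F))))
    {x : LaurentSeries F | ∃ d : ℕ, ∃ _ : NeZero d, d ∣ N ∧ x = J (1 : Fˣ) (d * N)} hα
  have hS : {x : LaurentSeries F | ∃ d : ℕ, ∃ _ : NeZero d, d ∣ N ∧ x = J (1 : Fˣ) (d * N)} =
      (towerPhiK N k F) '' {x : LaurentSeries k |
        ∃ d : ℕ, ∃ _ : NeZero d, d ∣ N ∧ x = jqNModC k d} := by
    ext x
    constructor
    · rintro ⟨d, hd, hdN, rfl⟩
      exact ⟨jqNModC k d, ⟨d, hd, hdN, rfl⟩, towerPhiK_jqNModC N k F d⟩
    · rintro ⟨y, ⟨d, hd, hdN, rfl⟩, rfl⟩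
      exact ⟨d, hd, hdN, towerPhiK_jqNModC N k F d⟩
  have hcl : ∀ i, ∃ y ∈ Submonoid.closure {x : LaurentSeries k |
      ∃ d : ℕ, ∃ _ : NeZero d, d ∣ N ∧ x = jqNModC k d}, towerPhiK N k F y = m' i := by
    intro i
    have := hm' i
    rw [hS, ← MonoidHom.map_mclosure] at this
    exact this
  choose m hm hφm using hcl
  refine ⟨m, hm, ?_⟩
  refine linearIndependent_of_map (towerPhiK N k F) _ _ (towerPhiK_mem N k F) m ?_
  simp only [hφm]
  exact hli

end Transfer

section Main

/-- **V2(a).** For `ℓ ∤ N` and a field `k` algebraic over `𝔽_ℓ` there are `ψ(N)` monomials in the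
`j̃(q^d)`, `d ∣ N`, in `k((q))` which are linearly independent over `k(j̃)`. -/
theorem exists_monomials_linearIndependent (N ℓ : ℕ) [NeZero N] [hℓ : Fact ℓ.Prime]
    (hℓN : ¬ ℓ ∣ N) (k : Type*) [Field k] [Algebra (ZMod ℓ) k]
    [Algebra.IsAlgebraic (ZMod ℓ) k] :
    ∃ m : Fin (dedekindPsi N) → LaurentSeries k,
      (∀ i, m i ∈ Submonoid.closure
        {x : LaurentSeries k | ∃ d : ℕ, ∃ _ : NeZero d, d ∣ N ∧ x = jqNModC k d}) ∧
      LinearIndependent
        ↥(IntermediateField.adjoin k ({jqModC k} : Set (LaurentSeries k))) m := by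
  obtain ⟨F, hF, hac, hch, hdata⟩ := exists_modEqData_charP (N := N) hℓ.out hℓN
  let _ := ZMod.algebra F ℓ
  let _ : Algebra k F := (IsAlgClosed.lift (R := ZMod ℓ) (S := k) (M := F)).toRingHom.toAlgebra
  obtain ⟨hfin, hα⟩ := towerBound_holds N F fun p hp hpN => by
    obtain ⟨ζ, pinv, -, hd⟩ := hdata p hp hpN
    exact ⟨ζ, pinv, hd⟩
  exact exists_monomials_of_tower_field N k F hα

end Main

end Fermat.Agent.Val
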