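/-
L-VAL (Program L, S18), node V2(b): the orthonormal-basis input for the modular function fields.

`L` a field of characteristic zero, `A` a valuation subring of `L`, `π : A →+* k` a ring hom to a
field `k` algebraic over `𝔽_ℓ`, `ℓ ∤ N`.  The series `j(q^d)`, `d ∣ N`, have integer coefficients,
so they live in `A((q))`; they map to `F̄ = L·F_N ⊂ L((q))` under `coeffMap A.subtype` and to
`F̃ = k(j̃(q^d)) ⊂ k((q))` under `coeffMap π`.  There are `ψ(N)` monomials `m i` in them whose
reductions are linearly independent over `k(j̃)` (polynomial form), and for `L = ℚ̄` the degree of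
`F̄` over `ℚ̄(j)` is `ψ(N)`.
-/
import Mathlib
import Fermat.Agent.Val.ModularMonomials
import Fermat.Agent.Igusa.ChartBase
import Fermat.Agent.X0.ModDeg

set_option autoImplicit false

namespace Fermat.Agent.Val

open ModularCurve IntermediateField Fermat.Agent.Igusa Polynomial

section General

variable {L : Type*} [Field L] [Algebra ℚ L] (A : ValuationSubring L)
variable {k : Type*} [Field k] (π : A →+* k) (N : ℕ) [NeZero N]

/-- The generators `j(q^d)`, `d ∣ N`, as series with coefficients in `A`. -/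
def jGensA : Set (LaurentSeries A) :=
  {x | ∃ d : ℕ, ∃ _ : NeZero d, d ∣ N ∧ x = jqNModC A d}

theorem coeffMap_subtype_jqNModC (d : ℕ) [NeZero d] :
    coeffMap A.subtype (jqNModC A d) = coeffEmb L (qExpand ℚ d jq) := by
  rw [coeffMap_jqNModC, coeffEmb, ← jqModC_rat, ← jqNModC, coeffMap_jqNModC]

theorem coeffMap_subtype_jqModC :
    coeffMap A.subtype (jqModC A) = coeffEmb L jq := by
  rw [coeffMap_jqModC, coeffEmb, ← jqModC_rat, coeffMap_jqModC]

omit [NeZero N] in
/-- `j(q^d)`, `d ∣ N`, lies in `F̄`. -/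
theorem coeffMap_subtype_jqNModC_mem {d : ℕ} [NeZero d] (hd : d ∣ N) :
    coeffMap A.subtype (jqNModC A d) ∈ laurentBaseChange L (modularFunctionFieldFull N) := by
  rw [coeffMap_subtype_jqNModC]
  exact coeffEmb_mem_laurentBaseChange L (jqd_mem_full N hd)

omit [NeZero N] in
theorem coeffMap_subtype_jqModC_mem :
    coeffMap A.subtype (jqModC A) ∈ laurentBaseChange L (modularFunctionFieldFull N) := by
  have h := coeffMap_subtype_jqNModC_mem A N (one_dvd N)
  rwa [jqNModC_one] at h

omit [NeZero N] [Algebra ℚ L] in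
/-- The reduction of `j(q^d)`, `d ∣ N`, lies in `F̃`. -/
theorem coeffMap_pi_jqNModC_mem {d : ℕ} [NeZero d] (hd : d ∣ N) :
    coeffMap π (jqNModC A d) ∈ modularFunctionFieldFullC k N := by
  rw [coeffMap_jqNModC]
  exact jqModCd_mem_full k N hd

omit [NeZero N] in
/-- Monomials in the `j(q^d)` lie in `F̄`. -/
theorem coeffMap_subtype_mem_of_mem_closure {y : LaurentSeries A}
    (hy : y ∈ Submonoid.closure (jGensA A N)) :
    coeffMap A.subtype y ∈ laurentBaseChange L (modularFunctionFieldFull N) := by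
  induction hy using Submonoid.closure_induction with
  | mem x hx =>
    obtain ⟨d, hd, hdN, rfl⟩ := hx
    exact coeffMap_subtype_jqNModC_mem A N hdN
  | one => rw [map_one]; exact one_mem _
  | mul x y _ _ hx hy => rw [map_mul]; exact mul_mem hx hy

omit [NeZero N] [Algebra ℚ L] in
/-- Reductions of monomials in the `j(q^d)` lie in `F̃`. -/
theorem coeffMap_pi_mem_of_mem_closure {y : LaurentSeries A}
    (hy : y ∈ Submonoid.closure (jGensA A N)) :
    coeffMap π y ∈ modularFunctionFieldFullC k N := by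
  induction hy using Submonoid.closure_induction with
  | mem x hx =>
    obtain ⟨d, hd, hdN, rfl⟩ := hx
    exact coeffMap_pi_jqNModC_mem A π N hdN
  | one => rw [map_one]; exact one_mem _
  | mul x y _ _ hx hy => rw [map_mul]; exact mul_mem hx hy

omit [NeZero N] [Algebra ℚ L] in
/-- `F̃` is generated over `k` by reductions of elements of `jGensA`. -/
theorem modularFunctionFieldFullC_eq_adjoin_image :
    modularFunctionFieldFullC k N =
      IntermediateField.adjoin k (⇑(coeffMap π) '' jGensA A N) := by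
  rw [modularFunctionFieldFullC]
  congr 1
  ext x
  constructor
  · rintro ⟨d, hd, hdN, rfl⟩
    refine ⟨jqNModC A d, ⟨d, hd, hdN, rfl⟩, ?_⟩
    rw [coeffMap_jqNModC, jqNModC]
  · rintro ⟨y, ⟨d, hd, hdN, rfl⟩, rfl⟩
    refine ⟨d, hd, hdN, ?_⟩
    rw [coeffMap_jqNModC, jqNModC]

end General

section Monomials

variable {L : Type*} [Field L] (A : ValuationSubring L)
variable {k : Type*} [Field k] (π : A →+* k)

/-- **V2(a), lifted to `A((q))`, polynomial form (H4).** For `ℓ ∤ N` and `k` algebraic over `𝔽_ℓ`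
there are `ψ(N)` monomials `m i` in the `j(q^d)`, `d ∣ N`, in `A((q))` such that a relation
`∑ cᵢ(j̃) m̃ᵢ = 0` with polynomial coefficients `cᵢ ∈ k[X]` forces all `cᵢ = 0`. -/
theorem exists_orthoMonomials (N ℓ : ℕ) [NeZero N] [Fact ℓ.Prime] (hℓN : ¬ ℓ ∣ N)
    [Algebra (ZMod ℓ) k] [Algebra.IsAlgebraic (ZMod ℓ) k] :
    ∃ m : Fin (dedekindPsi N) → LaurentSeries A,
      (∀ i, m i ∈ Submonoid.closure (jGensA A N)) ∧
      ∀ c : Fin (dedekindPsi N) → k[X],
        ∑ i, aeval (jqModC k) (c i) * coeffMap π (m i) = 0 → ∀ i, c i = 0 := by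
  obtain ⟨m', hm', hli⟩ := exists_monomials_linearIndependent N ℓ hℓN k
  have hS : {x : LaurentSeries k | ∃ d : ℕ, ∃ _ : NeZero d, d ∣ N ∧ x = jqNModC k d} =
      (coeffMap π) '' jGensA A N := by
    ext x
    constructor
    · rintro ⟨d, hd, hdN, rfl⟩
      exact ⟨jqNModC A d, ⟨d, hd, hdN, rfl⟩, coeffMap_jqNModC π d⟩
    · rintro ⟨y, ⟨d, hd, hdN, rfl⟩, rfl⟩
      exact ⟨d, hd, hdN, coeffMap_jqNModC π d⟩
  have hcl : ∀ i, ∃ y ∈ Submonoid.closure (jGensA A N), coeffMap π y = m' i := by
    intro i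
    have := hm' i
    rw [hS, ← MonoidHom.map_mclosure] at this
    exact this
  choose m hm hπm using hcl
  refine ⟨m, hm, fun c hc i => ?_⟩
  rw [Fintype.linearIndependent_iff] at hli
  have hmem : ∀ i, aeval (jqModC k) (c i) ∈
      IntermediateField.adjoin k ({jqModC k} : Set (LaurentSeries k)) := fun i => by
    have hj : jqModC k ∈ IntermediateField.adjoin k ({jqModC k} : Set (LaurentSeries k)) :=
      IntermediateField.subset_adjoin k _ (Set.mem_singleton _)
    rw [aeval_def, eval₂_eq_sum_range]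
    refine sum_mem fun n _ => mul_mem (IntermediateField.algebraMap_mem _ _) (pow_mem hj n)
  have h1 := hli (fun i => ⟨aeval (jqModC k) (c i), hmem i⟩) (by
    rw [← hc]
    refine Finset.sum_congr rfl fun i _ => ?_
    rw [IntermediateField.smul_def, smul_eq_mul, hπm]) i
  have h2 : aeval (jqModC k) (c i) = 0 := congrArg Subtype.val h1
  exact (transcendental_iff_injective.mp (Fermat.Agent.Igusa.ChartBaseAux.transcendental_jqModC k)) (by rw [h2, map_zero])

end Monomials

section Degree

open Fermat.Agent.X0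

/-- (H2) for `L = ℚ̄`: `[F̄ : ℚ̄(j)] = ψ(N)`. -/
theorem finrank_bar_eq_dedekindPsi (N : ℕ) [NeZero N] :
    Module.finrank Kb⟮jBar N⟯ (Fb N) = dedekindPsi N :=
  (jBar_isSepVar N).finrank_eq

theorem finiteDimensional_bar (N : ℕ) [NeZero N] :
    FiniteDimensional Kb⟮jBar N⟯ (Fb N) :=
  (jBar_isSepVar N).finite

end Degree

end Fermat.Agent.Val
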