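import Mathlib
import Fermat.Agent.Val.GaussA

/-!
# L-VAL V1: orthonormal bases for the Gauss valuation

`A` a valuation subring of `L`, `π : A →+* k`.  Data: `x : A((q))` and `m : Fin n → A((q))` such
that the reductions `m̃ i = aRed π (m i)` are linearly independent over `k[x̃]`, `x̃ = aRed π x`.

Core (section `Core`): for `c : Fin n → L[X]` put `comboL c = ∑ i, c_i(xL) * mL_i`.  If `c ≠ 0`,
`comboL c` has content a coefficient of maximal valuation (`hasContent_comboL`); hence
`comboL c ∈ gaussRingA ↔` all coefficients lie in `A` (`comboL_mem_gaussRingA_iff`), and the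
residue is `∑ i, (c'_i mod π)(x̃) * m̃_i` (`gaussResA_comboL`): the family `x^a m_i` is orthonormal.
-/

set_option autoImplicit false
set_option linter.unusedSectionVars false
open ModularCurve Polynomial

noncomputable section
namespace Fermat.Agent.Val

variable {L : Type*} [Field L] (A : ValuationSubring L) {k : Type*} [Field k] (π : A →+* k)

/-! ### Polynomial combinations -/

section Core

variable {n : ℕ} (x : LaurentSeries A) (m : Fin n → LaurentSeries A)

/-- `∑ i, c_i(xL) * mL_i` for `c_i ∈ L[X]`, where `xL = aIota x`, `mL_i = aIota (m i)`. -/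
def comboL (c : Fin n → L[X]) : LaurentSeries L :=
  ∑ i, aeval (aIota A x) (c i) * aIota A (m i)

/-- `∑ i, c_i(x) * m_i` for `c_i ∈ A[X]`. -/
def comboA (c : Fin n → A[X]) : LaurentSeries A :=
  ∑ i, (c i).eval₂ HahnSeries.C x * m i

/-- `∑ i, c_i(x̃) * m̃_i` for `c_i ∈ k[X]`, where `x̃ = aRed π x`, `m̃_i = aRed π (m i)`. -/
def comboK (c : Fin n → k[X]) : LaurentSeries k :=
  ∑ i, aeval (aRed π x) (c i) * aRed π (m i)

theorem algebraMap_laurentSeries_eq_C {K : Type*} [Field K] :
    algebraMap K (LaurentSeries K) = (HahnSeries.C : K →+* LaurentSeries K) := by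
  ext c : 1
  rw [algebraMap_laurentSeries_eq_single, HahnSeries.C_apply]

theorem aeval_eq_eval₂_C {K : Type*} [Field K] (y : LaurentSeries K) (p : K[X]) :
    aeval y p = p.eval₂ HahnSeries.C y := by
  rw [aeval_def, algebraMap_laurentSeries_eq_C]

theorem aIota_eval₂ (p : A[X]) :
    aIota A (p.eval₂ HahnSeries.C x) = aeval (aIota A x) (p.map A.subtype) := by
  rw [hom_eval₂, aeval_eq_eval₂_C, eval₂_map]
  congr 1
  ext a : 1
  simp only [RingHom.comp_apply]
  exact aIota_C A a

theorem aRed_eval₂ (p : A[X]) :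
    aRed π (p.eval₂ HahnSeries.C x) = aeval (aRed π x) (p.map π) := by
  rw [hom_eval₂, aeval_eq_eval₂_C, eval₂_map]
  congr 1
  ext a : 1
  simp only [RingHom.comp_apply]
  exact aRed_C π a

theorem aIota_comboA (c : Fin n → A[X]) :
    aIota A (comboA A x m c) = comboL A x m fun i => (c i).map A.subtype := by
  rw [comboA, comboL, map_sum]
  refine Finset.sum_congr rfl fun i _ => ?_
  rw [map_mul, aIota_eval₂]

theorem aRed_comboA (c : Fin n → A[X]) :
    aRed π (comboA A x m c) = comboK A π x m fun i => (c i).map π := by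
  rw [comboA, comboK, map_sum]
  refine Finset.sum_congr rfl fun i _ => ?_
  rw [map_mul, aRed_eval₂]

theorem comboL_C_mul (d : L) (c : Fin n → L[X]) :
    comboL A x m (fun i => Polynomial.C d * c i) = HahnSeries.C d * comboL A x m c := by
  rw [comboL, comboL, Finset.mul_sum]
  refine Finset.sum_congr rfl fun i _ => ?_
  rw [map_mul, aeval_C, algebraMap_laurentSeries_eq_C, mul_assoc]

/-- A polynomial over `L` with coefficients in `A` comes from `A[X]`. -/
theorem exists_map_subtype_eq {p : L[X]} (hp : ∀ j, p.coeff j ∈ A) :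
    ∃ q : A[X], q.map A.subtype = p := by
  have h : p ∈ (Polynomial.mapRingHom A.subtype).range := by
    rw [Polynomial.mem_map_range]
    intro j
    exact ⟨⟨p.coeff j, hp j⟩, rfl⟩
  obtain ⟨q, hq⟩ := h
  exact ⟨q, hq⟩

/-- A nonzero family of polynomials has a coefficient of maximal valuation. -/
theorem exists_max_coeff {c : Fin n → L[X]} (hc : c ≠ 0) :
    ∃ i₀ j₀, (c i₀).coeff j₀ ≠ 0 ∧
      ∀ i j, A.valuation ((c i).coeff j) ≤ A.valuation ((c i₀).coeff j₀) := by
  classical
  let T : Finset (Σ _ : Fin n, ℕ) := Finset.univ.sigma fun i => (c i).support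
  have hT : T.Nonempty := by
    obtain ⟨i, hi⟩ : ∃ i, c i ≠ 0 := by
      by_contra h
      simp only [not_exists, not_not] at h
      exact hc (funext h)
    obtain ⟨j, hj⟩ := Polynomial.nonempty_support_iff.mpr hi
    exact ⟨⟨i, j⟩, Finset.mem_sigma.mpr ⟨Finset.mem_univ _, hj⟩⟩
  obtain ⟨⟨i₀, j₀⟩, hmem, hmax⟩ :=
    Finset.exists_max_image T (fun p => A.valuation ((c p.1).coeff p.2)) hT
  have h0 : (c i₀).coeff j₀ ≠ 0 := Polynomial.mem_support_iff.mp (Finset.mem_sigma.mp hmem).2
  refine ⟨i₀, j₀, h0, fun i j => ?_⟩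
  by_cases hij : (c i).coeff j = 0
  · rw [hij, map_zero]; exact zero_le
  · exact hmax ⟨i, j⟩ (Finset.mem_sigma.mpr ⟨Finset.mem_univ _, Polynomial.mem_support_iff.mpr hij⟩)

/-- the independence hypothesis (H4) -/
def IndepK : Prop :=
  ∀ c : Fin n → k[X], comboK A π x m c = 0 → ∀ i, c i = 0

variable {A π x m}

/-- **Normalisation**: a nonzero family `c` is `d · c'` with `d` a coefficient of maximal
valuation and `c'` over `A` with nonzero reduction. -/
theorem exists_normalise {c : Fin n → L[X]} (hc : c ≠ 0) :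
    ∃ (d : L) (c' : Fin n → A[X]), d ≠ 0 ∧ (∃ i j, (c i).coeff j = d) ∧
      (∀ i j, A.valuation ((c i).coeff j) ≤ A.valuation d) ∧
      (∀ i, (c' i).map A.subtype = Polynomial.C d⁻¹ * c i) ∧
      (∃ i, (c' i).map π ≠ 0) := by
  obtain ⟨i₀, j₀, h0, hmax⟩ := exists_max_coeff A hc
  set d := (c i₀).coeff j₀ with hd
  have hmem : ∀ i j, (Polynomial.C d⁻¹ * c i).coeff j ∈ A := by
    intro i j
    rw [coeff_C_mul, ← A.valuation_le_one_iff, map_mul, map_inv₀]
    have hd0 : A.valuation d ≠ 0 := (Valuation.ne_zero_iff _).mpr h0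
    rw [inv_mul_le_iff₀ (zero_lt_iff.mpr hd0), mul_one]
    exact hmax i j
  choose c' hc' using fun i => exists_map_subtype_eq A (hmem i)
  refine ⟨d, c', h0, ⟨i₀, j₀, rfl⟩, hmax, hc', i₀, fun h => ?_⟩
  have h1 : ((c' i₀).map π).coeff j₀ = 0 := by rw [h]; simp
  rw [coeff_map] at h1
  have h2 : (((c' i₀).coeff j₀ : A) : L) = 1 := by
    have h3 := congrArg (fun p : L[X] => p.coeff j₀) (hc' i₀)
    simp only [coeff_map, coeff_C_mul] at h3
    rw [← hd, inv_mul_cancel₀ h0] at h3
    exact h3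
  have h4 : (c' i₀).coeff j₀ = 1 := Subtype.ext h2
  rw [h4, map_one] at h1
  exact one_ne_zero h1

/-- **Orthonormality, content form**: a nonzero combination has content a coefficient of maximal
valuation. -/
theorem hasContent_comboL (hind : IndepK A π x m) {c : Fin n → L[X]} (hc : c ≠ 0) :
    ∃ (d : L) (c' : Fin n → A[X]), (∃ i j, (c i).coeff j = d) ∧
      (∀ i j, A.valuation ((c i).coeff j) ≤ A.valuation d) ∧
      (∀ i, (c' i).map A.subtype = Polynomial.C d⁻¹ * c i) ∧
      aRed π (comboA A x m c') ≠ 0 ∧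
      comboL A x m c = HahnSeries.C d * aIota A (comboA A x m c') ∧
      HasContent A π (comboL A x m c) d := by
  obtain ⟨d, c', hd0, hcoeff, hmax, hc', i, hi⟩ := exists_normalise (π := π) hc
  have hred : aRed π (comboA A x m c') ≠ 0 := by
    rw [aRed_comboA]
    intro h
    exact hi (hind _ h i)
  have heq : comboL A x m c = HahnSeries.C d * aIota A (comboA A x m c') := by
    rw [aIota_comboA]
    have h1 : (fun i => (c' i).map A.subtype) = fun i => Polynomial.C d⁻¹ * c i := funext hc'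
    rw [h1, comboL_C_mul, ← mul_assoc, ← map_mul, mul_inv_cancel₀ hd0, map_one, one_mul]
  refine ⟨d, c', hcoeff, hmax, hc', hred, heq, ?_⟩
  rw [heq]
  have := (hasContent_aIota A π hred).C_mul hd0
  rwa [mul_one] at this

theorem comboL_ne_zero (hind : IndepK A π x m) {c : Fin n → L[X]} (hc : c ≠ 0) :
    comboL A x m c ≠ 0 := by
  obtain ⟨d, c', -, -, -, -, -, h⟩ := hasContent_comboL hind hc
  exact h.ne_zero

/-- **Orthonormality, membership form.** -/
theorem comboL_mem_gaussRingA_iff (hπ : ∀ a : A, a ∈ IsLocalRing.maximalIdeal A → π a = 0)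
    (hind : IndepK A π x m) (c : Fin n → L[X]) :
    comboL A x m c ∈ gaussRingA A π ↔ ∀ i j, (c i).coeff j ∈ A := by
  by_cases hc : c = 0
  · subst hc
    simp only [comboL, Pi.zero_apply, map_zero, zero_mul, Finset.sum_const_zero, coeff_zero]
    exact ⟨fun _ _ _ => A.zero_mem, fun _ => (gaussRingA A π).zero_mem⟩
  obtain ⟨d, c', ⟨i₀, j₀, hd⟩, hmax, -, -, -, hcont⟩ := hasContent_comboL hind hc
  rw [hcont.mem_gaussRingA_iff hπ]
  constructor
  · intro hdA i j
    rw [← A.valuation_le_one_iff]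
    exact (hmax i j).trans ((A.valuation_le_one_iff _).mpr hdA)
  · intro h
    rw [← hd]
    exact h i₀ j₀

/-- The residue of a combination with coefficients in `A`. -/
theorem gaussResA_comboL (c' : Fin n → A[X])
    (h : comboL A x m (fun i => (c' i).map A.subtype) ∈ gaussRingA A π) :
    gaussResA A π ⟨comboL A x m (fun i => (c' i).map A.subtype), h⟩ =
      comboK A π x m fun i => (c' i).map π := by
  rw [← aRed_comboA, ← gaussResA_aIota]
  congr 1
  exact Subtype.ext (aIota_comboA A x m c').symm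

/-- the residue vanishes iff all coefficients reduce to zero -/
theorem comboK_map_eq_zero_iff (hind : IndepK A π x m) (c' : Fin n → A[X]) :
    comboK A π x m (fun i => (c' i).map π) = 0 ↔ ∀ i j, π ((c' i).coeff j) = 0 := by
  constructor
  · intro h i j
    have := hind _ h i
    rw [← coeff_map, this, coeff_zero]
  · intro h
    have h1 : (fun i => (c' i).map π) = 0 := by
      funext i
      ext j
      rw [coeff_map, h i j]
      simp
    rw [h1]
    simp [comboK]

end Core

/-! ### Orthonormal data for a pair of function fields -/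

/-- **Orthonormal data** (blueprint (H1)–(H5)): `x, m_i ∈ A((q))` with images in `F`, such that
`[F : L(x)] ≤ n`, `x̃` is transcendental, the `m̃_i` are linearly independent over `k[x̃]`, and
`Ft` is generated by reductions of integral elements of `F`. -/
structure OrthoData (F : IntermediateField L (LaurentSeries L))
    (Ft : IntermediateField k (LaurentSeries k)) (n : ℕ) where
  x : LaurentSeries A
  m : Fin n → LaurentSeries A
  hx : aIota A x ∈ F
  hm : ∀ i, aIota A (m i) ∈ F
  finite : FiniteDimensional (IntermediateField.adjoin L {(⟨aIota A x, hx⟩ : F)}) F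
  finrank_le : Module.finrank (IntermediateField.adjoin L {(⟨aIota A x, hx⟩ : F)}) F ≤ n
  transc : Transcendental k (aRed π x)
  indep : IndepK A π x m
  hxt : aRed π x ∈ Ft
  hmt : ∀ i, aRed π (m i) ∈ Ft
  gen : ∃ S : Set (LaurentSeries A), (∀ s ∈ S, aIota A s ∈ F) ∧
    Ft ≤ IntermediateField.adjoin k (aRed π '' S)

namespace OrthoData

variable {A π}
variable {F : IntermediateField L (LaurentSeries L)} {Ft : IntermediateField k (LaurentSeries k)}
  {n : ℕ} (D : OrthoData A π F Ft n)

include D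

/-- `x` as an element of `F` -/
def xF : F := ⟨aIota A D.x, D.hx⟩

/-- `m i` as an element of `F` -/
def mF (i : Fin n) : F := ⟨aIota A (D.m i), D.hm i⟩

theorem coe_aeval_xF (p : L[X]) :
    ((aeval D.xF p : F) : LaurentSeries L) = aeval (aIota A D.x) p :=
  (Polynomial.aeval_algHom_apply F.val D.xF p).symm

theorem aeval_mem (p : L[X]) : aeval (aIota A D.x) p ∈ F := by
  rw [← D.coe_aeval_xF]; exact SetLike.coe_mem _

theorem comboL_mem (c : Fin n → L[X]) : comboL A D.x D.m c ∈ F :=
  sum_mem fun i _ => mul_mem (D.aeval_mem (c i)) (D.hm i)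

theorem aeval_red_mem (p : k[X]) : aeval (aRed π D.x) p ∈ Ft := by
  have h : aeval (aRed π D.x) p = ((aeval (⟨aRed π D.x, D.hxt⟩ : Ft) p : Ft) : LaurentSeries k) :=
    Polynomial.aeval_algHom_apply Ft.val (⟨aRed π D.x, D.hxt⟩ : Ft) p
  rw [h]; exact SetLike.coe_mem _

theorem comboK_mem (c : Fin n → k[X]) : comboK A π D.x D.m c ∈ Ft :=
  sum_mem fun i _ => mul_mem (D.aeval_red_mem (c i)) (D.hmt i)

/-- the one-variable case of (H4) is transcendence of `x̃` -/
theorem indepOne : IndepK A π D.x (fun _ : Fin 1 => (1 : LaurentSeries A)) := by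
  intro c hc i
  have h1 : comboK A π D.x (fun _ : Fin 1 => (1 : LaurentSeries A)) c =
      aeval (aRed π D.x) (c 0) := by
    simp [comboK]
  rw [h1] at hc
  have h2 := transcendental_iff.mp D.transc (c 0) hc
  have hi : i = 0 := Subsingleton.elim _ _
  rw [hi, h2]

theorem comboL_one (Q : L[X]) :
    comboL A D.x (fun _ : Fin 1 => (1 : LaurentSeries A)) (fun _ => Q) = aeval (aIota A D.x) Q := by
  simp [comboL]

theorem comboA_one (Q : A[X]) :
    comboA A D.x (fun _ : Fin 1 => (1 : LaurentSeries A)) (fun _ => Q) =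
      Q.eval₂ HahnSeries.C D.x := by
  simp [comboA]

/-- **Denominators**: a nonzero polynomial in `x` has content its coefficient of maximal
valuation. -/
theorem hasContent_aeval {Q : L[X]} (hQ : Q ≠ 0) :
    ∃ (e : L) (Q' : A[X]), (∃ j, Q.coeff j = e) ∧ (∀ j, A.valuation (Q.coeff j) ≤ A.valuation e) ∧
      Q'.map A.subtype = Polynomial.C e⁻¹ * Q ∧
      aRed π (Q'.eval₂ HahnSeries.C D.x) ≠ 0 ∧
      aeval (aIota A D.x) Q = HahnSeries.C e * aIota A (Q'.eval₂ HahnSeries.C D.x) ∧
      HasContent A π (aeval (aIota A D.x) Q) e := by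
  have hc : (fun _ : Fin 1 => Q) ≠ 0 := fun h => hQ (congrFun h 0)
  obtain ⟨e, c', ⟨i, j, hj⟩, hmax, hc', hred, heq, hcont⟩ := hasContent_comboL D.indepOne hc
  have h1 : c' = fun _ => c' 0 := by
    funext i
    rw [Subsingleton.elim i 0]
  rw [h1, comboA_one] at hred heq
  rw [comboL_one] at heq hcont
  exact ⟨e, c' 0, ⟨j, hj⟩, fun j => hmax 0 j, hc' 0, hred, heq, hcont⟩

theorem aeval_ne_zero {Q : L[X]} (hQ : Q ≠ 0) : aeval (aIota A D.x) Q ≠ 0 := by
  obtain ⟨e, Q', -, -, -, -, -, h⟩ := D.hasContent_aeval hQ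
  exact h.ne_zero

theorem aeval_xF_ne_zero {Q : L[X]} (hQ : Q ≠ 0) : aeval D.xF Q ≠ 0 := by
  intro h
  apply D.aeval_ne_zero hQ
  rw [← D.coe_aeval_xF, h]
  rfl

/-- elements of `L(x)` are quotients of polynomials in `x` -/
theorem exists_frac_of_mem_adjoin (y : IntermediateField.adjoin L {D.xF}) :
    ∃ r s : L[X], s ≠ 0 ∧ (y : F) * aeval D.xF s = aeval D.xF r := by
  obtain ⟨r, s, hrs⟩ := (IntermediateField.mem_adjoin_simple_iff L (y : F)).mp y.2
  by_cases hs : aeval D.xF s = 0
  · refine ⟨0, 1, one_ne_zero, ?_⟩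
    rw [hrs, hs, div_zero, zero_mul, map_zero]
  · have hs0 : s ≠ 0 := by
      rintro rfl
      exact hs (map_zero _)
    refine ⟨r, s, hs0, ?_⟩
    rw [hrs, div_mul_cancel₀ _ hs]

/-- common denominators in `L(x)` -/
theorem exists_common_denominator (g : Fin n → IntermediateField.adjoin L {D.xF}) :
    ∃ (S : L[X]) (c : Fin n → L[X]), S ≠ 0 ∧ (∀ i, c i = 0 → g i = 0) ∧
      ∀ i, (g i : F) * aeval D.xF S = aeval D.xF (c i) := by
  classical
  choose r s hs hrs using D.exists_frac_of_mem_adjoin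
  refine ⟨∏ i, s (g i), fun i => r (g i) * ∏ j ∈ Finset.univ.erase i, s (g j), ?_, ?_, ?_⟩
  · exact Finset.prod_ne_zero_iff.mpr fun i _ => hs (g i)
  · intro i hi
    have h1 : r (g i) = 0 := by
      rcases mul_eq_zero.mp hi with h | h
      · exact h
      · exact absurd h (Finset.prod_ne_zero_iff.mpr fun j _ => hs (g j))
    have h2 := hrs (g i)
    rw [h1, map_zero] at h2
    have h3 : ((g i : IntermediateField.adjoin L {D.xF}) : F) = 0 :=
      (mul_eq_zero.mp h2).resolve_right (D.aeval_xF_ne_zero (hs (g i)))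
    exact Subtype.ext h3
  · intro i
    rw [← Finset.mul_prod_erase Finset.univ (fun j => s (g j)) (Finset.mem_univ i), map_mul,
      ← mul_assoc, hrs (g i), map_mul]

/-- the `m_i` are linearly independent over `L(x)` -/
theorem linearIndependent_mF :
    LinearIndependent (IntermediateField.adjoin L {D.xF}) D.mF := by
  rw [Fintype.linearIndependent_iff]
  intro g hg
  obtain ⟨S, c, hS, hc0, hc⟩ := D.exists_common_denominator g
  have h1 : ∑ i, aeval D.xF (c i) * D.mF i = 0 := by
    have h2 : ∑ i, aeval D.xF (c i) * D.mF i = (∑ i, g i • D.mF i) * aeval D.xF S := by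
      rw [Finset.sum_mul]
      refine Finset.sum_congr rfl fun i _ => ?_
      rw [← hc i, IntermediateField.smul_def, smul_eq_mul]
      ring
    rw [h2, hg, zero_mul]
  have h3 : comboL A D.x D.m c = 0 := by
    have h4 := congrArg (fun z : F => (z : LaurentSeries L)) h1
    simp only [AddSubmonoidClass.coe_finsetSum, MulMemClass.coe_mul, ZeroMemClass.coe_zero] at h4
    rw [comboL, ← h4]
    refine Finset.sum_congr rfl fun i _ => ?_
    rw [D.coe_aeval_xF]
    rfl
  have h5 : c = 0 := by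
    by_contra hne
    exact comboL_ne_zero D.indep hne h3
  intro i
  exact hc0 i (congrFun h5 i)

theorem finiteDimensional : FiniteDimensional (IntermediateField.adjoin L {D.xF}) F :=
  D.finite

theorem finrank_eq : Module.finrank (IntermediateField.adjoin L {D.xF}) F = n := by
  have := D.finiteDimensional
  have h1 := D.linearIndependent_mF.fintype_card_le_finrank
  rw [Fintype.card_fin] at h1
  exact le_antisymm D.finrank_le h1

/-- **SPAN**: every element of `F` is a combination of the `m_i` with coefficients in `L(x)`. -/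
theorem exists_combo {f : LaurentSeries L} (hf : f ∈ F) :
    ∃ (P : Fin n → L[X]) (Q : L[X]), Q ≠ 0 ∧
      f * aeval (aIota A D.x) Q = comboL A D.x D.m P := by
  have := D.finiteDimensional
  have hspan : Submodule.span (IntermediateField.adjoin L {D.xF}) (Set.range D.mF) = ⊤ :=
    D.linearIndependent_mF.span_eq_top_of_card_eq_finrank' (by
      rw [Fintype.card_fin, D.finrank_eq])
  have hmem : (⟨f, hf⟩ : F) ∈
      Submodule.span (IntermediateField.adjoin L {D.xF}) (Set.range D.mF) := by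
    rw [hspan]; trivial
  obtain ⟨g, hg⟩ := (Submodule.mem_span_range_iff_exists_fun _).mp hmem
  obtain ⟨S, c, hS, -, hc⟩ := D.exists_common_denominator g
  refine ⟨c, S, hS, ?_⟩
  have h1 : (⟨f, hf⟩ : F) * aeval D.xF S = ∑ i, aeval D.xF (c i) * D.mF i := by
    rw [← hg, Finset.sum_mul]
    refine Finset.sum_congr rfl fun i _ => ?_
    rw [← hc i, IntermediateField.smul_def, smul_eq_mul]
    ring
  have h4 := congrArg (fun z : F => (z : LaurentSeries L)) h1
  simp only [AddSubmonoidClass.coe_finsetSum, MulMemClass.coe_mul] at h4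
  rw [D.coe_aeval_xF] at h4
  rw [h4, comboL]
  refine Finset.sum_congr rfl fun i _ => ?_
  rw [D.coe_aeval_xF]
  rfl

/-- **(C7)** Every nonzero `f ∈ F` is `c · y₁ / y₂` with `y₁, y₂ ∈ A((q))` integral elements of
`F` whose reductions are nonzero elements of `Ft`. -/
theorem exists_integral_fraction {f : LaurentSeries L} (hf : f ∈ F) (hf0 : f ≠ 0) :
    ∃ (c : L) (y₁ y₂ : LaurentSeries A), c ≠ 0 ∧ aIota A y₁ ∈ F ∧ aIota A y₂ ∈ F ∧
      aRed π y₁ ∈ Ft ∧ aRed π y₂ ∈ Ft ∧ aRed π y₁ ≠ 0 ∧ aRed π y₂ ≠ 0 ∧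
      f * aIota A y₂ = HahnSeries.C c * aIota A y₁ := by
  obtain ⟨P, Q, hQ, hPQ⟩ := D.exists_combo hf
  have hP : P ≠ 0 := by
    rintro rfl
    have h0 : comboL A D.x D.m (0 : Fin n → L[X]) = 0 := by simp [comboL]
    rw [h0] at hPQ
    exact (mul_ne_zero hf0 (D.aeval_ne_zero hQ)) hPQ
  obtain ⟨d, P', -, -, -, hredP, heqP, hcontP⟩ := hasContent_comboL D.indep hP
  obtain ⟨e, Q', -, -, -, hredQ, heqQ, hcontQ⟩ := D.hasContent_aeval hQ
  have hd0 : d ≠ 0 := hcontP.1
  have he0 : e ≠ 0 := hcontQ.1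
  refine ⟨d * e⁻¹, comboA A D.x D.m P', Q'.eval₂ HahnSeries.C D.x, mul_ne_zero hd0 (inv_ne_zero he0),
    ?_, ?_, ?_, ?_, hredP, hredQ, ?_⟩
  · rw [aIota_comboA]; exact D.comboL_mem _
  · rw [aIota_eval₂]; exact D.aeval_mem _
  · rw [aRed_comboA]; exact D.comboK_mem _
  · rw [aRed_eval₂]; exact D.aeval_red_mem _
  · have hCe : (HahnSeries.C e : LaurentSeries L) ≠ 0 := C_ne_zero_of_ne_zero he0
    have h1 : f * (HahnSeries.C e * aIota A (Q'.eval₂ HahnSeries.C D.x)) =
        HahnSeries.C d * aIota A (comboA A D.x D.m P') := by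
      rw [← heqQ, hPQ, heqP]
    rw [map_mul, map_inv₀]
    field_simp
    rw [← h1]
    ring

/-- **(C1)** Every nonzero element of `F` has content. -/
theorem hasContent {f : LaurentSeries L} (hf : f ∈ F) (hf0 : f ≠ 0) :
    ∃ c, HasContent A π f c := by
  obtain ⟨c, y₁, y₂, hc, -, -, -, -, h1, h2, h⟩ := D.exists_integral_fraction hf hf0
  exact ⟨c, hc, y₁, y₂, h1, h2, h⟩

/-- **(C2)** The Gauss valuation subring of `F`. -/
def valSubring : ValuationSubring F :=
  gaussValSubring A π F fun _ hf hf0 => D.hasContent hf hf0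

theorem mem_valSubring_iff {f : F} :
    f ∈ D.valSubring ↔ (f : LaurentSeries L) ∈ gaussRingA A π := Iff.rfl

/-- the residue map with values in `k((q))` -/
def resSeries : D.valSubring →+* LaurentSeries k :=
  gaussResSub A π F fun _ hf hf0 => D.hasContent hf hf0

theorem resSeries_apply (f : D.valSubring) :
    D.resSeries f = gaussResA A π ⟨((f : F) : LaurentSeries L), f.2⟩ := rfl

theorem isUnit_iff_resSeries_ne_zero (f : D.valSubring) : IsUnit f ↔ D.resSeries f ≠ 0 :=
  isUnit_iff_gaussResSub_ne_zero A π _ _ f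

/-- The residues lie in `Ft`. -/
theorem resSeries_mem (hπ : ∀ a : A, a ∈ IsLocalRing.maximalIdeal A → π a = 0)
    (f : D.valSubring) : D.resSeries f ∈ Ft := by
  by_cases hf0 : ((f : F) : LaurentSeries L) = 0
  · have : f = 0 := Subtype.ext (Subtype.ext hf0)
    rw [this, map_zero]; exact Ft.zero_mem
  obtain ⟨c, y₁, y₂, hc, -, -, h1, h2, h3, h4, h⟩ :=
    D.exists_integral_fraction (SetLike.coe_mem (f : F)) hf0
  have hcont : HasContent A π ((f : F) : LaurentSeries L) c := ⟨hc, y₁, y₂, h3, h4, h⟩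
  have hcA : c ∈ A := (hcont.mem_gaussRingA_iff hπ).mp f.2
  rw [resSeries_apply, HasContent.gaussResA_eq h4 h hcA f.2]
  refine Ft.mul_mem ?_ (Ft.div_mem h1 h2)
  rw [HahnSeries.C_apply, ← algebraMap_laurentSeries_eq_single]
  exact Ft.algebraMap_mem _

/-- **(C3)** The residue map `O → Ft`. -/
def res (hπ : ∀ a : A, a ∈ IsLocalRing.maximalIdeal A → π a = 0) : D.valSubring →+* Ft :=
  D.resSeries.codRestrict Ft.toSubring fun f => D.resSeries_mem hπ f

theorem coe_res (hπ : ∀ a : A, a ∈ IsLocalRing.maximalIdeal A → π a = 0) (f : D.valSubring) :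
    ((D.res hπ f : Ft) : LaurentSeries k) = D.resSeries f := rfl

theorem res_eq_zero_iff (hπ : ∀ a : A, a ∈ IsLocalRing.maximalIdeal A → π a = 0)
    (f : D.valSubring) : D.res hπ f = 0 ↔ ¬ IsUnit f := by
  rw [D.isUnit_iff_resSeries_ne_zero, not_not, ← D.coe_res hπ]
  exact ⟨fun h => by rw [h]; rfl, fun h => Subtype.ext h⟩

/-- residue of an integral element -/
theorem resSeries_aIota (y : LaurentSeries A) (hy : aIota A y ∈ F) :
    ∃ h : (⟨aIota A y, hy⟩ : F) ∈ D.valSubring,
      D.resSeries ⟨⟨aIota A y, hy⟩, h⟩ = aRed π y :=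
  ⟨aIota_mem_gaussRingA A π y, gaussResA_aIota A π y⟩

/-- **(C4)** constants -/
theorem algebraMap_mem_iff (hπ : ∀ a : A, a ∈ IsLocalRing.maximalIdeal A → π a = 0) (a : L) :
    algebraMap L F a ∈ D.valSubring ↔ a ∈ A := by
  rw [mem_valSubring_iff]
  have h1 : ((algebraMap L F a : F) : LaurentSeries L) = HahnSeries.C a := by
    show algebraMap L (LaurentSeries L) a = _
    rw [algebraMap_laurentSeries_eq_C]
  rw [h1]
  by_cases ha : a = 0
  · subst ha
    rw [map_zero]
    exact ⟨fun _ => A.zero_mem, fun _ => (gaussRingA A π).zero_mem⟩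
  · exact (hasContent_C A π ha).mem_gaussRingA_iff hπ

theorem res_algebraMap (hπ : ∀ a : A, a ∈ IsLocalRing.maximalIdeal A → π a = 0) (a : L)
    (ha : a ∈ A) (ha' : algebraMap L F a ∈ D.valSubring) :
    D.res hπ ⟨algebraMap L F a, ha'⟩ = algebraMap k Ft (π ⟨a, ha⟩) := by
  apply Subtype.ext
  rw [D.coe_res hπ, resSeries_apply]
  have h1 : ((algebraMap L F a : F) : LaurentSeries L) = HahnSeries.C a := by
    show algebraMap L (LaurentSeries L) a = _
    rw [algebraMap_laurentSeries_eq_C]
  obtain ⟨h2, h3⟩ := gaussResA_C A π ⟨a, ha⟩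
  have h4 : (⟨((algebraMap L F a : F) : LaurentSeries L), ha'⟩ : gaussRingA A π) =
      ⟨HahnSeries.C a, h2⟩ := Subtype.ext h1
  rw [h4, h3]
  show _ = algebraMap k (LaurentSeries k) (π ⟨a, ha⟩)
  rw [algebraMap_laurentSeries_eq_C]

/-- **(C3)** surjectivity of the residue map onto `Ft`. -/
theorem res_surjective (hπ : ∀ a : A, a ∈ IsLocalRing.maximalIdeal A → π a = 0)
    (hπs : Function.Surjective π) : Function.Surjective (D.res hπ) := by
  -- the range of `resSeries` as a subfield of `k((q))`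
  let R : Subfield (LaurentSeries k) :=
    { D.resSeries.range with
      inv_mem' := by
        rintro z ⟨f, rfl⟩
        by_cases hz : D.resSeries f = 0
        · rw [hz, inv_zero]; exact Subring.zero_mem _
        · obtain ⟨u, rfl⟩ := (D.isUnit_iff_resSeries_ne_zero f).mpr hz
          refine ⟨((u⁻¹ : (D.valSubring)ˣ) : D.valSubring), ?_⟩
          have h1 : D.resSeries (u : D.valSubring) *
              D.resSeries ((u⁻¹ : (D.valSubring)ˣ) : D.valSubring) = 1 := by
            rw [← map_mul, Units.mul_inv, map_one]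
          exact eq_inv_of_mul_eq_one_right h1 }
  have hRmem : ∀ z, z ∈ R ↔ ∃ f, D.resSeries f = z := fun z => Iff.rfl
  let T : IntermediateField k (LaurentSeries k) :=
    R.toIntermediateField fun c => by
      obtain ⟨a, rfl⟩ := hπs c
      have ha' : algebraMap L F (a : L) ∈ D.valSubring := (D.algebraMap_mem_iff hπ _).mpr a.2
      rw [hRmem]
      refine ⟨⟨algebraMap L F (a : L), ha'⟩, ?_⟩
      have := D.res_algebraMap hπ (a : L) a.2 ha'
      rw [← D.coe_res hπ, this]
      rfl
  obtain ⟨S, hSF, hSgen⟩ := D.gen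
  have hle : Ft ≤ T := by
    refine hSgen.trans ?_
    rw [IntermediateField.adjoin_le_iff]
    rintro z ⟨s, hs, rfl⟩
    obtain ⟨h, hres⟩ := D.resSeries_aIota s (hSF s hs)
    exact ⟨_, hres⟩
  intro z
  obtain ⟨f, hf⟩ := hle z.2
  exact ⟨f, Subtype.ext hf⟩

/-! ### (C5') coordinate form: orthonormality of the family `x^a m_i / Q(x)` -/

/-- **(C5')** `f = (∑ i, P_i(x) m_i) / Q(x)` is Gauss integral iff every coefficient of every `P_i`
has valuation at most the content of `Q(x)`. -/
theorem mem_gaussRingA_iff_of_combo (hπ : ∀ a : A, a ∈ IsLocalRing.maximalIdeal A → π a = 0)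
    {f : LaurentSeries L} {P : Fin n → L[X]} {Q : L[X]} {e : L}
    (he : HasContent A π (aeval (aIota A D.x) Q) e)
    (hPQ : f * aeval (aIota A D.x) Q = comboL A D.x D.m P) :
    f ∈ gaussRingA A π ↔ ∀ i j, A.valuation ((P i).coeff j) ≤ A.valuation e := by
  have hQ0 : aeval (aIota A D.x) Q ≠ 0 := he.ne_zero
  have hf : f = comboL A D.x D.m P * (aeval (aIota A D.x) Q)⁻¹ := by
    rw [← hPQ, mul_assoc, mul_inv_cancel₀ hQ0, mul_one]
  by_cases hP : P = 0
  · subst hP
    have h0 : comboL A D.x D.m (0 : Fin n → L[X]) = 0 := by simp [comboL]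
    rw [hf, h0, zero_mul]
    refine ⟨fun _ i j => ?_, fun _ => (gaussRingA A π).zero_mem⟩
    simp
  obtain ⟨d, c', ⟨i₀, j₀, hd⟩, hmax, -, -, -, hcont⟩ := hasContent_comboL D.indep hP
  rw [hf, hcont.div_mem_gaussRingA_iff hπ he]
  constructor
  · intro h i j
    exact (hmax i j).trans h
  · intro h
    rw [← hd]
    exact h i₀ j₀

/-- **(C5')** the residue of `f = (∑ i, P_i(x) m_i) / Q(x)` vanishes iff every coefficient of every
`P_i` has valuation less than the content of `Q(x)`. -/
theorem gaussResA_eq_zero_iff_of_combo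
    (hπ : ∀ a : A, a ∈ IsLocalRing.maximalIdeal A → π a = 0)
    {f : LaurentSeries L} {P : Fin n → L[X]} {Q : L[X]} {e : L}
    (he : HasContent A π (aeval (aIota A D.x) Q) e)
    (hPQ : f * aeval (aIota A D.x) Q = comboL A D.x D.m P) (hf : f ∈ gaussRingA A π) :
    gaussResA A π ⟨f, hf⟩ = 0 ↔ ∀ i j, A.valuation ((P i).coeff j) < A.valuation e := by
  have hQ0 : aeval (aIota A D.x) Q ≠ 0 := he.ne_zero
  have hfeq : f = comboL A D.x D.m P * (aeval (aIota A D.x) Q)⁻¹ := by
    rw [← hPQ, mul_assoc, mul_inv_cancel₀ hQ0, mul_one]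
  have he0 : A.valuation e ≠ 0 := (Valuation.ne_zero_iff _).mpr he.1
  by_cases hP : P = 0
  · subst hP
    have h0 : comboL A D.x D.m (0 : Fin n → L[X]) = 0 := by simp [comboL]
    have hf0 : f = 0 := by rw [hfeq, h0, zero_mul]
    subst hf0
    have : (⟨0, hf⟩ : gaussRingA A π) = 0 := rfl
    rw [this, map_zero]
    refine ⟨fun _ i j => ?_, fun _ => rfl⟩
    simp only [Pi.zero_apply, coeff_zero, map_zero]
    exact zero_lt_iff.mpr he0
  obtain ⟨d, c', ⟨i₀, j₀, hd⟩, hmax, -, -, -, hcont⟩ := hasContent_comboL D.indep hP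
  have hcf : HasContent A π f (d * e⁻¹) := by rw [hfeq]; exact hcont.mul he.inv
  have hle : A.valuation (d * e⁻¹) ≤ 1 :=
    (A.valuation_le_one_iff _).mpr ((hcf.mem_gaussRingA_iff hπ).mp hf)
  have hiff := hcf.gaussResA_ne_zero_iff hπ hf
  have h1 : gaussResA A π ⟨f, hf⟩ = 0 ↔ A.valuation (d * e⁻¹) < 1 := by
    rw [lt_iff_le_and_ne, ← not_iff_not]
    rw [← ne_eq, hiff]
    tauto
  rw [h1, map_mul, map_inv₀, mul_inv_lt_iff₀ (zero_lt_iff.mpr he0), one_mul]
  constructor
  · intro h i j
    exact (hmax i j).trans_lt h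
  · intro h
    rw [← hd]
    exact h i₀ j₀

end OrthoData

end Fermat.Agent.Val
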