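import Fermat.Agent.Val.OrthoApprox

/-!
# L-VAL (V4): orthonormal families give orthonormal coordinates and exhaustions

* `exists_coords_of_orthonormal` : a finite family `e : σ → E` which is *orthonormal* for
  `(O, res)` over `A` (`∑ lam s • e s ∈ O ↔ ∀ s, lam s ∈ A`, and the residue vanishes iff all
  `lam s` are in the maximal ideal) is linearly independent and its coordinates on its span are
  orthonormal coordinates in the sense of `approx_of_coords`.
* `exhaustion_of_ortho` : the hypothesis `hex` of `approx_of_exhaustion` from an orthonormal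
  family of the shape `x ^ a * m i` together with the representation
  `f * Q(x) = ∑ i, P i (x) * m i` of every `f ∈ E` and the unit property of normalised `Q(x)`.
* `approx_of_ortho` : the combination (`RedSetup.approx`).
-/

set_option autoImplicit false

namespace Fermat.Agent.Val

open Polynomial

variable {L E Ft : Type*} [Field L] [Field E] [Algebra L E] [Ring Ft]
variable (A : ValuationSubring L) (O : ValuationSubring E) (res : O →+* Ft)

/-- Orthonormal finite families are linearly independent. -/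
theorem linearIndependent_of_orthonormal {σ : Type*} [Fintype σ] (e : σ → E)
    (hb : ∀ (lam : σ → L) (h : (∑ s, lam s • e s) ∈ O),
      res ⟨∑ s, lam s • e s, h⟩ = 0 → ∀ s, A.valuation (lam s) < 1) :
    LinearIndependent L e := by
  classical
  rw [Fintype.linearIndependent_iff]
  intro g hg
  by_contra hne
  push Not at hne
  obtain ⟨s₁, hs₁⟩ := hne
  obtain ⟨s₀, -, hmax⟩ := Finset.exists_max_image Finset.univ (fun s => A.valuation (g s))
    ⟨s₁, Finset.mem_univ _⟩
  have hs₀ : g s₀ ≠ 0 := by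
    intro h0
    have := hmax s₁ (Finset.mem_univ _)
    rw [h0, map_zero] at this
    exact hs₁ ((Valuation.zero_iff _).1 (le_antisymm this zero_le))
  set lam : σ → L := fun s => (g s₀)⁻¹ * g s with hlam
  have hsum : (∑ s, lam s • e s) = 0 := by
    have : (∑ s, lam s • e s) = (g s₀)⁻¹ • ∑ s, g s • e s := by
      rw [Finset.smul_sum]
      exact Finset.sum_congr rfl fun s _ => by rw [hlam, mul_smul]
    rw [this, hg, smul_zero]
  have hmem : (∑ s, lam s • e s) ∈ O := by rw [hsum]; exact O.zero_mem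
  have hres0 : res ⟨∑ s, lam s • e s, hmem⟩ = 0 := by
    have : (⟨∑ s, lam s • e s, hmem⟩ : O) = 0 := Subtype.ext hsum
    rw [this, map_zero]
  have := hb lam hmem hres0 s₀
  rw [hlam] at this
  simp only [inv_mul_cancel₀ hs₀, map_one] at this
  exact lt_irrefl _ this

/-- **Orthonormal coordinates from an orthonormal family.** -/
theorem exists_coords_of_orthonormal {σ : Type*} [Fintype σ] (e : σ → E)
    (ha : ∀ lam : σ → L, (∑ s, lam s • e s) ∈ O ↔ ∀ s, lam s ∈ A)
    (hb : ∀ (lam : σ → L) (h : (∑ s, lam s • e s) ∈ O),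
      res ⟨∑ s, lam s • e s, h⟩ = 0 ↔ ∀ s, A.valuation (lam s) < 1) :
    ∃ (W : Submodule L E) (coords : W ≃ₗ[L] (σ → L)),
      W = Submodule.span L (Set.range e) ∧
      (∀ f : W, (f : E) ∈ O ↔ supVal A.valuation (coords f) ≤ 1) ∧
      (∀ (f : W) (hf : (f : E) ∈ O),
        res ⟨(f : E), hf⟩ = 0 ↔ supVal A.valuation (coords f) < 1) := by
  classical
  have hli : LinearIndependent L e :=
    linearIndependent_of_orthonormal A O res e fun lam h h0 => (hb lam h).1 h0
  set bs := Module.Basis.span hli with hbs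
  refine ⟨Submodule.span L (Set.range e), bs.equivFun, rfl, ?_, ?_⟩
  · intro f
    have hf : (f : E) = ∑ s, bs.equivFun f s • e s := by
      conv_lhs => rw [← bs.sum_equivFun f]
      rw [AddSubmonoidClass.coe_finsetSum]
      refine Finset.sum_congr rfl fun s _ => ?_
      rw [Submodule.coe_smul, hbs, Module.Basis.span_apply]
    rw [hf, ha, supVal_le_one_iff_forall_mem]
  · intro f hfO
    have hf : (f : E) = ∑ s, bs.equivFun f s • e s := by
      conv_lhs => rw [← bs.sum_equivFun f]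
      rw [AddSubmonoidClass.coe_finsetSum]
      refine Finset.sum_congr rfl fun s _ => ?_
      rw [Submodule.coe_smul, hbs, Module.Basis.span_apply]
    have hmem : (∑ s, bs.equivFun f s • e s) ∈ O := hf ▸ hfO
    have heq : (⟨(f : E), hfO⟩ : O) = ⟨∑ s, bs.equivFun f s • e s, hmem⟩ := Subtype.ext hf
    rw [heq, hb _ hmem]
    rcases isEmpty_or_nonempty σ with hσ | hσ
    · constructor
      · intro _
        have : supVal A.valuation (bs.equivFun f) = 0 := by
          rw [supVal_eq_zero_iff]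
          exact Subsingleton.elim _ _
        rw [this]
        exact zero_lt_one
      · intro _ s
        exact (hσ.false s).elim
    · exact (supVal_lt_one_iff_forall_lt A).symm

variable {A O res}

/-- **Exhaustion from an orthonormal monomial family.** Let `x : E`, `m : Fin n → E` be such that
for every `d` the family `x ^ a * m i` (`a ≤ d`) is orthonormal, every `f ∈ E` satisfies
`f * Q(x) = ∑ i, Pᵢ(x) * m i` with `Q ≠ 0`, and every `Q(x)`, `Q ≠ 0`, is a constant times a unit
of `O`. Then the hypothesis `hex` of `approx_of_exhaustion` holds. -/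
theorem exhaustion_of_ortho (x : E) {n : ℕ} (m : Fin n → E)
    (hU : ∀ Q : L[X], Q ≠ 0 → ∃ c : L, c ≠ 0 ∧ c • aeval x Q ≠ 0 ∧ c • aeval x Q ∈ O ∧
      (c • aeval x Q)⁻¹ ∈ O)
    (ha : ∀ (d : ℕ) (lam : Fin n × Fin (d + 1) → L),
      (∑ s, lam s • (x ^ (s.2 : ℕ) * m s.1)) ∈ O ↔ ∀ s, lam s ∈ A)
    (hb : ∀ (d : ℕ) (lam : Fin n × Fin (d + 1) → L)
      (h : (∑ s, lam s • (x ^ (s.2 : ℕ) * m s.1)) ∈ O),
      res ⟨∑ s, lam s • (x ^ (s.2 : ℕ) * m s.1), h⟩ = 0 ↔ ∀ s, A.valuation (lam s) < 1)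
    (hrep : ∀ f : E, ∃ Q : L[X], Q ≠ 0 ∧ ∃ P : Fin n → L[X],
      f * aeval x Q = ∑ i, aeval x (P i) * m i)
    (S : Finset E) :
    ∃ b : E, b ≠ 0 ∧ b ∈ O ∧ b⁻¹ ∈ O ∧
      ∃ (ι : Type) (_ : Fintype ι) (W : Submodule L E) (coords : W ≃ₗ[L] (ι → L)),
        (∀ f : W, (f : E) ∈ O ↔ supVal A.valuation (coords f) ≤ 1) ∧
        (∀ (f : W) (hf : (f : E) ∈ O),
          res ⟨(f : E), hf⟩ = 0 ↔ supVal A.valuation (coords f) < 1) ∧
        ∀ s ∈ S, b * s ∈ W := by
  classical
  choose Qf hQf Pf hPf using hrep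
  -- common denominator
  set Q : L[X] := ∏ s ∈ S, Qf s with hQ
  have hQ0 : Q ≠ 0 := Finset.prod_ne_zero_iff.2 fun s _ => hQf s
  -- numerators over the common denominator
  set P' : E → Fin n → L[X] := fun s i => Pf s i * ∏ t ∈ S.erase s, Qf t with hP'
  have hrep' : ∀ s ∈ S, s * aeval x Q = ∑ i, aeval x (P' s i) * m i := by
    intro s hs
    rw [hQ, ← Finset.mul_prod_erase S Qf hs, map_mul, ← mul_assoc, hPf s, Finset.sum_mul]
    refine Finset.sum_congr rfl fun i _ => ?_
    rw [hP', map_mul]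
    ring
  -- degree bound
  set d : ℕ := S.sup fun s => Finset.univ.sup fun i => (P' s i).natDegree with hd
  have hdeg : ∀ s ∈ S, ∀ i, (P' s i).natDegree ≤ d := fun s hs i =>
    (Finset.le_sup (f := fun i => (P' s i).natDegree) (Finset.mem_univ i)).trans
      (Finset.le_sup (f := fun s => Finset.univ.sup fun i => (P' s i).natDegree) hs)
  obtain ⟨c, hc, hb0, hbO, hbO'⟩ := hU Q hQ0
  obtain ⟨W, coords, hW, hO, hres⟩ := exists_coords_of_orthonormal A O res
    (fun s : Fin n × Fin (d + 1) => x ^ (s.2 : ℕ) * m s.1) (ha d) (hb d)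
  refine ⟨c • aeval x Q, hb0, hbO, hbO', Fin n × Fin (d + 1), inferInstance, W, coords, hO, hres,
    fun s hs => ?_⟩
  rw [hW]
  have h1 : c • aeval x Q * s = c • ∑ i, aeval x (P' s i) * m i := by
    rw [smul_mul_assoc, mul_comm, hrep' s hs]
  rw [h1]
  refine Submodule.smul_mem _ _ (Submodule.sum_mem _ fun i _ => ?_)
  rw [aeval_eq_sum_range' (Nat.lt_succ_of_le (hdeg s hs i)), Finset.sum_mul]
  refine Submodule.sum_mem _ fun a ha' => ?_
  rw [smul_mul_assoc]
  refine Submodule.smul_mem _ _ (Submodule.subset_span ?_)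
  exact ⟨(i, ⟨a, Finset.mem_range.1 ha'⟩), rfl⟩

/-- **`RedSetup.approx` from an orthonormal monomial family** (combination of
`exhaustion_of_ortho` and `approx_of_exhaustion`). -/
theorem approx_of_ortho (x : E) {n : ℕ} (m : Fin n → E)
    (hU : ∀ Q : L[X], Q ≠ 0 → ∃ c : L, c ≠ 0 ∧ c • aeval x Q ≠ 0 ∧ c • aeval x Q ∈ O ∧
      (c • aeval x Q)⁻¹ ∈ O)
    (ha : ∀ (d : ℕ) (lam : Fin n × Fin (d + 1) → L),
      (∑ s, lam s • (x ^ (s.2 : ℕ) * m s.1)) ∈ O ↔ ∀ s, lam s ∈ A)
    (hb : ∀ (d : ℕ) (lam : Fin n × Fin (d + 1) → L)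
      (h : (∑ s, lam s • (x ^ (s.2 : ℕ) * m s.1)) ∈ O),
      res ⟨∑ s, lam s • (x ^ (s.2 : ℕ) * m s.1), h⟩ = 0 ↔ ∀ s, A.valuation (lam s) < 1)
    (hrep : ∀ f : E, ∃ Q : L[X], Q ≠ 0 ∧ ∃ P : Fin n → L[X],
      f * aeval x Q = ∑ i, aeval x (P i) * m i)
    (V : Submodule L E) (hV : Module.Finite L V) (y : E) (hy : y ∉ V) :
    ∃ w ∈ V, ∃ c : L, c ≠ 0 ∧ ∃ h : c • (y - w) ∈ O,
      ∀ z : O, (z : E) ∈ V → res z ≠ res ⟨c • (y - w), h⟩ :=
  approx_of_exhaustion A O res (exhaustion_of_ortho x m hU ha hb hrep) V hV y hy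

end Fermat.Agent.Val
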