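import Mathlib
import Fermat.Agent.Val.Ortho
import Fermat.Agent.Val.OrthoExhaust

/-!
# L-VAL V1/V4 plug: the indexed orthonormal family `x^a * m_i` and `RedSetup.approx`

For `D : OrthoData A π F Ft n` the family `x^a * m_i` (`(i, a) ∈ Fin n × Fin (d+1)`) of elements of
the field `F` is orthonormal for `(D.valSubring, D.res hπ)` over `A` (`family_mem_iff`,
`res_family_eq_zero_iff`), normalised polynomials in `x` are units (`exists_unit_smul_aeval`), every
element of `F` is a combination with a common denominator (`exists_rep`), hence the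
best-approximation property `D.approx` = the field `approx` of `Red.RedSetup` verbatim
(via helper29's `approx_of_ortho`).
-/

set_option autoImplicit false
set_option linter.unusedSectionVars false
open ModularCurve Polynomial

noncomputable section
namespace Fermat.Agent.Val

variable {L : Type*} [Field L] {A : ValuationSubring L} {k : Type*} [Field k] {π : A →+* k}
variable {F : IntermediateField L (LaurentSeries L)} {Ft : IntermediateField k (LaurentSeries k)}
  {n : ℕ}

/-- the polynomials `∑ a, lam (i, a) X^a` attached to a coefficient family -/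
def famPoly (d : ℕ) (lam : Fin n × Fin (d + 1) → L) (i : Fin n) : L[X] :=
  ∑ a : Fin (d + 1), Polynomial.C (lam (i, a)) * Polynomial.X ^ (a : ℕ)

theorem famPoly_coeff (d : ℕ) (lam : Fin n × Fin (d + 1) → L) (i : Fin n) (j : ℕ) :
    (famPoly d lam i).coeff j = if h : j < d + 1 then lam (i, ⟨j, h⟩) else 0 := by
  classical
  rw [famPoly, Polynomial.finsetSum_coeff]
  simp only [Polynomial.coeff_C_mul, Polynomial.coeff_X_pow]
  split_ifs with h
  · rw [Finset.sum_eq_single (⟨j, h⟩ : Fin (d + 1))]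
    · simp
    · intro b _ hb
      have : j ≠ (b : ℕ) := fun hj => hb (Fin.ext hj.symm)
      simp [this]
    · intro hj
      exact absurd (Finset.mem_univ _) hj
  · refine Finset.sum_eq_zero fun b _ => ?_
    have : j ≠ (b : ℕ) := fun hj => h (hj ▸ b.2)
    simp [this]

theorem forall_famPoly_coeff_iff (d : ℕ) (lam : Fin n × Fin (d + 1) → L) (p : L → Prop)
    (h0 : p 0) : (∀ i j, p ((famPoly d lam i).coeff j)) ↔ ∀ s, p (lam s) := by
  constructor
  · rintro h ⟨i, a⟩
    have := h i (a : ℕ)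
    rw [famPoly_coeff, dif_pos a.2] at this
    exact this
  · intro h i j
    rw [famPoly_coeff]
    split_ifs with hj
    · exact h _
    · exact h0

namespace OrthoData

variable (D : OrthoData A π F Ft n)

include D

/-- the indexed family `∑ s, lam s • (x^a * m_i)` in `F` is the polynomial combination `comboL` -/
theorem coe_sum_family (d : ℕ) (lam : Fin n × Fin (d + 1) → L) :
    ((∑ s, lam s • (D.xF ^ (s.2 : ℕ) * D.mF s.1) : F) : LaurentSeries L) =
      comboL A D.x D.m (famPoly d lam) := by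
  rw [AddSubmonoidClass.coe_finsetSum, Fintype.sum_prod_type, comboL]
  refine Finset.sum_congr rfl fun i _ => ?_
  rw [famPoly, map_sum, Finset.sum_mul]
  refine Finset.sum_congr rfl fun a _ => ?_
  rw [map_mul, aeval_C, aeval_X_pow, Algebra.smul_def, MulMemClass.coe_mul, MulMemClass.coe_mul,
    SubmonoidClass.coe_pow, mul_assoc]
  rfl

/-- **(O1)(ii)** for the family `x^a * m_i`. -/
theorem family_mem_iff (hπ : ∀ a : A, a ∈ IsLocalRing.maximalIdeal A → π a = 0) (d : ℕ)
    (lam : Fin n × Fin (d + 1) → L) :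
    (∑ s, lam s • (D.xF ^ (s.2 : ℕ) * D.mF s.1)) ∈ D.valSubring ↔ ∀ s, lam s ∈ A := by
  rw [mem_valSubring_iff, coe_sum_family, comboL_mem_gaussRingA_iff hπ D.indep]
  exact forall_famPoly_coeff_iff d lam (fun c => c ∈ A) A.zero_mem

/-- **(O1)(iii)** for the family `x^a * m_i`. -/
theorem res_family_eq_zero_iff (hπ : ∀ a : A, a ∈ IsLocalRing.maximalIdeal A → π a = 0) (d : ℕ)
    (lam : Fin n × Fin (d + 1) → L)
    (h : (∑ s, lam s • (D.xF ^ (s.2 : ℕ) * D.mF s.1)) ∈ D.valSubring) :
    D.res hπ ⟨∑ s, lam s • (D.xF ^ (s.2 : ℕ) * D.mF s.1), h⟩ = 0 ↔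
      ∀ s, A.valuation (lam s) < 1 := by
  have h1 : D.res hπ ⟨∑ s, lam s • (D.xF ^ (s.2 : ℕ) * D.mF s.1), h⟩ = 0 ↔
      D.resSeries ⟨∑ s, lam s • (D.xF ^ (s.2 : ℕ) * D.mF s.1), h⟩ = 0 := by
    rw [← D.coe_res hπ]
    exact ⟨fun h' => by rw [h']; rfl, fun h' => Subtype.ext h'⟩
  rw [h1, resSeries_apply]
  have hone : HasContent A π (aeval (aIota A D.x) (1 : L[X])) 1 := by
    rw [map_one]
    have := hasContent_C A π (one_ne_zero : (1 : L) ≠ 0)
    rwa [map_one] at this
  have hPQ : ((∑ s, lam s • (D.xF ^ (s.2 : ℕ) * D.mF s.1) : F) : LaurentSeries L) *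
      aeval (aIota A D.x) (1 : L[X]) = comboL A D.x D.m (famPoly d lam) := by
    rw [map_one, mul_one, coe_sum_family]
  rw [D.gaussResA_eq_zero_iff_of_combo hπ hone hPQ h, map_one]
  exact forall_famPoly_coeff_iff d lam (fun c => A.valuation c < 1) (by simp)

/-- normalised nonzero polynomials in `x` are units of the Gauss valuation subring -/
theorem exists_unit_smul_aeval {Q : L[X]} (hQ : Q ≠ 0) :
    ∃ c : L, c ≠ 0 ∧ c • aeval D.xF Q ≠ 0 ∧ c • aeval D.xF Q ∈ D.valSubring ∧
      (c • aeval D.xF Q)⁻¹ ∈ D.valSubring := by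
  obtain ⟨e, Q', -, -, -, -, -, hcont⟩ := D.hasContent_aeval hQ
  have he0 : e ≠ 0 := hcont.1
  have hcoe : ((e⁻¹ • aeval D.xF Q : F) : LaurentSeries L) =
      HahnSeries.C e⁻¹ * aeval (aIota A D.x) Q := by
    rw [Algebra.smul_def, MulMemClass.coe_mul, D.coe_aeval_xF]
    congr 1
    show algebraMap L (LaurentSeries L) e⁻¹ = _
    rw [algebraMap_laurentSeries_eq_C]
  have hc1 : HasContent A π ((e⁻¹ • aeval D.xF Q : F) : LaurentSeries L) 1 := by
    rw [hcoe]
    have := hcont.C_mul (inv_ne_zero he0)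
    rwa [inv_mul_cancel₀ he0] at this
  refine ⟨e⁻¹, inv_ne_zero he0, ?_, ?_, ?_⟩
  · intro h
    apply hc1.ne_zero
    rw [h]; rfl
  · exact hc1.mem_gaussRingA_of_mem A.one_mem
  · show (((e⁻¹ • aeval D.xF Q : F)⁻¹ : F) : LaurentSeries L) ∈ gaussRingA A π
    have := hc1.inv
    rw [inv_one] at this
    exact this.mem_gaussRingA_of_mem A.one_mem

/-- **(O2)** in the field `F`. -/
theorem exists_rep (f : F) : ∃ Q : L[X], Q ≠ 0 ∧ ∃ P : Fin n → L[X],
    f * aeval D.xF Q = ∑ i, aeval D.xF (P i) * D.mF i := by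
  obtain ⟨P, Q, hQ, hPQ⟩ := D.exists_combo (SetLike.coe_mem f)
  refine ⟨Q, hQ, P, Subtype.ext ?_⟩
  rw [MulMemClass.coe_mul, D.coe_aeval_xF, hPQ, comboL, AddSubmonoidClass.coe_finsetSum]
  refine Finset.sum_congr rfl fun i _ => ?_
  rw [MulMemClass.coe_mul, D.coe_aeval_xF]
  rfl

/-- **`RedSetup.approx`** for the Gauss valuation of a field with orthonormal data. -/
theorem approx (hπ : ∀ a : A, a ∈ IsLocalRing.maximalIdeal A → π a = 0)
    (V : Submodule L F) (hV : Module.Finite L V) (y : F) (hy : y ∉ V) :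
    ∃ w ∈ V, ∃ c : L, c ≠ 0 ∧ ∃ h : c • (y - w) ∈ D.valSubring,
      ∀ z : D.valSubring, (z : F) ∈ V → D.res hπ z ≠ D.res hπ ⟨c • (y - w), h⟩ :=
  approx_of_ortho (A := A) (O := D.valSubring) (res := D.res hπ) D.xF D.mF
    (fun _ hQ => D.exists_unit_smul_aeval hQ)
    (D.family_mem_iff hπ) (D.res_family_eq_zero_iff hπ) D.exists_rep V hV y hy

end OrthoData

end Fermat.Agent.Val
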