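import Mathlib
import Fermat.Agent.Val.OrthoFamily
import Fermat.Agent.Val.GaussBar
import Fermat.Agent.Val.ModularOrtho
import Fermat.Agent.Val.ResidueFieldA

/-!
# L-VAL: orthonormal data for `F̄_N = ℚ̄ · F_N` over a valuation subring of `ℚ̄` over `ℓ ∤ N`

* `exists_orthoDataOfMonomials` : `OrthoData` for `laurentBaseChange L (modularFunctionFieldFull N)`
  from `ψ` monomials in the `j(q^d)` with independent reductions and the degree bound (general `L`);
* `exists_orthoDataQbar` / `orthoDataQbar` : the instance for `L = ℚ̄`, `k` the residue field of `A`,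
  `ℓ ∤ N` (helper12's `exists_orthoMonomials` + `X0.jBar_isSepVar`);
* **(M1)** `gaussResQbar_mem` : the residue map of the Gauss valuation has values in
  `F̃ = modularFunctionFieldFullC k N`; `gaussResQbar_surjective_onto`;
* `exists_integral_fraction_qbar` : the fraction form (C7) for `F̄_N`;
* `approx_qbar` : the best-approximation property.
-/

set_option autoImplicit false
set_option linter.unusedSectionVars false
open ModularCurve Polynomial IsLocalRing

noncomputable section
namespace Fermat.Agent.Val

section General

variable {L : Type*} [Field L] [Algebra ℚ L] (A : ValuationSubring L)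
variable {k : Type*} [Field k] (π : A →+* k) (N : ℕ) [NeZero N]

theorem aIota_jqModC_mem :
    aIota A (jqModC A) ∈ laurentBaseChange L (modularFunctionFieldFull N) :=
  coeffMap_subtype_jqModC_mem A N

/-- **OrthoData for `L · F_N`** from monomials with independent reductions and the degree bound. -/
theorem exists_orthoDataOfMonomials {n : ℕ} (m : Fin n → LaurentSeries A)
    (hm : ∀ i, m i ∈ Submonoid.closure (jGensA A N))
    (hind : ∀ c : Fin n → k[X],
      ∑ i, aeval (jqModC k) (c i) * coeffMap π (m i) = 0 → ∀ i, c i = 0)
    (hfin : FiniteDimensional (IntermediateField.adjoin L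
      {(⟨aIota A (jqModC A), aIota_jqModC_mem A N⟩ :
        laurentBaseChange L (modularFunctionFieldFull N))})
      (laurentBaseChange L (modularFunctionFieldFull N)))
    (hrank : Module.finrank (IntermediateField.adjoin L
      {(⟨aIota A (jqModC A), aIota_jqModC_mem A N⟩ :
        laurentBaseChange L (modularFunctionFieldFull N))})
      (laurentBaseChange L (modularFunctionFieldFull N)) ≤ n) :
    ∃ D : OrthoData A π (laurentBaseChange L (modularFunctionFieldFull N))
        (modularFunctionFieldFullC k N) n, D.x = jqModC A ∧ D.m = m := by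
  have hred : aRed π (jqModC A) = jqModC k := coeffMap_jqModC π
  refine ⟨{ x := jqModC A
            m := m
            hx := aIota_jqModC_mem A N
            hm := fun i => coeffMap_subtype_mem_of_mem_closure A N (hm i)
            finite := hfin
            finrank_le := hrank
            transc := by
              rw [hred]
              exact Fermat.Agent.Igusa.ChartBaseAux.transcendental_jqModC k
            indep := by
              intro c hc
              apply hind c
              rw [← hc, comboK, hred]
              rfl
            hxt := by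
              rw [hred]
              exact jqModC_mem_full k N
            hmt := fun i => coeffMap_pi_mem_of_mem_closure A π N (hm i)
            gen := ⟨jGensA A N, fun s hs => by
              obtain ⟨d, hd, hdN, rfl⟩ := hs
              exact coeffMap_subtype_jqNModC_mem A N hdN,
              le_of_eq (modularFunctionFieldFullC_eq_adjoin_image A π N)⟩ }, rfl, rfl⟩

end General

/-! ### `L = ℚ̄` -/

section Qbar

open Fermat.Agent.X0

variable (B : ValuationSubring (AlgebraicClosure ℚ)) (N : ℕ) [NeZero N] {ℓ : ℕ}
  [hℓ : Fact ℓ.Prime] (hB : B.LiesOverPrime ℓ) (hℓN : ¬ ℓ ∣ N)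

theorem xF_eq_jBar :
    (⟨aIota B (jqModC B), aIota_jqModC_mem B N⟩ : modularFunctionFieldBar N) = jBar N :=
  Subtype.ext (coeffMap_subtype_jqModC B)

include hB hℓN in
/-- **OrthoData for `F̄_N` over `ℚ̄`**, `ℓ ∤ N`, with `x = j`, `n = ψ(N)`. -/
theorem exists_orthoDataQbar :
    ∃ D : OrthoData B (residue B) (modularFunctionFieldBar N)
        (modularFunctionFieldFullC (ResidueField B) N) (dedekindPsi N),
      D.x = jqModC B ∧ ∀ i, D.m i ∈ Submonoid.closure (jGensA B N) := by
  let _ := charP_residueField_of_liesOverPrime B hB
  let _ := ZMod.algebra (ResidueField B) ℓ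
  have := isAlgebraic_residueField_zmodAlgebra B hB
  obtain ⟨m, hm, hind⟩ := exists_orthoMonomials B (residue B) N ℓ hℓN
  have hfin : FiniteDimensional (IntermediateField.adjoin (AlgebraicClosure ℚ)
      {(⟨aIota B (jqModC B), aIota_jqModC_mem B N⟩ : modularFunctionFieldBar N)})
      (modularFunctionFieldBar N) := by
    rw [xF_eq_jBar]
    exact finiteDimensional_bar N
  have hrank : Module.finrank (IntermediateField.adjoin (AlgebraicClosure ℚ)
      {(⟨aIota B (jqModC B), aIota_jqModC_mem B N⟩ : modularFunctionFieldBar N)})
      (modularFunctionFieldBar N) ≤ dedekindPsi N := by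
    rw [xF_eq_jBar]
    exact le_of_eq (finrank_bar_eq_dedekindPsi N)
  obtain ⟨D, hDx, hDm⟩ := exists_orthoDataOfMonomials B (residue B) N m hm hind hfin hrank
  exact ⟨D, hDx, fun i => by rw [hDm]; exact hm i⟩

/-- a chosen `OrthoData` for `F̄_N` over `ℚ̄` -/
def orthoDataQbar : OrthoData B (residue B) (modularFunctionFieldBar N)
    (modularFunctionFieldFullC (ResidueField B) N) (dedekindPsi N) :=
  (exists_orthoDataQbar B N hB hℓN).choose

theorem orthoDataQbar_x : (orthoDataQbar B N hB hℓN).x = jqModC B :=
  (exists_orthoDataQbar B N hB hℓN).choose_spec.1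

theorem orthoDataQbar_m_mem (i : Fin (dedekindPsi N)) :
    (orthoDataQbar B N hB hℓN).m i ∈ Submonoid.closure (jGensA B N) :=
  (exists_orthoDataQbar B N hB hℓN).choose_spec.2 i

/-- the Gauss valuation subring attached to the orthonormal data is `gaussValQbar` -/
theorem orthoDataQbar_valSubring :
    (orthoDataQbar B N hB hℓN).valSubring = gaussValQbar B N hℓ.out.ne_zero hB := rfl

/-- `hπ` for the residue map -/
theorem residue_hπ : ∀ a : B, a ∈ maximalIdeal B → residue B a = 0 :=
  fun a ha => residue_eq_zero_of_mem_maximalIdeal B a ha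

include hℓN in
/-- **(M1)** the residue map of the Gauss valuation of `F̄_N` has values in `F̃`. -/
theorem gaussResQbar_mem (x : gaussValQbar B N hℓ.out.ne_zero hB) :
    gaussResQbar B N hℓ.out.ne_zero hB x ∈ modularFunctionFieldFullC (ResidueField B) N :=
  (orthoDataQbar B N hB hℓN).resSeries_mem (residue_hπ B) x

include hB hℓN in
/-- **(C7) for `F̄_N`**: the fraction form. -/
theorem exists_integral_fraction_qbar {f : LaurentSeries (AlgebraicClosure ℚ)}
    (hf : f ∈ modularFunctionFieldBar N) (hf0 : f ≠ 0) :
    ∃ (c : AlgebraicClosure ℚ) (y₁ y₂ : LaurentSeries B), c ≠ 0 ∧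
      aIota B y₁ ∈ modularFunctionFieldBar N ∧ aIota B y₂ ∈ modularFunctionFieldBar N ∧
      aRed (residue B) y₁ ∈ modularFunctionFieldFullC (ResidueField B) N ∧
      aRed (residue B) y₂ ∈ modularFunctionFieldFullC (ResidueField B) N ∧
      aRed (residue B) y₁ ≠ 0 ∧ aRed (residue B) y₂ ≠ 0 ∧
      f * aIota B y₂ = HahnSeries.C c * aIota B y₁ :=
  (orthoDataQbar B N hB hℓN).exists_integral_fraction hf hf0

end Qbar

end Fermat.Agent.Val
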