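import Fermat.Agent.Val.OrthoRedSetup
import Fermat.Agent.Val.OrthoBar
import Fermat.Agent.X0.Alg.PrincipalDeg

/-!
# L-VAL (V6): the deliverable `Red.ValDeliverable N A` (interface (I3) of Program L)

`A` a valuation subring of `ℚ̄` lying over a prime `ℓ ∤ N`, `D := orthoDataQbar A N hA hℓN`
(`Val/OrthoBar.lean`).

* `constRedBar` : the constant reduction (`Val.ConstRed`) of `F̄_N` at `A` (valuation subring
  `gaussValQbar`, residue field `F̃_N`, best approximations) — the `r`-free part.
* `redSetupBar` : the `Red.RedSetup` attached to a place reduction as in the hypothesis of S18.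
* `valDeliverable` : **(I3)** `Red.ValDeliverable N A`.
* `principalGeneratedByIntegral_bar` : the Prelude's `PrincipalGeneratedByIntegral`.
-/

set_option autoImplicit false
set_option linter.style.haveILetI false

noncomputable section
namespace Fermat.Agent.Val

open AlgebraicCurve ModularCurve IsLocalRing Fermat.Agent.X0

set_option synthInstance.maxHeartbeats 400000

section

variable (N : ℕ) [NeZero N] {ℓ : ℕ} [hℓ : Fact ℓ.Prime] (hℓN : ¬ ℓ ∣ N)
variable (A : ValuationSubring (AlgebraicClosure ℚ)) (hA : A.LiesOverPrime ℓ)

/-- `F̄_N` has principal divisors (S24 infrastructure). -/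
theorem hasPrincipalDivisors_bar :
    HasPrincipalDivisors (AlgebraicClosure ℚ) (modularFunctionFieldBar N) :=
  hasPrincipalDivisors (jBar_isSepVar N)

/-- **The constant reduction of `F̄_N` at `A`** (the `r`-free part of the deliverable):
`O = gaussValQbar`, `res` with values in `F̃_N`, best approximations. -/
def constRedBar : ConstRed (F := modularFunctionFieldBar N)
    (Ft := modularFunctionFieldFullC (IsLocalRing.ResidueField A) N) A (IsLocalRing.residue A) :=
  (orthoDataQbar A N hA hℓN).constRed (residue_hπ A) (residue_surjective' A)

theorem constRedBar_O :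
    (constRedBar N hℓN A hA).O = gaussValQbar A N hℓ.out.ne_zero hA := rfl

variable {N A} in
/-- **The `Red.RedSetup` of S18** attached to a place reduction `r` satisfying the Prelude's
`IsPlaceReductionModL A N r`. -/
def redSetupBar
    {r : Place (AlgebraicClosure ℚ) (modularFunctionFieldBar N) →
      Place (IsLocalRing.ResidueField A)
        (modularFunctionFieldFullC (IsLocalRing.ResidueField A) N)}
    (hr : IsPlaceReductionModL A N r) :
    Red.RedSetup (K := AlgebraicClosure ℚ) (F := modularFunctionFieldBar N)
      (k := IsLocalRing.ResidueField A)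
      (Ft := modularFunctionFieldFullC (IsLocalRing.ResidueField A) N)
      A (IsLocalRing.residue A) :=
  haveI := hasPrincipalDivisors_bar N
  (orthoDataQbar A N hA hℓN).redSetup (residue_hπ A) (residue_surjective' A) hr

variable {N A} in
@[simp]
theorem redSetupBar_r
    {r : Place (AlgebraicClosure ℚ) (modularFunctionFieldBar N) →
      Place (IsLocalRing.ResidueField A)
        (modularFunctionFieldFullC (IsLocalRing.ResidueField A) N)}
    (hr : IsPlaceReductionModL A N r) : (redSetupBar hℓN hA hr).r = r := rfl

variable {N A} in
theorem redSetupBar_toConstRed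
    {r : Place (AlgebraicClosure ℚ) (modularFunctionFieldBar N) →
      Place (IsLocalRing.ResidueField A)
        (modularFunctionFieldFullC (IsLocalRing.ResidueField A) N)}
    (hr : IsPlaceReductionModL A N r) :
    (redSetupBar hℓN hA hr).toConstRed = constRedBar N hℓN A hA := rfl

include hℓN hA in
/-- **(I3)** the deliverable of L-VAL for S18: every place reduction as in the hypothesis of S18
extends to a `Red.RedSetup`. -/
theorem valDeliverable : Red.ValDeliverable N A :=
  fun _ hr => ⟨redSetupBar hℓN hA hr, rfl⟩

include hℓN hA in
/-- The Prelude's `PrincipalGeneratedByIntegral` for `F̄_N` at `A` (half of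
`ReductionInputsModL`). -/
theorem principalGeneratedByIntegral_bar :
    PrincipalGeneratedByIntegral A (IsLocalRing.residue A) N :=
  haveI := hasPrincipalDivisors_bar N
  (orthoDataQbar A N hA hℓN).principalGeneratedByIntegral

end

end Fermat.Agent.Val
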