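import Mathlib
import Fermat.Agent.Igusa.TowerAbstract

/-!
# Separability of towers generated by roots of separable two-variable polynomials (abstract)

`k ⊆ B ⊆ Fld` fields.  If `z ∈ Fld` is separable over `B` and `x` is a root of the polynomial
`Φ(X, z)` (`Φ ∈ k[Y][X]`, inner variable evaluated at `z`), which is a separable polynomial over
`Fld`, then `x` is separable over `B`.  By induction along the divisors of `N` this gives the
separability of a whole family `X d`, `d ∣ N`.
-/

set_option autoImplicit false

namespace Fermat.Agent.Val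

open Polynomial IntermediateField Fermat.Agent.Igusa

section Abstract

variable {k B Fld : Type*} [Field k] [Field B] [Field Fld] [Algebra k B] [Algebra k Fld]
  [Algebra B Fld] [IsScalarTower k B Fld]

/-- One step: a root of a separable polynomial `Φ(X, z)` with `z` separable over `B` is separable
over `B`. -/
theorem isSeparable_of_isRoot_evInner {z x : Fld} (hz : IsSeparable B z) (Φ : k[X][X])
    (hsep : (evInner z Φ).Separable) (hroot : (evInner z Φ).eval x = 0) : IsSeparable B x := by
  haveI : Algebra.IsSeparable B B⟮z⟯ :=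
    (isSeparable_adjoin_simple_iff_isSeparable B Fld).mpr hz
  haveI : IsScalarTower k B⟮z⟯ Fld := IsScalarTower.of_algebraMap_eq fun c => rfl
  let zT : B⟮z⟯ := ⟨z, mem_adjoin_simple_self B z⟩
  have hmap : (evInner zT Φ).map (algebraMap B⟮z⟯ Fld) = evInner z Φ := by
    have h := evInner_map (IsScalarTower.toAlgHom k B⟮z⟯ Fld) zT Φ
    rw [show (IsScalarTower.toAlgHom k B⟮z⟯ Fld) zT = z from rfl] at h
    rw [← h]
    rfl
  have hsepT : (evInner zT Φ).Separable := by
    rw [← Polynomial.separable_map (algebraMap B⟮z⟯ Fld), hmap]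
    exact hsep
  have hrootT : Polynomial.aeval x (evInner zT Φ) = 0 := by
    rw [Polynomial.aeval_def, Polynomial.eval₂_eq_eval_map, hmap]
    exact hroot
  have h1 : IsSeparable B⟮z⟯ x := hsepT.of_dvd (minpoly.dvd _ x hrootT)
  exact IsSeparable.of_algebra_isSeparable_of_isSeparable B h1

/-- **Tower induction.** `X 1 ∈ B`, and for `p` prime with `p * d' ∣ N` the element `X (p * d')` is
a root of a separable polynomial `Φ(X, X d')`: then every `X d`, `d ∣ N`, is separable over `B`. -/
theorem isSeparable_of_tower {N : ℕ} (hN : N ≠ 0) (X : ℕ → Fld)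
    (hX1 : X 1 ∈ (algebraMap B Fld).range)
    (hstep : ∀ p d' : ℕ, p.Prime → p * d' ∣ N → ∃ Φ : k[X][X],
      (evInner (X d') Φ).Separable ∧ (evInner (X d') Φ).eval (X (p * d')) = 0) :
    ∀ d : ℕ, d ∣ N → IsSeparable B (X d) := by
  intro d
  induction d using Nat.strong_induction_on with
  | _ d ih =>
    intro hd
    by_cases h1 : d = 1
    · subst h1
      obtain ⟨b, hb⟩ := hX1
      rw [← hb]
      exact isSeparable_algebraMap b
    · have hd0 : d ≠ 0 := fun h => hN (by rw [h] at hd; exact zero_dvd_iff.mp hd)
      set p := d.minFac with hp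
      have hpp : p.Prime := Nat.minFac_prime h1
      obtain ⟨d', hd'⟩ : p ∣ d := Nat.minFac_dvd d
      have hd'pos : 0 < d' := Nat.pos_of_ne_zero fun h => hd0 (by rw [hd', h, mul_zero])
      have hlt : d' < d := by
        rw [hd']
        exact lt_mul_of_one_lt_left hd'pos hpp.one_lt
      have hd'N : d' ∣ N := Dvd.dvd.trans ⟨p, by rw [hd', mul_comm]⟩ hd
      obtain ⟨Φ, hsep, hroot⟩ := hstep p d' hpp (hd' ▸ hd)
      rw [hd']
      exact isSeparable_of_isRoot_evInner (ih d' hlt hd'N) Φ hsep hroot

end Abstract

section Generation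

variable {k L : Type*} [Field k] [Field L] [Algebra k L]

/-- If `M = k(S)` and `B ⊆ M` is an intermediate field of `M / k`, then `M` is generated over `B`
by (the elements of `M` lying over) `S`. -/
theorem adjoin_eq_top_of_adjoin_eq (S : Set L) (B : IntermediateField k ↥(IntermediateField.adjoin k S)) :
    IntermediateField.adjoin B
      {y : ↥(IntermediateField.adjoin k S) | (y : L) ∈ S} = ⊤ := by
  rw [eq_top_iff]
  rintro ⟨y, hy⟩ -
  induction hy using IntermediateField.adjoin_induction with
  | mem x hx => exact IntermediateField.subset_adjoin _ _ hx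
  | algebraMap c =>
    have : (⟨algebraMap k L c, IntermediateField.algebraMap_mem _ c⟩ :
        ↥(IntermediateField.adjoin k S)) = algebraMap B _ (algebraMap k B c) := rfl
    rw [this]
    exact IntermediateField.algebraMap_mem _ _
  | add x y hx hy ihx ihy =>
    have : (⟨x + y, add_mem hx hy⟩ : ↥(IntermediateField.adjoin k S)) = ⟨x, hx⟩ + ⟨y, hy⟩ := rfl
    rw [this]
    exact add_mem ihx ihy
  | inv x hx ih =>
    have : (⟨x⁻¹, inv_mem hx⟩ : ↥(IntermediateField.adjoin k S)) =
        (⟨x, hx⟩ : ↥(IntermediateField.adjoin k S))⁻¹ := rfl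
    rw [this]
    exact inv_mem ih
  | mul x y hx hy ihx ihy =>
    have : (⟨x * y, mul_mem hx hy⟩ : ↥(IntermediateField.adjoin k S)) = ⟨x, hx⟩ * ⟨y, hy⟩ := rfl
    rw [this]
    exact mul_mem ihx ihy

/-- Separability and finiteness of `k(S)` over a subfield `B`, from the generators. -/
theorem isSeparable_and_finite_of_generators (S : Set L) (hS : S.Finite)
    (B : IntermediateField k ↥(IntermediateField.adjoin k S))
    (hsep : ∀ y : ↥(IntermediateField.adjoin k S), (y : L) ∈ S → IsSeparable B y) :
    Algebra.IsSeparable B ↥(IntermediateField.adjoin k S) ∧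
      FiniteDimensional B ↥(IntermediateField.adjoin k S) := by
  have htop := adjoin_eq_top_of_adjoin_eq S B
  set T : Set ↥(IntermediateField.adjoin k S) := {y | (y : L) ∈ S} with hT
  have hTfin : T.Finite := by
    apply Set.Finite.of_injOn (f := fun y : ↥(IntermediateField.adjoin k S) => (y : L))
      (t := S) (fun y hy => hy) (fun a _ b _ h => Subtype.ext h) hS
  have h1 : Algebra.IsSeparable B (IntermediateField.adjoin B T) :=
    (IntermediateField.isSeparable_adjoin_iff_isSeparable B _).mpr fun y hy => hsep y hy
  haveI : Finite T := hTfin.to_subtype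
  have h2 : FiniteDimensional B (IntermediateField.adjoin B T) :=
    IntermediateField.finiteDimensional_adjoin fun y hy => (hsep y hy).isIntegral
  rw [htop] at h1 h2
  constructor
  · exact (AlgEquiv.Algebra.isSeparable (IntermediateField.topEquiv (F := B)
      (E := ↥(IntermediateField.adjoin k S))))
  · exact LinearEquiv.finiteDimensional (IntermediateField.topEquiv (F := B)
      (E := ↥(IntermediateField.adjoin k S))).toLinearEquiv

end Generation

end Fermat.Agent.Val
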