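import Mathlib
import Fermat.Agent.Val.SeparableTower
import Fermat.Agent.Igusa.TowerIdentity
import Fermat.Agent.Igusa.TowerOrders
import Fermat.Agent.Igusa.Tower

/-!
# Separability and finiteness of `k(j(q^d) : d ∣ N)` over `k(j)`

`k` a field carrying, for every prime `p ∣ N`, modular equation data `ModEqData k p ζ pinv` with
`ζ` a primitive `p`-th root of unity (e.g. `k` algebraically closed of characteristic `ℓ ∤ N`,
`Val/ModEqAnyField.lean`).  Then the function field
`F̃ = modularFunctionFieldFullC k N = k(j(q^d) : d ∣ N) ⊆ k((q))` is finite and **separable** over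
`k(j)`:

* `isSeparable_and_finite_full` : `Algebra.IsSeparable k⟮j⟯ F̃ ∧ FiniteDimensional k⟮j⟯ F̃`.

Proof: after `q ↦ s^N` the element `j(s^(p d' N))` is a root of `Φ_p(X, j(s^(d' N)))`, which splits
into pairwise distinct linear factors over `k((s))` by (ME1); tower induction
(`Val/SeparableTower.lean`).
-/

set_option autoImplicit false

namespace Fermat.Agent.Val

open Polynomial IntermediateField ModularCurve Fermat.Agent.Igusa

section Model

variable {k : Type*} [Field k]

/-- `evInner` (algebra form) and `evY` (Laurent series form) agree. -/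
theorem evInner_eq_evY (z : LaurentSeries k) (Φ : k[X][X]) : evInner z Φ = evY z Φ := by
  unfold evInner
  rw [evY_apply]
  congr 1
  apply Polynomial.ringHom_ext
  · intro a
    simp only [AlgHom.toRingHom_eq_coe, RingHom.coe_coe, Polynomial.aeval_C,
      Polynomial.coe_eval₂RingHom, Polynomial.eval₂_C]
    rw [← algebraMap_laurentSeries_eq_C]
  · simp only [AlgHom.toRingHom_eq_coe, RingHom.coe_coe, Polynomial.aeval_X,
      Polynomial.coe_eval₂RingHom, Polynomial.eval₂_X]

/-- The right-hand side of (ME1) is a separable polynomial when `ζ` is a primitive `p`-th root of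
unity. -/
theorem separable_me1_rhs {p : ℕ} (hp : p.Prime) {ζ : kˣ} (hζ : IsPrimitiveRoot ζ p)
    (n : ℕ) [NeZero n] [NeZero (n * (p * p))] :
    ((X - C (J (1 : kˣ) (n * (p * p)))) *
      ∏ b ∈ Finset.range p, (X - C (J (ζ ^ b * 1) n)) : (LaurentSeries k)[X]).Separable := by
  have hne : n ≠ n * (p * p) := by
    intro h
    have hn : 0 < n := Nat.pos_of_ne_zero (NeZero.ne n)
    have h1 : p * p = 1 := by
      have : n * 1 = n * (p * p) := by rw [mul_one]; exact h
      exact (Nat.eq_of_mul_eq_mul_left hn this).symm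
    have := hp.two_le
    nlinarith
  refine separable_X_sub_C.mul ?_ ?_
  · rw [separable_prod_X_sub_C_iff']
    intro x hx y hy hxy
    exact J_zeta_pow_injOn (c := (1 : kˣ)) n hζ (Finset.mem_coe.2 hx) (Finset.mem_coe.2 hy) hxy
  · refine IsCoprime.prod_right fun b _ => ?_
    refine isCoprime_X_sub_C_of_isUnit_sub (sub_ne_zero.mpr ?_).isUnit
    exact (J_ne_J_of_ne (ζ ^ b * 1) 1 hne).symm

end Model

section Field

variable (k : Type*) [Field k] (N : ℕ) [NeZero N]

/-- The family `j(q^d)`, `d ∣ N`, as elements of `F̃` (zero if `d ∤ N`). -/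
noncomputable def genFull (d : ℕ) : ↥(modularFunctionFieldFullC k N) :=
  if h : d ∣ N then
    ⟨Jt k 1 d, by
      haveI : NeZero d := ⟨ne_zero_of_dvd_ne_zero (NeZero.ne N) h⟩
      rw [Jt_eq, J_one_unit]
      exact jqModCd_mem_full k N h⟩
  else 0

variable {k N}

theorem coe_genFull {d : ℕ} [NeZero d] (h : d ∣ N) :
    ((genFull k N d : ↥(modularFunctionFieldFullC k N)) : LaurentSeries k) = J (1 : kˣ) d := by
  unfold genFull
  rw [dif_pos h]
  exact Jt_eq 1 d

variable (k N)

/-- `j` as an element of `F̃`. -/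
noncomputable def jFullC : ↥(modularFunctionFieldFullC k N) := ⟨jqModC k, jqModC_mem_full k N⟩

theorem genFull_one : genFull k N 1 = jFullC k N := by
  apply Subtype.ext
  rw [coe_genFull (one_dvd N), J_one_one]
  rfl

/-- The comparison map `F̃ → k((s))`, `q ↦ s^N`. -/
noncomputable def modelHom : ↥(modularFunctionFieldFullC k N) →ₐ[k] LaurentSeries k :=
  (qExpandAlgHomC k N).comp (modularFunctionFieldFullC k N).val

variable {k N}

theorem modelHom_genFull {d : ℕ} [NeZero d] [NeZero (N * d)] (h : d ∣ N) :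
    modelHom k N (genFull k N d) = J (1 : kˣ) (N * d) := by
  unfold modelHom
  rw [AlgHom.comp_apply, IntermediateField.val_mk, qExpandAlgHomC_apply, coe_genFull h, qExpand_J]

theorem modelHom_injective : Function.Injective (modelHom k N) := (modelHom k N).injective

/-- The step of the tower: `j(q^(p d'))` is a root of the separable polynomial
`Φ_p(X, j(q^d'))`. -/
theorem exists_separable_step
    (hdata : ∀ p (hp : p.Prime), p ∣ N → ∃ (ζ : kˣ) (pinv : k),
      IsPrimitiveRoot ζ p ∧ Nonempty (@ModEqData k _ p ⟨hp.ne_zero⟩ ζ pinv))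
    (p d' : ℕ) (hp : p.Prime) (hpd : p * d' ∣ N) :
    ∃ Φ : k[X][X], (evInner (genFull k N d') Φ).Separable ∧
      (evInner (genFull k N d') Φ).eval (genFull k N (p * d')) = 0 := by
  have hN : N ≠ 0 := NeZero.ne N
  have hpN : p ∣ N := Dvd.dvd.trans ⟨d', rfl⟩ hpd
  have hd'N : d' ∣ N := Dvd.dvd.trans ⟨p, mul_comm p d'⟩ hpd
  haveI : NeZero p := ⟨hp.ne_zero⟩
  haveI : NeZero d' := ⟨ne_zero_of_dvd_ne_zero hN hd'N⟩
  haveI : NeZero (p * d') := ⟨ne_zero_of_dvd_ne_zero hN hpd⟩
  obtain ⟨ζ, pinv, hζ, ⟨dat⟩⟩ := hdata p hp hpN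
  obtain ⟨N', hN'⟩ := hpN
  have hN'0 : N' ≠ 0 := fun h => hN (by rw [hN', h, mul_zero])
  -- `n = (N / p) * d'`
  set n : ℕ := N' * d' with hn
  haveI : NeZero n := ⟨Nat.mul_ne_zero hN'0 (NeZero.ne d')⟩
  have e1 : N * d' = n * p := by rw [hN', hn]; ring
  have e2 : N * (p * d') = n * (p * p) := by rw [hN', hn]; ring
  haveI : NeZero (n * p) := ⟨Nat.mul_ne_zero (NeZero.ne n) hp.ne_zero⟩
  haveI : NeZero (n * (p * p)) :=
    ⟨Nat.mul_ne_zero (NeZero.ne n) (Nat.mul_ne_zero hp.ne_zero hp.ne_zero)⟩
  haveI : NeZero (N * d') := ⟨e1 ▸ NeZero.ne (n * p)⟩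
  haveI : NeZero (N * (p * d')) := ⟨e2 ▸ NeZero.ne (n * (p * p))⟩
  -- the image of `Φ(X, x_{d'})` in the model
  have hmap : (evInner (genFull k N d') dat.Phi).map (modelHom k N).toRingHom =
      (X - C (J (1 : kˣ) (n * (p * p)))) *
        ∏ b ∈ Finset.range p, (X - C (J (ζ ^ b * 1) n)) := by
    rw [evInner_map, modelHom_genFull hd'N, evInner_eq_evY, J_congr 1 e1]
    have h := dat.me1_subst (1 : kˣ) n
    rw [one_pow, one_pow] at h
    exact h
  refine ⟨dat.Phi, ?_, ?_⟩
  · rw [← Polynomial.separable_map (modelHom k N).toRingHom, hmap]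
    exact separable_me1_rhs hp hζ n
  · apply modelHom_injective
    rw [map_zero]
    have h1 : modelHom k N ((evInner (genFull k N d') dat.Phi).eval (genFull k N (p * d'))) =
        ((evInner (genFull k N d') dat.Phi).map (modelHom k N).toRingHom).eval
          (modelHom k N (genFull k N (p * d'))) := by
      rw [Polynomial.eval_map]
      exact (Polynomial.eval₂_hom (modelHom k N).toRingHom (genFull k N (p * d'))).symm
    rw [h1, hmap, modelHom_genFull hpd, J_congr 1 e2, Polynomial.eval_mul, Polynomial.eval_sub,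
      Polynomial.eval_X, Polynomial.eval_C, sub_self, zero_mul]

variable (k N)

/-- The generators of `F̃` form a finite set. -/
theorem finite_divisorExpansionsC : (divisorExpansionsC k N).Finite := by
  have hsub : divisorExpansionsC k N ⊆
      (fun d : ℕ => Jt k 1 d) '' (N.divisors : Set ℕ) := by
    rintro x ⟨d, hd, hdN, rfl⟩
    refine ⟨d, ?_, ?_⟩
    · exact Finset.mem_coe.2 (Nat.mem_divisors.2 ⟨hdN, NeZero.ne N⟩)
    · show Jt k 1 d = _
      rw [Jt_eq, J_one_unit]
  exact (Set.Finite.image _ (Finset.finite_toSet _)).subset hsub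

/-- **Separability and finiteness of `F̃ = k(j(q^d) : d ∣ N)` over `k(j)`**, given modular equation
data with primitive roots of unity for the primes dividing `N`. -/
theorem isSeparable_and_finite_full
    (hdata : ∀ p (hp : p.Prime), p ∣ N → ∃ (ζ : kˣ) (pinv : k),
      IsPrimitiveRoot ζ p ∧ Nonempty (@ModEqData k _ p ⟨hp.ne_zero⟩ ζ pinv)) :
    Algebra.IsSeparable k⟮jFullC k N⟯ ↥(modularFunctionFieldFullC k N) ∧
      FiniteDimensional k⟮jFullC k N⟯ ↥(modularFunctionFieldFullC k N) := by
  have hsepd : ∀ d : ℕ, d ∣ N → IsSeparable k⟮jFullC k N⟯ (genFull k N d) := by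
    refine isSeparable_of_tower (k := k) (NeZero.ne N) (genFull k N) ?_
      (fun p d' hp hpd => exists_separable_step hdata p d' hp hpd)
    rw [genFull_one]
    exact ⟨⟨jFullC k N, mem_adjoin_simple_self k _⟩, rfl⟩
  refine isSeparable_and_finite_of_generators (divisorExpansionsC k N)
    (finite_divisorExpansionsC k N) k⟮jFullC k N⟯ ?_
  rintro y ⟨d, hd, hdN, hy⟩
  have : y = genFull k N d := by
    apply Subtype.ext
    rw [coe_genFull hdN, hy, J_one_unit]
  rw [this]
  exact hsepd d hdN

end Field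

end Fermat.Agent.Val
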