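import Mathlib
import Fermat.Agent.Val.SeparableModL
import Fermat.Agent.Val.ModEqAnyField
import Fermat.Agent.Val.ResidueFieldA
import Fermat.Agent.Igusa.ChartBase
import Fermat.Agent.FF.RiemannPkg

/-!
# Program L, interface (I5), characteristic `ℓ` half

* `isSepVarS_jFullC` : over an algebraically closed field `k` of characteristic `ℓ ∤ N`, the
  function `j` is a separating variable of `F̃ = modularFunctionFieldFullC k N` (transcendental,
  `F̃ / k(j)` finite and separable).
* `riemannPkg_modL` : `Red.RiemannPkg k (modularFunctionFieldFullC k N)`.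
* `riemannPkg_modL_residueField` : the instance needed by S18 (`k` the residue field of a
  valuation subring of `ℚ̄` lying over `ℓ ∤ N`).
-/

set_option autoImplicit false

namespace Fermat.Agent.Val

open Polynomial IntermediateField ModularCurve Fermat.Agent.Igusa Fermat.Agent.FF

section General

variable (k : Type*) [Field k] (N : ℕ) [NeZero N]

/-- `j` is transcendental over `k`, as an element of `F̃`. -/
theorem transcendental_jFullC : Transcendental k (jFullC k N) := by
  intro h
  have h1 : IsAlgebraic k ((modularFunctionFieldFullC k N).val (jFullC k N)) :=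
    h.algHom (modularFunctionFieldFullC k N).val
  exact Fermat.Agent.Igusa.ChartBaseAux.transcendental_jqModC k h1

variable {k N}

/-- `j` is a separating variable of `F̃ / k`, given modular equation data with primitive roots of
unity for the primes dividing `N`. -/
theorem isSepVarS_jFullC_of_data
    (hdata : ∀ p (hp : p.Prime), p ∣ N → ∃ (ζ : kˣ) (pinv : k),
      IsPrimitiveRoot ζ p ∧ Nonempty (@ModEqData k _ p ⟨hp.ne_zero⟩ ζ pinv)) :
    IsSepVarS k (jFullC k N)
      (Module.finrank k⟮jFullC k N⟯ ↥(modularFunctionFieldFullC k N)) := by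
  obtain ⟨hsep, hfin⟩ := isSeparable_and_finite_full k N hdata
  exact ⟨⟨transcendental_jFullC k N, hfin, rfl⟩, hsep⟩

end General

section AlgClosed

variable (N : ℕ) [NeZero N] {ℓ : ℕ} (k : Type*) [Field k] [IsAlgClosed k] [CharP k ℓ]

/-- `j` is a separating variable of `F̃ / k` for `k` algebraically closed of characteristic
`ℓ ∤ N`. -/
theorem isSepVarS_jFullC (hℓ : ℓ.Prime) (hℓN : ¬ ℓ ∣ N) :
    IsSepVarS k (jFullC k N)
      (Module.finrank k⟮jFullC k N⟯ ↥(modularFunctionFieldFullC k N)) :=
  isSepVarS_jFullC_of_data (exists_modEqData_of_isAlgClosed hℓ hℓN k)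

/-- `F̃ / k(j)` is separable. -/
theorem isSeparable_modularFunctionFieldFullC (hℓ : ℓ.Prime) (hℓN : ¬ ℓ ∣ N) :
    Algebra.IsSeparable k⟮jFullC k N⟯ ↥(modularFunctionFieldFullC k N) :=
  (isSepVarS_jFullC N k hℓ hℓN).separable

/-- `F̃ / k(j)` is finite. -/
theorem finiteDimensional_modularFunctionFieldFullC (hℓ : ℓ.Prime) (hℓN : ¬ ℓ ∣ N) :
    FiniteDimensional k⟮jFullC k N⟯ ↥(modularFunctionFieldFullC k N) :=
  (isSepVarS_jFullC N k hℓ hℓN).finite

/-- **(I5), characteristic `ℓ` half.** The Riemann package of the function field of `X₀(N)` over an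
algebraically closed field of characteristic `ℓ ∤ N`. -/
theorem riemannPkg_modL (hℓ : ℓ.Prime) (hℓN : ¬ ℓ ∣ N) :
    Red.RiemannPkg k (modularFunctionFieldFullC k N) :=
  riemannPkg (isSepVarS_jFullC N k hℓ hℓN)

end AlgClosed

section ResidueField

/-- **(I5) for S18**: the Riemann package of `F̃` over the residue field of a valuation subring of
`ℚ̄` lying over `ℓ ∤ N`. -/
theorem riemannPkg_modL_residueField (N : ℕ) [NeZero N] {ℓ : ℕ} [hℓ : Fact ℓ.Prime]
    (hℓN : ¬ ℓ ∣ N) (A : ValuationSubring (AlgebraicClosure ℚ)) (hA : A.LiesOverPrime ℓ) :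
    Red.RiemannPkg (IsLocalRing.ResidueField A)
      (modularFunctionFieldFullC (IsLocalRing.ResidueField A) N) := by
  haveI : CharP (IsLocalRing.ResidueField A) ℓ := charP_residueField_of_liesOverPrime A hA
  haveI : IsAlgClosed (IsLocalRing.ResidueField A) := residueField_isAlgClosed A
  exact riemannPkg_modL N (IsLocalRing.ResidueField A) hℓ.out hℓN

end ResidueField

end Fermat.Agent.Val
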