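import Mathlib

/-!
# L-VAL (O2)/(C5): polynomial coordinates with respect to a polynomially independent family

Pure field theory (Mathlib only).  `F/K` fields, `X : F`, `M : Fin n → F`.

`PolyIndep X M` : the `M i` are linearly independent over the polynomial ring `K[X]`
(`∑ i, aeval X (P i) * M i = 0 → P = 0`).  Consequences:

* `PolyIndep.transcendental` : `X` is transcendental over `K` (if `0 < n`);
* `PolyIndep.linearIndependent` : the `M i` are linearly independent over `K⟮X⟯`;
* `PolyIndep.finrank_eq`, `PolyIndep.span_eq_top` : if `finrank K⟮X⟯ F ≤ n` they are a basis;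
* `PolyIndep.exists_poly_coords` : **(O2)** every `f : F` satisfies
  `f * aeval X Q = ∑ i, aeval X (P i) * M i` with `Q ≠ 0`;
* `PolyIndep.exists_poly_coords_family` : the same for finite families with a **common
  denominator** and a **common degree bound**;
* `exists_common_denom` : common denominators in `K⟮X⟯`.
-/

set_option autoImplicit false

noncomputable section
namespace Fermat.Agent.Val

open Polynomial IntermediateField

variable {K F : Type*} [Field K] [Field F] [Algebra K F]

/-! ### Common denominators in a simple extension -/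

/-- Every element of `K⟮X⟯` is a quotient of polynomial expressions with nonzero denominator. -/
theorem exists_frac_of_mem_adjoin_simple (X : F) (g : K⟮X⟯) :
    ∃ r s : K[X], aeval X s ≠ 0 ∧ (g : F) * aeval X s = aeval X r := by
  obtain ⟨r, s, h⟩ := (IntermediateField.mem_adjoin_simple_iff K (g : F)).mp g.2
  by_cases hs : aeval X s = 0
  · refine ⟨0, 1, by simp, ?_⟩
    rw [h, hs, div_zero, zero_mul, map_zero]
  · exact ⟨r, s, hs, by rw [h, div_mul_cancel₀ _ hs]⟩

/-- **Common denominator** for a finite family of elements of `K⟮X⟯`. -/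
theorem exists_common_denom (X : F) {ι : Type*} [Fintype ι] (g : ι → K⟮X⟯) :
    ∃ Q : K[X], aeval X Q ≠ 0 ∧ ∃ P : ι → K[X], ∀ i, (g i : F) * aeval X Q = aeval X (P i) := by
  classical
  choose r s hs hrs using fun i => exists_frac_of_mem_adjoin_simple X (g i)
  refine ⟨∏ i, s i, ?_, fun i => r i * ∏ j ∈ Finset.univ.erase i, s j, fun i => ?_⟩
  · rw [map_prod]
    exact Finset.prod_ne_zero_iff.mpr fun i _ => hs i
  · rw [← Finset.mul_prod_erase Finset.univ s (Finset.mem_univ i), map_mul, map_mul, ← mul_assoc,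
      hrs i]

/-! ### Polynomial independence -/

/-- The family `M` is linearly independent over the polynomial ring `K[X]` (evaluated at `X`). -/
def PolyIndep (X : F) {n : ℕ} (M : Fin n → F) : Prop :=
  ∀ P : Fin n → K[X], ∑ i, aeval X (P i) * M i = 0 → ∀ i, P i = 0

namespace PolyIndep

variable {X : F} {n : ℕ} {M : Fin n → F}

theorem ne_zero (h : PolyIndep (K := K) X M) (i : Fin n) : M i ≠ 0 := by
  classical
  intro hi
  have h1 := h (Pi.single i 1) (by
    rw [Finset.sum_eq_single i]
    · rw [hi, mul_zero]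
    · intro j _ hj
      rw [Pi.single_eq_of_ne hj, map_zero, zero_mul]
    · intro hni
      exact absurd (Finset.mem_univ i) hni) i
  rw [Pi.single_eq_same] at h1
  exact one_ne_zero h1

/-- Evaluation at `X` is injective on polynomials. -/
theorem aeval_eq_zero_iff (h : PolyIndep (K := K) X M) (hn : 0 < n) (p : K[X]) :
    aeval X p = 0 ↔ p = 0 := by
  classical
  refine ⟨fun hp => ?_, fun hp => by rw [hp, map_zero]⟩
  have h1 := h (Pi.single ⟨0, hn⟩ p) (by
    rw [Finset.sum_eq_single ⟨0, hn⟩]
    · rw [Pi.single_eq_same, hp, zero_mul]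
    · intro j _ hj
      rw [Pi.single_eq_of_ne hj, map_zero, zero_mul]
    · intro hni
      exact absurd (Finset.mem_univ _) hni) ⟨0, hn⟩
  rwa [Pi.single_eq_same] at h1

theorem transcendental (h : PolyIndep (K := K) X M) (hn : 0 < n) : Transcendental K X := by
  rintro ⟨p, hp0, hp⟩
  exact hp0 ((h.aeval_eq_zero_iff hn p).mp hp)

/-- Uniqueness of polynomial coordinates. -/
theorem coords_unique (h : PolyIndep (K := K) X M) {P P' : Fin n → K[X]}
    (hPP' : ∑ i, aeval X (P i) * M i = ∑ i, aeval X (P' i) * M i) : P = P' := by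
  funext i
  have h1 := h (fun i => P i - P' i) (by
    simp only [map_sub, sub_mul, Finset.sum_sub_distrib]
    rw [hPP', sub_self]) i
  exact sub_eq_zero.mp h1

/-- Polynomial independence implies linear independence over the field `K⟮X⟯`. -/
theorem linearIndependent (h : PolyIndep (K := K) X M) : LinearIndependent K⟮X⟯ M := by
  classical
  rw [Fintype.linearIndependent_iff]
  intro g hg i
  obtain ⟨Q, hQ, P, hP⟩ := exists_common_denom X g
  have h1 : ∑ j, aeval X (P j) * M j = 0 := by
    have h2 : ∑ j, aeval X (P j) * M j = aeval X Q * ∑ j, g j • M j := by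
      rw [Finset.mul_sum]
      refine Finset.sum_congr rfl fun j _ => ?_
      rw [← hP j, IntermediateField.smul_def, smul_eq_mul]
      ring
    rw [h2, hg, mul_zero]
  have h3 := h P h1 i
  have h4 := hP i
  rw [h3, map_zero] at h4
  have h5 : (g i : F) = 0 := (mul_eq_zero.mp h4).resolve_right hQ
  exact Subtype.ext h5

variable [FiniteDimensional K⟮X⟯ F]

theorem finrank_eq (h : PolyIndep (K := K) X M) (hfr : Module.finrank K⟮X⟯ F ≤ n) :
    Module.finrank K⟮X⟯ F = n := by
  have h1 := h.linearIndependent.fintype_card_le_finrank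
  rw [Fintype.card_fin] at h1
  exact le_antisymm hfr h1

theorem span_eq_top (h : PolyIndep (K := K) X M) (hfr : Module.finrank K⟮X⟯ F ≤ n) :
    Submodule.span K⟮X⟯ (Set.range M) = ⊤ :=
  h.linearIndependent.span_eq_top_of_card_eq_finrank'
    (by rw [Fintype.card_fin, h.finrank_eq hfr])

/-- Coordinates over `K⟮X⟯`. -/
theorem exists_coords (h : PolyIndep (K := K) X M) (hfr : Module.finrank K⟮X⟯ F ≤ n) (f : F) :
    ∃ g : Fin n → K⟮X⟯, f = ∑ i, (g i : F) * M i := by
  have h1 : f ∈ Submodule.span K⟮X⟯ (Set.range M) := by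
    rw [h.span_eq_top hfr]; exact Submodule.mem_top
  obtain ⟨g, hg⟩ := (Submodule.mem_span_range_iff_exists_fun K⟮X⟯).mp h1
  refine ⟨g, ?_⟩
  rw [← hg]
  refine Finset.sum_congr rfl fun i _ => ?_
  rw [IntermediateField.smul_def, smul_eq_mul]

/-- **(O2), finite families**: polynomial coordinates with a common denominator and a common degree
bound. -/
theorem exists_poly_coords_family (h : PolyIndep (K := K) X M)
    (hfr : Module.finrank K⟮X⟯ F ≤ n) {τ : Type*} [Fintype τ] (f : τ → F) :
    ∃ Q : K[X], Q ≠ 0 ∧ aeval X Q ≠ 0 ∧ ∃ (P : τ → Fin n → K[X]) (d : ℕ),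
      (∀ t i, (P t i).natDegree ≤ d) ∧
      ∀ t, f t * aeval X Q = ∑ i, aeval X (P t i) * M i := by
  classical
  choose g hg using fun t => h.exists_coords hfr (f t)
  obtain ⟨Q, hQ, P, hP⟩ := exists_common_denom X (fun ti : τ × Fin n => g ti.1 ti.2)
  have hQ0 : Q ≠ 0 := by
    rintro rfl
    exact hQ (map_zero _)
  refine ⟨Q, hQ0, hQ, fun t i => P (t, i),
    Finset.univ.sup fun ti : τ × Fin n => (P ti).natDegree, fun t i => ?_, fun t => ?_⟩
  · exact Finset.le_sup (f := fun ti : τ × Fin n => (P ti).natDegree) (Finset.mem_univ (t, i))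
  · rw [hg t, Finset.sum_mul]
    refine Finset.sum_congr rfl fun i _ => ?_
    rw [← hP (t, i)]
    ring

/-- **(O2)**: every element of `F` has polynomial coordinates up to a nonzero denominator. -/
theorem exists_poly_coords (h : PolyIndep (K := K) X M) (hfr : Module.finrank K⟮X⟯ F ≤ n)
    (f : F) :
    ∃ Q : K[X], Q ≠ 0 ∧ aeval X Q ≠ 0 ∧ ∃ P : Fin n → K[X],
      f * aeval X Q = ∑ i, aeval X (P i) * M i := by
  obtain ⟨Q, hQ0, hQ, P, -, -, hP⟩ := h.exists_poly_coords_family hfr (fun _ : Unit => f)
  exact ⟨Q, hQ0, hQ, P (), hP ()⟩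

end PolyIndep

end Fermat.Agent.Val
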