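import Mathlib
import Fermat.Agent.Val.Ortho
import Fermat.Agent.Val.OrthoSpan

/-!
# L-VAL (O5): the residue degree `[Ft : k(x̃)] = n` from orthonormal data

For `D : OrthoData A π F Ft n` with `π` surjective killing the maximal ideal:
the reductions `m̃ i` form a basis of `Ft` over `k⟮x̃⟯` (`x̃ = aRed π D.x`), hence
`FiniteDimensional k⟮x̃⟯ Ft` and `finrank k⟮x̃⟯ Ft = n = finrank L⟮x⟯ F`.
-/

set_option autoImplicit false
set_option linter.unusedSectionVars false
open ModularCurve Polynomial IntermediateField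

noncomputable section
namespace Fermat.Agent.Val

variable {L : Type*} [Field L] {A : ValuationSubring L} {k : Type*} [Field k] {π : A →+* k}
variable {F : IntermediateField L (LaurentSeries L)} {Ft : IntermediateField k (LaurentSeries k)}
  {n : ℕ}

namespace OrthoData

variable (D : OrthoData A π F Ft n)

/-- `x̃` as an element of `Ft` -/
def xt : Ft := ⟨aRed π D.x, D.hxt⟩

/-- `m̃ i` as an element of `Ft` -/
def mt (i : Fin n) : Ft := ⟨aRed π (D.m i), D.hmt i⟩

theorem coe_aeval_xt (p : k[X]) :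
    ((aeval D.xt p : Ft) : LaurentSeries k) = aeval (aRed π D.x) p :=
  (Polynomial.aeval_algHom_apply Ft.val D.xt p).symm

/-- (H4) as polynomial independence inside the field `Ft` -/
theorem polyIndep_mt : PolyIndep (K := k) D.xt D.mt := by
  intro P hP
  apply D.indep P
  have h := congrArg (fun z : Ft => (z : LaurentSeries k)) hP
  simp only [AddSubmonoidClass.coe_finsetSum, MulMemClass.coe_mul, ZeroMemClass.coe_zero] at h
  rw [comboK, ← h]
  refine Finset.sum_congr rfl fun i _ => ?_
  rw [D.coe_aeval_xt]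
  rfl

theorem linearIndependent_mt : LinearIndependent k⟮D.xt⟯ D.mt :=
  D.polyIndep_mt.linearIndependent

/-- **Residues in coordinates**: the residue of an element of the Gauss valuation subring is a
`k(x̃)`-combination of the `m̃ i`. -/
theorem exists_combo_resSeries (hπ : ∀ a : A, a ∈ IsLocalRing.maximalIdeal A → π a = 0)
    (f : D.valSubring) :
    ∃ (P : Fin n → k[X]) (Q : k[X]), Q ≠ 0 ∧
      D.resSeries f * aeval (aRed π D.x) Q = comboK A π D.x D.m P := by
  obtain ⟨P, Q, hQ, hPQ⟩ := D.exists_combo (SetLike.coe_mem (f : F))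
  obtain ⟨e, Q', -, -, -, hredQ, heqQ, hcontQ⟩ := D.hasContent_aeval hQ
  have he0 : e ≠ 0 := hcontQ.1
  set g : LaurentSeries L := ((f : F) : LaurentSeries L) with hg
  set y₂ : LaurentSeries A := Q'.eval₂ HahnSeries.C D.x with hy₂
  -- the normalised numerator
  have h1 : comboL A D.x D.m (fun i => Polynomial.C e⁻¹ * P i) = g * aIota A y₂ := by
    rw [comboL_C_mul, ← hPQ, heqQ]
    have hCe : (HahnSeries.C e : LaurentSeries L) ≠ 0 := C_ne_zero_of_ne_zero he0
    rw [map_inv₀]
    field_simp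
  have hy₂mem : aIota A y₂ ∈ gaussRingA A π := aIota_mem_gaussRingA A π y₂
  have hmem : comboL A D.x D.m (fun i => Polynomial.C e⁻¹ * P i) ∈ gaussRingA A π := by
    rw [h1]
    exact (gaussRingA A π).mul_mem f.2 hy₂mem
  have hcoeff := (comboL_mem_gaussRingA_iff hπ D.indep _).mp hmem
  choose P'' hP'' using fun i => exists_map_subtype_eq A (hcoeff i)
  have hfun : (fun i => (P'' i).map A.subtype) = fun i => Polynomial.C e⁻¹ * P i := funext hP''
  have hmem' : comboL A D.x D.m (fun i => (P'' i).map A.subtype) ∈ gaussRingA A π := by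
    rw [hfun]; exact hmem
  have hres := gaussResA_comboL (π := π) (x := D.x) (m := D.m) P'' hmem'
  refine ⟨fun i => (P'' i).map π, Q'.map π, ?_, ?_⟩
  · intro h0
    apply hredQ
    rw [aRed_eval₂, h0, map_zero]
  · rw [← hres, ← aRed_eval₂, resSeries_apply, ← gaussResA_aIota A π y₂, ← map_mul]
    congr 1
    apply Subtype.ext
    rw [Subring.coe_mul]
    show g * aIota A y₂ = comboL A D.x D.m (fun i => (P'' i).map A.subtype)
    rw [hfun, h1]

/-- the `m̃ i` span `Ft` over `k(x̃)` -/
theorem span_mt_eq_top (hπ : ∀ a : A, a ∈ IsLocalRing.maximalIdeal A → π a = 0)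
    (hπs : Function.Surjective π) : Submodule.span k⟮D.xt⟯ (Set.range D.mt) = ⊤ := by
  rw [eq_top_iff]
  rintro z -
  obtain ⟨f, rfl⟩ := D.res_surjective hπ hπs z
  obtain ⟨P, Q, hQ, hPQ⟩ := D.exists_combo_resSeries hπ f
  have hQt : aeval D.xt Q ≠ 0 := by
    have htr : Transcendental k D.xt := D.polyIndep_mt.transcendental (by
      by_contra hn
      have hn0 : n = 0 := by omega
      subst hn0
      -- with `n = 0` the field `F` would be trivial over `L(x)`: impossible since `1 ≠ 0`
      obtain ⟨P1, Q1, hQ1, hPQ1⟩ := D.exists_combo (F.one_mem)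
      have h0 : comboL A D.x D.m P1 = 0 := by simp [comboL]
      rw [h0, one_mul] at hPQ1
      exact D.aeval_ne_zero hQ1 hPQ1)
    exact fun h => hQ (transcendental_iff.mp htr Q h)
  -- coefficients in `k(x̃)`
  rw [Submodule.mem_span_range_iff_exists_fun]
  refine ⟨fun i => ⟨aeval D.xt (P i) / aeval D.xt Q,
    (IntermediateField.mem_adjoin_simple_iff k _).mpr ⟨P i, Q, rfl⟩⟩, ?_⟩
  have h2 : D.res hπ f * aeval D.xt Q = ∑ i, aeval D.xt (P i) * D.mt i := by
    apply Subtype.ext
    rw [MulMemClass.coe_mul, D.coe_res hπ, D.coe_aeval_xt, hPQ, comboK,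
      AddSubmonoidClass.coe_finsetSum]
    refine Finset.sum_congr rfl fun i _ => ?_
    rw [MulMemClass.coe_mul, D.coe_aeval_xt]
    rfl
  have h3 : D.res hπ f = (∑ i, aeval D.xt (P i) * D.mt i) / aeval D.xt Q := by
    rw [← h2, mul_div_assoc, div_self hQt, mul_one]
  rw [h3, Finset.sum_div]
  refine Finset.sum_congr rfl fun i _ => ?_
  rw [IntermediateField.smul_def, smul_eq_mul]
  show aeval D.xt (P i) / aeval D.xt Q * D.mt i = _
  ring

/-- the basis `m̃` of `Ft` over `k(x̃)` -/
def basisMt (hπ : ∀ a : A, a ∈ IsLocalRing.maximalIdeal A → π a = 0)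
    (hπs : Function.Surjective π) : Module.Basis (Fin n) k⟮D.xt⟯ Ft :=
  Module.Basis.mk D.linearIndependent_mt (le_of_eq (D.span_mt_eq_top hπ hπs).symm)

/-- **(O5)** `Ft` is finite over `k(x̃)`. -/
theorem finiteDimensional_t (hπ : ∀ a : A, a ∈ IsLocalRing.maximalIdeal A → π a = 0)
    (hπs : Function.Surjective π) : FiniteDimensional k⟮D.xt⟯ Ft :=
  Module.Finite.of_basis (D.basisMt hπ hπs)

/-- **(O5)** `[Ft : k(x̃)] = n`. -/
theorem finrank_t_eq (hπ : ∀ a : A, a ∈ IsLocalRing.maximalIdeal A → π a = 0)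
    (hπs : Function.Surjective π) : Module.finrank k⟮D.xt⟯ Ft = n := by
  rw [Module.finrank_eq_card_basis (D.basisMt hπ hπs), Fintype.card_fin]

/-- degree equality `[Ft : k(x̃)] = [F : L(x)]` -/
theorem finrank_t_eq_finrank (hπ : ∀ a : A, a ∈ IsLocalRing.maximalIdeal A → π a = 0)
    (hπs : Function.Surjective π) :
    Module.finrank k⟮D.xt⟯ Ft = Module.finrank L⟮D.xF⟯ F := by
  rw [D.finrank_t_eq hπ hπs, D.finrank_eq]

end OrthoData

end Fermat.Agent.Val
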