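import Mathlib
import Fermat.Agent.Val.OrthoResidueDegree
import Fermat.Agent.Val.OrthoBar
import Fermat.Agent.Val.RiemannPkgModL

/-!
# `[F̃_N : k(j̃)] = ψ(N)` over the residue field of a valuation subring of `ℚ̄`

For `A ⊆ ℚ̄` lying over `ℓ ∤ N`, `k = ResidueField A`, `F̃ = modularFunctionFieldFullC k N`:

* `finrank_jFullC_residueField` : `finrank k⟮jFullC k N⟯ F̃ = dedekindPsi N`
  (from the orthonormal data `orthoDataQbar` and `OrthoData.finrank_t_eq`);
* `isSepVarS_jFullC_residueField` : `j̃` is a separating variable of `F̃ / k` of degree `ψ(N)`.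
-/

set_option autoImplicit false

namespace Fermat.Agent.Val

open ModularCurve IntermediateField IsLocalRing Fermat.Agent.FF

variable (N : ℕ) [NeZero N] {ℓ : ℕ} [hℓ : Fact ℓ.Prime] (hℓN : ¬ ℓ ∣ N)
  (A : ValuationSubring (AlgebraicClosure ℚ)) (hA : A.LiesOverPrime ℓ)

include hℓN hA in
/-- The `x̃` of the orthonormal data of `F̄_N` is `j̃`. -/
theorem orthoDataQbar_xt :
    (orthoDataQbar A N hA hℓN).xt = jFullC (ResidueField A) N := by
  apply Subtype.ext
  show aRed (residue A) (orthoDataQbar A N hA hℓN).x = jqModC (ResidueField A)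
  rw [orthoDataQbar_x, aRed, coeffMap_jqModC]

include hℓN hA in
/-- **`[F̃_N : k(j̃)] = ψ(N)`** over the residue field `k` of `A`. -/
theorem finrank_jFullC_residueField :
    Module.finrank (ResidueField A)⟮jFullC (ResidueField A) N⟯
      ↥(modularFunctionFieldFullC (ResidueField A) N) = dedekindPsi N := by
  have h := (orthoDataQbar A N hA hℓN).finrank_t_eq (residue_hπ A) (residue_surjective' A)
  rw [orthoDataQbar_xt N hℓN A hA] at h
  exact h

include hℓN hA in
/-- `j̃` is a separating variable of `F̃_N / k` of degree `ψ(N)`. -/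
theorem isSepVarS_jFullC_residueField :
    IsSepVarS (ResidueField A) (jFullC (ResidueField A) N) (dedekindPsi N) := by
  haveI : CharP (ResidueField A) ℓ := charP_residueField_of_liesOverPrime A hA
  haveI : IsAlgClosed (ResidueField A) := residueField_isAlgClosed A
  have h := isSepVarS_jFullC N (ResidueField A) hℓ.out hℓN
  rw [finrank_jFullC_residueField N hℓN A hA] at h
  exact h

end Fermat.Agent.Val
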