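import Mathlib

/-!
# L-VAL (V8, abstract part): uniqueness of a valuation subring lying over a given one, when it is
integral

`F/K₁` a field extension, `O₁` a valuation subring of `K₁`, `O` a valuation subring of `F` lying
over `O₁` (`O.comap (algebraMap K₁ F) = O₁`) such that every element of `O` is integral over `O₁`.
Then

* `O` is the integral closure of `O₁` in `F` (`mem_iff_isIntegralElem_of_comap_eq`);
* `O` is the ONLY valuation subring of `F` lying over `O₁` (`eq_of_comap_eq_of_isIntegralElem`);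
* every ring automorphism `σ` of `F` mapping (the image of) `O₁` onto itself preserves `O`
  (`map_mem_iff_of_comap_eq`).

For the Gauss valuation: `K₁ = L(x)`, `O₁` its Gauss ring, `O = gaussValSubring` (integral because
its elements are `O₁`-combinations of the integral monomials `m i`).
-/

set_option autoImplicit false

namespace Fermat.Agent.Val

open Polynomial

section Nonunits

variable {F : Type*} [Field F] (B : ValuationSubring F)

theorem mem_nonunits_iff_inv_notMem {x : F} (hx : x ≠ 0) : x ∈ B.nonunits ↔ x⁻¹ ∉ B := by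
  rw [B.mem_nonunits_iff, ← B.valuation_le_one_iff, map_inv₀, not_le]
  have h0 : B.valuation x ≠ 0 := (Valuation.ne_zero_iff _).2 hx
  rw [one_lt_inv₀ (lt_of_le_of_ne zero_le h0.symm)]

theorem zero_mem_nonunits : (0 : F) ∈ B.nonunits := by
  rw [B.mem_nonunits_iff, map_zero]
  exact zero_lt_one

theorem mem_of_mem_nonunits {x : F} (hx : x ∈ B.nonunits) : x ∈ B :=
  (B.valuation_le_one_iff x).1 ((B.mem_nonunits_iff).1 hx).le

theorem mul_mem_nonunits_of_mem {x y : F} (hx : x ∈ B) (hy : y ∈ B.nonunits) :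
    x * y ∈ B.nonunits := by
  rw [B.mem_nonunits_iff, map_mul]
  calc B.valuation x * B.valuation y ≤ 1 * B.valuation y :=
        mul_le_mul_left ((B.valuation_le_one_iff x).2 hx) _
    _ = B.valuation y := one_mul _
    _ < 1 := (B.mem_nonunits_iff).1 hy

theorem sub_mem_nonunits {x y : F} (hx : x ∈ B.nonunits) (hy : y ∈ B.nonunits) :
    x - y ∈ B.nonunits := by
  rw [B.mem_nonunits_iff] at hx hy ⊢
  exact (Valuation.map_sub _ x y).trans_lt (max_lt hx hy)

/-- If `x y ∈ B.nonunits` and `y` is a unit of `B` … : cancellation of a unit. -/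
theorem mem_nonunits_of_mul_mem_nonunits {x y : F} (hy : y ∈ B) (hy' : y ∉ B.nonunits)
    (hxy : x * y ∈ B.nonunits) : x ∈ B.nonunits := by
  rw [B.mem_nonunits_iff] at hy' hxy ⊢
  have h1 : B.valuation y = 1 :=
    le_antisymm ((B.valuation_le_one_iff y).2 hy) (not_lt.1 hy')
  rwa [map_mul, h1, mul_one] at hxy

end Nonunits

section Unique

variable {K₁ F : Type*} [Field K₁] [Field F] [Algebra K₁ F]

/-- The maximal ideals correspond: `a` is a non-unit of `O₁ = O ∩ K₁` iff its image is a non-unit
of `O`. -/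
theorem algebraMap_mem_nonunits_iff {O₁ : ValuationSubring K₁} {O : ValuationSubring F}
    (hO : O.comap (algebraMap K₁ F) = O₁) (a : K₁) :
    algebraMap K₁ F a ∈ O.nonunits ↔ a ∈ O₁.nonunits := by
  rcases eq_or_ne a 0 with rfl | ha
  · rw [map_zero]
    exact ⟨fun _ => zero_mem_nonunits O₁, fun _ => zero_mem_nonunits O⟩
  · have ha' : algebraMap K₁ F a ≠ 0 := fun h =>
      ha ((map_eq_zero_iff _ (algebraMap K₁ F).injective).1 h)
    rw [mem_nonunits_iff_inv_notMem O ha', mem_nonunits_iff_inv_notMem O₁ ha, ← hO,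
      ValuationSubring.mem_comap, map_inv₀]

theorem eval₂_mem_of_mem {O₁ : ValuationSubring K₁} {O : ValuationSubring F}
    (hO : O.comap (algebraMap K₁ F) = O₁) {h : F} (hh : h ∈ O) (q : (↥O₁)[X]) :
    eval₂ ((algebraMap K₁ F).comp O₁.subtype) h q ∈ O := by
  rw [eval₂_eq_sum_range]
  refine sum_mem fun i _ => mul_mem ?_ (pow_mem hh i)
  have : ((q.coeff i : O₁) : K₁) ∈ O.comap (algebraMap K₁ F) := by
    rw [hO]
    exact (q.coeff i).2
  exact ValuationSubring.mem_comap.1 this

/-- Core induction: if `O ≤ O'` both lie over `O₁`, `h` is a non-unit of `O` and a unit of `O'`,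
then a polynomial over `O₁` whose value at `h` is a non-unit of `O'` has all its coefficients in
the maximal ideal of `O₁`. -/
theorem coeff_mem_nonunits_of_eval₂_mem_nonunits {O₁ : ValuationSubring K₁}
    {O O' : ValuationSubring F} (hO : O.comap (algebraMap K₁ F) = O₁)
    (hO' : O'.comap (algebraMap K₁ F) = O₁) (hle : O ≤ O') {h : F} (hh : h ∈ O.nonunits)
    (hh' : h ∉ O'.nonunits) (q : (↥O₁)[X]) :
    eval₂ ((algebraMap K₁ F).comp O₁.subtype) h q ∈ O'.nonunits →
      ∀ n, ((q.coeff n : O₁) : K₁) ∈ O₁.nonunits := by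
  have hhO : h ∈ O := mem_of_mem_nonunits O hh
  have hhO' : h ∈ O' := hle hhO
  have hnu : O'.nonunits ≤ O.nonunits := ValuationSubring.nonunits_le_nonunits.2 hle
  induction q using Polynomial.recOnHorner with
  | M0 =>
    intro _ n
    rw [coeff_zero]
    exact zero_mem_nonunits O₁
  | MC p a hp0 _ ih =>
    intro hE n
    -- `p = X * r`
    obtain ⟨r, rfl⟩ := X_dvd_iff.2 hp0
    have hEp : eval₂ ((algebraMap K₁ F).comp O₁.subtype) h (X * r) ∈ O.nonunits := by
      rw [eval₂_mul, eval₂_X, mul_comm]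
      exact mul_mem_nonunits_of_mem O (eval₂_mem_of_mem hO hhO r) hh
    rw [eval₂_add, eval₂_C] at hE
    have hE' := hnu hE
    have haO : ((algebraMap K₁ F).comp O₁.subtype) a ∈ O.nonunits := by
      have := sub_mem_nonunits O hE' hEp
      rwa [add_sub_cancel_left] at this
    have ha1 : (a : K₁) ∈ O₁.nonunits := (algebraMap_mem_nonunits_iff hO (a : K₁)).1 haO
    have haO' : ((algebraMap K₁ F).comp O₁.subtype) a ∈ O'.nonunits :=
      (algebraMap_mem_nonunits_iff hO' (a : K₁)).2 ha1
    have hEp' : eval₂ ((algebraMap K₁ F).comp O₁.subtype) h (X * r) ∈ O'.nonunits := by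
      have := sub_mem_nonunits O' hE haO'
      rwa [add_sub_cancel_right] at this
    have hcoef := ih hEp'
    rw [coeff_add, coeff_C]
    rcases Nat.eq_zero_or_pos n with rfl | hn
    · rw [if_pos rfl, hp0, zero_add]
      exact ha1
    · rw [if_neg hn.ne', add_zero]
      exact hcoef n
  | MX p _ ih =>
    intro hE n
    rw [eval₂_mul, eval₂_X] at hE
    have hEp' : eval₂ ((algebraMap K₁ F).comp O₁.subtype) h p ∈ O'.nonunits :=
      mem_nonunits_of_mul_mem_nonunits O' hhO' hh' hE
    have hcoef := ih hEp'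
    rcases Nat.eq_zero_or_pos n with rfl | hn
    · rw [coeff_mul_X_zero]
      exact zero_mem_nonunits O₁
    · obtain ⟨m, rfl⟩ := Nat.exists_eq_succ_of_ne_zero hn.ne'
      rw [coeff_mul_X]
      exact hcoef m

/-- Valuation subrings are integrally closed: an element of `F` integral over `O₁ = O ∩ K₁` lies
in `O`. -/
theorem mem_of_isIntegralElem {O₁ : ValuationSubring K₁} {O : ValuationSubring F}
    (hO : O.comap (algebraMap K₁ F) = O₁) {f : F}
    (hf : ((algebraMap K₁ F).comp O₁.subtype).IsIntegralElem f) : f ∈ O := by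
  obtain ⟨q, hq, hq0⟩ := hf
  -- the ring hom `O₁ → O`
  let ψ : O₁ →+* O := ((algebraMap K₁ F).comp O₁.subtype).codRestrict O.toSubring fun a => by
    have : (a : K₁) ∈ O.comap (algebraMap K₁ F) := by
      rw [hO]
      exact a.2
    exact ValuationSubring.mem_comap.1 this
  have hcomp : (algebraMap O F).comp ψ = (algebraMap K₁ F).comp O₁.subtype := RingHom.ext fun _ => rfl
  have hint : IsIntegral O f := by
    refine ⟨q.map ψ, hq.map ψ, ?_⟩
    rw [eval₂_map, hcomp]
    exact hq0
  obtain ⟨y, hy⟩ := (IsIntegrallyClosed.isIntegral_iff (R := O) (K := F)).1 hint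
  rw [← hy]
  exact y.2

/-- **Uniqueness of an integral valuation subring over `O₁`.** If `O` and `O'` are valuation
subrings of `F` lying over the valuation subring `O₁` of `K₁` and every element of `O` is integral
over `O₁`, then `O' = O`. -/
theorem eq_of_comap_eq_of_isIntegralElem {O₁ : ValuationSubring K₁} {O O' : ValuationSubring F}
    (hO : O.comap (algebraMap K₁ F) = O₁) (hO' : O'.comap (algebraMap K₁ F) = O₁)
    (hint : ∀ f ∈ O, ((algebraMap K₁ F).comp O₁.subtype).IsIntegralElem f) : O' = O := by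
  have hle : O ≤ O' := fun f hf => mem_of_isIntegralElem hO' (hint f hf)
  refine le_antisymm (fun g hg => ?_) hle
  by_contra hgO
  have hg0 : g ≠ 0 := fun h => hgO (h ▸ zero_mem O)
  have hh : g⁻¹ ∈ O.nonunits := by
    rw [mem_nonunits_iff_inv_notMem O (inv_ne_zero hg0), inv_inv]
    exact hgO
  have hh' : g⁻¹ ∉ O'.nonunits := by
    rw [mem_nonunits_iff_inv_notMem O' (inv_ne_zero hg0), inv_inv, not_not]
    exact hg
  obtain ⟨q, hq, hq0⟩ := hint g⁻¹ (mem_of_mem_nonunits O hh)
  have h0 : eval₂ ((algebraMap K₁ F).comp O₁.subtype) g⁻¹ q ∈ O'.nonunits := by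
    rw [hq0]
    exact zero_mem_nonunits O'
  have hlead := coeff_mem_nonunits_of_eval₂_mem_nonunits hO hO' hle hh hh' q h0 q.natDegree
  rw [coeff_natDegree, hq.leadingCoeff, O₁.mem_nonunits_iff] at hlead
  rw [OneMemClass.coe_one, map_one] at hlead
  exact lt_irrefl _ hlead

/-- `O` is the integral closure of `O₁` in `F`. -/
theorem mem_iff_isIntegralElem_of_comap_eq {O₁ : ValuationSubring K₁} {O : ValuationSubring F}
    (hO : O.comap (algebraMap K₁ F) = O₁)
    (hint : ∀ f ∈ O, ((algebraMap K₁ F).comp O₁.subtype).IsIntegralElem f) (f : F) :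
    f ∈ O ↔ ((algebraMap K₁ F).comp O₁.subtype).IsIntegralElem f :=
  ⟨hint f, mem_of_isIntegralElem hO⟩

/-- **Equivariance**: a ring automorphism `σ` of `F` which preserves `K₁` (acting on it through
`σ₁`) and the valuation subring `O₁` preserves the unique valuation subring `O` over `O₁`. -/
theorem map_mem_iff_of_comap_eq {O₁ : ValuationSubring K₁} {O : ValuationSubring F}
    (hO : O.comap (algebraMap K₁ F) = O₁)
    (hint : ∀ f ∈ O, ((algebraMap K₁ F).comp O₁.subtype).IsIntegralElem f)
    (σ : F ≃+* F) (σ₁ : K₁ ≃+* K₁) (hσ : ∀ a, σ (algebraMap K₁ F a) = algebraMap K₁ F (σ₁ a))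
    (hσ₁ : ∀ a, σ₁ a ∈ O₁ ↔ a ∈ O₁) (f : F) : σ f ∈ O ↔ f ∈ O := by
  have key : O.comap (σ : F →+* F) = O := by
    refine eq_of_comap_eq_of_isIntegralElem hO ?_ hint
    ext a
    rw [ValuationSubring.mem_comap, ValuationSubring.mem_comap]
    show σ (algebraMap K₁ F a) ∈ O ↔ _
    rw [hσ, ← ValuationSubring.mem_comap, hO, hσ₁]
  have := ValuationSubring.mem_comap (A := O) (f := (σ : F →+* F)) (x := f)
  rw [key] at this
  exact this.symm

end Unique

end Fermat.Agent.Val
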