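import Mathlib
import Fermat.Agent.Val.GaussA
import Fermat.Agent.Val.ValUnique
import Fermat.Agent.Val.OrthoSpan
import Fermat.Agent.Val.Ortho

/-!
# L-VAL V8: the Gauss valuation subring is the unique valuation subring over the Gauss ring of
`L(x)`

## Part 1 (abstract): finitely generated ⇒ integral
`F/K₁` fields, `O` a valuation subring of `F` lying over `O₁`, `M : Fin n → F` in `O` such that every
element of `O` is an `O₁`-combination of the `M i`.  Then `O` is integral over `O₁`, hence
(`Val/ValUnique.lean`) it is the integral closure of `O₁`, the unique valuation subring of `F` over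
`O₁`, and it is preserved by all automorphisms preserving `O₁`.

## Part 2 (Gauss): the coordinate form
`E ⊆ L((q))` a subfield with contents, `O = gaussValSubring`, `x, m i ∈ A((q))` with
`aIota x, aIota (m i) ∈ E`, `[E : L(x)] ≤ n`, the `m i` polynomially independent, `aRed x`
transcendental over `k`, and the CORE LEMMA of the orthonormal basis (hypothesis `hcore`):
a polynomial combination `∑ P i(x) m i` is Gauss integral only if all coefficients lie in `A`.
Then every element of `O` is a combination of the `m i` with coefficients in `O ∩ L(x)`.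
-/

set_option autoImplicit false

noncomputable section
namespace Fermat.Agent.Val

open Polynomial IntermediateField

/-! ### Part 1: abstract -/

section Abstract

variable {K₁ F : Type*} [Field K₁] [Field F] [Algebra K₁ F]

/-- If `O` is generated as an `O₁`-module by finitely many of its elements, it is integral over
`O₁`. -/
theorem isIntegralElem_of_forall_exists_coords {O₁ : ValuationSubring K₁} {O : ValuationSubring F}
    (hO : O.comap (algebraMap K₁ F) = O₁) {n : ℕ} (M : Fin n → F) (hM : ∀ i, M i ∈ O)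
    (hspan : ∀ f ∈ O, ∃ c : Fin n → K₁, (∀ i, c i ∈ O₁) ∧
      f = ∑ i, algebraMap K₁ F (c i) * M i) :
    ∀ f ∈ O, ((algebraMap K₁ F).comp O₁.subtype).IsIntegralElem f := by
  intro f hf
  let _ : Algebra O₁ F := ((algebraMap K₁ F).comp O₁.subtype).toAlgebra
  have hmap : ∀ r : O₁, algebraMap O₁ F r = algebraMap K₁ F (r : K₁) := fun r => rfl
  have hmem : ∀ r : O₁, algebraMap K₁ F (r : K₁) ∈ O := by
    intro r
    have : (r : K₁) ∈ O.comap (algebraMap K₁ F) := by rw [hO]; exact r.2
    exact ValuationSubring.mem_comap.1 this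
  -- `O` as a subalgebra over `O₁`
  let S : Subalgebra O₁ F :=
    { O.toSubring.toSubsemiring with
      algebraMap_mem' := fun r => hmem r }
  have hS : ∀ g, g ∈ S ↔ g ∈ O := fun g => Iff.rfl
  have hfg : S.toSubmodule.FG := by
    have hEq : S.toSubmodule = Submodule.span O₁ (Set.range M) := by
      apply le_antisymm
      · intro g hg
        obtain ⟨c, hc, rfl⟩ := hspan g ((hS g).1 hg)
        refine Submodule.sum_mem _ fun i _ => ?_
        have h1 : algebraMap K₁ F (c i) * M i = (⟨c i, hc i⟩ : O₁) • M i := by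
          rw [Algebra.smul_def, hmap]
        rw [h1]
        exact Submodule.smul_mem _ _ (Submodule.subset_span ⟨i, rfl⟩)
      · rw [Submodule.span_le]
        rintro _ ⟨i, rfl⟩
        exact (hS _).2 (hM i)
    rw [hEq]
    exact Submodule.fg_span (Set.finite_range M)
  have hint : IsIntegral O₁ f := IsIntegral.of_mem_of_fg S hfg f ((hS f).2 hf)
  exact hint

/-- **Uniqueness** in coordinate form. -/
theorem eq_of_comap_eq_of_coords {O₁ : ValuationSubring K₁} {O O' : ValuationSubring F}
    (hO : O.comap (algebraMap K₁ F) = O₁) (hO' : O'.comap (algebraMap K₁ F) = O₁)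
    {n : ℕ} (M : Fin n → F) (hM : ∀ i, M i ∈ O)
    (hspan : ∀ f ∈ O, ∃ c : Fin n → K₁, (∀ i, c i ∈ O₁) ∧
      f = ∑ i, algebraMap K₁ F (c i) * M i) : O' = O :=
  eq_of_comap_eq_of_isIntegralElem hO hO' (isIntegralElem_of_forall_exists_coords hO M hM hspan)

/-- **Equivariance** in coordinate form. -/
theorem map_mem_iff_of_coords {O₁ : ValuationSubring K₁} {O : ValuationSubring F}
    (hO : O.comap (algebraMap K₁ F) = O₁) {n : ℕ} (M : Fin n → F) (hM : ∀ i, M i ∈ O)
    (hspan : ∀ f ∈ O, ∃ c : Fin n → K₁, (∀ i, c i ∈ O₁) ∧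
      f = ∑ i, algebraMap K₁ F (c i) * M i)
    (σ : F ≃+* F) (σ₁ : K₁ ≃+* K₁) (hσ : ∀ a, σ (algebraMap K₁ F a) = algebraMap K₁ F (σ₁ a))
    (hσ₁ : ∀ a, σ₁ a ∈ O₁ ↔ a ∈ O₁) (f : F) : σ f ∈ O ↔ f ∈ O :=
  map_mem_iff_of_comap_eq hO (isIntegralElem_of_forall_exists_coords hO M hM hspan) σ σ₁ hσ hσ₁ f

end Abstract

/-! ### Part 2: the Gauss valuation subring -/

namespace GaussUnique

section Lifts

variable {L : Type*} [Field L] (A : ValuationSubring L) {k : Type*} [Field k] (π : A →+* k)

/-- A nonzero polynomial over `L` can be scaled to a polynomial over `A` having a coefficient equal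
to `1`. -/
theorem exists_smul_eq_map_subtype {Q : L[X]} (hQ : Q ≠ 0) :
    ∃ (c : L) (QA : A[X]) (a₀ : ℕ), c ≠ 0 ∧ QA.map A.subtype = C c * Q ∧ QA.coeff a₀ = 1 := by
  have hne : Q.support.Nonempty := by
    rw [Finset.nonempty_iff_ne_empty, Ne, Polynomial.support_eq_empty]
    exact hQ
  obtain ⟨a₀, ha₀, hmax⟩ := Finset.exists_max_image Q.support
    (fun a => A.valuation (Q.coeff a)) hne
  have hq0 : Q.coeff a₀ ≠ 0 := Polynomial.mem_support_iff.mp ha₀
  have hv0 : A.valuation (Q.coeff a₀) ≠ 0 := (Valuation.ne_zero_iff _).mpr hq0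
  have hmem : ∀ a, (Q.coeff a₀)⁻¹ * Q.coeff a ∈ A := by
    intro a
    by_cases ha : a ∈ Q.support
    · rw [← A.valuation_le_one_iff, map_mul, map_inv₀,
        inv_mul_le_iff₀ (zero_lt_iff.mpr hv0), mul_one]
      exact hmax a ha
    · rw [Polynomial.notMem_support_iff.mp ha, mul_zero]
      exact A.zero_mem
  have hl : C (Q.coeff a₀)⁻¹ * Q ∈ Polynomial.lifts A.subtype := by
    rw [Polynomial.lifts_iff_coeff_lifts]
    intro a
    rw [Polynomial.coeff_C_mul]
    exact ⟨⟨_, hmem a⟩, rfl⟩
  obtain ⟨QA, hQA⟩ := (Polynomial.mem_lifts _).mp hl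
  refine ⟨(Q.coeff a₀)⁻¹, QA, a₀, inv_ne_zero hq0, hQA, ?_⟩
  apply Subtype.ext
  have h1 := congrArg (fun p => p.coeff a₀) hQA
  simp only [Polynomial.coeff_map, Polynomial.coeff_C_mul] at h1
  rw [inv_mul_cancel₀ hq0] at h1
  exact h1

/-- evaluation of a polynomial over `A` at a series over `A` -/
def evalA (x : LaurentSeries A) (p : A[X]) : LaurentSeries A :=
  p.eval₂ (HahnSeries.C : A →+* LaurentSeries A) x

theorem aIota_evalA (x : LaurentSeries A) (p : A[X]) :
    aIota A (evalA A x p) = aeval (aIota A x) (p.map A.subtype) := by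
  rw [evalA, aeval_def, Polynomial.hom_eval₂, Polynomial.eval₂_map]
  congr 1
  apply RingHom.ext
  intro a
  rw [RingHom.comp_apply, RingHom.comp_apply, aIota_C, ModularCurve.algebraMap_laurentSeries_eq_single,
    HahnSeries.C_apply]
  rfl

variable {A} in
theorem aRed_evalA (x : LaurentSeries A) (p : A[X]) :
    aRed π (evalA A x p) = aeval (aRed π x) (p.map π) := by
  rw [evalA, aeval_def, Polynomial.hom_eval₂, Polynomial.eval₂_map]
  congr 1
  apply RingHom.ext
  intro a
  rw [RingHom.comp_apply, RingHom.comp_apply, aRed_C, ModularCurve.algebraMap_laurentSeries_eq_single,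
    HahnSeries.C_apply]

end Lifts

section Coords

variable {L : Type*} [Field L] (A : ValuationSubring L) {k : Type*} [Field k] (π : A →+* k)
variable (E : IntermediateField L (LaurentSeries L))
  (hE : ∀ x ∈ E, x ≠ 0 → ∃ c, HasContent A π x c)

/-- **Coordinate form of the Gauss valuation subring** (hypothesis form over the core lemma
`hcore` of the orthonormal basis): every Gauss integral element of `E` is a combination of the
`M i` with coefficients in `L(X)` which are Gauss integral. -/
theorem exists_coords_of_mem_gaussValSubring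
    (X : E) {n : ℕ} (M : Fin n → E) (x : LaurentSeries A) (m : Fin n → LaurentSeries A)
    (hX : (X : LaurentSeries L) = aIota A x) (hM : ∀ i, (M i : LaurentSeries L) = aIota A (m i))
    [FiniteDimensional L⟮X⟯ E] (hfr : Module.finrank L⟮X⟯ E ≤ n)
    (htr : Transcendental k (aRed π x))
    (hLI : PolyIndep (K := L) X M)
    (hcore : ∀ P : Fin n → L[X],
      (∑ i, aeval (aIota A x) (P i) * aIota A (m i)) ∈ gaussRingA A π →
        ∀ i a, (P i).coeff a ∈ A)
    (f : E) (hf : f ∈ gaussValSubring A π E hE) :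
    ∃ c : Fin n → L⟮X⟯,
      (∀ i, c i ∈ (gaussValSubring A π E hE).comap (algebraMap L⟮X⟯ E)) ∧
      f = ∑ i, algebraMap L⟮X⟯ E (c i) * M i := by
  classical
  -- polynomial coordinates with a denominator
  obtain ⟨Q, hQ0, hQ, P, hP⟩ := hLI.exists_poly_coords hfr f
  -- scale the denominator
  obtain ⟨c, QA, a₀, hc, hQA, hQA1⟩ := exists_smul_eq_map_subtype A hQ0
  -- the integral denominator
  set b : LaurentSeries A := evalA A x QA with hb
  have hb_iota : aIota A b = aeval (aIota A x) (C c * Q) := by
    rw [hb, aIota_evalA, hQA]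
  have hb_red : aRed π b ≠ 0 := by
    rw [hb, aRed_evalA]
    intro h0
    have h1 : QA.map π = 0 := by
      by_contra hne
      exact htr ⟨QA.map π, hne, h0⟩
    have h2 := congrArg (fun p => p.coeff a₀) h1
    simp only [Polynomial.coeff_map, Polynomial.coeff_zero] at h2
    rw [hQA1, map_one] at h2
    exact one_ne_zero h2
  have hb0 : aIota A b ≠ 0 := aIota_ne_zero_of_aRed_ne_zero A π hb_red
  have hcoe : ∀ p : L[X], ((aeval X p : E) : LaurentSeries L) = aeval (aIota A x) p := by
    intro p
    rw [← IntermediateField.aeval_coe, hX]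
  -- the relation in `L((q))`
  have hrel : (f : LaurentSeries L) * aIota A b =
      ∑ i, aeval (aIota A x) (C c * P i) * aIota A (m i) := by
    have h1 := congrArg (fun y : E => (y : LaurentSeries L)) hP
    simp only [MulMemClass.coe_mul, AddSubmonoidClass.coe_finsetSum, hcoe, hM] at h1
    rw [hb_iota, map_mul, ← mul_assoc, mul_comm (f : LaurentSeries L), mul_assoc, h1,
      Finset.mul_sum]
    refine Finset.sum_congr rfl fun i _ => ?_
    rw [map_mul, mul_assoc]
  -- integrality of the numerators
  have hnum : ∀ i a, (C c * P i).coeff a ∈ A := by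
    apply hcore
    rw [← hrel]
    exact (gaussRingA A π).mul_mem hf (aIota_mem_gaussRingA A π b)
  have hlift : ∀ i, ∃ PA : A[X], PA.map A.subtype = C c * P i := by
    intro i
    apply (Polynomial.mem_lifts _).mp
    rw [Polynomial.lifts_iff_coeff_lifts]
    intro a
    exact ⟨⟨_, hnum i a⟩, rfl⟩
  choose PA hPA using hlift
  have hp_iota : ∀ i, aIota A (evalA A x (PA i)) = aeval (aIota A x) (C c * P i) := by
    intro i
    rw [aIota_evalA, hPA]
  -- the coordinates
  have hmemK : ∀ i, aeval X (C c * P i) / aeval X (C c * Q) ∈ L⟮X⟯ := fun i =>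
    (IntermediateField.mem_adjoin_simple_iff L _).mpr ⟨_, _, rfl⟩
  have hcoord : ∀ i, ((aeval X (C c * P i) / aeval X (C c * Q) : E) : LaurentSeries L) =
      aIota A (evalA A x (PA i)) / aIota A b := by
    intro i
    rw [hp_iota, hb_iota, ← hcoe, ← hcoe]
    rfl
  refine ⟨fun i => ⟨aeval X (C c * P i) / aeval X (C c * Q), hmemK i⟩, fun i => ?_, ?_⟩
  · rw [ValuationSubring.mem_comap, mem_gaussValSubring_iff]
    refine ⟨evalA A x (PA i), b, hb_red, ?_⟩
    show ((aeval X (C c * P i) / aeval X (C c * Q) : E) : LaurentSeries L) * aIota A b = _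
    rw [hcoord, div_mul_cancel₀ _ hb0]
  · apply Subtype.ext
    rw [AddSubmonoidClass.coe_finsetSum]
    have h6 : ∀ i, ((algebraMap L⟮X⟯ E ⟨aeval X (C c * P i) / aeval X (C c * Q), hmemK i⟩ * M i : E) :
        LaurentSeries L) = aeval (aIota A x) (C c * P i) * aIota A (m i) / aIota A b := by
      intro i
      show ((aeval X (C c * P i) / aeval X (C c * Q) : E) : LaurentSeries L) *
        (M i : LaurentSeries L) = _
      rw [hcoord, hM, hp_iota, div_mul_eq_mul_div]
    simp only [h6]
    rw [← Finset.sum_div, ← hrel, mul_div_cancel_right₀ _ hb0]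

section Main

variable (X : E) {n : ℕ} (M : Fin n → E) (x : LaurentSeries A) (m : Fin n → LaurentSeries A)
  (hX : (X : LaurentSeries L) = aIota A x) (hM : ∀ i, (M i : LaurentSeries L) = aIota A (m i))
  [FiniteDimensional L⟮X⟯ E] (hfr : Module.finrank L⟮X⟯ E ≤ n)
  (htr : Transcendental k (aRed π x))
  (hLI : PolyIndep (K := L) X M)
  (hcore : ∀ P : Fin n → L[X],
    (∑ i, aeval (aIota A x) (P i) * aIota A (m i)) ∈ gaussRingA A π →
      ∀ i a, (P i).coeff a ∈ A)

include hM in
theorem mem_gaussValSubring_of_eq_aIota (i : Fin n) : M i ∈ gaussValSubring A π E hE := by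
  rw [mem_gaussValSubring_iff, hM]
  exact aIota_mem_gaussRingA A π (m i)

include hX hM hfr htr hLI hcore in
/-- **V8 (integrality)**: the Gauss valuation subring of `E` is integral over the Gauss ring of
`L(X)`; hence it is its integral closure in `E`. -/
theorem isIntegralElem_of_mem_gaussValSubring (f : E) (hf : f ∈ gaussValSubring A π E hE) :
    ((algebraMap L⟮X⟯ E).comp
      ((gaussValSubring A π E hE).comap (algebraMap L⟮X⟯ E)).subtype).IsIntegralElem f :=
  isIntegralElem_of_forall_exists_coords rfl M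
    (mem_gaussValSubring_of_eq_aIota A π E hE M m hM)
    (fun f hf => exists_coords_of_mem_gaussValSubring A π E hE X M x m hX hM hfr htr hLI hcore f hf)
    f hf

include hX hM hfr htr hLI hcore in
/-- **V8 (integral closure)**. -/
theorem mem_gaussValSubring_iff_isIntegralElem (f : E) :
    f ∈ gaussValSubring A π E hE ↔ ((algebraMap L⟮X⟯ E).comp
      ((gaussValSubring A π E hE).comap (algebraMap L⟮X⟯ E)).subtype).IsIntegralElem f :=
  mem_iff_isIntegralElem_of_comap_eq rfl
    (isIntegralElem_of_mem_gaussValSubring A π E hE X M x m hX hM hfr htr hLI hcore) f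

include hX hM hfr htr hLI hcore in
/-- **V8 (uniqueness)**: a valuation subring of `E` inducing the Gauss ring on `L(X)` is the Gauss
valuation subring of `E`. -/
theorem eq_gaussValSubring_of_comap_eq (O' : ValuationSubring E)
    (hO' : O'.comap (algebraMap L⟮X⟯ E) =
      (gaussValSubring A π E hE).comap (algebraMap L⟮X⟯ E)) :
    O' = gaussValSubring A π E hE :=
  eq_of_comap_eq_of_isIntegralElem rfl hO'
    (isIntegralElem_of_mem_gaussValSubring A π E hE X M x m hX hM hfr htr hLI hcore)

include hX hM hfr htr hLI hcore in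
/-- **V8 (equivariance)**: a ring automorphism of `E` preserving `L(X)` and its Gauss ring
preserves the Gauss valuation subring of `E`. -/
theorem map_mem_gaussValSubring_iff (σ : E ≃+* E) (σ₁ : L⟮X⟯ ≃+* L⟮X⟯)
    (hσ : ∀ a, σ (algebraMap L⟮X⟯ E a) = algebraMap L⟮X⟯ E (σ₁ a))
    (hσ₁ : ∀ a : L⟮X⟯, ((σ₁ a : E) : LaurentSeries L) ∈ gaussRingA A π ↔
      ((a : E) : LaurentSeries L) ∈ gaussRingA A π) (f : E) :
    σ f ∈ gaussValSubring A π E hE ↔ f ∈ gaussValSubring A π E hE :=
  map_mem_iff_of_comap_eq rfl
    (isIntegralElem_of_mem_gaussValSubring A π E hE X M x m hX hM hfr htr hLI hcore) σ σ₁ hσ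
    (fun a => hσ₁ a) f

end Main

end Coords

end GaussUnique

/-! ### Part 3: instantiation for orthonormal data -/

namespace OrthoData

variable {L : Type*} [Field L] {A : ValuationSubring L} {k : Type*} [Field k] {π : A →+* k}
  {F : IntermediateField L (LaurentSeries L)} {Ft : IntermediateField k (LaurentSeries k)}
  {n : ℕ} (D : OrthoData A π F Ft n)

/-- the `m i` are polynomially independent over `L[x]` -/
theorem polyIndep : PolyIndep (K := L) D.xF D.mF := by
  intro P hP
  have h3 : comboL A D.x D.m P = 0 := by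
    have h4 := congrArg (fun z : F => (z : LaurentSeries L)) hP
    simp only [AddSubmonoidClass.coe_finsetSum, MulMemClass.coe_mul, ZeroMemClass.coe_zero] at h4
    rw [comboL, ← h4]
    refine Finset.sum_congr rfl fun i _ => ?_
    rw [D.coe_aeval_xF]
    rfl
  have h5 : P = 0 := by
    by_contra hne
    exact comboL_ne_zero D.indep hne h3
  intro i
  exact congrFun h5 i

variable (hπ : ∀ a : A, a ∈ IsLocalRing.maximalIdeal A → π a = 0)

include hπ in
/-- **V8 (coordinate form)**: every element of the Gauss valuation subring is a combination of the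
`m i` with Gauss-integral coefficients in `L(x)`. -/
theorem exists_coords_of_mem_valSubring (f : F) (hf : f ∈ D.valSubring) :
    ∃ c : Fin n → L⟮D.xF⟯,
      (∀ i, c i ∈ D.valSubring.comap (algebraMap L⟮D.xF⟯ F)) ∧
      f = ∑ i, algebraMap L⟮D.xF⟯ F (c i) * D.mF i :=
  haveI := D.finiteDimensional
  GaussUnique.exists_coords_of_mem_gaussValSubring A π F (fun _ hf hf0 => D.hasContent hf hf0)
    D.xF D.mF D.x D.m rfl (fun _ => rfl) D.finrank_le D.transc D.polyIndep
    (fun P h => (comboL_mem_gaussRingA_iff hπ D.indep P).mp h) f hf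

include hπ in
/-- **V8 (integrality)**: the Gauss valuation subring of `F` is integral over the Gauss ring of
`L(x)`. -/
theorem isIntegralElem_of_mem_valSubring (f : F) (hf : f ∈ D.valSubring) :
    ((algebraMap L⟮D.xF⟯ F).comp
      (D.valSubring.comap (algebraMap L⟮D.xF⟯ F)).subtype).IsIntegralElem f :=
  haveI := D.finiteDimensional
  GaussUnique.isIntegralElem_of_mem_gaussValSubring A π F (fun _ hf hf0 => D.hasContent hf hf0)
    D.xF D.mF D.x D.m rfl (fun _ => rfl) D.finrank_le D.transc D.polyIndep
    (fun P h => (comboL_mem_gaussRingA_iff hπ D.indep P).mp h) f hf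

include hπ in
/-- **V8 (integral closure)**: the Gauss valuation subring of `F` is the integral closure of the
Gauss ring of `L(x)`. -/
theorem mem_valSubring_iff_isIntegralElem (f : F) :
    f ∈ D.valSubring ↔ ((algebraMap L⟮D.xF⟯ F).comp
      (D.valSubring.comap (algebraMap L⟮D.xF⟯ F)).subtype).IsIntegralElem f :=
  mem_iff_isIntegralElem_of_comap_eq rfl (D.isIntegralElem_of_mem_valSubring hπ) f

include hπ in
/-- **V8 (uniqueness)**: a valuation subring of `F` inducing the Gauss ring on `L(x)` is the Gauss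
valuation subring. -/
theorem eq_valSubring_of_comap_eq (O' : ValuationSubring F)
    (hO' : O'.comap (algebraMap L⟮D.xF⟯ F) = D.valSubring.comap (algebraMap L⟮D.xF⟯ F)) :
    O' = D.valSubring :=
  eq_of_comap_eq_of_isIntegralElem rfl hO' (D.isIntegralElem_of_mem_valSubring hπ)

include hπ in
/-- **V8 (equivariance)**: a ring automorphism of `F` preserving `L(x)` and its Gauss ring
preserves the Gauss valuation subring. -/
theorem map_mem_valSubring_iff (σ : F ≃+* F) (σ₁ : L⟮D.xF⟯ ≃+* L⟮D.xF⟯)
    (hσ : ∀ a, σ (algebraMap L⟮D.xF⟯ F a) = algebraMap L⟮D.xF⟯ F (σ₁ a))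
    (hσ₁ : ∀ a : L⟮D.xF⟯, ((σ₁ a : F) : LaurentSeries L) ∈ gaussRingA A π ↔
      ((a : F) : LaurentSeries L) ∈ gaussRingA A π) (f : F) :
    σ f ∈ D.valSubring ↔ f ∈ D.valSubring :=
  map_mem_iff_of_comap_eq rfl (D.isIntegralElem_of_mem_valSubring hπ) σ σ₁ hσ (fun a => hσ₁ a) f

end OrthoData

end Fermat.Agent.Val
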