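/-
L-VAL (Program L), node V9 (Deuring reduction of divisors), part 3: reduction of effective
divisors of large degree.

`S : ConstRed A π` a constant reduction of `F/K` with residue function field `Ft/k`, both with a
Riemann package, `k` infinite, and GOOD REDUCTION `genusFF k Ft = genusFF K F`.  For an effective
divisor `E` of large degree the residue space of `L(E)` is `L(Ē)` for a unique effective divisor
`Ē` of `Ft` of the same degree (`IsRed E Ē`), and `E ↦ Ē` is additive.
-/
import Mathlib
import Fermat.Agent.Val.DeuringDegree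

set_option autoImplicit false

namespace Fermat.Agent.Val

open AlgebraicCurve Fermat.Agent.Red Fermat.Agent.X0 Module

variable {K F k Ft : Type*} [Field K] [Field F] [Algebra K F] [Field k] [Field Ft]
  [Algebra k Ft] {A : ValuationSubring K} {π : A →+* k}

/-! ### shifting Riemann–Roch spaces by a principal divisor -/

theorem mem_riemannRochSpace_add_divOf_iff [HasPrincipalDivisors K F] (G : Divisor K F) {f : F}
    (hf : f ≠ 0) (g : F) :
    g ∈ riemannRochSpace (G + divOf K f) ↔ g * f ∈ riemannRochSpace G := by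
  by_cases hg : g = 0
  · subst hg
    rw [zero_mul]
    exact ⟨fun _ => Submodule.zero_mem _, fun _ => Submodule.zero_mem _⟩
  rw [mem_riemannRochSpace_iff, mem_riemannRochSpace_iff]
  refine forall_congr' fun P => ?_
  rw [P.ord_mul hg hf, Finsupp.add_apply, divOf_apply]
  constructor
  · rintro (h | h)
    · exact absurd h hg
    · right; linarith
  · rintro (h | h)
    · exact absurd h (mul_ne_zero hg hf)
    · right; linarith

namespace ConstRed

variable (S : ConstRed (F := F) (Ft := Ft) A π) (hπ : Function.Surjective π)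
variable (hF : RiemannPkg K F) (hFt : RiemannPkg k Ft)

/-- `Eb` is the reduction of the effective divisor `E`. -/
def IsRed (E : Divisor K F) (Eb : Divisor k Ft) : Prop :=
  0 ≤ Eb ∧ Divisor.degree Eb = Divisor.degree E ∧
    S.resSpace hπ (riemannRochSpace E) = riemannRochSpace Eb

/-- "large" effective divisors -/
def Large (c ct : ℤ) (E : Divisor K F) : Prop :=
  0 ≤ E ∧ c ≤ Divisor.degree E ∧ ct + 1 ≤ Divisor.degree E

variable {c ct : ℤ}
  (hc : ∀ D : Divisor K F, c ≤ Divisor.degree D →
    (finrank K (riemannRochSpace D) : ℤ) = Divisor.degree D + 1 - (genusFF K F : ℤ))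
  (hct : ∀ D : Divisor k Ft, ct ≤ Divisor.degree D →
    (finrank k (riemannRochSpace D) : ℤ) = Divisor.degree D + 1 - (genusFF k Ft : ℤ))
  (hg : genusFF k Ft = genusFF K F)

include hF hFt hc hct hg in
/-- **Existence of the reduction** of a large effective divisor. -/
theorem exists_isRed [Infinite k] {E : Divisor K F} (hE : Large c ct E) :
    ∃ Eb : Divisor k Ft, S.IsRed hπ E Eb := by
  classical
  have := hF.principal
  have := hFt.principal
  obtain ⟨hE0, hEc, hEct⟩ := hE
  have : FiniteDimensional K (riemannRochSpace E) := hF.finite_L E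
  set V : Submodule k Ft := S.resSpace hπ (riemannRochSpace E) with hV
  have hfinV : (finrank k V : ℤ) = Divisor.degree E + 1 - (genusFF K F : ℤ) := by
    rw [hV, S.finrank_resSpace hπ, hc E hEc]
  -- degrees of pole divisors of elements of `V` are bounded by `deg E`
  have hbound : ∀ yb ∈ V, Divisor.degree (poleDiv k yb) ≤ Divisor.degree E := by
    rintro _ ⟨y, hyE, hyO, rfl⟩
    exact S.degree_poleDiv_resF_le hπ hF hFt hE0 hyO hyE
  -- an element of maximal pole degree
  obtain ⟨d, ⟨y₀, hy₀V, hy₀d⟩, hdmax⟩ :=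
    Int.exists_greatest_of_bdd (P := fun d => ∃ yb ∈ V, Divisor.degree (poleDiv k yb) = d)
      ⟨Divisor.degree E, fun d ⟨yb, hyb, hd⟩ => hd ▸ hbound yb hyb⟩
      ⟨_, 0, V.zero_mem, rfl⟩
  set Eb : Divisor k Ft := poleDiv k y₀ with hEb
  have hEb0 : 0 ≤ Eb := poleDiv_nonneg y₀
  have hmax : ∀ yb ∈ V, Divisor.degree (poleDiv k yb) ≤ Divisor.degree Eb := by
    intro yb hyb
    rw [hy₀d]
    exact hdmax _ ⟨yb, hyb, rfl⟩
  -- `V ≤ L(Eb)`
  have hVle : V ≤ riemannRochSpace Eb := by
    intro yb hyb
    rw [mem_riemannRochSpace_iff_poleDiv_le hEb0]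
    by_contra hnot
    obtain ⟨Q, hQ⟩ : ∃ Q, Eb Q < poleDiv k yb Q := by
      by_contra hcon
      push Not at hcon
      exact hnot hcon
    obtain ⟨c', -, hc'⟩ := exists_poleDiv_add_smul_eq_max y₀ yb (insert Q Eb.support)
    have hle : Eb ≤ poleDiv k (y₀ + c' • yb) := by
      intro Q'
      by_cases hQ' : Q' ∈ insert Q Eb.support
      · rw [hc' Q' hQ']
        exact le_max_left _ _
      · have h0 : Eb Q' = 0 := by
          by_contra hne
          exact hQ' (Finset.mem_insert_of_mem (Finsupp.mem_support_iff.mpr hne))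
        rw [h0]
        have := poleDiv_nonneg (K := k) (y₀ + c' • yb) Q'
        rwa [Finsupp.zero_apply] at this
    have hlt : Eb Q < poleDiv k (y₀ + c' • yb) Q := by
      rw [hc' Q (Finset.mem_insert_self _ _)]
      exact lt_of_lt_of_le hQ (le_max_right _ _)
    have h1 := degree_lt_degree_of_le_of_lt hFt hle hlt
    have h2 := hmax (y₀ + c' • yb) (V.add_mem hy₀V (V.smul_mem c' hyb))
    exact absurd h1 (not_lt.mpr h2)
  have : FiniteDimensional k (riemannRochSpace Eb) := hFt.finite_L Eb
  have hdle : Divisor.degree Eb ≤ Divisor.degree E := hbound y₀ hy₀V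
  -- `deg Eb = deg E`
  have hdeq : Divisor.degree Eb = Divisor.degree E := by
    refine le_antisymm hdle (not_lt.mp fun hlt => ?_)
    obtain ⟨Q₀⟩ : Nonempty (Place k Ft) := hFt.infinite_places.nonempty
    set m : ℕ := (Divisor.degree E - 1 - Divisor.degree Eb).toNat with hm
    have hm' : (m : ℤ) = Divisor.degree E - 1 - Divisor.degree Eb :=
      Int.toNat_of_nonneg (by linarith)
    set Eb' : Divisor k Ft := Eb + m • Finsupp.single Q₀ 1 with hEb'
    have hle' : Eb ≤ Eb' := by
      intro Q'
      rw [hEb', Finsupp.add_apply, Finsupp.smul_apply, nsmul_eq_mul, Finsupp.single_apply]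
      split_ifs <;> simp
    have hdeg' : Divisor.degree Eb' = Divisor.degree E - 1 := by
      rw [hEb', map_add, map_nsmul, degree_single_of_pkg hFt, nsmul_eq_mul, mul_one, hm']
      ring
    have : FiniteDimensional k (riemannRochSpace Eb') := hFt.finite_L Eb'
    have h1 : finrank k V ≤ finrank k (riemannRochSpace Eb') :=
      Submodule.finrank_mono (hVle.trans (riemannRochSpace_mono hle'))
    have h2 := hct Eb' (by rw [hdeg']; linarith)
    rw [hdeg'] at h2
    have h3 : (finrank k V : ℤ) ≤ finrank k (riemannRochSpace Eb') := by exact_mod_cast h1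
    rw [hg] at h2
    linarith
  refine ⟨Eb, hEb0, hdeq, ?_⟩
  have h2 := hct Eb (by rw [hdeq]; linarith)
  rw [hdeq, hg] at h2
  have h3 : finrank k V = finrank k (riemannRochSpace Eb) := by
    have : (finrank k V : ℤ) = finrank k (riemannRochSpace Eb) := by rw [hfinV, h2]
    exact_mod_cast this
  exact Submodule.eq_of_le_of_finrank_eq hVle h3

include hFt hct in
/-- **Uniqueness of the reduction.** -/
theorem IsRed.unique [Infinite k] {E : Divisor K F} (hE : Large c ct E) {Eb Eb' : Divisor k Ft}
    (h : S.IsRed hπ E Eb) (h' : S.IsRed hπ E Eb') : Eb = Eb' := by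
  obtain ⟨-, -, hEct⟩ := hE
  obtain ⟨-, hd, hV⟩ := h
  obtain ⟨-, hd', hV'⟩ := h'
  exact eq_of_riemannRochSpace_eq hFt hct (by rw [hd]; exact hEct) (by rw [hd']; exact hEct)
    (hV.symm.trans hV')

/-! ### induction on effective divisors -/

include hF in
theorem effective_induction {p : Divisor K F → Prop} (h0 : p 0)
    (hadd : ∀ (D : Divisor K F) (P : Place K F), 0 ≤ D → p D → p (D + Finsupp.single P 1)) :
    ∀ D : Divisor K F, 0 ≤ D → p D := by
  classical
  have key : ∀ (n : ℕ) (D : Divisor K F), 0 ≤ D → Divisor.degree D = n → p D := by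
    intro n
    induction n with
    | zero =>
      intro D hD hdeg
      rw [Nat.cast_zero] at hdeg
      rw [eq_zero_of_nonneg_of_degree_eq_zero hF hD hdeg]
      exact h0
    | succ n ih =>
      intro D hD hdeg
      have hne : D ≠ 0 := by
        rintro rfl
        rw [map_zero] at hdeg
        have : (0 : ℤ) < ((n + 1 : ℕ) : ℤ) := by exact_mod_cast Nat.succ_pos n
        omega
      obtain ⟨P, hP⟩ : ∃ P, D P ≠ 0 := by
        by_contra hcon
        push Not at hcon
        exact hne (Finsupp.ext hcon)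
      have hPpos : 0 < D P := lt_of_le_of_ne (hD P) (Ne.symm hP)
      have hD' : 0 ≤ D - Finsupp.single P 1 := by
        intro Q
        rw [Finsupp.zero_apply, Finsupp.sub_apply, Finsupp.single_apply]
        split_ifs with h
        · subst h; omega
        · have := hD Q
          rw [Finsupp.zero_apply] at this
          omega
      have hdeg' : Divisor.degree (D - Finsupp.single P 1) = n := by
        rw [map_sub, degree_single_of_pkg hF, hdeg]
        push_cast
        ring
      have := hadd _ P hD' (ih _ hD' hdeg')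
      rwa [sub_add_cancel] at this
  intro D hD
  have hdeg0 := degree_nonneg_of_nonneg hF hD
  exact key (Divisor.degree D).toNat D hD (Int.toNat_of_nonneg hdeg0).symm

/-! ### largeness -/

omit S hπ hFt in
include hF in
theorem Large.add_nonneg {E D : Divisor K F} (hE : Large c ct E) (hD : 0 ≤ D) :
    Large c ct (E + D) := by
  obtain ⟨h0, h1, h2⟩ := hE
  have hdeg := degree_nonneg_of_nonneg hF hD
  refine ⟨_root_.add_nonneg h0 hD, ?_, ?_⟩ <;> rw [map_add] <;> linarith

omit S hπ hFt in
include hF in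
theorem Large.add {E E' : Divisor K F} (hE : Large c ct E) (hE' : Large c ct E') :
    Large c ct (E + E') :=
  hE.add_nonneg hF hE'.1

omit S hπ hFt in
theorem single_nonneg (P : Place K F) : (0 : Divisor K F) ≤ Finsupp.single P 1 := by
  classical
  intro Q
  rw [Finsupp.zero_apply, Finsupp.single_apply]
  split_ifs <;> norm_num

omit S hπ hFt in
include hF in
/-- There are large divisors. -/
theorem exists_large (c ct : ℤ) : ∃ E : Divisor K F, Large c ct E := by
  obtain ⟨P⟩ : Nonempty (Place K F) := hF.infinite_places.nonempty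
  refine ⟨(max c (ct + 1)).toNat • Finsupp.single P 1, ?_, ?_, ?_⟩
  · exact nsmul_nonneg (single_nonneg P) _
  · rw [map_nsmul, degree_single_of_pkg hF, nsmul_eq_mul, mul_one]
    exact (le_max_left _ _).trans (Int.self_le_toNat _)
  · rw [map_nsmul, degree_single_of_pkg hF, nsmul_eq_mul, mul_one]
    exact (le_max_right _ _).trans (Int.self_le_toNat _)

/-! ### additivity and monotonicity of the reduction -/

include hFt hct in
/-- **Monotonicity.** -/
theorem IsRed.le [Infinite k] {E E' : Divisor K F} (hE : Large c ct E) (hEE' : E ≤ E')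
    {Eb Eb' : Divisor k Ft} (h : S.IsRed hπ E Eb) (h' : S.IsRed hπ E' Eb') : Eb ≤ Eb' := by
  obtain ⟨-, -, hEct⟩ := hE
  obtain ⟨-, hd, hV⟩ := h
  obtain ⟨-, -, hV'⟩ := h'
  refine le_of_riemannRochSpace_le hFt hct (by rw [hd]; exact hEct) ?_
  rw [← hV, ← hV']
  exact S.resSpace_mono hπ (riemannRochSpace_mono hEE')

include hFt hct in
/-- **Additivity.** -/
theorem IsRed.add [Infinite k] {E₁ E₂ : Divisor K F} (h₁ : Large c ct E₁) (h₂ : Large c ct E₂)
    {Eb₁ Eb₂ Eb₃ : Divisor k Ft} (r₁ : S.IsRed hπ E₁ Eb₁) (r₂ : S.IsRed hπ E₂ Eb₂)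
    (r₃ : S.IsRed hπ (E₁ + E₂) Eb₃) : Eb₃ = Eb₁ + Eb₂ := by
  classical
  obtain ⟨-, -, hE₁ct⟩ := h₁
  obtain ⟨-, -, hE₂ct⟩ := h₂
  obtain ⟨hEb₁0, hd₁, hV₁⟩ := r₁
  obtain ⟨hEb₂0, hd₂, hV₂⟩ := r₂
  obtain ⟨hEb₃0, hd₃, hV₃⟩ := r₃
  set Z : Finset (Place k Ft) := Eb₁.support ∪ Eb₂.support ∪ Eb₃.support with hZ
  obtain ⟨g₁, hg₁0, hg₁L, hg₁Z⟩ :=
    exists_mem_riemannRochSpace_ord_eq hFt hct Eb₁ (by rw [hd₁]; exact hE₁ct) Z
  obtain ⟨g₂, hg₂0, hg₂L, hg₂Z⟩ :=
    exists_mem_riemannRochSpace_ord_eq hFt hct Eb₂ (by rw [hd₂]; exact hE₂ct) Z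
  rw [← hV₁] at hg₁L
  rw [← hV₂] at hg₂L
  obtain ⟨y₁, hy₁E, hy₁O, rfl⟩ := hg₁L
  obtain ⟨y₂, hy₂E, hy₂O, rfl⟩ := hg₂L
  have hprod : S.resF y₁ * S.resF y₂ ∈ riemannRochSpace Eb₃ := by
    rw [← hV₃, ← S.resF_mul hy₁O hy₂O]
    exact S.resF_mem_resSpace hπ (mul_mem_riemannRochSpace_add hy₁E hy₂E)
      (S.O.mul_mem _ _ hy₁O hy₂O)
  have hle : Eb₁ + Eb₂ ≤ Eb₃ := by
    intro Q
    rw [Finsupp.add_apply]
    by_cases hQ : Q ∈ Z
    · have h1 := ((mem_riemannRochSpace_iff.mp hprod) Q).resolve_left (mul_ne_zero hg₁0 hg₂0)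
      rw [Q.ord_mul hg₁0 hg₂0, hg₁Z Q hQ, hg₂Z Q hQ] at h1
      linarith
    · have h1 : Eb₁ Q = 0 := by
        by_contra hne
        exact hQ (Finset.mem_union_left _ (Finset.mem_union_left _
          (Finsupp.mem_support_iff.mpr hne)))
      have h2 : Eb₂ Q = 0 := by
        by_contra hne
        exact hQ (Finset.mem_union_left _ (Finset.mem_union_right _
          (Finsupp.mem_support_iff.mpr hne)))
      rw [h1, h2, add_zero]
      exact hEb₃0 Q
  refine (eq_of_le_of_degree_eq hFt hle ?_).symm
  rw [map_add, hd₁, hd₂, hd₃, map_add]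

include hF hFt hct in
/-- **One more point.** -/
theorem IsRed.exists_single [Infinite k] {E : Divisor K F} (hE : Large c ct E) (P : Place K F)
    {Eb Eb' : Divisor k Ft} (h : S.IsRed hπ E Eb)
    (h' : S.IsRed hπ (E + Finsupp.single P 1) Eb') :
    ∃ Q : Place k Ft, Eb' = Eb + Finsupp.single Q 1 := by
  have hle : Eb ≤ Eb' := IsRed.le S hπ hFt hct hE
    (le_add_of_nonneg_right (single_nonneg P)) h h'
  have h0 : 0 ≤ Eb' - Eb := fun Q => by
    rw [Finsupp.zero_apply, Finsupp.sub_apply]
    exact sub_nonneg.mpr (hle Q)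
  have hdeg : Divisor.degree (Eb' - Eb) = 1 := by
    rw [map_sub, h.2.1, h'.2.1, map_add, degree_single_of_pkg hF]
    ring
  obtain ⟨Q, hQ⟩ := exists_eq_single_of_nonneg_of_degree_eq_one hFt h0 hdeg
  exact ⟨Q, by rw [← hQ]; abel⟩

/-! ### the place map -/

section PlaceMap

variable [Infinite k] (red : Divisor K F → Divisor k Ft)
  (hred : ∀ E, Large c ct E → S.IsRed hπ E (red E))

include hF hFt hct hred in
theorem red_add {E₁ E₂ : Divisor K F} (h₁ : Large c ct E₁) (h₂ : Large c ct E₂) :
    red (E₁ + E₂) = red E₁ + red E₂ :=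
  IsRed.add S hπ hFt hct h₁ h₂ (hred _ h₁) (hred _ h₂) (hred _ (h₁.add hF h₂))

include hF hFt hct hred in
/-- The point added to the reduction does not depend on the large divisor. -/
theorem red_single_indep {E E' : Divisor K F} (hE : Large c ct E) (hE' : Large c ct E')
    (P : Place K F) {Q : Place k Ft} (hQ : red (E + Finsupp.single P 1) = red E + Finsupp.single Q 1) :
    red (E' + Finsupp.single P 1) = red E' + Finsupp.single Q 1 := by
  have hEP : Large c ct (E + Finsupp.single P 1) := hE.add_nonneg hF (single_nonneg P)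
  have hE'P : Large c ct (E' + Finsupp.single P 1) := hE'.add_nonneg hF (single_nonneg P)
  have h1 := red_add S hπ hF hFt hct red hred hEP hE'
  have h2 := red_add S hπ hF hFt hct red hred hE'P hE
  have h3 : E + Finsupp.single P 1 + E' = E' + Finsupp.single P 1 + E := by abel
  rw [h3, h2, hQ] at h1
  have h4 : red (E' + Finsupp.single P 1) + red E = red E' + Finsupp.single Q 1 + red E := by
    rw [h1]; abel
  exact add_right_cancel h4

include hF hFt hct hred in
/-- **The place map.** -/
theorem exists_placeMap :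
    ∃ r : Place K F → Place k Ft, ∀ E, Large c ct E → red E = Finsupp.mapDomain r E := by
  classical
  obtain ⟨Es, hEs⟩ := exists_large hF c ct
  have hstep : ∀ P : Place K F, ∃ Q : Place k Ft,
      red (Es + Finsupp.single P 1) = red Es + Finsupp.single Q 1 := fun P =>
    IsRed.exists_single S hπ hF hFt hct hEs P (hred _ hEs)
      (hred _ (hEs.add_nonneg hF (single_nonneg P)))
  choose r hr using hstep
  refine ⟨r, ?_⟩
  have hstep' : ∀ E, Large c ct E → ∀ P, red (E + Finsupp.single P 1) =
      red E + Finsupp.single (r P) 1 := fun E hE P =>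
    red_single_indep S hπ hF hFt hct red hred hEs hE P (hr P)
  -- `red (Es + D) = red Es + r_* D` for effective `D`
  have hmapS : ∀ D : Divisor K F, 0 ≤ D →
      red (Es + D) = red Es + Finsupp.mapDomain r D := by
    refine effective_induction hF
      (p := fun D => red (Es + D) = red Es + Finsupp.mapDomain r D) ?_ ?_
    · show red (Es + 0) = red Es + Finsupp.mapDomain r 0
      rw [add_zero, Finsupp.mapDomain_zero, add_zero]
    · intro D P hD ih
      show red (Es + (D + Finsupp.single P 1)) =
        red Es + Finsupp.mapDomain r (D + Finsupp.single P 1)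
      rw [← add_assoc, hstep' _ (hEs.add_nonneg hF hD) P, ih, Finsupp.mapDomain_add,
        Finsupp.mapDomain_single, add_assoc]
  have hEs' : red Es = Finsupp.mapDomain r Es := by
    have h1 := hmapS Es hEs.1
    rw [red_add S hπ hF hFt hct red hred hEs hEs] at h1
    exact add_left_cancel h1
  intro E hE
  have h1 := hmapS E hE.1
  rw [red_add S hπ hF hFt hct red hred hEs hE] at h1
  exact add_left_cancel h1

end PlaceMap

include hF hFt hc hct hg in
/-- **Deuring reduction of divisors.** Under good reduction there is a map of places `r` such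
that for every large effective divisor `E` the residue space of `L(E)` is `L(r_* E)`. -/
theorem exists_placeMap_isRed [Infinite k] :
    ∃ r : Place K F → Place k Ft, ∀ E, Large c ct E → S.IsRed hπ E (Finsupp.mapDomain r E) := by
  have hex : ∀ E : Divisor K F, ∃ Eb : Divisor k Ft, Large c ct E → S.IsRed hπ E Eb := by
    intro E
    by_cases hE : Large c ct E
    · obtain ⟨Eb, hEb⟩ := S.exists_isRed hπ hF hFt hc hct hg hE
      exact ⟨Eb, fun _ => hEb⟩
    · exact ⟨0, fun h => absurd h hE⟩
  choose red hred using hex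
  obtain ⟨r, hr⟩ := exists_placeMap S hπ hF hFt hct red hred
  exact ⟨r, fun E hE => hr E hE ▸ hred E hE⟩

end ConstRed

end Fermat.Agent.Val
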