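/-
L-VAL / S37 (GEQ): semicontinuity of the genus for a constant reduction, WITHOUT a place map.

`S : ConstRed A π` a constant reduction of `F/K` with residue function field `Ft/k`, Riemann
packages on both sides, `k` infinite.  Then `genusFF k Ft ≤ genusFF K F`.

* `ConstRed.exists_resSpace_le` : for an effective divisor `E` of `F` there is an effective
  divisor `Eb` of `Ft` with `deg Eb ≤ deg E` and `resSpace L(E) ≤ L(Eb)`.
* `ConstRed.genusFF_le` : the genus does not go up under reduction.
-/
import Mathlib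
import Fermat.Agent.Val.DeuringReduce

set_option autoImplicit false

namespace Fermat.Agent.Val

open AlgebraicCurve Fermat.Agent.Red Fermat.Agent.X0 Module

variable {K F k Ft : Type*} [Field K] [Field F] [Algebra K F] [Field k] [Field Ft]
  [Algebra k Ft] {A : ValuationSubring K} {π : A →+* k}

namespace ConstRed

variable (S : ConstRed (F := F) (Ft := Ft) A π) (hπ : Function.Surjective π)
variable (hF : RiemannPkg K F) (hFt : RiemannPkg k Ft)

include hF hFt in
/-- The residue space of `L(E)`, `E ≥ 0`, lies in `L(Eb)` for an effective divisor `Eb` of the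
residue field with `deg Eb ≤ deg E` (no genus hypothesis). -/
theorem exists_resSpace_le [Infinite k] {E : Divisor K F} (hE0 : 0 ≤ E) :
    ∃ Eb : Divisor k Ft, 0 ≤ Eb ∧ Divisor.degree Eb ≤ Divisor.degree E ∧
      S.resSpace hπ (riemannRochSpace E) ≤ riemannRochSpace Eb := by
  classical
  have := hF.principal
  have := hFt.principal
  set V : Submodule k Ft := S.resSpace hπ (riemannRochSpace E) with hV
  -- degrees of pole divisors of elements of `V` are bounded by `deg E`
  have hbound : ∀ yb ∈ V, Divisor.degree (poleDiv k yb) ≤ Divisor.degree E := by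
    rintro _ ⟨y, hyE, hyO, rfl⟩
    exact S.degree_poleDiv_resF_le hπ hF hFt hE0 hyO hyE
  -- an element of maximal pole degree
  obtain ⟨d, ⟨y₀, hy₀V, hy₀d⟩, hdmax⟩ :=
    Int.exists_greatest_of_bdd (P := fun d => ∃ yb ∈ V, Divisor.degree (poleDiv k yb) = d)
      ⟨Divisor.degree E, fun d ⟨yb, hyb, hd⟩ => hd ▸ hbound yb hyb⟩
      ⟨_, 0, V.zero_mem, rfl⟩
  set Eb : Divisor k Ft := poleDiv k y₀ with hEb
  have hEb0 : 0 ≤ Eb := poleDiv_nonneg y₀
  have hmax : ∀ yb ∈ V, Divisor.degree (poleDiv k yb) ≤ Divisor.degree Eb := by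
    intro yb hyb
    rw [hy₀d]
    exact hdmax _ ⟨yb, hyb, rfl⟩
  refine ⟨Eb, hEb0, hbound y₀ hy₀V, ?_⟩
  intro yb hyb
  rw [mem_riemannRochSpace_iff_poleDiv_le hEb0]
  by_contra hnot
  obtain ⟨Q, hQ⟩ : ∃ Q, Eb Q < poleDiv k yb Q := by
    by_contra hcon
    push Not at hcon
    exact hnot hcon
  obtain ⟨c', -, hc'⟩ := exists_poleDiv_add_smul_eq_max y₀ yb (insert Q Eb.support)
  have hle : Eb ≤ poleDiv k (y₀ + c' • yb) := by
    intro Q'
    by_cases hQ' : Q' ∈ insert Q Eb.support
    · rw [hc' Q' hQ']
      exact le_max_left _ _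
    · have h0 : Eb Q' = 0 := by
        by_contra hne
        exact hQ' (Finset.mem_insert_of_mem (Finsupp.mem_support_iff.mpr hne))
      rw [h0]
      have := poleDiv_nonneg (K := k) (y₀ + c' • yb) Q'
      rwa [Finsupp.zero_apply] at this
  have hlt : Eb Q < poleDiv k (y₀ + c' • yb) Q := by
    rw [hc' Q (Finset.mem_insert_self _ _)]
    exact lt_of_lt_of_le hQ (le_max_right _ _)
  have h1 := degree_lt_degree_of_le_of_lt hFt hle hlt
  have h2 := hmax (y₀ + c' • yb) (V.add_mem hy₀V (V.smul_mem c' hyb))
  exact absurd h1 (not_lt.mpr h2)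

include S hπ hF hFt in
/-- **Semicontinuity of the genus** for a constant reduction (no place map, no good-reduction
hypothesis): the genus of the residue function field is at most the genus of `F`. -/
theorem genusFF_le [Infinite k] : genusFF k Ft ≤ genusFF K F := by
  classical
  have := hF.principal
  have := hFt.principal
  obtain ⟨c, hc⟩ := hF.riemann_eq
  obtain ⟨ct, hct⟩ := hFt.riemann_eq
  obtain ⟨E, hE0, hEc, hEct⟩ := exists_large hF c ct
  have : FiniteDimensional K (riemannRochSpace E) := hF.finite_L E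
  set V : Submodule k Ft := S.resSpace hπ (riemannRochSpace E) with hV
  have hfinV : (finrank k V : ℤ) = Divisor.degree E + 1 - (genusFF K F : ℤ) := by
    rw [hV, S.finrank_resSpace hπ, hc E hEc]
  obtain ⟨Eb, hEb0, hdle, hVle⟩ := S.exists_resSpace_le hπ hF hFt hE0
  -- enlarge `Eb` to degree `deg E`
  obtain ⟨Q₀⟩ : Nonempty (Place k Ft) := hFt.infinite_places.nonempty
  set m : ℕ := (Divisor.degree E - Divisor.degree Eb).toNat with hm
  have hm' : (m : ℤ) = Divisor.degree E - Divisor.degree Eb :=
    Int.toNat_of_nonneg (by linarith)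
  set Eb' : Divisor k Ft := Eb + m • Finsupp.single Q₀ 1 with hEb'
  have hle' : Eb ≤ Eb' := by
    intro Q'
    rw [hEb', Finsupp.add_apply, Finsupp.smul_apply, nsmul_eq_mul, Finsupp.single_apply]
    split_ifs <;> simp
  have hdeg' : Divisor.degree Eb' = Divisor.degree E := by
    rw [hEb', map_add, map_nsmul, degree_single_of_pkg hFt, nsmul_eq_mul, mul_one, hm']
    ring
  have : FiniteDimensional k (riemannRochSpace Eb') := hFt.finite_L Eb'
  have h1 : finrank k V ≤ finrank k (riemannRochSpace Eb') :=
    Submodule.finrank_mono (hVle.trans (riemannRochSpace_mono hle'))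
  have h2 := hct Eb' (by rw [hdeg']; linarith)
  rw [hdeg'] at h2
  have h3 : (finrank k V : ℤ) ≤ finrank k (riemannRochSpace Eb') := by exact_mod_cast h1
  have h4 : (genusFF k Ft : ℤ) ≤ genusFF K F := by linarith
  exact_mod_cast h4

end ConstRed

end Fermat.Agent.Val
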