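/-
L-VAL (Program L), node V9 (Deuring reduction of divisors), part 4: conservation of principal
divisors and the main theorem: a constant reduction with GOOD REDUCTION (equal genera) carries a
place reduction map, i.e. extends to a `Red.RedSetup`.
-/
import Mathlib
import Fermat.Agent.Val.DeuringReduce

set_option autoImplicit false

namespace Fermat.Agent.Val

open AlgebraicCurve Fermat.Agent.Red Fermat.Agent.X0 Module

variable {K F k Ft : Type*} [Field K] [Field F] [Algebra K F] [Field k] [Field Ft]
  [Algebra k Ft] {A : ValuationSubring K} {π : A →+* k}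

namespace ConstRed

variable (S : ConstRed (F := F) (Ft := Ft) A π) (hπ : Function.Surjective π)
variable (hF : RiemannPkg K F) (hFt : RiemannPkg k Ft)

/-- The place map `r` conserves principal divisors of units of `O`. -/
def Conserves (r : Place K F → Place k Ft) : Prop :=
  ∀ y : S.O, S.res y ≠ 0 → ∀ D : Divisor K F, (∀ P, D P = P.ord (y : F)) →
    ∀ Q, Finsupp.mapDomain r D Q = Q.ord (S.res y)

variable {c ct : ℤ}
  (hc : ∀ D : Divisor K F, c ≤ Divisor.degree D →
    (finrank K (riemannRochSpace D) : ℤ) = Divisor.degree D + 1 - (genusFF K F : ℤ))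
  (hct : ∀ D : Divisor k Ft, ct ≤ Divisor.degree D →
    (finrank k (riemannRochSpace D) : ℤ) = Divisor.degree D + 1 - (genusFF k Ft : ℤ))

/-- `(f)_∞ + div f ≥ 0` (it is the zero divisor). -/
theorem poleDiv_add_divOf_nonneg [HasPrincipalDivisors K F] (f : F) :
    0 ≤ poleDiv K f + divOf K f := by
  intro P
  rw [Finsupp.zero_apply, Finsupp.add_apply, poleDiv_apply, divOf_apply]
  rcases le_total (-(P.ord f)) 0 with h | h
  · rw [max_eq_right h]; linarith
  · rw [max_eq_left h]; linarith

include hF hFt hct in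
/-- **Conservation.** If `resSpace L(E) = L(r_* E)` for all large effective `E`, then `r`
conserves principal divisors: `r_* (div y) = div (res y)` for every unit `y` of `O`. -/
theorem conserves_of_isRed_mapDomain [Infinite k] (r : Place K F → Place k Ft)
    (hmap : ∀ E, Large c ct E → S.IsRed hπ E (Finsupp.mapDomain r E)) : S.Conserves r := by
  classical
  have := hF.principal
  have := hFt.principal
  intro y hy D hD Q
  have hyO : (y : F) ∈ S.O := y.2
  have hres : S.resF (y : F) = S.res y := S.resF_of_mem hyO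
  have hyb : S.resF (y : F) ≠ 0 := by rw [hres]; exact hy
  have hy0 : (y : F) ≠ 0 := S.ne_zero_of_resF_ne_zero hyb
  have hyinvO : (y : F)⁻¹ ∈ S.O := S.inv_mem_of_resF_ne_zero hyb
  have hDdiv : D = divOf K (y : F) := (divOf_eq_of_forall hD).symm
  -- a large divisor `E ≥ (y)_∞`
  obtain ⟨E₀, hE₀⟩ := exists_large hF c ct
  set E : Divisor K F := E₀ + poleDiv K (y : F) with hE
  have hEl : Large c ct E := hE₀.add_nonneg hF (poleDiv_nonneg _)
  have hE'l : Large c ct (E + D) := by
    have h1 : E + D = E₀ + (poleDiv K (y : F) + divOf K (y : F)) := by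
      rw [hE, hDdiv]; abel
    rw [h1]
    exact hE₀.add_nonneg hF (poleDiv_add_divOf_nonneg _)
  obtain ⟨-, hd, hV⟩ := hmap E hEl
  obtain ⟨-, hd', hV'⟩ := hmap (E + D) hE'l
  -- `L(r_*(E + D)) = L(r_* E + div ȳ)`
  have hLeq : riemannRochSpace (Finsupp.mapDomain r (E + D)) =
      riemannRochSpace (Finsupp.mapDomain r E + divOf k (S.resF (y : F))) := by
    ext t
    rw [← hV', mem_riemannRochSpace_add_divOf_iff _ hyb, ← hV]
    constructor
    · rintro ⟨z, hzL, hzO, rfl⟩
      refine ⟨z * (y : F), ?_, S.O.mul_mem _ _ hzO hyO, S.resF_mul hzO hyO⟩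
      rw [hDdiv] at hzL
      exact (mem_riemannRochSpace_add_divOf_iff E hy0 z).mp hzL
    · rintro ⟨w, hwL, hwO, hwt⟩
      refine ⟨w * (y : F)⁻¹, ?_, S.O.mul_mem _ _ hwO hyinvO, ?_⟩
      · rw [hDdiv, mem_riemannRochSpace_add_divOf_iff E hy0, mul_assoc, inv_mul_cancel₀ hy0,
          mul_one]
        exact hwL
      · rw [S.resF_mul hwO hyinvO, hwt, S.resF_inv hyb, mul_assoc, mul_inv_cancel₀ hyb, mul_one]
  have hdegD : Divisor.degree D = 0 := by rw [hDdiv]; exact degree_divOf _
  have hE1 : ct + 1 ≤ Divisor.degree (Finsupp.mapDomain r (E + D)) := by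
    rw [hd']; exact hE'l.2.2
  have hE2 : ct + 1 ≤ Divisor.degree (Finsupp.mapDomain r E + divOf k (S.resF (y : F))) := by
    rw [map_add, degree_divOf, add_zero, hd]; exact hEl.2.2
  have heq := eq_of_riemannRochSpace_eq hFt hct hE1 hE2 hLeq
  rw [Finsupp.mapDomain_add] at heq
  have h2 : Finsupp.mapDomain r D = divOf k (S.resF (y : F)) := add_left_cancel heq
  rw [h2, divOf_apply, hres]

variable (hg : genusFF k Ft = genusFF K F)

include hπ hF hFt hg in
/-- **Deuring–Roquette.** A constant reduction with good reduction has a place map conserving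
principal divisors. -/
theorem exists_conserves [Infinite k] : ∃ r : Place K F → Place k Ft, S.Conserves r := by
  obtain ⟨c, hc⟩ := hF.riemann_eq
  obtain ⟨ct, hct⟩ := hFt.riemann_eq
  obtain ⟨r, hr⟩ := S.exists_placeMap_isRed hπ hF hFt hc hct hg
  exact ⟨r, S.conserves_of_isRed_mapDomain hπ hF hFt hct r hr⟩

include hπ hF hFt hg in
/-- **Main theorem of V9.** A constant reduction `S` (valuation ring, residue map, best
approximations) of a function field with good reduction extends to a `Red.RedSetup`. -/
theorem exists_redSetup [Infinite k] :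
    ∃ R : Red.RedSetup (F := F) (Ft := Ft) A π, R.toConstRed = S := by
  obtain ⟨r, hr⟩ := S.exists_conserves hπ hF hFt hg
  refine ⟨S.toRedSetup r (fun P => by rw [hFt.deg_one, hF.deg_one]) hr, rfl⟩

end ConstRed

end Fermat.Agent.Val
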