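import Mathlib
import Fermat.Prelude.Def_ModularCurve_ReductionModL

/-!
# L-VAL (V5, V10): conservation of divisors for fractions of integral series

Setting of the Prelude's `ModularCurve.IsPlaceReductionAlong A π N r`: `F` the base change to `L`
of the modular function field, `Ft` the modular function field over `k`.  The Prelude's
conservation property is phrased for *integral* series `y : LaurentSeries A`.  Here we extend it to
fractions `f = c · y₁ / y₂` (`c ≠ 0` a constant, `y₁, y₂` integral series of `F` with nonzero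
reductions in `Ft`):

* `ord_algebraMap_of_ne_zero` : constants have order `0` at every place;
* `conservation_of_fraction` : `r_* (div f) = div (ȳ₁) - div (ȳ₂)`;
* `conservation_of_fraction'` : the same with the right-hand side `div g` for any `g ∈ Ft` with
  `g · ȳ₂ = u · ȳ₁`, `u ≠ 0` a constant (`g` = the residue of `f`);
* `principalGeneratedByIntegral_of_fractions` : the Prelude's `PrincipalGeneratedByIntegral` when
  every nonzero element of `F` is such a fraction.
-/

set_option autoImplicit false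

namespace Fermat.Agent.Val

open AlgebraicCurve ModularCurve

section Constants

variable {K F : Type*} [Field K] [Field F] [Algebra K F]

/-- Nonzero constants have order zero at every place. -/
theorem ord_algebraMap_of_ne_zero (P : Place K F) {c : K} (hc : c ≠ 0) :
    P.ord (algebraMap K F c) = 0 := by
  have h1 : algebraMap K F c ∈ P.toValuationSubring := P.algebraMap_mem' c
  have h2 : algebraMap K F c⁻¹ ∈ P.toValuationSubring := P.algebraMap_mem' c⁻¹
  have hmul : (⟨algebraMap K F c, h1⟩ : P.toValuationSubring) * ⟨algebraMap K F c⁻¹, h2⟩ = 1 := by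
    apply Subtype.ext
    show algebraMap K F c * algebraMap K F c⁻¹ = 1
    rw [← map_mul, mul_inv_cancel₀ hc, map_one]
  have hmul' : (⟨algebraMap K F c⁻¹, h2⟩ : P.toValuationSubring) * ⟨algebraMap K F c, h1⟩ = 1 := by
    rw [mul_comm]; exact hmul
  exact P.ord_coe_unit ⟨⟨algebraMap K F c, h1⟩, ⟨algebraMap K F c⁻¹, h2⟩, hmul, hmul'⟩

/-- The order of a fraction `f` with `f * g₂ = c * g₁`. -/
theorem ord_eq_sub_of_mul_eq (P : Place K F) {f g₁ g₂ : F} {c : K} (hc : c ≠ 0)
    (hg₁ : g₁ ≠ 0) (hg₂ : g₂ ≠ 0) (h : f * g₂ = algebraMap K F c * g₁) :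
    P.ord f = P.ord g₁ - P.ord g₂ := by
  have hcF : algebraMap K F c ≠ 0 := fun h0 => hc ((map_eq_zero _).1 h0)
  have hf : f ≠ 0 := by
    rintro rfl
    rw [zero_mul] at h
    exact (mul_ne_zero hcF hg₁) h.symm
  have h1 := congrArg P.ord h
  rw [P.ord_mul hf hg₂, P.ord_mul hcF hg₁, ord_algebraMap_of_ne_zero P hc, zero_add] at h1
  omega

end Constants

section Conservation

variable {L : Type*} [Field L] [Algebra ℚ L] {A : ValuationSubring L}
variable {k : Type*} [Field k] {π : A →+* k} {N : ℕ}
variable {r : Place L (laurentBaseChange L (modularFunctionFieldFull N)) →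
  Place k (modularFunctionFieldFullC k N)}

/-- The divisor of an integral series is mapped to the divisor of its reduction
(restatement of the Prelude's conservation property). -/
theorem IsPlaceReductionAlong_conservation (hr : IsPlaceReductionAlong A π N r)
    (y : LaurentSeries A)
    (hy : coeffMap A.subtype y ∈ laurentBaseChange L (modularFunctionFieldFull N))
    (hyk : coeffMap π y ∈ modularFunctionFieldFullC k N) (hne : coeffMap π y ≠ 0)
    (D : Divisor L (laurentBaseChange L (modularFunctionFieldFull N)))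
    (hD : ∀ P, D P = P.ord (⟨coeffMap A.subtype y, hy⟩ :
      laurentBaseChange L (modularFunctionFieldFull N)))
    (Q : Place k (modularFunctionFieldFullC k N)) :
    Finsupp.mapDomain r D Q = Q.ord (⟨coeffMap π y, hyk⟩ : modularFunctionFieldFullC k N) :=
  hr.2 y hy hyk hne D hD Q

variable [HasPrincipalDivisors L (laurentBaseChange L (modularFunctionFieldFull N))]

/-- **Conservation for fractions.** If `f * y₂ = c * y₁` with `c ≠ 0` a constant and `y₁, y₂`
integral series of `F` whose reductions are nonzero elements of `Ft`, then the reduction of the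
divisor of `f` is `div (ȳ₁) - div (ȳ₂)`. -/
theorem conservation_of_fraction (hr : IsPlaceReductionAlong A π N r)
    (f : laurentBaseChange L (modularFunctionFieldFull N)) {c : L} (hc : c ≠ 0)
    (y₁ y₂ : LaurentSeries A)
    (h₁ : coeffMap A.subtype y₁ ∈ laurentBaseChange L (modularFunctionFieldFull N))
    (h₂ : coeffMap A.subtype y₂ ∈ laurentBaseChange L (modularFunctionFieldFull N))
    (h₁k : coeffMap π y₁ ∈ modularFunctionFieldFullC k N)
    (h₂k : coeffMap π y₂ ∈ modularFunctionFieldFullC k N)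
    (hne₁ : coeffMap π y₁ ≠ 0) (hne₂ : coeffMap π y₂ ≠ 0)
    (hf : (f : LaurentSeries L) * coeffMap A.subtype y₂ =
      algebraMap L (LaurentSeries L) c * coeffMap A.subtype y₁)
    (D : Divisor L (laurentBaseChange L (modularFunctionFieldFull N)))
    (hD : ∀ P, D P = P.ord f) (Q : Place k (modularFunctionFieldFullC k N)) :
    Finsupp.mapDomain r D Q =
      Q.ord (⟨coeffMap π y₁, h₁k⟩ : modularFunctionFieldFullC k N) -
        Q.ord (⟨coeffMap π y₂, h₂k⟩ : modularFunctionFieldFullC k N) := by
  -- nonvanishing upstairs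
  have hz : ∀ y : LaurentSeries A, coeffMap π y ≠ 0 → coeffMap A.subtype y ≠ 0 := by
    intro y hy h0
    apply hy
    ext n
    have : (coeffMap A.subtype y).coeff n = 0 := by rw [h0]; rfl
    rw [coeffMap_coeff] at this
    have hyn : y.coeff n = 0 := Subtype.ext this
    rw [coeffMap_coeff, hyn, map_zero]
    rfl
  set g₁ : laurentBaseChange L (modularFunctionFieldFull N) := ⟨coeffMap A.subtype y₁, h₁⟩
    with hg₁
  set g₂ : laurentBaseChange L (modularFunctionFieldFull N) := ⟨coeffMap A.subtype y₂, h₂⟩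
    with hg₂
  have hg₁0 : g₁ ≠ 0 := fun h => hz y₁ hne₁ (congrArg Subtype.val h)
  have hg₂0 : g₂ ≠ 0 := fun h => hz y₂ hne₂ (congrArg Subtype.val h)
  have hfg : f * g₂ = algebraMap L _ c * g₁ := Subtype.ext hf
  -- the divisors of `g₁`, `g₂`
  obtain ⟨D₁, hD₁, -⟩ := HasPrincipalDivisors.exists_divisor (K := L) g₁ hg₁0
  obtain ⟨D₂, hD₂, -⟩ := HasPrincipalDivisors.exists_divisor (K := L) g₂ hg₂0
  have hDeq : D = D₁ - D₂ := by
    ext P
    rw [Finsupp.sub_apply, hD P, hD₁ P, hD₂ P]
    exact ord_eq_sub_of_mul_eq P hc hg₁0 hg₂0 hfg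
  rw [hDeq, Finsupp.mapDomain_sub, Finsupp.sub_apply,
    hr.2 y₁ h₁ h₁k hne₁ D₁ hD₁ Q, hr.2 y₂ h₂ h₂k hne₂ D₂ hD₂ Q]

/-- **Conservation for fractions**, residue form: if moreover `g ∈ Ft` satisfies
`g * ȳ₂ = u * ȳ₁` with `u ≠ 0` a constant (so `g` is the residue of `f`, `u = π c`), then the
reduction of the divisor of `f` is the divisor of `g`. -/
theorem conservation_of_fraction' (hr : IsPlaceReductionAlong A π N r)
    (f : laurentBaseChange L (modularFunctionFieldFull N)) {c : L} (hc : c ≠ 0)
    (y₁ y₂ : LaurentSeries A)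
    (h₁ : coeffMap A.subtype y₁ ∈ laurentBaseChange L (modularFunctionFieldFull N))
    (h₂ : coeffMap A.subtype y₂ ∈ laurentBaseChange L (modularFunctionFieldFull N))
    (h₁k : coeffMap π y₁ ∈ modularFunctionFieldFullC k N)
    (h₂k : coeffMap π y₂ ∈ modularFunctionFieldFullC k N)
    (hne₁ : coeffMap π y₁ ≠ 0) (hne₂ : coeffMap π y₂ ≠ 0)
    (hf : (f : LaurentSeries L) * coeffMap A.subtype y₂ =
      algebraMap L (LaurentSeries L) c * coeffMap A.subtype y₁)
    (g : modularFunctionFieldFullC k N) {u : k} (hu : u ≠ 0)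
    (hg : (g : LaurentSeries k) * coeffMap π y₂ =
      algebraMap k (LaurentSeries k) u * coeffMap π y₁)
    (D : Divisor L (laurentBaseChange L (modularFunctionFieldFull N)))
    (hD : ∀ P, D P = P.ord f) (Q : Place k (modularFunctionFieldFullC k N)) :
    Finsupp.mapDomain r D Q = Q.ord g := by
  rw [conservation_of_fraction hr f hc y₁ y₂ h₁ h₂ h₁k h₂k hne₁ hne₂ hf D hD Q]
  have hb₁ : (⟨coeffMap π y₁, h₁k⟩ : modularFunctionFieldFullC k N) ≠ 0 :=
    fun h => hne₁ (congrArg Subtype.val h)
  have hb₂ : (⟨coeffMap π y₂, h₂k⟩ : modularFunctionFieldFullC k N) ≠ 0 :=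
    fun h => hne₂ (congrArg Subtype.val h)
  have hgg : g * ⟨coeffMap π y₂, h₂k⟩ = algebraMap k _ u * ⟨coeffMap π y₁, h₁k⟩ :=
    Subtype.ext hg
  exact (ord_eq_sub_of_mul_eq Q hu hb₁ hb₂ hgg).symm

/-- **(V10)** If every nonzero element of `F` is a fraction `c · y₁ / y₂` of integral series of
`F` with nonzero reductions in `Ft`, then principal divisors are generated by the divisors of
integral series: the Prelude's `PrincipalGeneratedByIntegral`. -/
theorem principalGeneratedByIntegral_of_fractions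
    (hfrac : ∀ f : laurentBaseChange L (modularFunctionFieldFull N), f ≠ 0 →
      ∃ c : L, c ≠ 0 ∧ ∃ y₁ y₂ : LaurentSeries A,
        coeffMap A.subtype y₁ ∈ laurentBaseChange L (modularFunctionFieldFull N) ∧
        coeffMap A.subtype y₂ ∈ laurentBaseChange L (modularFunctionFieldFull N) ∧
        coeffMap π y₁ ∈ modularFunctionFieldFullC k N ∧
        coeffMap π y₂ ∈ modularFunctionFieldFullC k N ∧
        coeffMap π y₁ ≠ 0 ∧ coeffMap π y₂ ≠ 0 ∧
        (f : LaurentSeries L) * coeffMap A.subtype y₂ =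
          algebraMap L (LaurentSeries L) c * coeffMap A.subtype y₁) :
    PrincipalGeneratedByIntegral A π N := by
  rintro D ⟨f, hf0, hD⟩
  obtain ⟨c, hc, y₁, y₂, h₁, h₂, h₁k, h₂k, hne₁, hne₂, hf⟩ := hfrac f hf0
  have hz : ∀ y : LaurentSeries A, coeffMap π y ≠ 0 → coeffMap A.subtype y ≠ 0 := by
    intro y hy h0
    apply hy
    ext n
    have : (coeffMap A.subtype y).coeff n = 0 := by rw [h0]; rfl
    rw [coeffMap_coeff] at this
    have hyn : y.coeff n = 0 := Subtype.ext this
    rw [coeffMap_coeff, hyn, map_zero]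
    rfl
  set g₁ : laurentBaseChange L (modularFunctionFieldFull N) := ⟨coeffMap A.subtype y₁, h₁⟩
    with hg₁
  set g₂ : laurentBaseChange L (modularFunctionFieldFull N) := ⟨coeffMap A.subtype y₂, h₂⟩
    with hg₂
  have hg₁0 : g₁ ≠ 0 := fun h => hz y₁ hne₁ (congrArg Subtype.val h)
  have hg₂0 : g₂ ≠ 0 := fun h => hz y₂ hne₂ (congrArg Subtype.val h)
  have hfg : f * g₂ = algebraMap L _ c * g₁ := Subtype.ext hf
  obtain ⟨D₁, hD₁, -⟩ := HasPrincipalDivisors.exists_divisor (K := L) g₁ hg₁0
  obtain ⟨D₂, hD₂, -⟩ := HasPrincipalDivisors.exists_divisor (K := L) g₂ hg₂0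
  have hDeq : D = D₁ - D₂ := by
    ext P
    rw [Finsupp.sub_apply, hD P, hD₁ P, hD₂ P]
    exact ord_eq_sub_of_mul_eq P hc hg₁0 hg₂0 hfg
  rw [hDeq]
  refine AddSubgroup.sub_mem _ (AddSubgroup.subset_closure ?_) (AddSubgroup.subset_closure ?_)
  · exact ⟨y₁, h₁, h₁k, hne₁, hD₁⟩
  · exact ⟨y₂, h₂, h₂k, hne₂, hD₂⟩

end Conservation

end Fermat.Agent.Val
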