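import Fermat.Agent.Val.OrthoFamily
import Fermat.Agent.Val.Conservation
import Fermat.Agent.Val.ConstRed

/-!
# L-VAL (V6, generic part): `ConstRed` and `RedSetup` from orthonormal data

* `OrthoData.constRed` : the constant reduction (`Val.ConstRed`) attached to orthonormal data
  `D : OrthoData A π F Ft n` (any pair of fields `F ⊂ L((q))`, `Ft ⊂ k((q))`).
* `OrthoData.conservation` : for the modular fields, a place reduction `r` satisfying the
  Prelude's `IsPlaceReductionAlong A π N r` conserves the divisor of every unit of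
  `D.valSubring` (the field `conservation` of `Red.RedSetup`).
* `OrthoData.redSetup` : the resulting `Red.RedSetup`, with `(D.redSetup ..).r = r`.
* `OrthoData.principalGeneratedByIntegral` : the Prelude's `PrincipalGeneratedByIntegral`.
-/

set_option autoImplicit false

noncomputable section
namespace Fermat.Agent.Val

open AlgebraicCurve ModularCurve

namespace OrthoData

section Generic

variable {L : Type*} [Field L] {A : ValuationSubring L} {k : Type*} [Field k] {π : A →+* k}
variable {F : IntermediateField L (LaurentSeries L)} {Ft : IntermediateField k (LaurentSeries k)}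
  {n : ℕ} (D : OrthoData A π F Ft n)

/-- The constant reduction attached to orthonormal data. -/
def constRed (hπ : ∀ a : A, a ∈ IsLocalRing.maximalIdeal A → π a = 0)
    (hπs : Function.Surjective π) : ConstRed (F := F) (Ft := Ft) A π where
  O := D.valSubring
  res := D.res hπ
  res_surjective := D.res_surjective hπ hπs
  res_eq_zero_iff := D.res_eq_zero_iff hπ
  algebraMap_mem_iff := D.algebraMap_mem_iff hπ
  res_algebraMap := D.res_algebraMap hπ
  approx := D.approx hπ

/-- **Fraction form with residue**: a unit `y` of `D.valSubring` is `c · y₁ / y₂` with `c` a unit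
of `A`, `y₁, y₂` integral elements of `F` with nonzero reductions in `Ft`, and its residue is
`π c · ȳ₁ / ȳ₂`. -/
theorem exists_fraction_of_res_ne_zero (hπ : ∀ a : A, a ∈ IsLocalRing.maximalIdeal A → π a = 0)
    (y : D.valSubring) (hy : D.res hπ y ≠ 0) :
    ∃ (c : L) (hc : c ∈ A) (y₁ y₂ : LaurentSeries A), c ≠ 0 ∧ π ⟨c, hc⟩ ≠ 0 ∧
      aIota A y₁ ∈ F ∧ aIota A y₂ ∈ F ∧ aRed π y₁ ∈ Ft ∧ aRed π y₂ ∈ Ft ∧
      aRed π y₁ ≠ 0 ∧ aRed π y₂ ≠ 0 ∧
      ((y : F) : LaurentSeries L) * aIota A y₂ = HahnSeries.C c * aIota A y₁ ∧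
      ((D.res hπ y : Ft) : LaurentSeries k) * aRed π y₂ =
        HahnSeries.C (π ⟨c, hc⟩) * aRed π y₁ := by
  have hy0 : ((y : F) : LaurentSeries L) ≠ 0 := by
    intro h
    apply hy
    have : y = 0 := Subtype.ext (Subtype.ext h)
    rw [this, map_zero]
  obtain ⟨c, y₁, y₂, hc, h1F, h2F, h1k, h2k, hne1, hne2, h⟩ :=
    D.exists_integral_fraction (SetLike.coe_mem (y : F)) hy0
  have hcont : HasContent A π ((y : F) : LaurentSeries L) c := ⟨hc, y₁, y₂, hne1, hne2, h⟩
  have hcA : c ∈ A := (hcont.mem_gaussRingA_iff hπ).mp y.2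
  have hres : ((D.res hπ y : Ft) : LaurentSeries k) =
      HahnSeries.C (π ⟨c, hcA⟩) * (aRed π y₁ / aRed π y₂) := by
    rw [D.coe_res hπ, D.resSeries_apply, HasContent.gaussResA_eq hne2 h hcA y.2]
  have hπc : π ⟨c, hcA⟩ ≠ 0 := by
    intro h0
    apply hy
    apply Subtype.ext
    rw [hres, h0, map_zero, zero_mul]
    rfl
  refine ⟨c, hcA, y₁, y₂, hc, hπc, h1F, h2F, h1k, h2k, hne1, hne2, h, ?_⟩
  rw [hres, mul_assoc, div_mul_cancel₀ _ hne2]

end Generic

section Modular

variable {L : Type*} [Field L] [Algebra ℚ L] {A : ValuationSubring L}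
variable {k : Type*} [Field k] {π : A →+* k} {N : ℕ} {n : ℕ}
variable (D : OrthoData A π (laurentBaseChange L (modularFunctionFieldFull N))
  (modularFunctionFieldFullC k N) n)
variable {r : Place L (laurentBaseChange L (modularFunctionFieldFull N)) →
  Place k (modularFunctionFieldFullC k N)}

/-- **The field `conservation` of `Red.RedSetup`** for orthonormal data on the modular function
fields and a place reduction satisfying the Prelude's `IsPlaceReductionAlong`. -/
theorem conservation [HasPrincipalDivisors L (laurentBaseChange L (modularFunctionFieldFull N))]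
    (hπ : ∀ a : A, a ∈ IsLocalRing.maximalIdeal A → π a = 0)
    (hr : IsPlaceReductionAlong A π N r) (y : D.valSubring) (hy : D.res hπ y ≠ 0)
    (Dv : Divisor L (laurentBaseChange L (modularFunctionFieldFull N)))
    (hD : ∀ P, Dv P = P.ord ((y : laurentBaseChange L (modularFunctionFieldFull N))))
    (Q : Place k (modularFunctionFieldFullC k N)) :
    Finsupp.mapDomain r Dv Q = Q.ord (D.res hπ y) := by
  obtain ⟨c, hcA, y₁, y₂, hc, hπc, h1F, h2F, h1k, h2k, hne1, hne2, h, hres⟩ :=
    D.exists_fraction_of_res_ne_zero hπ y hy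
  refine conservation_of_fraction' hr (y : laurentBaseChange L (modularFunctionFieldFull N)) hc
    y₁ y₂ h1F h2F h1k h2k hne1 hne2 ?_ (D.res hπ y) hπc ?_ Dv hD Q
  · rw [algebraMap_laurentSeries_eq_C]
    exact h
  · rw [algebraMap_laurentSeries_eq_C]
    exact hres

/-- **The `Red.RedSetup` attached to orthonormal data and a place reduction.** -/
def redSetup [HasPrincipalDivisors L (laurentBaseChange L (modularFunctionFieldFull N))]
    (hπ : ∀ a : A, a ∈ IsLocalRing.maximalIdeal A → π a = 0) (hπs : Function.Surjective π)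
    (hr : IsPlaceReductionAlong A π N r) :
    Red.RedSetup (F := laurentBaseChange L (modularFunctionFieldFull N))
      (Ft := modularFunctionFieldFullC k N) A π :=
  (D.constRed hπ hπs).toRedSetup r hr.1 fun y hy Dv hD Q => D.conservation hπ hr y hy Dv hD Q

@[simp]
theorem redSetup_r [HasPrincipalDivisors L (laurentBaseChange L (modularFunctionFieldFull N))]
    (hπ : ∀ a : A, a ∈ IsLocalRing.maximalIdeal A → π a = 0) (hπs : Function.Surjective π)
    (hr : IsPlaceReductionAlong A π N r) : (D.redSetup hπ hπs hr).r = r := rfl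

include D in
/-- **(V10)** the Prelude's `PrincipalGeneratedByIntegral` from orthonormal data. -/
theorem principalGeneratedByIntegral
    [HasPrincipalDivisors L (laurentBaseChange L (modularFunctionFieldFull N))] :
    PrincipalGeneratedByIntegral A π N := by
  refine principalGeneratedByIntegral_of_fractions fun f hf => ?_
  have hf0 : ((f : laurentBaseChange L (modularFunctionFieldFull N)) : LaurentSeries L) ≠ 0 :=
    fun h => hf (Subtype.ext h)
  obtain ⟨c, y₁, y₂, hc, h1F, h2F, h1k, h2k, hne1, hne2, h⟩ :=
    D.exists_integral_fraction (SetLike.coe_mem f) hf0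
  refine ⟨c, hc, y₁, y₂, h1F, h2F, h1k, h2k, hne1, hne2, ?_⟩
  rw [algebraMap_laurentSeries_eq_C]
  exact h

end Modular

end OrthoData

end Fermat.Agent.Val
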