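/-
L-VAL (Program L, S37 first half): the Prelude's `ReductionInputsAlong A π N` from a constant
reduction of the modular function fields with good reduction (Deuring–Roquette,
`Val/DeuringMain.lean`), in hypothesis form over

* a `ConstRed` structure `S` on `(F̄_N, F̃_N)` (valuation ring, residue map, approximations);
* the bridge: a series `y ∈ A((q))` with image in `F̄_N` and reduction in `F̃_N` lies in `S.O`
  and has residue `coeffMap π y`;
* Riemann packages on both sides and equality of genera;
* `PrincipalGeneratedByIntegral A π N` (`Val/Conservation.lean`, from the fraction form).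
-/
import Mathlib
import Fermat.Agent.Val.DeuringMain
import Fermat.Prelude.Def_ModularCurve_ReductionModL

set_option autoImplicit false

namespace Fermat.Agent.Val

open AlgebraicCurve ModularCurve Fermat.Agent.Red

variable {L : Type*} [Field L] [Algebra ℚ L] {A : ValuationSubring L}
variable {k : Type*} [Field k] {π : A →+* k} {N : ℕ}

/-- A place map conserving the principal divisors of all units of `S.O` is a place reduction in
the sense of the Prelude, given the bridge between `S.res` and coefficientwise reduction. -/
theorem isPlaceReductionAlong_of_conserves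
    (S : ConstRed (F := laurentBaseChange L (modularFunctionFieldFull N))
      (Ft := modularFunctionFieldFullC k N) A π)
    (hbridge : ∀ (y : LaurentSeries A)
      (hy : coeffMap A.subtype y ∈ laurentBaseChange L (modularFunctionFieldFull N))
      (hyk : coeffMap π y ∈ modularFunctionFieldFullC k N),
      ∃ h : (⟨coeffMap A.subtype y, hy⟩ : laurentBaseChange L (modularFunctionFieldFull N)) ∈ S.O,
        S.res ⟨_, h⟩ = ⟨coeffMap π y, hyk⟩)
    {r : Place L (laurentBaseChange L (modularFunctionFieldFull N)) →
      Place k (modularFunctionFieldFullC k N)}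
    (hdeg : ∀ P, (r P).deg = P.deg) (hr : S.Conserves r) :
    IsPlaceReductionAlong A π N r := by
  refine ⟨hdeg, fun y hy hyk hne D hD Q => ?_⟩
  obtain ⟨h, hres⟩ := hbridge y hy hyk
  have hne' : S.res ⟨_, h⟩ ≠ 0 := by
    rw [hres]
    intro h0
    exact hne (congrArg Subtype.val h0)
  have := hr ⟨_, h⟩ hne' D hD Q
  rwa [hres] at this

/-- **`ReductionInputsAlong` from good reduction** (hypothesis form). -/
theorem reductionInputsAlong_of_constRed
    (S : ConstRed (F := laurentBaseChange L (modularFunctionFieldFull N))
      (Ft := modularFunctionFieldFullC k N) A π)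
    (hπ : Function.Surjective π)
    (hF : RiemannPkg L (laurentBaseChange L (modularFunctionFieldFull N)))
    (hFt : RiemannPkg k (modularFunctionFieldFullC k N))
    (hg : genusFF k (modularFunctionFieldFullC k N) =
      genusFF L (laurentBaseChange L (modularFunctionFieldFull N)))
    [Infinite k]
    (hbridge : ∀ (y : LaurentSeries A)
      (hy : coeffMap A.subtype y ∈ laurentBaseChange L (modularFunctionFieldFull N))
      (hyk : coeffMap π y ∈ modularFunctionFieldFullC k N),
      ∃ h : (⟨coeffMap A.subtype y, hy⟩ : laurentBaseChange L (modularFunctionFieldFull N)) ∈ S.O,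
        S.res ⟨_, h⟩ = ⟨coeffMap π y, hyk⟩)
    (hgen : PrincipalGeneratedByIntegral A π N) :
    ReductionInputsAlong A π N := by
  obtain ⟨r, hr⟩ := S.exists_conserves hπ hF hFt hg
  exact ⟨r, isPlaceReductionAlong_of_conserves S hbridge
    (fun P => by rw [hFt.deg_one, hF.deg_one]) hr, hgen⟩

end Fermat.Agent.Val
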