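import Mathlib
import Fermat.Prelude.Def_ModularCurve_X0ModL
import Fermat.Prelude.Def_AlgebraicCurve_BaseChangeGalois

/-!
# S37 (M3), (B2): the coefficientwise action of `Aut(k)` on `F̃_N = k(j(q^d) : d ∣ N) ⊆ k((q))`

* `coeffMap_mem_fullC` : `F̃_N` is stable under `coeffMap τ` for every ring endomorphism `τ` of `k`.
* `coeffRingAutC k N τ` : the ring automorphism of `F̃_N` induced by `τ : k ≃+* k`.
* `coeffAutC k N : (k ≃+* k) →* SemilinearAut k (modularFunctionFieldFullC k N)` : the
  coefficientwise action by semilinear automorphisms; through the Prelude's instances it acts on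
  `Place k F̃`, `Divisor k F̃`, `Pic0 k F̃ = JZeroC k N`.
  `coe_coeffAutC_smul : ((coeffAutC k N τ • x : F̃) : k((q))) = coeffMap τ x` (by `rfl`).
* `coeffPic0Hom k N τ : JZeroC k N →+ JZeroC k N` : the induced endomorphism of `Pic⁰`
  (`Φ` of the Eichler–Shimura relation for `τ` = Frobenius).
-/

set_option autoImplicit false
set_option linter.unusedSectionVars false
open ModularCurve AlgebraicCurve

noncomputable section
namespace Fermat.Agent.Val.GaloisModL

/-! ### The coefficientwise action on the residue function field -/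

section KSide

variable (k : Type*) [Field k] (N : ℕ) [NeZero N]

/-- `F̃` is stable under coefficientwise ring endomorphisms of `k`. -/
theorem coeffMap_mem_fullC (τ : k →+* k) {x : LaurentSeries k}
    (hx : x ∈ modularFunctionFieldFullC k N) : coeffMap τ x ∈ modularFunctionFieldFullC k N := by
  let T : IntermediateField k (LaurentSeries k) :=
    ((modularFunctionFieldFullC k N).toSubfield.comap (coeffMap τ)).toIntermediateField fun c => by
      show coeffMap τ (algebraMap k (LaurentSeries k) c) ∈ modularFunctionFieldFullC k N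
      rw [coeffMap_algebraMap]
      exact IntermediateField.algebraMap_mem _ _
  have hle : modularFunctionFieldFullC k N ≤ T := by
    rw [modularFunctionFieldFullC, IntermediateField.adjoin_le_iff]
    rintro y ⟨d, hd, hdN, rfl⟩
    have := hd
    show coeffMap τ (qExpand k d (jqModC k)) ∈ modularFunctionFieldFullC k N
    rw [coeffMap_qExpand, coeffMap_jqModC]
    exact jqModCd_mem_full k N hdN
  exact hle hx

/-- the coefficientwise ring automorphism of `F̃` attached to an automorphism of `k` -/
def coeffRingAutC (τ : k ≃+* k) :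
    modularFunctionFieldFullC k N ≃+* modularFunctionFieldFullC k N where
  toFun x := ⟨coeffMap (τ : k →+* k) (x : LaurentSeries k), coeffMap_mem_fullC k N _ x.2⟩
  invFun x := ⟨coeffMap (τ.symm : k →+* k) (x : LaurentSeries k), coeffMap_mem_fullC k N _ x.2⟩
  left_inv x := Subtype.ext <| by
    show coeffMap (τ.symm : k →+* k) (coeffMap (τ : k →+* k) (x : LaurentSeries k)) = _
    rw [coeffMap_coeffMap,
      coeffMap_congr (g := RingHom.id k) (RingHom.ext fun a => τ.symm_apply_apply a), coeffMap_id]
  right_inv x := Subtype.ext <| by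
    show coeffMap (τ : k →+* k) (coeffMap (τ.symm : k →+* k) (x : LaurentSeries k)) = _
    rw [coeffMap_coeffMap,
      coeffMap_congr (g := RingHom.id k) (RingHom.ext fun a => τ.apply_symm_apply a), coeffMap_id]
  map_mul' x y := Subtype.ext (map_mul (coeffMap (τ : k →+* k)) _ _)
  map_add' x y := Subtype.ext (map_add (coeffMap (τ : k →+* k)) _ _)

@[simp] theorem coe_coeffRingAutC_apply (τ : k ≃+* k) (x : modularFunctionFieldFullC k N) :
    ((coeffRingAutC k N τ x : modularFunctionFieldFullC k N) : LaurentSeries k) =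
      coeffMap (τ : k →+* k) (x : LaurentSeries k) := rfl

theorem coeffRingAutC_algebraMap (τ : k ≃+* k) (a : k) :
    coeffRingAutC k N τ (algebraMap k (modularFunctionFieldFullC k N) a) =
      algebraMap k (modularFunctionFieldFullC k N) (τ a) :=
  Subtype.ext (coeffMap_algebraMap (τ : k →+* k) a)

/-- **The coefficientwise action** of `Aut(k)` on `F̃` by semilinear automorphisms. -/
def coeffAutC : (k ≃+* k) →* SemilinearAut k (modularFunctionFieldFullC k N) where
  toFun τ := ⟨(coeffRingAutC k N τ, τ), fun a => coeffRingAutC_algebraMap k N τ a⟩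
  map_one' := by
    refine Subtype.ext (Prod.ext (RingEquiv.ext fun x => Subtype.ext ?_) rfl)
    show coeffMap (((1 : k ≃+* k)) : k →+* k) (x : LaurentSeries k) = (x : LaurentSeries k)
    rw [show (((1 : k ≃+* k)) : k →+* k) = RingHom.id k from RingHom.ext fun _ => rfl, coeffMap_id]
  map_mul' σ τ := by
    refine Subtype.ext (Prod.ext (RingEquiv.ext fun x => Subtype.ext ?_) rfl)
    show coeffMap ((σ * τ : k ≃+* k) : k →+* k) (x : LaurentSeries k) =
      coeffMap (σ : k →+* k) (coeffMap (τ : k →+* k) (x : LaurentSeries k))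
    rw [coeffMap_coeffMap]
    exact coeffMap_congr (RingHom.ext fun _ => rfl) _

@[simp] theorem toRingAut_coeffAutC (τ : k ≃+* k) :
    SemilinearAut.toRingAut (coeffAutC k N τ) = coeffRingAutC k N τ := rfl

@[simp] theorem baseAut_coeffAutC (τ : k ≃+* k) :
    SemilinearAut.baseAut (coeffAutC k N τ) = τ := rfl

theorem coe_coeffAutC_smul (τ : k ≃+* k) (x : modularFunctionFieldFullC k N) :
    ((coeffAutC k N τ • x : modularFunctionFieldFullC k N) : LaurentSeries k) =
      coeffMap (τ : k →+* k) (x : LaurentSeries k) := rfl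

end KSide

/-! ### The induced endomorphisms of `Pic⁰(F̃)` -/

section Pic0

variable (k : Type*) [Field k] (N : ℕ) [NeZero N]

/-- The endomorphism of `JZeroC k N = Pic⁰(F̃_N)` induced by an automorphism of `k`
(for `τ` = Frobenius of `k` this is `Frob_*`). -/
def coeffPic0Hom (τ : k ≃+* k) : JZeroC k N →+ JZeroC k N :=
  DistribSMul.toAddMonoidHom (JZeroC k N) (coeffAutC k N τ)

@[simp] theorem coeffPic0Hom_apply (τ : k ≃+* k) (y : JZeroC k N) :
    coeffPic0Hom k N τ y = coeffAutC k N τ • y := rfl

theorem coeffPic0Hom_one (y : JZeroC k N) : coeffPic0Hom k N 1 y = y := by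
  rw [coeffPic0Hom_apply, map_one, one_smul]

theorem coeffPic0Hom_mul (σ τ : k ≃+* k) (y : JZeroC k N) :
    coeffPic0Hom k N (σ * τ) y = coeffPic0Hom k N σ (coeffPic0Hom k N τ y) := by
  rw [coeffPic0Hom_apply, coeffPic0Hom_apply, coeffPic0Hom_apply, map_mul, mul_smul]

/-- `coeffPic0Hom τ` is bijective, with inverse `coeffPic0Hom τ⁻¹`. -/
theorem coeffPic0Hom_symm_apply (τ : k ≃+* k) (y : JZeroC k N) :
    coeffPic0Hom k N τ.symm (coeffPic0Hom k N τ y) = y := by
  have h : (τ.symm : k ≃+* k) * τ = 1 := RingEquiv.ext fun a => τ.symm_apply_apply a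
  rw [← coeffPic0Hom_mul, h, coeffPic0Hom_one]

theorem coeffPic0Hom_apply_symm (τ : k ≃+* k) (y : JZeroC k N) :
    coeffPic0Hom k N τ (coeffPic0Hom k N τ.symm y) = y := by
  have h : τ * (τ.symm : k ≃+* k) = 1 := RingEquiv.ext fun a => τ.apply_symm_apply a
  rw [← coeffPic0Hom_mul, h, coeffPic0Hom_one]

end Pic0

end Fermat.Agent.Val.GaloisModL
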