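import Fermat.Agent.Val.DeuringUniq
import Fermat.Prelude.Def_AlgebraicCurve_BaseChangeGalois

/-!
# L-VAL: equivariance of the place reduction map under semilinear automorphisms

`S : ConstRed A π` a constant reduction of `F/K` with residue function field `Ft/k`,
`r : Place K F → Place k Ft` a place map with conservation (`S.Conserves r`).  If a semilinear
automorphism `g` of `F/K` maps `O` into itself and induces the semilinear automorphism `gt` of
`Ft/k` on residues, then `r (g • P) = gt • r P` (`conserves_smul`), for the Prelude's action of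
`SemilinearAut` on places; consequently `r_* (g • D) = gt • r_* D` on divisors
(`mapDomain_smul_divisor`).
-/

set_option autoImplicit false

namespace Fermat.Agent.Val

open AlgebraicCurve Module Fermat.Agent.X0 Fermat.Agent.Red

variable {K F k Ft : Type*} [Field K] [Field F] [Algebra K F] [Field k] [Field Ft]
  [Algebra k Ft] {A : ValuationSubring K} {π : A →+* k}

namespace ConstRed

variable (S : ConstRed (F := F) (Ft := Ft) A π)

/-- Transport of orders: `ord_w (g • f) = ord_{g⁻¹ • w} f`. -/
theorem ord_smul_eq (g : SemilinearAut K F) (w : Place K F) (f : F) :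
    w.ord (g • f) = (g⁻¹ • w).ord f := by
  have h := SemilinearAut.ord_smul g (g⁻¹ • w) f
  rwa [smul_inv_smul] at h

/-- The transported map `P ↦ gt⁻¹ • r (g • P)` conserves principal divisors. -/
theorem conserves_conj {r : Place K F → Place k Ft} (h : S.Conserves r)
    (g : SemilinearAut K F) (gt : SemilinearAut k Ft)
    (hO : ∀ x : F, x ∈ S.O → g • x ∈ S.O)
    (hres : ∀ x : S.O, S.res ⟨g • (x : F), hO x x.2⟩ = gt • S.res x) :
    S.Conserves (fun P => gt⁻¹ • r (g • P)) := by
  intro y hy D hD Q
  -- the divisor of `g • y`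
  have hgy : S.res ⟨g • (y : F), hO y y.2⟩ ≠ 0 := by
    rw [hres y]
    intro h0
    apply hy
    have := congrArg (fun t => gt⁻¹ • t) h0
    simpa using this
  have hD' : ∀ w : Place K F,
      (Finsupp.mapDomain (fun P : Place K F => g • P) D) w = w.ord (g • (y : F)) := by
    intro w
    have h1 : (Finsupp.mapDomain (fun P : Place K F => g • P) D) (g • (g⁻¹ • w)) =
        D (g⁻¹ • w) := Finsupp.mapDomain_apply (MulAction.injective g) D (g⁻¹ • w)
    rw [smul_inv_smul] at h1
    rw [h1, hD, ord_smul_eq]
  have hcons := h ⟨g • (y : F), hO y y.2⟩ hgy _ hD' (gt • Q)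
  have hcomp : Finsupp.mapDomain (fun P => gt⁻¹ • r (g • P)) D =
      Finsupp.mapDomain (fun Q' : Place k Ft => gt⁻¹ • Q')
        (Finsupp.mapDomain r (Finsupp.mapDomain (fun P : Place K F => g • P) D)) := by
    rw [← Finsupp.mapDomain_comp, ← Finsupp.mapDomain_comp]
    rfl
  have h2 : (Finsupp.mapDomain (fun Q' : Place k Ft => gt⁻¹ • Q')
        (Finsupp.mapDomain r (Finsupp.mapDomain (fun P : Place K F => g • P) D)))
        (gt⁻¹ • (gt • Q)) =
      (Finsupp.mapDomain r (Finsupp.mapDomain (fun P : Place K F => g • P) D)) (gt • Q) :=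
    Finsupp.mapDomain_apply (MulAction.injective gt⁻¹) _ (gt • Q)
  rw [inv_smul_smul] at h2
  rw [hcomp, h2, hcons, hres y, SemilinearAut.ord_smul]

/-- **Equivariance of the place reduction map.** -/
theorem conserves_smul (hπ : Function.Surjective π) (hF : RiemannPkg K F)
    (hFt : RiemannPkg k Ft) {r : Place K F → Place k Ft} (h : S.Conserves r)
    (g : SemilinearAut K F) (gt : SemilinearAut k Ft)
    (hO : ∀ x : F, x ∈ S.O → g • x ∈ S.O)
    (hres : ∀ x : S.O, S.res ⟨g • (x : F), hO x x.2⟩ = gt • S.res x) (P : Place K F) :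
    r (g • P) = gt • r P := by
  have h' := S.conserves_conj h g gt hO hres
  have := S.conserves_unique hπ hF hFt h' h
  have hP : gt⁻¹ • r (g • P) = r P := congrFun this P
  rw [← hP, smul_inv_smul]

/-- Equivariance on divisors: `r_* (g • D) = gt • r_* D`. -/
theorem mapDomain_smul_divisor (hπ : Function.Surjective π) (hF : RiemannPkg K F)
    (hFt : RiemannPkg k Ft) {r : Place K F → Place k Ft} (h : S.Conserves r)
    (g : SemilinearAut K F) (gt : SemilinearAut k Ft)
    (hO : ∀ x : F, x ∈ S.O → g • x ∈ S.O)
    (hres : ∀ x : S.O, S.res ⟨g • (x : F), hO x x.2⟩ = gt • S.res x) (D : Divisor K F) :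
    Finsupp.mapDomain r (g • D) = gt • Finsupp.mapDomain r D := by
  rw [SemilinearAut.divisor_smul_def, SemilinearAut.divisor_smul_def, ← Finsupp.mapDomain_comp,
    ← Finsupp.mapDomain_comp]
  congr 1
  funext P
  exact S.conserves_smul hπ hF hFt h g gt hO hres P

end ConstRed

section Modular

open ModularCurve

set_option synthInstance.maxHeartbeats 400000

variable {L : Type*} [Field L] [Algebra ℚ L] {B : ValuationSubring L} {κ : Type*} [Field κ]
  {ρ : B →+* κ} {N : ℕ}

/-- Equivariance of the Prelude's reduction of degree-zero divisors. -/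
theorem reductionDegZeroAlong_smul
    (S : ConstRed (F := laurentBaseChange L (modularFunctionFieldFull N))
      (Ft := modularFunctionFieldFullC κ N) B ρ) (hρ : Function.Surjective ρ)
    (hF : RiemannPkg L (laurentBaseChange L (modularFunctionFieldFull N)))
    (hFt : RiemannPkg κ (modularFunctionFieldFullC κ N))
    {r : Place L (laurentBaseChange L (modularFunctionFieldFull N)) →
      Place κ (modularFunctionFieldFullC κ N)} (h : S.Conserves r)
    (hdeg : ∀ P, (r P).deg = P.deg)
    (g : SemilinearAut L (laurentBaseChange L (modularFunctionFieldFull N)))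
    (gt : SemilinearAut κ (modularFunctionFieldFullC κ N))
    (hO : ∀ x, x ∈ S.O → g • x ∈ S.O)
    (hres : ∀ x : S.O, S.res ⟨g • (x : laurentBaseChange L (modularFunctionFieldFull N)),
      hO x x.2⟩ = gt • S.res x)
    (D : Divisor.degZero (K := L) (F := laurentBaseChange L (modularFunctionFieldFull N))) :
    reductionDegZeroAlong r hdeg (SemilinearAut.degZeroSMulHom g D) =
      SemilinearAut.degZeroSMulHom gt (reductionDegZeroAlong r hdeg D) := by
  apply Subtype.ext
  rw [coe_reductionDegZeroAlong, SemilinearAut.coe_degZeroSMulHom,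
    SemilinearAut.coe_degZeroSMulHom, coe_reductionDegZeroAlong]
  exact S.mapDomain_smul_divisor hρ hF hFt h g gt hO hres D

/-- Equivariance of the Prelude's reduction map on `Pic⁰`. -/
theorem reductionPic0Along_smul
    (S : ConstRed (F := laurentBaseChange L (modularFunctionFieldFull N))
      (Ft := modularFunctionFieldFullC κ N) B ρ) (hρ : Function.Surjective ρ)
    (hF : RiemannPkg L (laurentBaseChange L (modularFunctionFieldFull N)))
    (hFt : RiemannPkg κ (modularFunctionFieldFullC κ N))
    {r : Place L (laurentBaseChange L (modularFunctionFieldFull N)) →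
      Place κ (modularFunctionFieldFullC κ N)} (h : S.Conserves r)
    (hr : IsPlaceReductionAlong B ρ N r) (hgen : PrincipalGeneratedByIntegral B ρ N)
    (g : SemilinearAut L (laurentBaseChange L (modularFunctionFieldFull N)))
    (gt : SemilinearAut κ (modularFunctionFieldFullC κ N))
    (hO : ∀ x, x ∈ S.O → g • x ∈ S.O)
    (hres : ∀ x : S.O, S.res ⟨g • (x : laurentBaseChange L (modularFunctionFieldFull N)),
      hO x x.2⟩ = gt • S.res x)
    (x : Pic0 L (laurentBaseChange L (modularFunctionFieldFull N))) :
    reductionPic0Along r hr hgen (g • x) = gt • reductionPic0Along r hr hgen x := by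
  obtain ⟨D, rfl⟩ := Pic0.mk_surjective x
  rw [SemilinearAut.pic0_smul_mk, reductionPic0Along_mk, reductionPic0Along_mk,
    SemilinearAut.pic0_smul_mk,
    reductionDegZeroAlong_smul S hρ hF hFt h hr.1 g gt hO hres D]

end Modular

end Fermat.Agent.Val
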