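import Fermat.Agent.Val.Deliverable
import Fermat.Agent.Val.GaussGalois
import Fermat.Agent.Val.GaussGaloisBar
import Fermat.Agent.Val.DeuringEquivariant
import Fermat.Agent.Val.GaloisModL
import Fermat.Agent.Val.RiemannPkgBar
import Fermat.Agent.Val.RiemannPkgModL

/-!
# S37 (M3), final assembly: Galois equivariance of the reduction map `J₀(N)(ℚ̄) → Pic⁰(F̃_N)`

`A` a valuation subring of `ℚ̄` over a prime `ℓ ∤ N`, `k` its residue field,
`S = constRedBar N hℓN A hA` the constant reduction of `F̄_N` (`Val/Deliverable.lean`).
For `σ` in the decomposition group of `A` write `σ̃ = decompResAut A σ : k ≃+* k`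
(`Val/GaussGalois.lean`) and `coeffAutC k N σ̃` for its coefficientwise action on `F̃_N`
(`Val/GaloisModL.lean`); `coeffPic0Hom k N σ̃` is the induced endomorphism of `Pic⁰(F̃_N)`.

* `constRedBar_res_smul_coeffAutC` : `S.res (σ • x) = coeffAutC k N σ̃ • S.res x`.
* `r_decomposition_smul` : every place reduction `r` as in S18 satisfies `r (σ • P) = σ̃ • r P`.
* `reductionPic0Along_decomposition_smul`, `reductionModL_decomposition_smul` : the same on `Pic⁰`.
* `reductionModL_inertia_smul` : **(a)/(hI)** the reduction map is invariant under inertia.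
* `reductionModL_frobenius_smul` : **(b)/(hΦ)** a Frobenius lift acts through
  `Φ = coeffPic0Hom k N (frobeniusEquiv k ℓ)`;
  `reductionModL_frobenius_smul'` is the same statement as an action of
  `coeffAutC k N (frobeniusEquiv k ℓ) : SemilinearAut k F̃_N`.

The only hypothesis besides `ℓ ∤ N`, `A` over `ℓ` is `h : ReductionInputsModL A N` (the Riemann
packages of both function fields are discharged by `Val/RiemannPkgBar.lean`,
`Val/RiemannPkgModL.lean`).
-/

set_option autoImplicit false
set_option linter.style.haveILetI false
set_option linter.unusedSectionVars false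

noncomputable section
namespace Fermat.Agent.Val.GaloisModL

open AlgebraicCurve ModularCurve IsLocalRing Fermat.Agent.Red

set_option synthInstance.maxHeartbeats 400000
set_option maxHeartbeats 1000000

variable (N : ℕ) [NeZero N] {ℓ : ℕ} [hℓ : Fact ℓ.Prime] (hℓN : ¬ ℓ ∣ N)
variable (A : ValuationSubring (AlgebraicClosure ℚ)) (hA : A.LiesOverPrime ℓ)
variable {σ : AlgebraicClosure ℚ ≃ₐ[ℚ] AlgebraicClosure ℚ}

/-- the residue map of the constant reduction intertwines `σ` and `coeffAutC k N σ̃`
(the hypothesis `hres` of `ConstRed.conserves_smul`) -/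
theorem constRedBar_res_smul_coeffAutC (hσ : σ ∈ A.decompositionSubgroup ℚ)
    (x : (constRedBar N hℓN A hA).O) :
    (constRedBar N hℓN A hA).res
        ⟨arithmeticGalois (modularFunctionFieldFull N) σ • (x : modularFunctionFieldBar N),
          Fermat.Agent.Val.constRedBar_smul_mem N hℓN A hA hσ x x.2⟩ =
      coeffAutC (ResidueField A) N (decompResAut A ⟨σ, hσ⟩) • (constRedBar N hℓN A hA).res x :=
  Subtype.ext ((coe_constRedBar_res_smul N hℓN A hA hσ x).trans
    (coe_coeffAutC_smul (ResidueField A) N _ _).symm)

variable {N A} in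
/-- the conservation law of a place reduction as in S18, for the constant reduction -/
theorem constRedBar_conserves_of_isPlaceReduction
    {r : Place (AlgebraicClosure ℚ) (modularFunctionFieldBar N) →
      Place (ResidueField A) (modularFunctionFieldFullC (ResidueField A) N)}
    (hr : IsPlaceReductionModL A N r) : (constRedBar N hℓN A hA).Conserves r :=
  (redSetupBar hℓN hA hr).conservation

include hℓN hA in
/-- **(M3)** places: `r (σ • P) = σ̃ • r P` for `σ` in the decomposition group. -/
theorem r_decomposition_smul
    {r : Place (AlgebraicClosure ℚ) (modularFunctionFieldBar N) →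
      Place (ResidueField A) (modularFunctionFieldFullC (ResidueField A) N)}
    (hr : IsPlaceReductionModL A N r) (hσ : σ ∈ A.decompositionSubgroup ℚ)
    (P : Place (AlgebraicClosure ℚ) (modularFunctionFieldBar N)) :
    r (arithmeticGalois (modularFunctionFieldFull N) σ • P) =
      coeffAutC (ResidueField A) N (decompResAut A ⟨σ, hσ⟩) • r P :=
  (constRedBar N hℓN A hA).conserves_smul IsLocalRing.residue_surjective (riemannPkg_bar N)
    (riemannPkg_modL_residueField N hℓN A hA)
    (constRedBar_conserves_of_isPlaceReduction hℓN hA hr) _ _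
    (Fermat.Agent.Val.constRedBar_smul_mem N hℓN A hA hσ)
    (constRedBar_res_smul_coeffAutC N hℓN A hA hσ) P

include hℓN hA in
/-- **(M3)** on `Pic⁰`, for the reduction map attached to a place reduction `r`. -/
theorem reductionPic0Along_decomposition_smul
    {r : Place (AlgebraicClosure ℚ) (modularFunctionFieldBar N) →
      Place (ResidueField A) (modularFunctionFieldFullC (ResidueField A) N)}
    (hr : IsPlaceReductionModL A N r)
    (hgen : PrincipalGeneratedByIntegral A (IsLocalRing.residue A) N)
    (hσ : σ ∈ A.decompositionSubgroup ℚ) (x : JZero N) :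
    reductionPic0Along r hr hgen (σ • x) =
      coeffPic0Hom (ResidueField A) N (decompResAut A ⟨σ, hσ⟩) (reductionPic0Along r hr hgen x) := by
  rw [galois_smul_pic0_def, coeffPic0Hom_apply]
  exact reductionPic0Along_smul (constRedBar N hℓN A hA) IsLocalRing.residue_surjective
    (riemannPkg_bar N) (riemannPkg_modL_residueField N hℓN A hA)
    (constRedBar_conserves_of_isPlaceReduction hℓN hA hr) hr hgen _ _
    (Fermat.Agent.Val.constRedBar_smul_mem N hℓN A hA hσ)
    (constRedBar_res_smul_coeffAutC N hℓN A hA hσ) x

include hℓN hA in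
/-- **(M3)** for the Prelude's `reductionModL`: for `σ` in the decomposition group of `A`,
`red (σ • x) = coeffPic0Hom k N σ̃ (red x)`. -/
theorem reductionModL_decomposition_smul (h : ReductionInputsModL A N)
    (hσ : σ ∈ A.decompositionSubgroup ℚ) (x : JZero N) :
    reductionModL A N (σ • x) =
      coeffPic0Hom (ResidueField A) N (decompResAut A ⟨σ, hσ⟩) (reductionModL A N x) := by
  have h1 : reductionModL A N =
      reductionPic0Along h.choose h.choose_spec.1 h.choose_spec.2 := reductionAlong_eq h
  rw [h1]
  exact reductionPic0Along_decomposition_smul N hℓN A hA h.choose_spec.1 h.choose_spec.2 hσ x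

include hℓN hA in
/-- **(M3)**, `SemilinearAut` form: `red (σ • x) = coeffAutC k N σ̃ • red x`. -/
theorem reductionModL_decomposition_smul' (h : ReductionInputsModL A N)
    (hσ : σ ∈ A.decompositionSubgroup ℚ) (x : JZero N) :
    reductionModL A N (σ • x) =
      coeffAutC (ResidueField A) N (decompResAut A ⟨σ, hσ⟩) • reductionModL A N x :=
  reductionModL_decomposition_smul N hℓN A hA h hσ x

include hℓN hA in
/-- **(a) / (hI)** the reduction map is invariant under the inertia group of `A`. -/
theorem reductionModL_inertia_smul (h : ReductionInputsModL A N)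
    (hσ : σ ∈ A.inertiaSubgroupIn ℚ) (x : JZero N) :
    reductionModL A N (σ • x) = reductionModL A N x := by
  have hσ' := mem_decomposition_of_mem_inertiaIn hσ
  rw [reductionModL_decomposition_smul N hℓN A hA h hσ' x,
    decompResAut_of_mem_inertiaSubgroupIn hσ hσ']
  exact coeffPic0Hom_one (ResidueField A) N _

include hℓN hA in
/-- **(a) / (hI)** in the binder shape of `Hecke.specializationExists_JZero_of_reductionData`. -/
theorem reductionModL_inertia (h : ReductionInputsModL A N) :
    ∀ i ∈ A.inertiaSubgroupIn ℚ, ∀ x : JZero N,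
      reductionModL A N (i • x) = reductionModL A N x :=
  fun _ hi x => reductionModL_inertia_smul N hℓN A hA h hi x

include hA in
/-- the residue field of `A` has (exponential) characteristic `ℓ` -/
theorem expChar_residueField : ExpChar (ResidueField A) ℓ :=
  haveI := charP_residueField_of_liesOverPrime A hA
  ExpChar.prime hℓ.out

include hA in
/-- the residue field of `A` is perfect (it is algebraically closed) -/
theorem perfectRing_residueField :
    haveI := expChar_residueField A hA
    PerfectRing (ResidueField A) ℓ := by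
  haveI := expChar_residueField A hA
  haveI : IsAlgClosed (ResidueField A) := residueField_isAlgClosed_algebraicClosure_rat A
  infer_instance

/-- the automorphism of `k` attached to a Frobenius lift is the `q`-power map -/
theorem decompResAut_frobenius_apply {q : ℕ} (hσ : A.IsFrobeniusAt σ q) (y : ResidueField A) :
    decompResAut A ⟨σ, hσ.mem_decompositionSubgroup⟩ y = y ^ q :=
  decompResAut_of_isFrobeniusAt hσ _ y

/-- the automorphism of `k` attached to a Frobenius lift at `ℓ` is `frobeniusEquiv k ℓ` -/
theorem decompResAut_eq_frobeniusEquiv [ExpChar (ResidueField A) ℓ]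
    [PerfectRing (ResidueField A) ℓ] (hσ : A.IsFrobeniusAt σ ℓ) :
    decompResAut A ⟨σ, hσ.mem_decompositionSubgroup⟩ = frobeniusEquiv (ResidueField A) ℓ :=
  RingEquiv.ext fun y => (decompResAut_frobenius_apply A hσ y).trans
    (frobeniusEquiv_apply (ResidueField A) ℓ y).symm

include hℓN hA in
/-- **(hΦ)**, general exponent: a Frobenius lift `σ` at `A` acts on the reduction through
`coeffPic0Hom k N φ`, where `φ = decompResAut A σ` is the `q`-power map of `k`. -/
theorem reductionModL_frobenius_smul_decompResAut (h : ReductionInputsModL A N) {q : ℕ}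
    (hσ : A.IsFrobeniusAt σ q) (x : JZero N) :
    reductionModL A N (σ • x) =
      coeffPic0Hom (ResidueField A) N (decompResAut A ⟨σ, hσ.mem_decompositionSubgroup⟩)
        (reductionModL A N x) :=
  reductionModL_decomposition_smul N hℓN A hA h hσ.mem_decompositionSubgroup x

include hℓN hA in
/-- **(b) / (hΦ)** a Frobenius lift `σ` at `A` acts on the reduction through
`Φ = coeffPic0Hom k N (frobeniusEquiv k ℓ)`. -/
theorem reductionModL_frobenius_smul [ExpChar (ResidueField A) ℓ]
    [PerfectRing (ResidueField A) ℓ] (h : ReductionInputsModL A N)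
    (hσ : A.IsFrobeniusAt σ ℓ) (x : JZero N) :
    reductionModL A N (σ • x) =
      coeffPic0Hom (ResidueField A) N (frobeniusEquiv (ResidueField A) ℓ)
        (reductionModL A N x) := by
  rw [← decompResAut_eq_frobeniusEquiv A hσ]
  exact reductionModL_frobenius_smul_decompResAut N hℓN A hA h hσ x

include hℓN hA in
/-- **(b) / (hΦ)**, `SemilinearAut` form:
`red (σ • x) = coeffAutC k N (frobeniusEquiv k ℓ) • red x`. -/
theorem reductionModL_frobenius_smul' [ExpChar (ResidueField A) ℓ]
    [PerfectRing (ResidueField A) ℓ] (h : ReductionInputsModL A N)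
    (hσ : A.IsFrobeniusAt σ ℓ) (x : JZero N) :
    reductionModL A N (σ • x) =
      coeffAutC (ResidueField A) N (frobeniusEquiv (ResidueField A) ℓ) •
        reductionModL A N x :=
  reductionModL_frobenius_smul N hℓN A hA h hσ x

/-- **(e)** `Ψ ∘ Φ = ℓ` for `Φ = coeffPic0Hom k N φ`, `Ψ = ℓ • coeffPic0Hom k N φ⁻¹`. -/
theorem smul_coeffPic0Hom_symm_apply (k : Type) [Field k] (τ : k ≃+* k) (n : ℕ)
    (y : JZeroC k N) :
    (n • coeffPic0Hom k N τ.symm) (coeffPic0Hom k N τ y) = n • y := by
  rw [AddMonoidHom.nsmul_apply, coeffPic0Hom_symm_apply]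

include hℓN hA in
/-- **(a) + (b) + (e)** packaged, instance-free: the Galois data of the reduction map needed by
`Hecke.specializationExists_JZero_of_reductionData` for `Jt := JZeroC k N`,
`red := reductionModL A N`, `Φ := coeffPic0Hom k N φ`, `Ψ := ℓ • coeffPic0Hom k N φ.symm`,
where `φ : k ≃+* k` is the `ℓ`-power map. -/
theorem exists_frobenius_reduction_data (h : ReductionInputsModL A N)
    {s0 : AlgebraicClosure ℚ ≃ₐ[ℚ] AlgebraicClosure ℚ} (hs0 : A.IsFrobeniusAt s0 ℓ) :
    ∃ φ : ResidueField A ≃+* ResidueField A, (∀ y, φ y = y ^ ℓ) ∧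
      (∀ i ∈ A.inertiaSubgroupIn ℚ, ∀ x : JZero N,
        reductionModL A N (i • x) = reductionModL A N x) ∧
      (∀ x : JZero N, reductionModL A N (s0 • x) =
        coeffPic0Hom (ResidueField A) N φ (reductionModL A N x)) ∧
      (∀ y : JZeroC (ResidueField A) N,
        (ℓ • coeffPic0Hom (ResidueField A) N φ.symm) (coeffPic0Hom (ResidueField A) N φ y) =
          ℓ • y) :=
  ⟨decompResAut A ⟨s0, hs0.mem_decompositionSubgroup⟩, decompResAut_frobenius_apply A hs0,
    reductionModL_inertia N hℓN A hA h,
    reductionModL_frobenius_smul_decompResAut N hℓN A hA h hs0,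
    fun y => smul_coeffPic0Hom_symm_apply N _ _ ℓ y⟩

end Fermat.Agent.Val.GaloisModL
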