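import Fermat.Agent.Val.SupNorm

/-!
# L-VAL (V4): the `approx` field of `Red.RedSetup` from orthonormal exhaustions

* `HasApprox O res V y` : the conclusion of the field `approx` of `Fermat.Agent.Red.RedSetup`
  for one pair `(V, y)`.
* `HasApprox.of_mul_unit` : transfer along multiplication by a unit `b` of `O`.
* `approx_of_exhaustion` : if every finite subset of `E` can be multiplied by a unit of `O` into a
  finite-dimensional subspace `W` with *orthonormal* coordinates (the hypotheses of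
  `approx_of_coords`), then every finite-dimensional `V ≤ E` has best approximations.
-/

set_option autoImplicit false

namespace Fermat.Agent.Val

variable {L E Ft : Type*} [Field L] [Field E] [Algebra L E] [Ring Ft]

/-- The conclusion of the field `approx` of `Red.RedSetup` for the pair `(V, y)`. -/
def HasApprox (O : ValuationSubring E) (res : O →+* Ft) (V : Submodule L E) (y : E) : Prop :=
  ∃ w ∈ V, ∃ c : L, c ≠ 0 ∧ ∃ h : c • (y - w) ∈ O,
    ∀ z : O, (z : E) ∈ V → res z ≠ res ⟨c • (y - w), h⟩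

variable {O : ValuationSubring E} {res : O →+* Ft}

/-- Transfer of best approximations along multiplication by a unit `b` of `O`. -/
theorem HasApprox.of_mul_unit {V : Submodule L E} {y : E} {b : E} (hb0 : b ≠ 0) (hb : b ∈ O)
    (hb' : b⁻¹ ∈ O) (h : HasApprox O res (V.map (LinearMap.mulLeft L b)) (b * y)) :
    HasApprox O res V y := by
  obtain ⟨w', ⟨w, hwV, rfl⟩, c, hc, hmem, hne⟩ := h
  have hw' : (LinearMap.mulLeft L b) w = b * w := rfl
  have hkey : c • (b * y - (LinearMap.mulLeft L b) w) = b * (c • (y - w)) := by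
    rw [hw', ← mul_sub, mul_smul_comm]
  have hmem' : c • (y - w) ∈ O := by
    have : c • (y - w) = b⁻¹ * (c • (b * y - (LinearMap.mulLeft L b) w)) := by
      rw [hkey, ← mul_assoc, inv_mul_cancel₀ hb0, one_mul]
    rw [this]
    exact O.mul_mem _ _ hb' hmem
  refine ⟨w, hwV, c, hc, hmem', fun z hzV hres => ?_⟩
  have hbz : b * (z : E) ∈ O := O.mul_mem _ _ hb z.2
  have hbzV : b * (z : E) ∈ V.map (LinearMap.mulLeft L b) := ⟨z, hzV, rfl⟩
  refine hne ⟨b * (z : E), hbz⟩ hbzV ?_
  have h1 : (⟨b * (z : E), hbz⟩ : O) = ⟨b, hb⟩ * z := Subtype.ext rfl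
  have h2 : (⟨c • (b * y - (LinearMap.mulLeft L b) w), hmem⟩ : O) =
      ⟨b, hb⟩ * ⟨c • (y - w), hmem'⟩ := Subtype.ext hkey
  rw [h1, h2, map_mul, map_mul, hres]

/-- **`RedSetup.approx` from orthonormal exhaustions.** Suppose that for every finite subset `S`
of `E` there are a unit `b` of `O` and a finite-dimensional subspace `W` of `E` containing `b • S`
with orthonormal coordinates `coords : W ≃ (ι → L)` (`f ∈ O ↔ ‖coords f‖ ≤ 1` and
`res f = 0 ↔ ‖coords f‖ < 1`).  Then every finite-dimensional `L`-subspace of `E` has best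
approximations; the conclusion is verbatim the field `approx` of `Red.RedSetup`. -/
theorem approx_of_exhaustion (A : ValuationSubring L) (O : ValuationSubring E) (res : O →+* Ft)
    (hex : ∀ S : Finset E, ∃ b : E, b ≠ 0 ∧ b ∈ O ∧ b⁻¹ ∈ O ∧
      ∃ (ι : Type) (_ : Fintype ι) (W : Submodule L E) (coords : W ≃ₗ[L] (ι → L)),
        (∀ f : W, (f : E) ∈ O ↔ supVal A.valuation (coords f) ≤ 1) ∧
        (∀ (f : W) (hf : (f : E) ∈ O),
          res ⟨(f : E), hf⟩ = 0 ↔ supVal A.valuation (coords f) < 1) ∧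
        ∀ s ∈ S, b * s ∈ W)
    (V : Submodule L E) (hV : Module.Finite L V) (y : E) (hy : y ∉ V) :
    ∃ w ∈ V, ∃ c : L, c ≠ 0 ∧ ∃ h : c • (y - w) ∈ O,
      ∀ z : O, (z : E) ∈ V → res z ≠ res ⟨c • (y - w), h⟩ := by
  classical
  obtain ⟨S₀, hS₀⟩ := Module.Finite.iff_fg.1 hV
  obtain ⟨b, hb0, hb, hb', ι, _, W, coords, hO, hres, hW⟩ := hex (insert y S₀)
  have hVW : V.map (LinearMap.mulLeft L b) ≤ W := by
    rw [← hS₀, Submodule.map_span, Submodule.span_le]
    rintro _ ⟨s, hs, rfl⟩
    exact hW s (Finset.mem_insert_of_mem hs)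
  have hyW : b * y ∈ W := hW y (Finset.mem_insert_self y S₀)
  have hyV : b * y ∉ V.map (LinearMap.mulLeft L b) := by
    rintro ⟨v, hv, hvy⟩
    have : b * v = b * y := hvy
    exact hy ((mul_left_cancel₀ hb0 this) ▸ hv)
  exact HasApprox.of_mul_unit hb0 hb hb'
    (approx_of_coords A O res W coords hO hres _ hVW hyW hyV)

end Fermat.Agent.Val
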