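import Mathlib

/-!
# L-VAL (V3): best approximation for the sup-valuation on `ι → L`

`L` a field with a valuation `val : Valuation L Γ₀`, `ι` a finite type.  The sup-valuation of a
vector `v : ι → L` is `supVal val v = sup_i val (v i)`.  It is an ultrametric norm
(`supVal_add_le`, `supVal_smul`, `supVal_eq_zero_iff`).

* `best_approx`: every subspace `V ≤ ι → L` is *orthogonally complemented*: for every `y` there is
  `w ∈ V` such that `supVal (y - w) ≤ supVal (y - w + z)` for all `z ∈ V`
  (Gaussian elimination, induction on `finrank V`);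
* `supVal_add_eq_max_of_forall_le`: then `supVal (y - w + z) = max (supVal (y - w)) (supVal z)`
  for `z ∈ V`;
* `best_approx_valuationSubring`: the specialisation to `val = A.valuation`, `A` a valuation
  subring of `L`.
-/

set_option autoImplicit false
set_option linter.style.haveILetI false

namespace Fermat.Agent.Val

open Finset

variable {L : Type*} [Field L] {Γ₀ : Type*} [LinearOrderedCommGroupWithZero Γ₀]
  (val : Valuation L Γ₀) {ι : Type*} [Fintype ι]

/-- The sup-valuation of a vector. -/
def supVal (v : ι → L) : Γ₀ := univ.sup fun i => val (v i)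

theorem le_supVal (v : ι → L) (i : ι) : val (v i) ≤ supVal val v :=
  le_sup (f := fun i => val (v i)) (mem_univ i)

theorem supVal_le_iff {v : ι → L} {a : Γ₀} : supVal val v ≤ a ↔ ∀ i, val (v i) ≤ a := by
  unfold supVal
  rw [Finset.sup_le_iff]
  exact ⟨fun h i => h i (mem_univ i), fun h i _ => h i⟩

theorem supVal_le {v : ι → L} {a : Γ₀} (h : ∀ i, val (v i) ≤ a) : supVal val v ≤ a :=
  (supVal_le_iff val).2 h

theorem exists_eq_supVal [Nonempty ι] (v : ι → L) : ∃ i, val (v i) = supVal val v := by
  obtain ⟨i, -, hi⟩ := exists_mem_eq_sup (univ : Finset ι) univ_nonempty fun i => val (v i)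
  exact ⟨i, hi.symm⟩

@[simp]
theorem supVal_zero : supVal val (0 : ι → L) = 0 :=
  le_antisymm (supVal_le val fun i => by simp) zero_le

theorem supVal_eq_zero_iff {v : ι → L} : supVal val v = 0 ↔ v = 0 := by
  constructor
  · intro h
    funext i
    have := le_supVal val v i
    rw [h] at this
    exact (Valuation.zero_iff val).1 (le_antisymm this zero_le)
  · rintro rfl
    exact supVal_zero val

theorem supVal_add_le (v w : ι → L) :
    supVal val (v + w) ≤ max (supVal val v) (supVal val w) :=
  supVal_le val fun i =>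
    (val.map_add (v i) (w i)).trans (max_le_max (le_supVal val v i) (le_supVal val w i))

theorem supVal_neg (v : ι → L) : supVal val (-v) = supVal val v := by
  unfold supVal
  congr 1
  funext i
  exact val.map_neg (v i)

theorem supVal_sub_le (v w : ι → L) :
    supVal val (v - w) ≤ max (supVal val v) (supVal val w) := by
  rw [sub_eq_add_neg, ← supVal_neg val w]
  exact supVal_add_le val v (-w)

theorem supVal_smul (c : L) (v : ι → L) : supVal val (c • v) = val c * supVal val v := by
  rcases eq_or_ne c 0 with rfl | hc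
  · rw [zero_smul, supVal_zero, map_zero, zero_mul]
  · have hc0 : val c ≠ 0 := (Valuation.ne_zero_iff val).2 hc
    apply le_antisymm
    · refine supVal_le val fun i => ?_
      rw [Pi.smul_apply, smul_eq_mul, map_mul]
      exact mul_le_mul_right (le_supVal val v i) _
    · rw [← le_inv_mul_iff₀ (lt_of_le_of_ne zero_le hc0.symm)]
      refine supVal_le val fun i => ?_
      rw [le_inv_mul_iff₀ (lt_of_le_of_ne zero_le hc0.symm), ← map_mul]
      exact le_supVal val (c • v) i

/-- Key step of the elimination: if `t j = 0` and `v` has sup-valuation attained at `j` with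
`v j = 1`, then adding a multiple of `v` to `t` does not decrease the sup-valuation. -/
theorem supVal_le_supVal_add_smul {t v : ι → L} {j : ι} (htj : t j = 0) (hvj : v j = 1)
    (hv : ∀ i, val (v i) ≤ 1) (c : L) : supVal val t ≤ supVal val (t + c • v) := by
  have hj : val c ≤ supVal val (t + c • v) := by
    have := le_supVal val (t + c • v) j
    rwa [Pi.add_apply, Pi.smul_apply, htj, hvj, smul_eq_mul, mul_one, zero_add] at this
  refine supVal_le val fun i => ?_
  by_cases hci : val (t i) ≤ val c
  · exact hci.trans hj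
  · push Not at hci
    have h1 : val (c * v i) < val (t i) := by
      rw [map_mul]
      calc val c * val (v i) ≤ val c * 1 := mul_le_mul_right (hv i) _
        _ = val c := mul_one _
        _ < val (t i) := hci
    have h2 : val (t i + c * v i) = val (t i) := Valuation.map_add_eq_of_lt_left val h1
    have := le_supVal val (t + c • v) i
    rwa [Pi.add_apply, Pi.smul_apply, smul_eq_mul, h2] at this

/-- **Best approximation**: every subspace of `ι → L` is orthogonally complemented for the
sup-valuation. -/
theorem best_approx (V : Submodule L (ι → L)) (y : ι → L) :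
    ∃ w ∈ V, ∀ z ∈ V, supVal val (y - w) ≤ supVal val (y - w + z) := by
  induction hn : Module.finrank L V using Nat.strong_induction_on generalizing V y with
  | _ n ih =>
  by_cases hV : V = ⊥
  · subst hV
    exact ⟨0, zero_mem _, fun z hz => by rw [(Submodule.mem_bot L).1 hz, add_zero]⟩
  · obtain ⟨v₀, hv₀V, hv₀⟩ := Submodule.exists_mem_ne_zero_of_ne_bot hV
    haveI : Nonempty ι := by
      by_contra h
      rw [not_nonempty_iff] at h
      exact hv₀ (Subsingleton.elim _ _)
    obtain ⟨j, hj⟩ := exists_eq_supVal val v₀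
    have hvj0 : v₀ j ≠ 0 := by
      intro h0
      rw [h0, map_zero] at hj
      exact hv₀ ((supVal_eq_zero_iff val).1 hj.symm)
    have hvalj : val (v₀ j) ≠ 0 := (Valuation.ne_zero_iff val).2 hvj0
    set v : ι → L := (v₀ j)⁻¹ • v₀ with hv
    have hvV : v ∈ V := V.smul_mem _ hv₀V
    have hvj : v j = 1 := by
      rw [hv, Pi.smul_apply, smul_eq_mul, inv_mul_cancel₀ hvj0]
    have hvle : ∀ i, val (v i) ≤ 1 := by
      intro i
      rw [hv, Pi.smul_apply, smul_eq_mul, map_mul, map_inv₀,
        inv_mul_le_iff₀ (lt_of_le_of_ne zero_le hvalj.symm), mul_one, hj]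
      exact le_supVal val v₀ i
    let V' : Submodule L (ι → L) := V ⊓ LinearMap.ker (LinearMap.proj j : (ι → L) →ₗ[L] L)
    have hmemV' : ∀ x : ι → L, x ∈ V' ↔ x ∈ V ∧ x j = 0 := fun x => by
      show x ∈ V ∧ x ∈ LinearMap.ker (LinearMap.proj j : (ι → L) →ₗ[L] L) ↔ _
      rw [LinearMap.mem_ker, LinearMap.proj_apply]
    have hV'lt : Module.finrank L V' < Module.finrank L V := by
      apply Submodule.finrank_lt_finrank_of_lt
      refine lt_of_le_of_ne inf_le_left fun h => ?_
      have h1 : v ∈ V' := h ▸ hvV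
      have h2 := ((hmemV' v).1 h1).2
      rw [hvj] at h2
      exact one_ne_zero h2
    obtain ⟨w', hw'V', hw'⟩ := ih _ (hn ▸ hV'lt) V' (y - y j • v) rfl
    have hw'j : w' j = 0 := ((hmemV' w').1 hw'V').2
    refine ⟨y j • v + w', V.add_mem (V.smul_mem _ hvV) ((hmemV' w').1 hw'V').1, fun z hz => ?_⟩
    have hu' : y - (y j • v + w') = y - y j • v - w' := by abel
    rw [hu']
    have huj : (y - y j • v - w') j = 0 := by
      rw [Pi.sub_apply, Pi.sub_apply, Pi.smul_apply, hvj, hw'j, smul_eq_mul, mul_one, sub_self,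
        sub_zero]
    have hz' : z - z j • v ∈ V' := by
      refine (hmemV' _).2 ⟨V.sub_mem hz (V.smul_mem _ hvV), ?_⟩
      rw [Pi.sub_apply, Pi.smul_apply, hvj, smul_eq_mul, mul_one, sub_self]
    have h1 := hw' _ hz'
    have htj : (y - y j • v - w' + (z - z j • v)) j = 0 := by
      rw [Pi.add_apply, huj, ((hmemV' _).1 hz').2, add_zero]
    have h2 := supVal_le_supVal_add_smul val htj hvj hvle (z j)
    have h3 : y - y j • v - w' + (z - z j • v) + z j • v = y - y j • v - w' + z := by abel
    rw [h3] at h2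
    exact h1.trans h2

/-- A best approximation is orthogonal: `‖u + z‖ = max ‖u‖ ‖z‖` for all `z ∈ V`. -/
theorem supVal_add_eq_max_of_forall_le {V : Submodule L (ι → L)} {u : ι → L}
    (hu : ∀ z ∈ V, supVal val u ≤ supVal val (u + z)) {z : ι → L} (hz : z ∈ V) :
    supVal val (u + z) = max (supVal val u) (supVal val z) := by
  apply le_antisymm (supVal_add_le val u z)
  refine max_le (hu z hz) ?_
  have h1 : z = u + z - u := by abel
  calc supVal val z = supVal val (u + z - u) := by rw [← h1]
    _ ≤ max (supVal val (u + z)) (supVal val u) := supVal_sub_le val _ _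
    _ = supVal val (u + z) := max_eq_left (hu z hz)

/-- Best approximation with the orthogonality statement included. -/
theorem exists_orthogonal_approx (V : Submodule L (ι → L)) (y : ι → L) :
    ∃ w ∈ V, ∀ z ∈ V, supVal val (y - w + z) = max (supVal val (y - w)) (supVal val z) := by
  obtain ⟨w, hw, h⟩ := best_approx val V y
  exact ⟨w, hw, fun z hz => supVal_add_eq_max_of_forall_le val h hz⟩

/-- If `y ∉ V`, a best approximation `w` has `y - w ≠ 0`, so it can be scaled to have
sup-valuation `1`. -/
theorem exists_approx_supVal_eq_one (V : Submodule L (ι → L)) {y : ι → L} (hy : y ∉ V) :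
    ∃ w ∈ V, ∃ c : L, c ≠ 0 ∧ supVal val (c • (y - w)) = 1 ∧
      ∀ z ∈ V, 1 ≤ supVal val (c • (y - w) + z) := by
  obtain ⟨w, hw, h⟩ := best_approx val V y
  have hne : y - w ≠ 0 := fun h0 => hy (by rw [sub_eq_zero.1 h0]; exact hw)
  haveI : Nonempty ι := by
    by_contra hι
    rw [not_nonempty_iff] at hι
    exact hne (Subsingleton.elim _ _)
  obtain ⟨j, hj⟩ := exists_eq_supVal val (y - w)
  have hj0 : (y - w) j ≠ 0 := by
    intro h0
    rw [h0, map_zero] at hj
    exact hne ((supVal_eq_zero_iff val).1 hj.symm)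
  have hvalj : val ((y - w) j) ≠ 0 := (Valuation.ne_zero_iff val).2 hj0
  have hc1 : supVal val (((y - w) j)⁻¹ • (y - w)) = 1 := by
    rw [supVal_smul, ← hj, map_inv₀, inv_mul_cancel₀ hvalj]
  refine ⟨w, hw, ((y - w) j)⁻¹, inv_ne_zero hj0, hc1, fun z hz => ?_⟩
  have hz' : (y - w) j • z ∈ V := V.smul_mem _ hz
  have h2 := h _ hz'
  have h3 : ((y - w) j)⁻¹ • (y - w) + z = ((y - w) j)⁻¹ • (y - w + (y - w) j • z) := by
    rw [smul_add, smul_smul, inv_mul_cancel₀ hj0, one_smul]
  rw [h3, supVal_smul, map_inv₀, ← hc1, supVal_smul, map_inv₀]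
  exact mul_le_mul_right h2 _

section ValuationSubring

variable (A : ValuationSubring L)

/-- **Best approximation for the sup-valuation attached to a valuation subring.** -/
theorem best_approx_valuationSubring (V : Submodule L (ι → L)) (y : ι → L) :
    ∃ w ∈ V, ∀ z ∈ V, supVal A.valuation (y - w) ≤ supVal A.valuation (y - w + z) :=
  best_approx A.valuation V y

theorem supVal_le_one_iff_forall_mem {v : ι → L} :
    supVal A.valuation v ≤ 1 ↔ ∀ i, v i ∈ A := by
  rw [supVal_le_iff]
  exact forall_congr' fun i => A.valuation_le_one_iff (v i)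

theorem supVal_lt_one_iff_forall_lt [Nonempty ι] {v : ι → L} :
    supVal A.valuation v < 1 ↔ ∀ i, A.valuation (v i) < 1 := by
  constructor
  · intro h i
    exact (le_supVal A.valuation v i).trans_lt h
  · intro h
    obtain ⟨i, hi⟩ := exists_eq_supVal A.valuation v
    rw [← hi]
    exact h i

end ValuationSubring

section Coords

variable (A : ValuationSubring L) {F Ft : Type*} [Field F] [Algebra L F] [Ring Ft]

/-- **Abstract form of `RedSetup.approx`** (`Red/Setup.lean`): let `O` be a valuation subring of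
`F` with a residue map `res`, and `W ≤ F` a finite-dimensional `L`-subspace with coordinates
`coords : W ≃ (ι → L)` which are *orthonormal*: `f ∈ O ↔ ‖coords f‖ ≤ 1` and
`res f = 0 ↔ ‖coords f‖ < 1` for `f ∈ W`.  Then every subspace `V ≤ W` is orthogonally
complemented in `W`: for `y ∈ W \ V` there are `w ∈ V` and a scalar `c ≠ 0` with
`c (y - w) ∈ O` whose residue is not the residue of any element of `V ∩ O`. -/
theorem approx_of_coords (O : ValuationSubring F) (res : O →+* Ft) (W : Submodule L F)
    (coords : W ≃ₗ[L] (ι → L))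
    (hO : ∀ f : W, (f : F) ∈ O ↔ supVal A.valuation (coords f) ≤ 1)
    (hres : ∀ (f : W) (hf : (f : F) ∈ O),
      res ⟨(f : F), hf⟩ = 0 ↔ supVal A.valuation (coords f) < 1)
    (V : Submodule L F) (hVW : V ≤ W) {y : F} (hyW : y ∈ W) (hyV : y ∉ V) :
    ∃ w ∈ V, ∃ c : L, c ≠ 0 ∧ ∃ h : c • (y - w) ∈ O,
      ∀ z : O, (z : F) ∈ V → res z ≠ res ⟨c • (y - w), h⟩ := by
  -- the image of `V` in coordinates
  let V₀ : Submodule L (ι → L) := (V.comap W.subtype).map coords.toLinearMap
  have hmemV₀ : ∀ f : W, coords f ∈ V₀ ↔ (f : F) ∈ V := by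
    intro f
    constructor
    · rintro ⟨g, hg, hgf⟩
      have : g = f := coords.injective hgf
      rw [← this]
      exact hg
    · intro hf
      exact ⟨f, hf, rfl⟩
  have hy₀ : coords ⟨y, hyW⟩ ∉ V₀ := fun h => hyV ((hmemV₀ ⟨y, hyW⟩).1 h)
  obtain ⟨w₀, hw₀, c, hc, hc1, hmin⟩ := exists_approx_supVal_eq_one A.valuation V₀ hy₀
  obtain ⟨w', hw'V, rfl⟩ := hw₀
  have hw'V' : (w' : F) ∈ V := hw'V
  -- the scaled difference, as an element of `W`
  let u : W := c • (⟨y, hyW⟩ - w')
  have hu_coe : (u : F) = c • (y - (w' : F)) := rfl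
  have hu_coords : coords u = c • (coords ⟨y, hyW⟩ - coords w') := by
    show coords (c • (⟨y, hyW⟩ - w')) = _
    rw [map_smul, map_sub]
  have huO : (u : F) ∈ O := (hO u).2 (by rw [hu_coords]; exact hc1.le)
  refine ⟨(w' : F), hw'V', c, hc, huO, fun z hz heq => ?_⟩
  let z' : W := ⟨(z : F), hVW hz⟩
  have hz'₀ : coords z' ∈ V₀ := (hmemV₀ z').2 hz
  have hdiffO : ((u - z' : W) : F) ∈ O := by
    show (u : F) - (z : F) ∈ O
    exact sub_mem huO z.2
  have hres0 : res ⟨((u - z' : W) : F), hdiffO⟩ = 0 := by
    have h1 : (⟨((u - z' : W) : F), hdiffO⟩ : O) = ⟨(u : F), huO⟩ - z := Subtype.ext rfl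
    rw [h1, map_sub, sub_eq_zero]
    exact heq.symm
  have hlt := (hres (u - z') hdiffO).1 hres0
  have hge := hmin (-(coords z')) (V₀.neg_mem hz'₀)
  rw [map_sub, hu_coords, sub_eq_add_neg] at hlt
  exact absurd hlt (not_lt.2 hge)

end Coords

end Fermat.Agent.Val
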