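/-
L-VAL (Program L), node V9 (Deuring reduction of divisors), part 1: function-field lemmas over a
`Red.RiemannPkg`: pole divisors, generic linear combinations, the division property for powers of
a function, monotonicity of degrees.
-/
import Mathlib
import Fermat.Agent.Red.FFLemmas

set_option autoImplicit false

namespace Fermat.Agent.Val

open AlgebraicCurve Fermat.Agent.Red Fermat.Agent.X0 Module

variable {K F : Type*} [Field K] [Field F] [Algebra K F]

/-! ### valuations of constants -/

theorem adicValuation_algebraMap_eq_one' (P : Place K F) {a : K} (ha : a ≠ 0) :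
    P.adicValuation (algebraMap K F a) = 1 := by
  apply le_antisymm (P.adicValuation_algebraMap_le_one a)
  have h1 := P.adicValuation_algebraMap_le_one a⁻¹
  rw [map_inv₀, map_inv₀] at h1
  have hne : P.adicValuation (algebraMap K F a) ≠ 0 :=
    (map_ne_zero _).mpr ((map_ne_zero _).mpr ha)
  rwa [inv_le_one₀ (lt_of_le_of_ne zero_le hne.symm)] at h1

theorem adicValuation_smul (P : Place K F) {a : K} (ha : a ≠ 0) (g : F) :
    P.adicValuation (a • g) = P.adicValuation g := by
  rw [Algebra.smul_def, map_mul, adicValuation_algebraMap_eq_one' P ha, one_mul]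

theorem adicValuation_smul_le (P : Place K F) (a : K) (g : F) :
    P.adicValuation (a • g) ≤ P.adicValuation g := by
  rw [Algebra.smul_def, map_mul]
  exact mul_le_of_le_one_left' (P.adicValuation_algebraMap_le_one a)

/-! ### generic linear combinations -/

/-- For a fixed place, at most one constant `c` makes `v(f + c g)` drop below
`max (v f) (v g)`. -/
theorem adicValuation_add_smul_bad_unique (Q : Place K F) (f g : F) {c c' : K} (hcc : c ≠ c')
    (hc : Q.adicValuation (f + c • g) < max (Q.adicValuation f) (Q.adicValuation g))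
    (hc' : Q.adicValuation (f + c' • g) < max (Q.adicValuation f) (Q.adicValuation g)) :
    False := by
  have hsub : (f + c • g) - (f + c' • g) = (c - c') • g := by
    rw [sub_smul]; ring
  have hne : c - c' ≠ 0 := sub_ne_zero.mpr hcc
  have hg : Q.adicValuation g < max (Q.adicValuation f) (Q.adicValuation g) := by
    have h1 : Q.adicValuation g = Q.adicValuation ((f + c • g) - (f + c' • g)) := by
      rw [hsub, adicValuation_smul Q hne g]
    calc Q.adicValuation g = Q.adicValuation ((f + c • g) - (f + c' • g)) := h1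
      _ ≤ max (Q.adicValuation (f + c • g)) (Q.adicValuation (f + c' • g)) :=
        Valuation.map_sub _ _ _
      _ < max (Q.adicValuation f) (Q.adicValuation g) := max_lt hc hc'
  have hfg : Q.adicValuation g < Q.adicValuation f := by
    rcases le_total (Q.adicValuation f) (Q.adicValuation g) with h | h
    · rw [max_eq_right h] at hg
      exact absurd hg (lt_irrefl _)
    · rwa [max_eq_left h] at hg
  have h1 : Q.adicValuation (f + c • g) = Q.adicValuation f :=
    Valuation.map_add_eq_of_lt_left _ (lt_of_le_of_lt (adicValuation_smul_le Q c g) hfg)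
  rw [h1, max_eq_left hfg.le] at hc
  exact lt_irrefl _ hc

/-- **Generic combinations.** Over an infinite constant field, for finitely many places there is
a nonzero constant `c` with `v(f + c g) = max (v f) (v g)` at all of them. -/
theorem exists_adicValuation_add_smul_eq_max [Infinite K] (f g : F) (Z : Finset (Place K F)) :
    ∃ c : K, c ≠ 0 ∧ ∀ Q ∈ Z,
      Q.adicValuation (f + c • g) = max (Q.adicValuation f) (Q.adicValuation g) := by
  classical
  let b : Place K F → K := fun Q =>
    if h : ∃ c : K, Q.adicValuation (f + c • g) < max (Q.adicValuation f) (Q.adicValuation g)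
    then h.choose else 0
  obtain ⟨c, hc⟩ := Infinite.exists_notMem_finset (insert (0 : K) (Z.image b))
  rw [Finset.mem_insert, not_or] at hc
  refine ⟨c, hc.1, fun Q hQ => ?_⟩
  have hle : Q.adicValuation (f + c • g) ≤ max (Q.adicValuation f) (Q.adicValuation g) :=
    (Valuation.map_add _ _ _).trans (max_le_max le_rfl (adicValuation_smul_le Q c g))
  refine le_antisymm hle (not_lt.mp fun hlt => ?_)
  have hex : ∃ c : K, Q.adicValuation (f + c • g) <
      max (Q.adicValuation f) (Q.adicValuation g) := ⟨c, hlt⟩
  have hb : b Q = hex.choose := dif_pos hex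
  have hbad := hex.choose_spec
  by_cases hcb : c = b Q
  · exact hc.2 (Finset.mem_image.mpr ⟨Q, hQ, hcb.symm⟩)
  · rw [hb] at hcb
    exact adicValuation_add_smul_bad_unique Q f g hcb hlt hbad

/-! ### pole divisors -/

section PoleDiv

variable [HasPrincipalDivisors K F]

variable (K) in
/-- The pole divisor `(f)_∞` of a function (`0` for `f = 0`). -/
noncomputable def poleDiv (f : F) : Divisor K F :=
  (divOf K f).mapRange (fun n : ℤ => max (-n) 0) (by simp)

theorem poleDiv_apply (f : F) (P : Place K F) : poleDiv K f P = max (-(P.ord f)) 0 := by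
  rw [poleDiv, Finsupp.mapRange_apply, divOf_apply]

theorem poleDiv_nonneg (f : F) : 0 ≤ poleDiv K f := by
  intro P
  rw [poleDiv_apply, Finsupp.zero_apply]
  exact le_max_right _ _

@[simp] theorem poleDiv_zero : poleDiv K (0 : F) = 0 := by
  ext P
  rw [poleDiv_apply, Place.ord_zero, Finsupp.zero_apply, neg_zero, max_self]

theorem neg_ord_le_poleDiv (f : F) (P : Place K F) : -(P.ord f) ≤ poleDiv K f P := by
  rw [poleDiv_apply]
  exact le_max_left _ _

theorem mem_riemannRochSpace_of_poleDiv_le {E : Divisor K F} {f : F} (h : poleDiv K f ≤ E) :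
    f ∈ riemannRochSpace E := by
  rw [mem_riemannRochSpace_iff]
  intro P
  right
  have h1 := neg_ord_le_poleDiv f P
  have h2 := h P
  linarith

theorem mem_riemannRochSpace_poleDiv (f : F) : f ∈ riemannRochSpace (poleDiv K f) :=
  mem_riemannRochSpace_of_poleDiv_le le_rfl

theorem poleDiv_le_of_mem {E : Divisor K F} (hE : 0 ≤ E) {f : F} (hf : f ∈ riemannRochSpace E) :
    poleDiv K f ≤ E := by
  intro P
  rw [poleDiv_apply]
  refine max_le ?_ (hE P)
  rcases (mem_riemannRochSpace_iff.mp hf) P with h0 | h1
  · rw [h0, Place.ord_zero, neg_zero]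
    exact hE P
  · linarith

theorem mem_riemannRochSpace_iff_poleDiv_le {E : Divisor K F} (hE : 0 ≤ E) {f : F} :
    f ∈ riemannRochSpace E ↔ poleDiv K f ≤ E :=
  ⟨poleDiv_le_of_mem hE, mem_riemannRochSpace_of_poleDiv_le⟩

/-- `poleDiv` in terms of the valuation: `exp (poleDiv f P) = max (v f) 1`. -/
theorem exp_poleDiv (f : F) (P : Place K F) :
    WithZero.exp (poleDiv K f P) = max (P.adicValuation f) 1 := by
  rw [poleDiv_apply]
  by_cases hf : f = 0
  · subst hf
    rw [Place.ord_zero, neg_zero, max_self, map_zero, WithZero.exp_zero]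
    exact (max_eq_right zero_le).symm
  · rw [AlgebraicCurve.Place.adicValuation_eq_exp_neg_ord P hf]
    rcases le_total (-(P.ord f)) 0 with h | h
    · rw [max_eq_right h, WithZero.exp_zero, max_eq_right]
      rw [← WithZero.exp_zero]
      exact WithZero.exp_le_exp.mpr h
    · rw [max_eq_left h, max_eq_left]
      rw [← WithZero.exp_zero]
      exact WithZero.exp_le_exp.mpr h

/-- Generic combinations, pole divisor form. -/
theorem exists_poleDiv_add_smul_eq_max [Infinite K] (f g : F) (Z : Finset (Place K F)) :
    ∃ c : K, c ≠ 0 ∧ ∀ Q ∈ Z,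
      poleDiv K (f + c • g) Q = max (poleDiv K f Q) (poleDiv K g Q) := by
  obtain ⟨c, hc0, hc⟩ := exists_adicValuation_add_smul_eq_max f g Z
  refine ⟨c, hc0, fun Q hQ => ?_⟩
  apply WithZero.exp_injective
  rw [exp_poleDiv, hc Q hQ]
  rcases le_total (poleDiv K f Q) (poleDiv K g Q) with h | h
  · rw [max_eq_right h, exp_poleDiv]
    have h' := WithZero.exp_le_exp.mpr h
    rw [exp_poleDiv, exp_poleDiv] at h'
    apply le_antisymm
    · exact max_le (max_le ((le_max_left _ _).trans h') (le_max_left _ _)) (le_max_right _ _)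
    · exact max_le_max (le_max_right _ _) le_rfl
  · rw [max_eq_left h, exp_poleDiv]
    have h' := WithZero.exp_le_exp.mpr h
    rw [exp_poleDiv, exp_poleDiv] at h'
    apply le_antisymm
    · exact max_le (max_le (le_max_left _ _) ((le_max_left _ _).trans h')) (le_max_right _ _)
    · exact max_le_max (le_max_left _ _) le_rfl

end PoleDiv

/-! ### degrees of effective divisors, over a Riemann package -/

section Pkg

variable (hF : RiemannPkg K F)
include hF

theorem degree_nonneg_of_nonneg {D : Divisor K F} (hD : 0 ≤ D) : 0 ≤ Divisor.degree D := by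
  rw [degree_eq_sum hF, Finsupp.sum]
  exact Finset.sum_nonneg fun P _ => hD P

theorem degree_le_degree_of_le {D D' : Divisor K F} (h : D ≤ D') :
    Divisor.degree D ≤ Divisor.degree D' := by
  have h1 : 0 ≤ D' - D := fun P => by
    rw [Finsupp.zero_apply, Finsupp.sub_apply]
    exact sub_nonneg.mpr (h P)
  have h2 := degree_nonneg_of_nonneg hF h1
  rw [map_sub] at h2
  linarith

theorem degree_pos_of_nonneg_of_pos {D : Divisor K F} (hD : 0 ≤ D) {Q : Place K F}
    (hQ : 0 < D Q) : 0 < Divisor.degree D := by
  classical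
  have h1 : 0 ≤ D - Finsupp.single Q 1 := fun P => by
    rw [Finsupp.zero_apply, Finsupp.sub_apply, Finsupp.single_apply]
    split_ifs with h
    · subst h
      omega
    · have := hD P
      rw [Finsupp.zero_apply] at this
      omega
  have h2 := degree_nonneg_of_nonneg hF h1
  rw [map_sub, degree_single_of_pkg hF] at h2
  linarith

theorem degree_lt_degree_of_le_of_lt {D D' : Divisor K F} (h : D ≤ D') {Q : Place K F}
    (hQ : D Q < D' Q) : Divisor.degree D < Divisor.degree D' := by
  have h1 : 0 ≤ D' - D := fun P => by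
    rw [Finsupp.zero_apply, Finsupp.sub_apply]
    exact sub_nonneg.mpr (h P)
  have h2 : 0 < (D' - D) Q := by
    rw [Finsupp.sub_apply]
    exact sub_pos.mpr hQ
  have h3 := degree_pos_of_nonneg_of_pos hF h1 h2
  rw [map_sub] at h3
  linarith

theorem eq_of_le_of_degree_eq {D D' : Divisor K F} (h : D ≤ D')
    (hdeg : Divisor.degree D = Divisor.degree D') : D = D' := by
  have h1 : 0 ≤ D' - D := fun P => by
    rw [Finsupp.zero_apply, Finsupp.sub_apply]
    exact sub_nonneg.mpr (h P)
  have h2 : Divisor.degree (D' - D) = 0 := by rw [map_sub, hdeg, sub_self]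
  have h3 := eq_zero_of_nonneg_of_degree_eq_zero hF h1 h2
  exact (sub_eq_zero.mp h3).symm

/-- An effective divisor of degree one is a single place. -/
theorem exists_eq_single_of_nonneg_of_degree_eq_one {D : Divisor K F} (hD : 0 ≤ D)
    (hdeg : Divisor.degree D = 1) : ∃ Q : Place K F, D = Finsupp.single Q 1 := by
  classical
  have hne : D ≠ 0 := by
    rintro rfl
    rw [map_zero] at hdeg
    exact zero_ne_one hdeg
  obtain ⟨Q, hQ⟩ : ∃ Q, D Q ≠ 0 := by
    by_contra hcon
    push Not at hcon
    exact hne (Finsupp.ext hcon)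
  have hQpos : 0 < D Q := lt_of_le_of_ne (hD Q) (Ne.symm hQ)
  refine ⟨Q, ?_⟩
  have h1 : Finsupp.single Q 1 ≤ D := fun P => by
    rw [Finsupp.single_apply]
    split_ifs with h
    · subst h
      omega
    · exact hD P
  exact (eq_of_le_of_degree_eq hF h1 (by rw [degree_single_of_pkg hF, hdeg])).symm

/-- For divisors of large degree, `L(D) ≤ L(D')` forces `D ≤ D'`. -/
theorem le_of_riemannRochSpace_le [Infinite K] {c : ℤ}
    (hc : ∀ D : Divisor K F, c ≤ Divisor.degree D →
      (Module.finrank K (riemannRochSpace D) : ℤ) = Divisor.degree D + 1 - (genusFF K F : ℤ))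
    {D D' : Divisor K F} (hD : c + 1 ≤ Divisor.degree D)
    (h : riemannRochSpace D ≤ riemannRochSpace D') : D ≤ D' := by
  classical
  intro Q
  obtain ⟨g, hg0, hgD, hgQ⟩ := exists_mem_riemannRochSpace_ord_eq hF hc D hD {Q}
  have h1 := ((mem_riemannRochSpace_iff.mp (h hgD)) Q).resolve_left hg0
  rw [hgQ Q (Finset.mem_singleton_self Q)] at h1
  linarith

/-- For divisors of large degree, `L(D)` determines `D`. -/
theorem eq_of_riemannRochSpace_eq [Infinite K] {c : ℤ}
    (hc : ∀ D : Divisor K F, c ≤ Divisor.degree D →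
      (Module.finrank K (riemannRochSpace D) : ℤ) = Divisor.degree D + 1 - (genusFF K F : ℤ))
    {D D' : Divisor K F} (hD : c + 1 ≤ Divisor.degree D) (hD' : c + 1 ≤ Divisor.degree D')
    (h : riemannRochSpace D = riemannRochSpace D') : D = D' :=
  le_antisymm (le_of_riemannRochSpace_le hF hc hD h.le)
    (le_of_riemannRochSpace_le hF hc hD' h.ge)

end Pkg

/-! ### the division property -/

section Division

variable [HasPrincipalDivisors K F]

/-- If `z ∈ L((s+1) D)` and `h^a z ∈ L((s+a) D)` where `D = (h)_∞`, then
`z ∈ L(s D)`. -/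
theorem mem_riemannRochSpace_of_pow_mul_mem (h z : F) (s a : ℕ)
    (hz : z ∈ riemannRochSpace ((s + 1) • poleDiv K h))
    (hhz : h ^ a * z ∈ riemannRochSpace ((s + a) • poleDiv K h)) :
    z ∈ riemannRochSpace (s • poleDiv K h) := by
  by_cases hz0 : z = 0
  · subst hz0
    exact Submodule.zero_mem _
  rw [mem_riemannRochSpace_iff]
  intro Q
  right
  rw [Finsupp.smul_apply, nsmul_eq_mul]
  rcases le_or_gt (-(Q.ord h)) 0 with h0 | hpos
  · -- no pole of `h` at `Q`
    have hD : poleDiv K h Q = 0 := by rw [poleDiv_apply]; exact max_eq_right h0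
    have h1 := ((mem_riemannRochSpace_iff.mp hz) Q).resolve_left hz0
    rw [Finsupp.smul_apply, hD, smul_zero, neg_zero] at h1
    rw [hD, mul_zero, neg_zero]
    exact h1
  · -- a pole of `h` at `Q`
    have hD : poleDiv K h Q = -(Q.ord h) := by
      rw [poleDiv_apply]
      exact max_eq_left hpos.le
    have hh0 : h ≠ 0 := by
      rintro rfl
      rw [Place.ord_zero, neg_zero] at hpos
      exact lt_irrefl _ hpos
    have hne : h ^ a * z ≠ 0 := mul_ne_zero (pow_ne_zero a hh0) hz0
    have h1 := ((mem_riemannRochSpace_iff.mp hhz) Q).resolve_left hne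
    rw [Q.ord_mul (pow_ne_zero a hh0) hz0, Place.ord_pow, Finsupp.smul_apply, nsmul_eq_mul,
      hD] at h1
    rw [hD]
    push_cast at h1
    nlinarith

end Division

end Fermat.Agent.Val
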