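/-
L-VAL (Program L), node V9 (Deuring reduction of divisors), part 2: the degree inequality.

For a constant reduction `S : ConstRed A π` of a function field `F/K` with residue function field
`Ft/k` (both with a Riemann package), an element `h ∈ O ∩ L(E)`, `E ≥ 0`, reduces to a function
whose pole divisor has degree at most `deg E`.  (No genus hypothesis.)
-/
import Mathlib
import Fermat.Agent.Val.ConstRedLattice
import Fermat.Agent.Val.DeuringPoles

set_option autoImplicit false

namespace Fermat.Agent.Val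

open AlgebraicCurve Fermat.Agent.Red Fermat.Agent.X0 Module

variable {K F k Ft : Type*} [Field K] [Field F] [Algebra K F] [Field k] [Field Ft]
  [Algebra k Ft] {A : ValuationSubring K} {π : A →+* k}

namespace ConstRed

variable (S : ConstRed (F := F) (Ft := Ft) A π) (hπ : Function.Surjective π)

/-! ### products and residue spaces -/

/-- Multiplying `L(D)` by an element of `L(E)`. -/
theorem mul_mem_riemannRochSpace_add {D E : Divisor K F} {f g : F}
    (hf : f ∈ riemannRochSpace D) (hg : g ∈ riemannRochSpace E) :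
    f * g ∈ riemannRochSpace (D + E) := by
  by_cases hf0 : f = 0
  · subst hf0; rw [zero_mul]; exact Submodule.zero_mem _
  by_cases hg0 : g = 0
  · subst hg0; rw [mul_zero]; exact Submodule.zero_mem _
  rw [mem_riemannRochSpace_iff]
  intro P
  right
  have h1 := ((mem_riemannRochSpace_iff.mp hf) P).resolve_left hf0
  have h2 := ((mem_riemannRochSpace_iff.mp hg) P).resolve_left hg0
  rw [P.ord_mul hf0 hg0, Finsupp.add_apply]
  linarith

theorem pow_mem_riemannRochSpace_nsmul {E : Divisor K F} {f : F}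
    (hf : f ∈ riemannRochSpace E) (a : ℕ) : f ^ a ∈ riemannRochSpace (a • E) := by
  induction a with
  | zero =>
    rw [pow_zero, zero_smul]
    exact one_mem_riemannRochSpace_zero
  | succ a ih =>
    rw [pow_succ, succ_nsmul]
    exact mul_mem_riemannRochSpace_add ih hf

/-- Every finite-dimensional subspace of `Ft` is contained in the residue space of some `L(E₀)`,
`E₀ ≥ 0`. -/
theorem exists_le_resSpace [HasPrincipalDivisors K F] (W : Submodule k Ft)
    [FiniteDimensional k W] :
    ∃ E₀ : Divisor K F, 0 ≤ E₀ ∧ W ≤ S.resSpace hπ (riemannRochSpace E₀) := by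
  classical
  obtain ⟨T, hT⟩ := (Module.Finite.iff_fg.mp (inferInstance : Module.Finite k W) : W.FG)
  have hlift : ∀ t : Ft, ∃ y : F, y ∈ S.O ∧ S.resF y = t := by
    intro t
    obtain ⟨y, hy⟩ := S.res_surjective t
    exact ⟨y, y.2, by rw [S.resF_of_mem y.2]; exact hy⟩
  choose y hyO hyt using hlift
  refine ⟨∑ t ∈ T, poleDiv K (y t), Finset.sum_nonneg fun t _ => poleDiv_nonneg _, ?_⟩
  rw [← hT, Submodule.span_le]
  intro t ht
  refine ⟨y t, ?_, hyO t, hyt t⟩
  apply mem_riemannRochSpace_of_poleDiv_le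
  exact Finset.single_le_sum (f := fun t => poleDiv K (y t))
    (fun t _ => poleDiv_nonneg _) (Finset.mem_coe.mp ht)

/-! ### the graded injectivity -/

section Graded

variable [HasPrincipalDivisors k Ft]

/-- If `C ≤ L((s₁+1) D̄)` meets `L(s₁ D̄)` trivially (`D̄ = (h̄)_∞`), then
`z ↦ ∑ₐ h̄^a zₐ` is injective on `C^{s+1}`. -/
theorem eq_zero_of_sum_pow_mul_eq_zero (hb : Ft) (s₁ : ℕ) (C : Submodule k Ft)
    (hC1 : C ≤ riemannRochSpace ((s₁ + 1) • poleDiv k hb))
    (hC0 : C ⊓ riemannRochSpace (s₁ • poleDiv k hb) = ⊥) :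
    ∀ (s : ℕ) (z : Fin (s + 1) → Ft), (∀ a, z a ∈ C) →
      ∑ a : Fin (s + 1), hb ^ (a : ℕ) * z a = 0 → ∀ a, z a = 0 := by
  intro s
  induction s with
  | zero =>
    intro z _ hsum a
    rw [Fin.sum_univ_one, Fin.val_zero, pow_zero, one_mul] at hsum
    have ha : a = 0 := Fin.ext (by have := a.2; omega)
    rw [ha]
    exact hsum
  | succ s ih =>
    intro z hz hsum
    rw [Fin.sum_univ_castSucc] at hsum
    simp only [Fin.val_castSucc, Fin.val_last] at hsum
    -- the top term lies in `L((s₁ + s + 1) D̄)`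
    have hlow : ∀ a : Fin (s + 1), hb ^ (a : ℕ) * z a.castSucc ∈
        riemannRochSpace ((s₁ + (s + 1)) • poleDiv k hb) := by
      intro a
      have h1 : hb ^ (a : ℕ) ∈ riemannRochSpace ((a : ℕ) • poleDiv k hb) :=
        pow_mem_riemannRochSpace_nsmul (mem_riemannRochSpace_poleDiv hb) _
      have h2 := mul_mem_riemannRochSpace_add h1 (hC1 (hz a.castSucc))
      refine riemannRochSpace_mono ?_ h2
      rw [← add_smul]
      have ha : (a : ℕ) + (s₁ + 1) ≤ s₁ + (s + 1) := by have := a.2; omega
      intro P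
      rw [Finsupp.smul_apply, Finsupp.smul_apply, nsmul_eq_mul, nsmul_eq_mul]
      have hP := poleDiv_nonneg (K := k) hb P
      rw [Finsupp.zero_apply] at hP
      have : ((a : ℕ) + (s₁ + 1) : ℤ) ≤ ((s₁ + (s + 1) : ℕ) : ℤ) := by exact_mod_cast ha
      push_cast at this ⊢
      nlinarith
    have htop : hb ^ (s + 1) * z (Fin.last (s + 1)) ∈
        riemannRochSpace ((s₁ + (s + 1)) • poleDiv k hb) := by
      have h1 : hb ^ (s + 1) * z (Fin.last (s + 1)) =
          -∑ a : Fin (s + 1), hb ^ (a : ℕ) * z a.castSucc := by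
        rw [eq_neg_iff_add_eq_zero, add_comm]
        exact hsum
      rw [h1]
      exact Submodule.neg_mem _ (Submodule.sum_mem _ fun a _ => hlow a)
    have hz0 : z (Fin.last (s + 1)) ∈ riemannRochSpace (s₁ • poleDiv k hb) :=
      mem_riemannRochSpace_of_pow_mul_mem hb _ s₁ (s + 1) (hC1 (hz _)) htop
    have hlast : z (Fin.last (s + 1)) = 0 := by
      have : z (Fin.last (s + 1)) ∈ C ⊓ riemannRochSpace (s₁ • poleDiv k hb) := ⟨hz _, hz0⟩
      rw [hC0] at this
      exact this
    rw [hlast, mul_zero, add_zero] at hsum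
    have hrest := ih (fun a => z a.castSucc) (fun a => hz _) hsum
    intro a
    refine Fin.lastCases hlast (fun a => hrest a) a

end Graded

/-! ### the degree inequality -/

section DegreeBound

variable (hF : RiemannPkg K F) (hFt : RiemannPkg k Ft)

include hπ hF hFt in
/-- **Degree inequality.** For `E ≥ 0` and `h ∈ O ∩ L(E)`, the pole divisor of the residue of `h`
has degree at most `deg E`. -/
theorem degree_poleDiv_resF_le {E : Divisor K F} (hE : 0 ≤ E) {h : F} (hO : h ∈ S.O)
    (hL : h ∈ riemannRochSpace E) :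
    haveI := hFt.principal
    Divisor.degree (poleDiv k (S.resF h)) ≤ Divisor.degree E := by
  classical
  have := hFt.principal
  have := hF.principal
  by_contra hcon
  rw [not_le] at hcon
  set hb : Ft := S.resF h with hhb
  set Db : Divisor k Ft := poleDiv k hb with hDb
  have hDb0 : 0 ≤ Db := poleDiv_nonneg hb
  have hn0 : 0 ≤ Divisor.degree E := degree_nonneg_of_nonneg hF hE
  have hnb : Divisor.degree E + 1 ≤ Divisor.degree Db := hcon
  obtain ⟨ct, hct⟩ := hFt.riemann_eq
  obtain ⟨c, hc⟩ := hF.riemann_eq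
  set s₁ : ℕ := ct.toNat with hs₁
  have hdegm : ∀ m : ℕ, Divisor.degree (m • Db) = m * Divisor.degree Db := fun m => by
    rw [map_nsmul, nsmul_eq_mul]
  have hs₁' : ∀ t : ℕ, ct ≤ Divisor.degree ((s₁ + t) • Db) := by
    intro t
    rw [hdegm]
    have h1 : ct ≤ (s₁ : ℤ) := Int.self_le_toNat ct
    have h2 : (1 : ℤ) ≤ Divisor.degree Db := by linarith
    have h3 : (0 : ℤ) ≤ (t : ℤ) := Int.natCast_nonneg t
    have h4 : (0 : ℤ) ≤ (s₁ : ℤ) := Int.natCast_nonneg s₁
    push_cast
    nlinarith
  have hW : ∀ t : ℕ, (finrank k (riemannRochSpace ((s₁ + t) • Db)) : ℤ) =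
      (s₁ + t : ℕ) * Divisor.degree Db + 1 - (genusFF k Ft : ℤ) := by
    intro t
    rw [hct _ (hs₁' t), hdegm]
  -- a complement `C` of `L(s₁ D̄)` in `L((s₁+1) D̄)`
  obtain ⟨q, hq⟩ := Submodule.exists_isCompl (riemannRochSpace (s₁ • Db))
  set V₀ : Submodule k Ft := riemannRochSpace (s₁ • Db) with hV₀
  set V₁ : Submodule k Ft := riemannRochSpace ((s₁ + 1) • Db) with hV₁
  have hV01 : V₀ ≤ V₁ := by
    apply riemannRochSpace_mono
    intro P
    rw [Finsupp.smul_apply, Finsupp.smul_apply, nsmul_eq_mul, nsmul_eq_mul]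
    have hP := hDb0 P
    rw [Finsupp.zero_apply] at hP
    push_cast
    nlinarith
  set C : Submodule k Ft := q ⊓ V₁ with hC
  have hC1 : C ≤ V₁ := inf_le_right
  have hC0 : C ⊓ V₀ = ⊥ := by
    rw [hC, inf_assoc, inf_comm V₁ V₀, ← inf_assoc, inf_comm q V₀, hq.inf_eq_bot, bot_inf_eq]
  have hsup : V₀ ⊔ C = V₁ := by
    rw [hC, ← sup_inf_assoc_of_le q hV01, hq.sup_eq_top, top_inf_eq]
  have : FiniteDimensional k V₁ := hFt.finite_L _
  have : FiniteDimensional k V₀ := hFt.finite_L _
  have : FiniteDimensional k C := Submodule.finiteDimensional_of_le hC1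
  have hfinC : (finrank k C : ℤ) = Divisor.degree Db := by
    have h1 := Submodule.finrank_sup_add_finrank_inf_eq V₀ C
    rw [hsup, inf_comm, hC0, finrank_bot, add_zero] at h1
    have h2 := hW 0
    have h3 := hW 1
    rw [add_zero] at h2
    rw [← hV₀] at h2
    rw [← hV₁] at h3
    have h4 : (finrank k V₁ : ℤ) = finrank k V₀ + finrank k C := by exact_mod_cast h1
    push_cast at h2 h3
    linarith
  -- `V₁` is contained in the residue space of some `L(E₀)`
  obtain ⟨E₀, hE₀, hV₁E₀⟩ := S.exists_le_resSpace hπ V₁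
  obtain ⟨P⟩ : Nonempty (Place K F) := hF.infinite_places.nonempty
  set E₁ : Divisor K F := E₀ + c.toNat • Finsupp.single P 1 with hE₁
  have hE₀₁ : E₀ ≤ E₁ := by
    intro Q
    rw [hE₁, Finsupp.add_apply, Finsupp.smul_apply, nsmul_eq_mul, Finsupp.single_apply]
    split_ifs <;> simp
  have hE₁0 : 0 ≤ E₁ := hE₀.trans hE₀₁
  have hdegE₁ : c ≤ Divisor.degree E₁ := by
    rw [hE₁, map_add, map_nsmul, degree_single_of_pkg hF, nsmul_eq_mul, mul_one]
    have h1 := degree_nonneg_of_nonneg hF hE₀
    have h2 : c ≤ (c.toNat : ℤ) := Int.self_le_toNat c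
    linarith
  -- the key inequality
  have key : ∀ s : ℕ, ((s + 1 : ℕ) : ℤ) * Divisor.degree Db ≤
      s * Divisor.degree E + Divisor.degree E₁ + 1 - (genusFF K F : ℤ) := by
    intro s
    set D : Divisor K F := s • E + E₁ with hD
    have hdegD : Divisor.degree D = s * Divisor.degree E + Divisor.degree E₁ := by
      rw [hD, map_add, map_nsmul, nsmul_eq_mul]
    have hcD : c ≤ Divisor.degree D := by
      rw [hdegD]
      have : (0 : ℤ) ≤ (s : ℤ) * Divisor.degree E :=
        mul_nonneg (Int.natCast_nonneg s) hn0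
      linarith
    have : FiniteDimensional K (riemannRochSpace D) := hF.finite_L D
    have hfinD := hc D hcD
    rw [hdegD] at hfinD
    rw [← hfinD, ← S.finrank_resSpace hπ (riemannRochSpace D), ← hfinC]
    -- the injective map
    let Φ : (Fin (s + 1) → C) →ₗ[k] Ft :=
      ∑ a : Fin (s + 1), (LinearMap.mulLeft k (hb ^ (a : ℕ))).comp
        (C.subtype.comp (LinearMap.proj a))
    have hΦ : ∀ z : Fin (s + 1) → C, Φ z = ∑ a : Fin (s + 1), hb ^ (a : ℕ) * (z a : Ft) := by
      intro z
      simp only [Φ, LinearMap.sum_apply, LinearMap.comp_apply, LinearMap.mulLeft_apply,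
        LinearMap.proj_apply, Submodule.subtype_apply]
    have hΦmem : ∀ z, Φ z ∈ S.resSpace hπ (riemannRochSpace D) := by
      intro z
      rw [hΦ]
      refine Submodule.sum_mem _ fun a _ => ?_
      obtain ⟨y, hyE₀, hyO, hyz⟩ := hV₁E₀ (hC1 (z a).2)
      refine ⟨h ^ (a : ℕ) * y, ?_, S.O.mul_mem _ _ (S.O.pow_mem hO _) hyO, ?_⟩
      · have h1 := mul_mem_riemannRochSpace_add (pow_mem_riemannRochSpace_nsmul hL (a : ℕ)) hyE₀
        refine riemannRochSpace_mono ?_ h1
        rw [hD]
        refine add_le_add ?_ hE₀₁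
        intro Q
        rw [Finsupp.smul_apply, Finsupp.smul_apply, nsmul_eq_mul, nsmul_eq_mul]
        have hQ := hE Q
        rw [Finsupp.zero_apply] at hQ
        have ha : ((a : ℕ) : ℤ) ≤ (s : ℤ) := by
          have := a.2
          exact_mod_cast Nat.lt_succ_iff.mp this
        nlinarith
      · rw [S.resF_mul (S.O.pow_mem hO _) hyO, S.resF_pow hO, hyz]
    have hΦinj : Function.Injective Φ := by
      rw [← LinearMap.ker_eq_bot, LinearMap.ker_eq_bot']
      intro z hz
      rw [hΦ] at hz
      have := eq_zero_of_sum_pow_mul_eq_zero hb s₁ C hC1 hC0 s (fun a => (z a : Ft))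
        (fun a => (z a).2) hz
      funext a
      exact Subtype.ext (this a)
    let Φ' : (Fin (s + 1) → C) →ₗ[k] S.resSpace hπ (riemannRochSpace D) :=
      Φ.codRestrict _ hΦmem
    have hΦ'inj : Function.Injective Φ' := fun z z' hzz => hΦinj (by
      have := congrArg Subtype.val hzz
      exact this)
    have hle := LinearMap.finrank_le_finrank_of_injective hΦ'inj
    rw [Module.finrank_pi_fintype, Finset.sum_const, Finset.card_univ, Fintype.card_fin,
      smul_eq_mul] at hle
    exact_mod_cast hle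
  -- contradiction for large `s`
  set B : ℤ := Divisor.degree E₁ + 1 - (genusFF K F : ℤ) with hB
  have hk := key B.toNat
  have hBle : B ≤ (B.toNat : ℤ) := Int.self_le_toNat B
  have hs0 : (0 : ℤ) ≤ (B.toNat : ℤ) := Int.natCast_nonneg _
  push_cast at hk
  nlinarith

end DegreeBound

end ConstRed

end Fermat.Agent.Val
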