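import Fermat.Agent.Val.ConstRedLattice
import Fermat.Agent.Val.DeuringPoles
import Fermat.Agent.Red.FFLemmas
import Fermat.Agent.Red.NormalForm

/-!
# L-VAL: uniqueness of the place reduction map

For a constant reduction `S : ConstRed A π` (a `RedSetup` without place map) with Riemann packages
on both sides, a map `r : Place K F → Place k Ft` satisfying conservation of principal divisors
(`S.Conserves r`) is unique (`conserves_unique`).  Consequence: equivariance under any pair of
bijections of the places which transports `r` to a conserving map (`conserves_equivariant`).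

Proof: for a place `P`, the space `L(n P)` has dimension `≥ 2` for `n = g + 1`; a reduced basis
contains an element `f` with non-constant residue `fb`; `fb` has a pole `Q`; conservation forces
some pole of `f`, i.e. `P`, to be mapped to `Q` (`conserves_apply_eq`).
-/

set_option autoImplicit false

namespace Fermat.Agent.Val

open AlgebraicCurve Module Fermat.Agent.X0 Fermat.Agent.Red

variable {K F k Ft : Type*} [Field K] [Field F] [Algebra K F] [Field k] [Field Ft]
  [Algebra k Ft] {A : ValuationSubring K} {π : A →+* k}

namespace ConstRed

variable (S : ConstRed (F := F) (Ft := Ft) A π)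

/-- Conservation of principal divisors for a place map `r`. -/
def Conserves (r : Place K F → Place k Ft) : Prop :=
  ∀ y : S.O, S.res y ≠ 0 → ∀ D : Divisor K F, (∀ P, D P = P.ord (y : F)) →
    ∀ Q, Finsupp.mapDomain r D Q = Q.ord (S.res y)

/-- A negative value of a push-forward comes from a negative coefficient in the fibre. -/
theorem exists_neg_of_mapDomain_neg {α β : Type*} (r : α → β) (D : α →₀ ℤ) (b : β)
    (h : Finsupp.mapDomain r D b < 0) : ∃ a, r a = b ∧ D a < 0 := by
  classical
  by_contra hcon
  push Not at hcon
  rw [NormalForm.mapDomain_apply_eq_sum] at h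
  have : 0 ≤ ∑ a ∈ D.support, if r a = b then D a else 0 := by
    refine Finset.sum_nonneg fun a _ => ?_
    split_ifs with hab
    · exact hcon a hab
    · exact le_rfl
  omega

/-- A function with poles only at `P` whose residue is not constant. -/
theorem exists_nonconst_residue (hπ : Function.Surjective π) (hF : RiemannPkg K F)
    (P : Place K F) :
    ∃ f : S.O, (∀ P' : Place K F, P' ≠ P → 0 ≤ P'.ord (f : F)) ∧
      ∀ c : k, S.res f ≠ algebraMap k Ft c := by
  classical
  set n : ℕ := genusFF K F + 1 with hn
  set E : Divisor K F := n • Finsupp.single P (1 : ℤ) with hE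
  have hfin : Module.Finite K (riemannRochSpace E) := hF.finite_L E
  have h2 : 2 ≤ finrank K (riemannRochSpace E) := by
    have h := hF.riemann_le E
    have hdeg : Divisor.degree E = (n : ℤ) := by
      rw [hE, map_nsmul, Divisor.degree_single, hF.deg_one P]
      simp
    rw [hdeg, hn] at h
    push_cast at h
    omega
  obtain ⟨z, hzV, hzO, hzind, -, -⟩ := S.exists_reducedBasis hπ (riemannRochSpace E)
  -- some residue is non-constant
  obtain ⟨i, hi⟩ : ∃ i, ∀ c : k, S.resF (z i) ≠ algebraMap k Ft c := by
    by_contra hcon
    push Not at hcon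
    choose c hc using hcon
    -- all residues lie in the line `k · 1`
    have hmem : ∀ i, S.resF (z i) ∈ Submodule.span k {(1 : Ft)} := by
      intro i
      rw [hc i, Submodule.mem_span_singleton]
      exact ⟨c i, by rw [Algebra.smul_def, mul_one]⟩
    have hind' : LinearIndependent k fun i =>
        (⟨S.resF (z i), hmem i⟩ : Submodule.span k {(1 : Ft)}) := by
      apply LinearIndependent.of_comp (Submodule.span k {(1 : Ft)}).subtype
      exact hzind
    have hcard := hind'.fintype_card_le_finrank
    rw [Fintype.card_fin] at hcard
    have h1 : finrank k (Submodule.span k {(1 : Ft)}) = 1 := finrank_span_singleton one_ne_zero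
    omega
  refine ⟨⟨z i, hzO i⟩, fun P' hP' => ?_, fun c hc => hi c ?_⟩
  · by_cases h0 : z i = 0
    · simp [h0]
    have := (mem_riemannRochSpace_iff.mp (hzV i) P').resolve_left h0
    rw [hE, Finsupp.smul_apply, Finsupp.single_apply, if_neg (Ne.symm hP')] at this
    simpa using this
  · rw [S.resF_of_mem (hzO i)]
    exact hc

/-- If `r` conserves principal divisors, `f ∈ O` has poles only at `P`, and `Q` is a pole of the
residue of `f`, then `r P = Q`. -/
theorem conserves_apply_eq (hF : RiemannPkg K F) {r : Place K F → Place k Ft}
    (h : S.Conserves r) (P : Place K F) (f : S.O)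
    (hf : ∀ P' : Place K F, P' ≠ P → 0 ≤ P'.ord (f : F)) (Q : Place k Ft)
    (hQ : Q.ord (S.res f) < 0) : r P = Q := by
  have hpr := hF.principal
  have hres : S.res f ≠ 0 := by
    intro h0
    rw [h0, Place.ord_zero] at hQ
    exact lt_irrefl _ hQ
  have hcons := h f hres (divOf K (f : F)) (fun P' => divOf_apply _ P') Q
  rw [← hcons] at hQ
  obtain ⟨P', hP', hneg⟩ := exists_neg_of_mapDomain_neg r _ Q hQ
  rw [divOf_apply] at hneg
  have : P' = P := by
    by_contra hne
    have := hf P' hne
    omega
  rw [← this, hP']

/-- **Uniqueness of the place reduction map.** -/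
theorem conserves_unique (hπ : Function.Surjective π) (hF : RiemannPkg K F)
    (hFt : RiemannPkg k Ft) {r r' : Place K F → Place k Ft}
    (h : S.Conserves r) (h' : S.Conserves r') : r = r' := by
  funext P
  obtain ⟨f, hf, hnc⟩ := S.exists_nonconst_residue hπ hF P
  obtain ⟨Q, hQ⟩ := exists_ord_neg_of_not_const hFt hnc
  rw [S.conserves_apply_eq hF h P f hf Q hQ, S.conserves_apply_eq hF h' P f hf Q hQ]

/-- **Equivariance.** If bijections `e`, `eb` of the places transport `r` to a conserving map,
then `r` intertwines them. -/
theorem conserves_equivariant (hπ : Function.Surjective π) (hF : RiemannPkg K F)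
    (hFt : RiemannPkg k Ft) {r : Place K F → Place k Ft} (h : S.Conserves r)
    (e : Place K F ≃ Place K F) (eb : Place k Ft ≃ Place k Ft)
    (h' : S.Conserves (eb.symm ∘ r ∘ e)) : r ∘ e = eb ∘ r := by
  have := S.conserves_unique hπ hF hFt h' h
  funext P
  have hP := congrFun this P
  simp only [Function.comp_apply] at hP ⊢
  rw [← hP, Equiv.apply_symm_apply]

end ConstRed

end Fermat.Agent.Val
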