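import Fermat.Agent.Val.Ortho
import Fermat.Agent.Val.OrthoExhaust

/-!
# L-VAL (V4): the `approx` field of `Red.RedSetup` for orthonormal data

`OrthoData.approx_alt` : for `D : OrthoData A π F Ft n`, the valuation subring `D.valSubring` of `F`
with residue map `D.res hπ` has best approximations for every finite-dimensional `L`-subspace of
`F` — verbatim the field `approx` of `Fermat.Agent.Red.RedSetup`.
-/

set_option autoImplicit false

noncomputable section
namespace Fermat.Agent.Val

open Polynomial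

variable {L : Type*} [Field L]

/-- The polynomial with coefficients `v 0, …, v d`. -/
def polyOfFam {d : ℕ} (v : Fin (d + 1) → L) : L[X] :=
  ∑ a : Fin (d + 1), monomial (a : ℕ) (v a)

theorem polyOfFam_coeff {d : ℕ} (v : Fin (d + 1) → L) (a : Fin (d + 1)) :
    (polyOfFam v).coeff a = v a := by
  classical
  rw [polyOfFam, finsetSum_coeff, Finset.sum_eq_single a]
  · rw [coeff_monomial, if_pos rfl]
  · intro b _ hb
    rw [coeff_monomial, if_neg]
    exact fun h => hb (Fin.ext h)
  · intro h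
    exact absurd (Finset.mem_univ a) h

theorem polyOfFam_coeff_of_gt {d : ℕ} (v : Fin (d + 1) → L) {j : ℕ} (hj : d < j) :
    (polyOfFam v).coeff j = 0 := by
  rw [polyOfFam, finsetSum_coeff]
  refine Finset.sum_eq_zero fun b _ => ?_
  rw [coeff_monomial, if_neg]
  have := b.2
  omega

theorem polyOfFam_coeff_cases {d : ℕ} (v : Fin (d + 1) → L) (j : ℕ) :
    (polyOfFam v).coeff j = 0 ∨ ∃ a : Fin (d + 1), (polyOfFam v).coeff j = v a := by
  rcases Nat.lt_or_ge d j with hj | hj
  · exact Or.inl (polyOfFam_coeff_of_gt v hj)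
  · exact Or.inr ⟨⟨j, Nat.lt_succ_of_le hj⟩, polyOfFam_coeff v ⟨j, Nat.lt_succ_of_le hj⟩⟩

theorem aeval_polyOfFam {R : Type*} [CommRing R] [Algebra L R] {d : ℕ} (v : Fin (d + 1) → L)
    (y : R) : aeval y (polyOfFam v) = ∑ a : Fin (d + 1), algebraMap L R (v a) * y ^ (a : ℕ) := by
  rw [polyOfFam, map_sum]
  refine Finset.sum_congr rfl fun a _ => ?_
  rw [aeval_monomial]

namespace OrthoData

variable {A : ValuationSubring L} {k : Type*} [Field k] {π : A →+* k}
variable {F : IntermediateField L (LaurentSeries L)} {Ft : IntermediateField k (LaurentSeries k)}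
  {n : ℕ} (D : OrthoData A π F Ft n)

/-- The orthonormal family `x ^ a * m i` written as a polynomial combination. -/
theorem coe_sum_smul_eq_comboL (d : ℕ) (lam : Fin n × Fin (d + 1) → L) :
    ((∑ s, lam s • (D.xF ^ (s.2 : ℕ) * D.mF s.1) : F) : LaurentSeries L) =
      comboL A D.x D.m fun i => polyOfFam fun a => lam (i, a) := by
  rw [comboL, Fintype.sum_prod_type, AddSubmonoidClass.coe_finsetSum]
  refine Finset.sum_congr rfl fun i _ => ?_
  rw [aeval_polyOfFam, Finset.sum_mul, AddSubmonoidClass.coe_finsetSum]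
  refine Finset.sum_congr rfl fun a _ => ?_
  rw [Algebra.smul_def, mul_assoc]
  rfl

theorem forall_coeff_polyOfFam_mem_iff (d : ℕ) (lam : Fin n × Fin (d + 1) → L) :
    (∀ i j, (polyOfFam fun a => lam (i, a)).coeff j ∈ A) ↔ ∀ s, lam s ∈ A := by
  constructor
  · rintro h ⟨i, a⟩
    have := h i a
    rwa [polyOfFam_coeff] at this
  · intro h i j
    rcases polyOfFam_coeff_cases (fun a => lam (i, a)) j with h0 | ⟨a, ha⟩
    · rw [h0]; exact A.zero_mem
    · rw [ha]; exact h (i, a)

theorem forall_coeff_polyOfFam_lt_iff (d : ℕ) (lam : Fin n × Fin (d + 1) → L) :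
    (∀ i j, A.valuation ((polyOfFam fun a => lam (i, a)).coeff j) < 1) ↔
      ∀ s, A.valuation (lam s) < 1 := by
  constructor
  · rintro h ⟨i, a⟩
    have := h i a
    rwa [polyOfFam_coeff] at this
  · intro h i j
    rcases polyOfFam_coeff_cases (fun a => lam (i, a)) j with h0 | ⟨a, ha⟩
    · rw [h0, map_zero]; exact zero_lt_one
    · rw [ha]; exact h (i, a)

/-- **`RedSetup.approx` for orthonormal data** (duplicate of `OrthoData.approx` in
`Val/OrthoFamily.lean`, kept under a different name). -/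
theorem approx_alt (hπ : ∀ a : A, a ∈ IsLocalRing.maximalIdeal A → π a = 0)
    (V : Submodule L F) (hV : Module.Finite L V) (y : F) (hy : y ∉ V) :
    ∃ w ∈ V, ∃ c : L, c ≠ 0 ∧ ∃ h : c • (y - w) ∈ D.valSubring,
      ∀ z : D.valSubring, (z : F) ∈ V → D.res hπ z ≠ D.res hπ ⟨c • (y - w), h⟩ := by
  refine approx_of_ortho (A := A) (O := D.valSubring) (res := D.res hπ) D.xF D.mF ?_ ?_ ?_ ?_
    V hV y hy
  · -- units `Q(x) / content`
    intro Q hQ
    obtain ⟨e, Q', -, -, -, hred, heq, hcont⟩ := D.hasContent_aeval hQ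
    have he0 : e ≠ 0 := hcont.1
    have hcoe : ((e⁻¹ • aeval D.xF Q : F) : LaurentSeries L) =
        aIota A (Q'.eval₂ HahnSeries.C D.x) := by
      rw [IntermediateField.coe_smul, D.coe_aeval_xF, heq, Algebra.smul_def,
        algebraMap_laurentSeries_eq_C, ← mul_assoc, ← map_mul, inv_mul_cancel₀ he0, map_one,
        one_mul]
    have hmem : (e⁻¹ • aeval D.xF Q : F) ∈ D.valSubring := by
      rw [D.mem_valSubring_iff, hcoe]
      exact aIota_mem_gaussRingA A π _
    have hres : D.resSeries ⟨e⁻¹ • aeval D.xF Q, hmem⟩ ≠ 0 := by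
      rw [D.resSeries_apply]
      have : (⟨((⟨e⁻¹ • aeval D.xF Q, hmem⟩ : D.valSubring) : F), hmem⟩ : gaussRingA A π) =
          ⟨aIota A (Q'.eval₂ HahnSeries.C D.x), aIota_mem_gaussRingA A π _⟩ := Subtype.ext hcoe
      rw [this, gaussResA_aIota]
      exact hred
    have hunit := (D.isUnit_iff_resSeries_ne_zero _).2 hres
    have hne : (e⁻¹ • aeval D.xF Q : F) ≠ 0 := fun h0 => by
      apply hres
      have : (⟨e⁻¹ • aeval D.xF Q, hmem⟩ : D.valSubring) = 0 := Subtype.ext h0
      rw [this, map_zero]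
    refine ⟨e⁻¹, inv_ne_zero he0, hne, hmem, ?_⟩
    obtain ⟨u, hu⟩ := hunit
    have h1 : ((u⁻¹ : (D.valSubring)ˣ) : D.valSubring) * ⟨e⁻¹ • aeval D.xF Q, hmem⟩ = 1 := by
      rw [← hu]; exact u.inv_mul
    have h2 : (((u⁻¹ : (D.valSubring)ˣ) : D.valSubring) : F) * (e⁻¹ • aeval D.xF Q) = 1 :=
      congrArg Subtype.val h1
    have h3 : (e⁻¹ • aeval D.xF Q : F)⁻¹ = (((u⁻¹ : (D.valSubring)ˣ) : D.valSubring) : F) :=
      (eq_inv_of_mul_eq_one_left h2).symm
    rw [h3]
    exact SetLike.coe_mem _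
  · -- membership
    intro d lam
    rw [D.mem_valSubring_iff, D.coe_sum_smul_eq_comboL d lam,
      comboL_mem_gaussRingA_iff hπ D.indep, forall_coeff_polyOfFam_mem_iff]
  · -- residue
    intro d lam h
    have hone : HasContent A π (aeval (aIota A D.x) (1 : L[X])) 1 := by
      rw [map_one, ← map_one (HahnSeries.C : L →+* LaurentSeries L)]
      exact hasContent_C A π one_ne_zero
    have hPQ : ((∑ s, lam s • (D.xF ^ (s.2 : ℕ) * D.mF s.1) : F) : LaurentSeries L) *
        aeval (aIota A D.x) (1 : L[X]) =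
        comboL A D.x D.m fun i => polyOfFam fun a => lam (i, a) := by
      rw [map_one, mul_one, D.coe_sum_smul_eq_comboL d lam]
    have hiff := D.gaussResA_eq_zero_iff_of_combo hπ hone hPQ h
    rw [map_one] at hiff
    rw [← forall_coeff_polyOfFam_lt_iff d lam, ← hiff, ← D.resSeries_apply ⟨_, h⟩,
      ← D.coe_res hπ]
    exact ⟨fun h0 => by rw [h0]; rfl, fun h0 => Subtype.ext h0⟩
  · -- span
    intro f
    obtain ⟨P, Q, hQ, hPQ⟩ := D.exists_combo (SetLike.coe_mem f)
    refine ⟨Q, hQ, P, Subtype.ext ?_⟩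
    rw [MulMemClass.coe_mul, D.coe_aeval_xF, hPQ, comboL, AddSubmonoidClass.coe_finsetSum]
    refine Finset.sum_congr rfl fun i _ => ?_
    rw [MulMemClass.coe_mul, D.coe_aeval_xF]
    rfl

end OrthoData

end Fermat.Agent.Val
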