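/-
S37 (M4), node ES-I: positivity + moving lemma.

`S : ConstRed A π` a constant reduction of `F/K` with residue function field `Ft/k`, Riemann
packages on both sides, good reduction `genusFF k Ft = genusFF K F`, `k` infinite, and `r` a
degree-preserving place map which conserves principal divisors of units of `O`.

* `Conserves.resSpace_le`, `Conserves.isRed` : for such an `r` and every large effective `E` the
  residue space of `L(E)` is `L(r_* E)` (so `r` is THE Deuring reduction of divisors).
* `exists_moved` : moving lemma — for a large effective `E` and a finite set `Z` of places of `Ft`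
  there is a unit `f` of `O` in `L(E)` such that `r_* (E + div f)` is effective and avoids `Z`.
* `eq_of_positive_of_agree_on_units` : **two positive correspondences which agree on principal
  divisors of units agree on all divisors**: if `Dp : Div F →+ Div Ft` is positive,
  `Θ : Div Ft →+ Div Ft` is positive with finite trace-back `T`, `Dp (div y) = Θ (r_* div y)` for
  all units `y` of `O` and `deg Dp D = deg Θ (r_* D)`, then `Dp D = Θ (r_* D)` for ALL divisors `D`.
  (No Jacobian, no divisibility of `Pic⁰`.)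
-/
import Mathlib
import Fermat.Agent.Val.DeuringMain

set_option autoImplicit false
set_option linter.style.haveILetI false

namespace Fermat.Agent.Val

open AlgebraicCurve Fermat.Agent.Red Fermat.Agent.X0 Module

variable {K F k Ft : Type*} [Field K] [Field F] [Algebra K F] [Field k] [Field Ft]
  [Algebra k Ft] {A : ValuationSubring K} {π : A →+* k}

/-- Push-forward of divisors along a map of places is positive. -/
theorem mapDomain_place_nonneg {K' F' : Type*} [Field K'] [Field F'] [Algebra K' F']
    (r : Place K F → Place K' F') {D : Divisor K F} (hD : 0 ≤ D) :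
    0 ≤ Finsupp.mapDomain r D := by
  classical
  intro Q
  rw [Finsupp.zero_apply, Finsupp.mapDomain, Finsupp.sum_apply]
  refine Finset.sum_nonneg fun P _ => ?_
  show 0 ≤ (Finsupp.single (r P) (D P)) Q
  rw [Finsupp.single_apply]
  split_ifs
  · exact hD P
  · exact le_rfl

namespace ConstRed

variable (S : ConstRed (F := F) (Ft := Ft) A π) (hπ : Function.Surjective π)
variable (hF : RiemannPkg K F) (hFt : RiemannPkg k Ft)

variable {c ct : ℤ}
  (hc : ∀ D : Divisor K F, c ≤ Divisor.degree D →
    (finrank K (riemannRochSpace D) : ℤ) = Divisor.degree D + 1 - (genusFF K F : ℤ))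
  (hct : ∀ D : Divisor k Ft, ct ≤ Divisor.degree D →
    (finrank k (riemannRochSpace D) : ℤ) = Divisor.degree D + 1 - (genusFF k Ft : ℤ))
  (hg : genusFF k Ft = genusFF K F)

variable {r : Place K F → Place k Ft}

include hF hFt in
/-- Conservation for a nonzero element of `O` with nonzero residue, in `divOf` form. -/
theorem Conserves.mapDomain_divOf (hr : S.Conserves r) {z : F} (hzO : z ∈ S.O)
    (hz : S.resF z ≠ 0) :
    haveI := hF.principal
    haveI := hFt.principal
    Finsupp.mapDomain r (divOf K z) = divOf k (S.resF z) := by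
  haveI := hF.principal
  haveI := hFt.principal
  ext Q
  have hres : S.resF z = S.res ⟨z, hzO⟩ := S.resF_of_mem hzO
  rw [divOf_apply, hres]
  exact hr ⟨z, hzO⟩ (by rw [← hres]; exact hz) (divOf K z) (fun P => divOf_apply z P) Q

include hF hFt in
/-- The residue space of `L(E)` lies in `L(r_* E)` for a conserving place map `r`. -/
theorem Conserves.resSpace_le (hr : S.Conserves r) (E : Divisor K F) :
    S.resSpace hπ (riemannRochSpace E) ≤ riemannRochSpace (Finsupp.mapDomain r E) := by
  haveI := hF.principal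
  haveI := hFt.principal
  rintro t ⟨z, hzE, hzO, rfl⟩
  by_cases hz : S.resF z = 0
  · rw [hz]; exact Submodule.zero_mem _
  have hz0 : z ≠ 0 := S.ne_zero_of_resF_ne_zero hz
  rw [mem_riemannRochSpace_iff]
  intro Q
  right
  have h1 : 0 ≤ divOf K z + E := by
    intro P
    rw [Finsupp.zero_apply, Finsupp.add_apply, divOf_apply]
    have := ((mem_riemannRochSpace_iff.mp hzE) P).resolve_left hz0
    linarith
  have h2 := mapDomain_place_nonneg r h1 Q
  rw [Finsupp.zero_apply, Finsupp.mapDomain_add, Finsupp.add_apply,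
    hr.mapDomain_divOf S hF hFt hzO hz, divOf_apply] at h2
  linarith

include hF hFt hc hct hg in
/-- A degree-preserving conserving place map computes the Deuring reduction of every large
effective divisor. -/
theorem Conserves.isRed [Infinite k] (hr : S.Conserves r) (hdeg : ∀ P, (r P).deg = P.deg)
    {E : Divisor K F} (hE : Large c ct E) : S.IsRed hπ E (Finsupp.mapDomain r E) := by
  obtain ⟨Eb, hEb⟩ := S.exists_isRed hπ hF hFt hc hct hg hE
  obtain ⟨hEb0, hEbdeg, hEbL⟩ := hEb
  have hle : riemannRochSpace Eb ≤ riemannRochSpace (Finsupp.mapDomain r E) :=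
    hEbL ▸ hr.resSpace_le S hπ hF hFt E
  have hdegE : Divisor.degree (Finsupp.mapDomain r E) = Divisor.degree E :=
    degree_mapDomain_eq r hdeg E
  have h1 : Eb ≤ Finsupp.mapDomain r E :=
    le_of_riemannRochSpace_le hFt hct (by rw [hEbdeg]; exact hE.2.2) hle
  have h2 : Eb = Finsupp.mapDomain r E :=
    eq_of_le_of_degree_eq hFt h1 (by rw [hEbdeg, hdegE])
  rw [← h2]
  exact ⟨hEb0, hEbdeg, hEbL⟩

include hπ hF hFt hc hct hg in
/-- **Moving lemma.** For a large effective divisor `E` and a finite set `Z` of places of the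
residue field there is `f ∈ L(E) ∩ O` with nonzero residue such that the reduction of the
effective divisor `E + div f` avoids `Z`. -/
theorem exists_moved [Infinite k] (hr : S.Conserves r) (hdeg : ∀ P, (r P).deg = P.deg)
    {E : Divisor K F} (hE : Large c ct E) (Z : Finset (Place k Ft)) :
    haveI := hF.principal
    ∃ f : F, f ∈ S.O ∧ S.resF f ≠ 0 ∧ 0 ≤ E + divOf K f ∧
      ∀ Q ∈ Z, Finsupp.mapDomain r (E + divOf K f) Q = 0 := by
  haveI := hF.principal
  haveI := hFt.principal
  obtain ⟨hEb0, hEbdeg, hEbL⟩ := hr.isRed S hπ hF hFt hc hct hg hdeg hE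
  obtain ⟨gt, hgt0, hgtL, hgtZ⟩ := exists_mem_riemannRochSpace_ord_eq hFt hct
    (Finsupp.mapDomain r E) (by rw [hEbdeg]; exact hE.2.2) Z
  rw [← hEbL] at hgtL
  obtain ⟨f, hfE, hfO, hfres⟩ := hgtL
  have hres : S.resF f ≠ 0 := by rw [hfres]; exact hgt0
  have hf0 : f ≠ 0 := S.ne_zero_of_resF_ne_zero hres
  refine ⟨f, hfO, hres, ?_, ?_⟩
  · intro P
    rw [Finsupp.zero_apply, Finsupp.add_apply, divOf_apply]
    have := ((mem_riemannRochSpace_iff.mp hfE) P).resolve_left hf0
    linarith
  · intro Q hQ
    rw [Finsupp.mapDomain_add, Finsupp.add_apply, hr.mapDomain_divOf S hF hFt hfO hres,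
      divOf_apply, hfres, hgtZ Q hQ]
    ring

include hπ hF hFt hc hct hg in
/-- **Positive correspondences agreeing on principal divisors agree.**  `Dp` a positive additive
map `Div F → Div Ft`; `Θ` a positive additive endomorphism of `Div Ft` with finite trace-back `T`
(`Θ D Q ≠ 0` for effective `D` forces `D` to meet the finite set `T Q`); if `Dp` and `Θ ∘ r_*`
agree on the divisors of units of `O` and have the same degree, they agree on large effective
divisors. -/
theorem eq_of_positive_of_agree_on_units_of_large [Infinite k] (hr : S.Conserves r)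
    (hdeg : ∀ P, (r P).deg = P.deg)
    (Dp : Divisor K F →+ Divisor k Ft) (Θ : Divisor k Ft →+ Divisor k Ft)
    (hDp : ∀ D, 0 ≤ D → 0 ≤ Dp D) (T : Place k Ft → Finset (Place k Ft))
    (hT : ∀ D : Divisor k Ft, 0 ≤ D → ∀ Q, (∀ Q' ∈ T Q, D Q' = 0) → Θ D Q = 0)
    (hunits : haveI := hF.principal
      ∀ f : F, f ∈ S.O → S.resF f ≠ 0 → Dp (divOf K f) = Θ (Finsupp.mapDomain r (divOf K f)))
    (hdegree : ∀ D, Divisor.degree (Dp D) = Divisor.degree (Θ (Finsupp.mapDomain r D)))
    {E : Divisor K F} (hE : Large c ct E) : Dp E = Θ (Finsupp.mapDomain r E) := by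
  haveI := hF.principal
  haveI := hFt.principal
  have hle : Θ (Finsupp.mapDomain r E) ≤ Dp E := by
    intro Q
    obtain ⟨f, hfO, hres, hE', hZ⟩ := S.exists_moved hπ hF hFt hc hct hg hr hdeg hE (T Q)
    have h1 : Dp (E + divOf K f) = Dp E + Θ (Finsupp.mapDomain r (divOf K f)) := by
      rw [map_add, hunits f hfO hres]
    have h2 : Θ (Finsupp.mapDomain r (E + divOf K f)) =
        Θ (Finsupp.mapDomain r E) + Θ (Finsupp.mapDomain r (divOf K f)) := by
      rw [Finsupp.mapDomain_add, map_add]
    have h3 : Θ (Finsupp.mapDomain r (E + divOf K f)) Q = 0 :=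
      hT _ (mapDomain_place_nonneg r hE') Q hZ
    have h4 := hDp _ hE' Q
    rw [Finsupp.zero_apply, h1, Finsupp.add_apply] at h4
    rw [h2, Finsupp.add_apply] at h3
    linarith
  exact (eq_of_le_of_degree_eq hFt hle (hdegree E).symm).symm

include hπ hF hFt hc hct hg in
/-- **Positive correspondences agreeing on principal divisors agree (all divisors).** -/
theorem eq_of_positive_of_agree_on_units [Infinite k] (hr : S.Conserves r)
    (hdeg : ∀ P, (r P).deg = P.deg)
    (Dp : Divisor K F →+ Divisor k Ft) (Θ : Divisor k Ft →+ Divisor k Ft)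
    (hDp : ∀ D, 0 ≤ D → 0 ≤ Dp D) (T : Place k Ft → Finset (Place k Ft))
    (hT : ∀ D : Divisor k Ft, 0 ≤ D → ∀ Q, (∀ Q' ∈ T Q, D Q' = 0) → Θ D Q = 0)
    (hunits : haveI := hF.principal
      ∀ f : F, f ∈ S.O → S.resF f ≠ 0 → Dp (divOf K f) = Θ (Finsupp.mapDomain r (divOf K f)))
    (hdegree : ∀ D, Divisor.degree (Dp D) = Divisor.degree (Θ (Finsupp.mapDomain r D)))
    (D : Divisor K F) : Dp D = Θ (Finsupp.mapDomain r D) := by
  classical
  have key := fun E (hE : Large c ct E) =>
    S.eq_of_positive_of_agree_on_units_of_large hπ hF hFt hc hct hg hr hdeg Dp Θ hDp T hT hunits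
      hdegree hE
  obtain ⟨E₀, hE₀⟩ := exists_large hF c ct
  -- `D = (E₀ + D⁺) - (E₀ + D⁻)`
  set Dpos : Divisor K F := D.mapRange (fun n => max n 0) (by simp) with hDpos
  set Dneg : Divisor K F := D.mapRange (fun n => max (-n) 0) (by simp) with hDneg
  have hpos : 0 ≤ Dpos := fun P => by
    rw [Finsupp.zero_apply, hDpos, Finsupp.mapRange_apply]; exact le_max_right _ _
  have hneg : 0 ≤ Dneg := fun P => by
    rw [Finsupp.zero_apply, hDneg, Finsupp.mapRange_apply]; exact le_max_right _ _
  have hD : D = (E₀ + Dpos) - (E₀ + Dneg) := by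
    ext P
    rw [Finsupp.sub_apply, Finsupp.add_apply, Finsupp.add_apply, hDpos, hDneg,
      Finsupp.mapRange_apply, Finsupp.mapRange_apply]
    rcases le_total (D P) 0 with h | h
    · rw [max_eq_right h, max_eq_left (by linarith)]; ring
    · rw [max_eq_left h, max_eq_right (by linarith)]; ring
  have h1 := key _ (hE₀.add_nonneg hF hpos)
  have h2 := key _ (hE₀.add_nonneg hF hneg)
  rw [hD, map_sub, h1, h2, Finsupp.mapDomain_sub, map_sub]

include hπ hF hFt hg in
/-- Same statement, with the Riemann constants taken from the Riemann packages. -/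
theorem eq_of_positive_of_agree_on_units' [Infinite k] (hr : S.Conserves r)
    (hdeg : ∀ P, (r P).deg = P.deg)
    (Dp : Divisor K F →+ Divisor k Ft) (Θ : Divisor k Ft →+ Divisor k Ft)
    (hDp : ∀ D, 0 ≤ D → 0 ≤ Dp D) (T : Place k Ft → Finset (Place k Ft))
    (hT : ∀ D : Divisor k Ft, 0 ≤ D → ∀ Q, (∀ Q' ∈ T Q, D Q' = 0) → Θ D Q = 0)
    (hunits : haveI := hF.principal
      ∀ f : F, f ∈ S.O → S.resF f ≠ 0 → Dp (divOf K f) = Θ (Finsupp.mapDomain r (divOf K f)))
    (hdegree : ∀ D, Divisor.degree (Dp D) = Divisor.degree (Θ (Finsupp.mapDomain r D)))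
    (D : Divisor K F) : Dp D = Θ (Finsupp.mapDomain r D) := by
  obtain ⟨c, hc⟩ := hF.riemann_eq
  obtain ⟨ct, hct⟩ := hFt.riemann_eq
  exact S.eq_of_positive_of_agree_on_units hπ hF hFt hc hct hg hr hdeg Dp Θ hDp T hT hunits
    hdegree D

end ConstRed

end Fermat.Agent.Val
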